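/-
GATE-L / L1e-AUT (helper45): RESTRICTION OF AN AUTOMORPHISM TO THE FIELD GENERATED BY A SET.

`F = L(S) ⊂ M` (`IntermediateField.adjoin L S`), `φ : F →+* E'` a homomorphism into a field `E'`
(e.g. the base extension `L(X₀(N)) → ℚ̄(X₀(N))`), `σ : E' ≃+* E'` an automorphism which fixes the
images of the constants and maps the images of the generators — in both directions — into the
image of `φ`.  Then `σ` restricts to an `L`-automorphism `restrictAut` of `F`:

  `φ (restrictAut x) = σ (φ x)`.

No Galois descent is needed: this is `IntermediateField.adjoin_induction`.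
-/
import Mathlib

set_option autoImplicit false

noncomputable section

namespace Fermat.Agent.GL.Val.AutRestrict

open IntermediateField

variable {L M E' : Type*} [Field L] [Field M] [Algebra L M] [Field E'] {S : Set M}
  (φ : adjoin L S →+* E')

/-- if `τ : E' →+* E'` maps the images of the constants and of the generators into the image of
`φ`, it maps the whole image of `φ` into itself -/
theorem map_mem_range (τ : E' →+* E')
    (hc : ∀ c : L, τ (φ (algebraMap L (adjoin L S) c)) ∈ φ.range)
    (hS : ∀ x (hx : x ∈ S), τ (φ ⟨x, subset_adjoin L S hx⟩) ∈ φ.range)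
    (x : adjoin L S) : τ (φ x) ∈ φ.range := by
  obtain ⟨x, hx⟩ := x
  induction hx using adjoin_induction with
  | mem x hx => exact hS x hx
  | algebraMap c => exact hc c
  | add x y hx hy h1 h2 =>
    have : (⟨x + y, add_mem hx hy⟩ : adjoin L S) = ⟨x, hx⟩ + ⟨y, hy⟩ := rfl
    rw [this, map_add, map_add]
    exact add_mem h1 h2
  | inv x hx h1 =>
    have : (⟨x⁻¹, inv_mem hx⟩ : adjoin L S) = (⟨x, hx⟩ : adjoin L S)⁻¹ := rfl
    rw [this, map_inv₀, map_inv₀]
    obtain ⟨y, hy⟩ := h1
    exact ⟨y⁻¹, by rw [map_inv₀, hy]⟩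
  | mul x y hx hy h1 h2 =>
    have : (⟨x * y, mul_mem hx hy⟩ : adjoin L S) = ⟨x, hx⟩ * ⟨y, hy⟩ := rfl
    rw [this, map_mul, map_mul]
    exact mul_mem h1 h2

variable (σ : E' ≃+* E')
  (hc : ∀ c : L, σ (φ (algebraMap L (adjoin L S) c)) = φ (algebraMap L (adjoin L S) c))
  (hS : ∀ x (hx : x ∈ S), σ (φ ⟨x, subset_adjoin L S hx⟩) ∈ φ.range)
  (hS' : ∀ x (hx : x ∈ S), σ.symm (φ ⟨x, subset_adjoin L S hx⟩) ∈ φ.range)

include hc hS in
theorem apply_mem_range (x : adjoin L S) : σ (φ x) ∈ φ.range :=
  map_mem_range φ (σ : E' →+* E') (fun c => ⟨_, (hc c).symm⟩) hS x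

include hc hS' in
theorem symm_apply_mem_range (x : adjoin L S) : σ.symm (φ x) ∈ φ.range := by
  refine map_mem_range φ (σ.symm : E' →+* E') (fun c => ⟨algebraMap L _ c, ?_⟩) hS' x
  show _ = σ.symm _
  rw [RingEquiv.eq_symm_apply, hc]

/-- the restricted map, as a function -/
def restrictFun (x : adjoin L S) : adjoin L S :=
  Classical.choose (apply_mem_range φ σ hc hS x)

theorem φ_restrictFun (x : adjoin L S) : φ (restrictFun φ σ hc hS x) = σ (φ x) :=
  Classical.choose_spec (apply_mem_range φ σ hc hS x)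

/-- the restriction of `σ` to `F = L(S)`, as an `L`-algebra homomorphism -/
def restrictHom : adjoin L S →ₐ[L] adjoin L S where
  toFun := restrictFun φ σ hc hS
  map_one' := φ.injective (by rw [φ_restrictFun, map_one, map_one])
  map_mul' x y := φ.injective (by
    rw [φ_restrictFun, map_mul, map_mul, map_mul, φ_restrictFun, φ_restrictFun])
  map_zero' := φ.injective (by rw [φ_restrictFun, map_zero, map_zero])
  map_add' x y := φ.injective (by
    rw [φ_restrictFun, map_add, map_add, map_add, φ_restrictFun, φ_restrictFun])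
  commutes' c := φ.injective (by rw [φ_restrictFun, hc])

theorem φ_restrictHom (x : adjoin L S) : φ (restrictHom φ σ hc hS x) = σ (φ x) :=
  φ_restrictFun φ σ hc hS x

include hc in
theorem hc_symm (c : L) :
    σ.symm (φ (algebraMap L (adjoin L S) c)) = φ (algebraMap L (adjoin L S) c) := by
  rw [RingEquiv.symm_apply_eq, hc]

/-- **the restriction of `σ` to `F = L(S)`**, as an `L`-algebra automorphism -/
def restrictAut : adjoin L S ≃ₐ[L] adjoin L S :=
  AlgEquiv.ofAlgHom (restrictHom φ σ hc hS) (restrictHom φ σ.symm (hc_symm φ σ hc) hS')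
    (AlgHom.ext fun x => φ.injective (by
      show φ (restrictHom φ σ hc hS (restrictHom φ σ.symm (hc_symm φ σ hc) hS' x)) = φ x
      rw [φ_restrictHom, φ_restrictHom, RingEquiv.apply_symm_apply]))
    (AlgHom.ext fun x => φ.injective (by
      show φ (restrictHom φ σ.symm (hc_symm φ σ hc) hS' (restrictHom φ σ hc hS x)) = φ x
      rw [φ_restrictHom, φ_restrictHom, RingEquiv.symm_apply_apply]))

/-- the defining property of the restriction -/
theorem φ_restrictAut (x : adjoin L S) : φ (restrictAut φ σ hc hS hS' x) = σ (φ x) :=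
  φ_restrictHom φ σ hc hS x

theorem φ_restrictAut_symm (x : adjoin L S) :
    φ ((restrictAut φ σ hc hS hS').symm x) = σ.symm (φ x) :=
  φ_restrictHom φ σ.symm (hc_symm φ σ hc) hS' x

/-- the restriction is characterised by its defining property -/
theorem restrictAut_eq_iff (x y : adjoin L S) :
    restrictAut φ σ hc hS hS' x = y ↔ σ (φ x) = φ y := by
  rw [← φ_restrictAut φ σ hc hS hS']
  exact ⟨fun h => by rw [h], fun h => φ.injective h⟩

end Fermat.Agent.GL.Val.AutRestrict
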