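/-
GATE-L / L1e-w2 (helper45): **the second valuation `w₂ = w₁ ∘ W_q` over the UNRAMIFIED base**
(`q ∥ N`, helper42's Atkin–Lehner automorphism `wAut h` of `F_N = ℚ̄(X₀(N))`).

`W_q` is `ℚ̄`-linear and PERMUTES the generators `j(q^d)`, `d ∣ N`; hence it restricts to an
automorphism `wAutK0` of `K₀(X₀(N))` (`AutRestrict`, no Galois descent):

* `mapK0Bar : K₀(X₀(N)) →+* FN N`;  `mapK0Bar_genC`;
* `wAutK0 A N h : K₀(X₀(N)) ≃ₐ[K₀] K₀(X₀(N))`, `mapK0Bar_wAutK0`, `wAutK0_genC`, `wAutK0_wAutK0`;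
* `redData2K0 A N h : RedData K₀ (K₀(X₀(N))) k₀ (FresK0 A N)` (`= redDataK0.comapAlgEquiv wAutK0`);
* `mem_Rw1K0_iff`, `mem_Rw2K0_iff` : `w_i` over `ℚ̄` (helper42's `redDataBar`, `redData2`) RESTRICT to
  `w_i` over `K₀`;  `coe_red1K0`, `coe_red2K0` : the reductions are compatible;
* `isDiscreteValuationRing_Rw2K0`, `exists_eq_q_mul₂` : `w₂` over `K₀` is a DVR with uniformiser `q`;
* `not_Rw1K0_le_Rw2K0`, `not_Rw2K0_le_Rw1K0` : incomparable over `K₀`.
-/
import Fermat.Agent.GL.Val.GaussK0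
import Fermat.Agent.GL.Val.AutRestrict
import Fermat.Agent.GK.AL.SecondValNe

set_option autoImplicit false

noncomputable section

namespace Fermat.Agent.GL.Val.SecondK0

open HahnSeries ModularCurve IsLocalRing
open Fermat.Agent.S24 Fermat.Agent.S24_helper62
open Fermat.Agent.GJ.J1 Fermat.Agent.GJ.J1.Val
open Fermat.Agent.GK.Val.GaussBase Fermat.Agent.GK.Val.BaseChange Fermat.Agent.GK.Val.GaussDvr
open Fermat.Agent.GK.AL
open Fermat.Agent.GL.Val.GaussK0 Fermat.Agent.GL.Val.AutRestrict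
open Fermat.Agent.Common_helper32

/-! ### Generalities -/

section Gen

variable {F₀ F : Type*} [Field F₀] [Field F]

/-- nonunits of a restricted valuation ring -/
theorem mem_nonunits_of_comap (φ : F₀ →+* F) (W₀ : ValuationSubring F₀) (W : ValuationSubring F)
    (hW : ∀ x, x ∈ W₀ ↔ φ x ∈ W) (x : F₀) : x ∈ W₀.nonunits ↔ φ x ∈ W.nonunits := by
  rw [ValuationSubring.mem_nonunits_iff_or, ValuationSubring.mem_nonunits_iff_or, hW, map_inv₀,
    map_eq_zero]

end Gen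

variable (A : ValuationSubring Qb) (N : ℕ) [NeZero N]

/-! ### The base extension into `FN N` -/

/-- the base extension `K₀(X₀(N)) → F_N = ℚ̄(X₀(N))`, with values in the field `FN N` of the
GATE-K stack -/
def mapK0Bar : modularFunctionFieldFullC (K0 A) N →+* FN N where
  toFun x := ⟨((mapK0 A N x : modularFunctionFieldFullC Qb N) : LaurentSeries Qb),
    coe_mapK0_mem_bar A N x⟩
  map_one' := Subtype.ext (by simp)
  map_mul' x y := Subtype.ext (by simp)
  map_zero' := Subtype.ext (by simp)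
  map_add' x y := Subtype.ext (by simp)

@[simp]
theorem coe_mapK0Bar (x : modularFunctionFieldFullC (K0 A) N) :
    ((mapK0Bar A N x : FN N) : LaurentSeries Qb) = coeffMap (ι0 A) (x : LaurentSeries (K0 A)) :=
  rfl

theorem mapK0Bar_injective : Function.Injective (mapK0Bar A N) := (mapK0Bar A N).injective

theorem mapK0Bar_algebraMap (c : K0 A) :
    mapK0Bar A N (algebraMap (K0 A) _ c) = algebraMap Kbar (FN N) (ι0 A c) := by
  apply Subtype.ext
  rw [coe_mapK0Bar]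
  show coeffMap (ι0 A) (algebraMap (K0 A) (LaurentSeries (K0 A)) c) =
    algebraMap Kbar (LaurentSeries Kbar) (ι0 A c)
  rw [algebraMap_laurentSeries_eq_single, algebraMap_laurentSeries_eq_single, coeffMap_single]

/-- the generators go to the generators -/
theorem mapK0Bar_genC (d : DivIdx N) :
    mapK0Bar A N (genC (K0 A) (R0 A) N d.2) = gen N d := by
  apply Subtype.ext
  rw [coe_mapK0Bar, coe_genC, coeffMap_qExpand, coeffMap_jqModC]
  rfl

/-! ### The Atkin–Lehner automorphism over `K₀` -/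

section AL

variable {q : ℕ} (h : ExactDvd q N)

/-- `mapK0Bar`, on the field `K₀(S)` in its `adjoin` form -/
def φ0 : IntermediateField.adjoin (K0 A) (divisorExpansionsC (K0 A) N) →+* FN N := mapK0Bar A N

theorem φ0_gen (x : LaurentSeries (K0 A)) (hx : x ∈ divisorExpansionsC (K0 A) N) :
    ∃ d : DivIdx N, φ0 A N ⟨x, IntermediateField.subset_adjoin (K0 A) _ hx⟩ = gen N d := by
  obtain ⟨d, hne, hd, rfl⟩ := hx
  refine ⟨⟨d, hd⟩, ?_⟩
  apply Subtype.ext
  show coeffMap (ι0 A) (qExpand (K0 A) d (jqModC (K0 A))) = _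
  rw [coeffMap_qExpand, coeffMap_jqModC]
  rfl

theorem gen_mem_range_φ0 (d : DivIdx N) : gen N d ∈ (φ0 A N).range :=
  ⟨genC (K0 A) (R0 A) N d.2, mapK0Bar_genC A N d⟩

theorem wAut_φ0_const (c : K0 A) :
    ((wAut h : FN N ≃ₐ[Kbar] FN N) : FN N ≃+* FN N) (φ0 A N (algebraMap (K0 A) _ c)) =
      φ0 A N (algebraMap (K0 A) _ c) := by
  show wAut h (mapK0Bar A N (algebraMap (K0 A) _ c)) = mapK0Bar A N (algebraMap (K0 A) _ c)
  rw [mapK0Bar_algebraMap, AlgEquiv.commutes]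

theorem wAut_φ0_gen (x : LaurentSeries (K0 A)) (hx : x ∈ divisorExpansionsC (K0 A) N) :
    ((wAut h : FN N ≃ₐ[Kbar] FN N) : FN N ≃+* FN N)
      (φ0 A N ⟨x, IntermediateField.subset_adjoin (K0 A) _ hx⟩) ∈ (φ0 A N).range := by
  obtain ⟨d, hd⟩ := φ0_gen A N x hx
  rw [hd]
  show wAut h (gen N d) ∈ _
  rw [wAut_gen]
  exact gen_mem_range_φ0 A N _

theorem wAut_symm_φ0_gen (x : LaurentSeries (K0 A)) (hx : x ∈ divisorExpansionsC (K0 A) N) :
    ((wAut h : FN N ≃ₐ[Kbar] FN N) : FN N ≃+* FN N).symm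
      (φ0 A N ⟨x, IntermediateField.subset_adjoin (K0 A) _ hx⟩) ∈ (φ0 A N).range := by
  obtain ⟨d, hd⟩ := φ0_gen A N x hx
  rw [hd]
  show (wAut h).symm (gen N d) ∈ _
  rw [wAut_symm, wAut_gen]
  exact gen_mem_range_φ0 A N _

/-- **the Atkin–Lehner automorphism `W_q` of `K₀(X₀(N))`** -/
def wAutK0 : modularFunctionFieldFullC (K0 A) N ≃ₐ[K0 A] modularFunctionFieldFullC (K0 A) N :=
  restrictAut (φ0 A N) ((wAut h : FN N ≃ₐ[Kbar] FN N) : FN N ≃+* FN N) (wAut_φ0_const A N h)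
    (wAut_φ0_gen A N h) (wAut_symm_φ0_gen A N h)

/-- `W_q` over `K₀` is the restriction of `W_q` over `ℚ̄` -/
theorem mapK0Bar_wAutK0 (x : modularFunctionFieldFullC (K0 A) N) :
    mapK0Bar A N (wAutK0 A N h x) = wAut h (mapK0Bar A N x) :=
  φ_restrictAut (φ0 A N) _ (wAut_φ0_const A N h) (wAut_φ0_gen A N h) (wAut_symm_φ0_gen A N h) x

theorem wAutK0_genC (d : DivIdx N) :
    wAutK0 A N h (genC (K0 A) (R0 A) N d.2) = genC (K0 A) (R0 A) N (swapIdx h d).2 := by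
  apply mapK0Bar_injective A N
  rw [mapK0Bar_wAutK0, mapK0Bar_genC, mapK0Bar_genC, wAut_gen]

theorem wAutK0_wAutK0 (x : modularFunctionFieldFullC (K0 A) N) :
    wAutK0 A N h (wAutK0 A N h x) = x := by
  apply mapK0Bar_injective A N
  rw [mapK0Bar_wAutK0, mapK0Bar_wAutK0, wAut_wAut]

theorem wAutK0_symm : (wAutK0 A N h).symm = wAutK0 A N h := by
  refine AlgEquiv.ext fun x => ?_
  rw [AlgEquiv.symm_apply_eq, wAutK0_wAutK0]

end AL

/-! ### `w₁` over `K₀`, in the language of the GATE-K stack -/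

section W1

/-- `w₁` over `ℚ̄` (helper42's `redDataBar N A`) restricts to `w₁` over `K₀` -/
theorem mem_Rw1K0_iff (x : modularFunctionFieldFullC (K0 A) N) :
    x ∈ RwK0 A N ↔ mapK0Bar A N x ∈ (redDataBar N A).Rw :=
  mem_RwK0_iff_mem_RwBar A N x

/-- the two descriptions of the reduction over `ℚ̄` agree -/
theorem redL_bar_eq (x : LaurentSeries Qb) (h1 : x ∈ modularFunctionFieldFullC Qb N)
    (h2 : x ∈ modularFunctionFieldBar N)
    (m1 : (⟨x, h1⟩ : modularFunctionFieldFullC Qb N) ∈ RwC Qb A N)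
    (m2 : (⟨x, h2⟩ : modularFunctionFieldBar N) ∈ RwBar N A) :
    redL A _ (hasGaussFrac_bar N A) ⟨⟨x, h2⟩, m2⟩ =
      redL A _ (hasGaussFrac_fullC Qb A N) ⟨⟨x, h1⟩, m1⟩ := by
  have hF := Fermat.Agent.S24_helper62.modularFunctionFieldBar_eq N
  obtain ⟨a, b, ha, hb, hb0, hx⟩ := m1
  have e1 : redL A _ (hasGaussFrac_fullC Qb A N) ⟨⟨x, h1⟩, ⟨a, b, ha, hb, hb0, hx⟩⟩ = _ :=
    redL_eq (x := ⟨⟨x, h1⟩, ⟨a, b, ha, hb, hb0, hx⟩⟩) ⟨ha, hb, hb0, hx⟩
  have e2 : redL A _ (hasGaussFrac_bar N A) ⟨⟨x, h2⟩, m2⟩ = _ :=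
    redL_eq (x := ⟨⟨x, h2⟩, m2⟩) ⟨hF ▸ ha, hF ▸ hb, hb0, hx⟩
  rw [e1, e2]

/-- **the reductions `red₁` over `K₀` and over `ℚ̄` are compatible** -/
theorem coe_red1K0 (x : modularFunctionFieldFullC (K0 A) N) (hx : x ∈ RwK0 A N)
    (hx' : mapK0Bar A N x ∈ (redDataBar N A).Rw) :
    (((redDataBar N A).red ⟨mapK0Bar A N x, hx'⟩ : FresBar N A) :
        LaurentSeries (ResidueField A)) =
      coeffMap (resMapK0 A)
        (((redDataK0 A N).red ⟨x, hx⟩ : FresK0 A N) : LaurentSeries (ResidueField (R0 A))) := by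
  have hm : mapK0 A N x ∈ RwC Qb A N := (mem_RwK0_iff A N x).1 hx
  have h1 := redL_mapK0 A N hx hm
  have h2 := redL_bar_eq A N _ (mapK0 A N x).2 (coe_mapK0_mem_bar A N x) hm hx'
  exact h2.trans h1

end W1

/-! ### The second valuation over `K₀` -/

section W2

variable {q : ℕ} (h : ExactDvd q N)

/-- **the second Gauss valuation `w₂ = w₁ ∘ W_q` of `K₀(X₀(N))`** -/
def redData2K0 : RedData (K0 A) (modularFunctionFieldFullC (K0 A) N) (ResidueField (R0 A))
    (FresK0 A N) :=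
  (redDataK0 A N).comapAlgEquiv (wAutK0 A N h)

theorem mem_Rw2K0_iff_wAutK0 (x : modularFunctionFieldFullC (K0 A) N) :
    x ∈ (redData2K0 A N h).Rw ↔ wAutK0 A N h x ∈ RwK0 A N := Iff.rfl

theorem red2K0_eq (x : modularFunctionFieldFullC (K0 A) N) (hx : x ∈ (redData2K0 A N h).Rw) :
    (redData2K0 A N h).red ⟨x, hx⟩ = (redDataK0 A N).red ⟨wAutK0 A N h x, hx⟩ := rfl

/-- `w₂` over `ℚ̄` (helper42's `redData2 N A h`) restricts to `w₂` over `K₀` -/
theorem mem_Rw2K0_iff (x : modularFunctionFieldFullC (K0 A) N) :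
    x ∈ (redData2K0 A N h).Rw ↔ mapK0Bar A N x ∈ (redData2 N A h).Rw := by
  rw [mem_Rw2K0_iff_wAutK0, mem_Rw1K0_iff, mapK0Bar_wAutK0]
  exact Iff.rfl

/-- **the reductions `red₂` over `K₀` and over `ℚ̄` are compatible** -/
theorem coe_red2K0 (x : modularFunctionFieldFullC (K0 A) N) (hx : x ∈ (redData2K0 A N h).Rw)
    (hx' : mapK0Bar A N x ∈ (redData2 N A h).Rw) :
    (((redData2 N A h).red ⟨mapK0Bar A N x, hx'⟩ : FresBar N A) :
        LaurentSeries (ResidueField A)) =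
      coeffMap (resMapK0 A)
        (((redData2K0 A N h).red ⟨x, hx⟩ : FresK0 A N) :
          LaurentSeries (ResidueField (R0 A))) := by
  rw [red2K0_eq, red2_eq]
  have hm : mapK0Bar A N (wAutK0 A N h x) ∈ (redDataBar N A).Rw := by
    rw [mapK0Bar_wAutK0]; exact hx'
  rw [← coe_red1K0 A N (wAutK0 A N h x) hx hm]
  have e : (⟨wAut h (mapK0Bar A N x), hx'⟩ : (redDataBar N A).Rw) =
      ⟨mapK0Bar A N (wAutK0 A N h x), hm⟩ := Subtype.ext (mapK0Bar_wAutK0 A N h x).symm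
  rw [e]

theorem mem_nonunits_Rw1K0_iff (x : modularFunctionFieldFullC (K0 A) N) :
    x ∈ (RwK0 A N).nonunits ↔ mapK0Bar A N x ∈ (redDataBar N A).Rw.nonunits :=
  mem_nonunits_of_comap (mapK0Bar A N) _ _ (mem_Rw1K0_iff A N) x

theorem mem_nonunits_Rw2K0_iff (x : modularFunctionFieldFullC (K0 A) N) :
    x ∈ (redData2K0 A N h).Rw.nonunits ↔ mapK0Bar A N x ∈ (redData2 N A h).Rw.nonunits :=
  mem_nonunits_of_comap (mapK0Bar A N) _ _ (mem_Rw2K0_iff A N h) x

/-- `W_q` over `K₀`, as a ring automorphism -/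
def wRingK0 : modularFunctionFieldFullC (K0 A) N ≃+* modularFunctionFieldFullC (K0 A) N :=
  (wAutK0 A N h).toRingEquiv

/-- the valuation ring of `w₂` over `K₀` -/
def Rw2K0 : ValuationSubring (modularFunctionFieldFullC (K0 A) N) :=
  (RwK0 A N).comap (wRingK0 A N h : _ →+* _)

theorem redData2K0_Rw : (redData2K0 A N h).Rw = Rw2K0 A N h := rfl

/-- the ring isomorphism `Rw₂ ≃ Rw₁` over `K₀` -/
def rw2EquivRw1 : Rw2K0 A N h ≃+* RwK0 A N :=
  comapRingEquiv (RwK0 A N) (wRingK0 A N h)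

section Prime

variable (hq : q.Prime) (hA : (q : Qb) ∈ A.nonunits)

include hq hA in
/-- **`w₂` over `K₀` is a DVR** -/
theorem isDiscreteValuationRing_Rw2K0 : IsDiscreteValuationRing (redData2K0 A N h).Rw := by
  have := isDiscreteValuationRing_RwK0 A N hq hA
  rw [redData2K0_Rw]
  exact IsDiscreteValuationRing.RingEquivClass.isDiscreteValuationRing (rw2EquivRw1 A N h).symm

omit [NeZero N] in
include hq hA in
/-- every nonunit of `w₁` over `K₀` is `q` times an integral element: **`e₁ = 1`** -/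
theorem exists_eq_q_mul₁ (x : modularFunctionFieldFullC (K0 A) N)
    (hx : x ∈ (RwK0 A N).nonunits) :
    ∃ y ∈ RwK0 A N, x = algebraMap (K0 A) _ ((q0 A q : R0 A) : K0 A) * y := by
  rw [ValuationSubring.mem_nonunits_iff_exists_mem_maximalIdeal] at hx
  obtain ⟨hx1, hx2⟩ := hx
  obtain ⟨y, hy⟩ := exists_eq_q_mul A N hq hA ⟨x, hx1⟩ ((mem_maximalIdeal _).1 hx2)
  exact ⟨y, y.2, congrArg (fun z : RwK0 A N => (z : modularFunctionFieldFullC (K0 A) N)) hy⟩

include hq hA in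
/-- every nonunit of `w₂` over `K₀` is `q` times an integral element: **`e₂ = 1`** -/
theorem exists_eq_q_mul₂ (x : modularFunctionFieldFullC (K0 A) N)
    (hx : x ∈ (redData2K0 A N h).Rw.nonunits) :
    ∃ y ∈ (redData2K0 A N h).Rw, x = algebraMap (K0 A) _ ((q0 A q : R0 A) : K0 A) * y := by
  have h1 : wAutK0 A N h x ∈ (RwK0 A N).nonunits :=
    (mem_nonunits_comapAlgEquiv (redDataK0 A N) (wAutK0 A N h) x).1 hx
  obtain ⟨y, hy, hxy⟩ := exists_eq_q_mul₁ A N hq hA _ h1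
  refine ⟨wAutK0 A N h y, ?_, ?_⟩
  · rw [mem_Rw2K0_iff_wAutK0, wAutK0_wAutK0]; exact hy
  · have := congrArg (wAutK0 A N h) hxy
    rw [wAutK0_wAutK0, map_mul, AlgEquiv.commutes] at this
    exact this

end Prime

/-! #### incomparability over `K₀` -/

section Ne

variable (hA : A.LiesOverPrime q)

/-- the witness `j(q^q) − j^q`, over `K₀` -/
def zK0 : modularFunctionFieldFullC (K0 A) N :=
  genC (K0 A) (R0 A) N (idxQ N h).2 - genC (K0 A) (R0 A) N (idxOne N).2 ^ q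

theorem mapK0Bar_zK0 : mapK0Bar A N (zK0 A N h) = zAL N h := by
  rw [zK0, zAL, map_sub, map_pow, mapK0Bar_genC, mapK0Bar_genC]

include hA in
/-- **`w₂` is not coarser than `w₁` over `K₀`** -/
theorem not_Rw2K0_le_Rw1K0 : ¬ (redData2K0 A N h).Rw ≤ RwK0 A N := by
  intro hle
  have h1 := ValuationSubring.nonunits_le_nonunits.mpr hle
  have h2 : zK0 A N h ∈ (RwK0 A N).nonunits := by
    rw [mem_nonunits_Rw1K0_iff, mapK0Bar_zK0]
    exact zAL_mem_nonunits_Rw1 N A h hA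
  have h3 := h1 h2
  rw [mem_nonunits_Rw2K0_iff, mapK0Bar_zK0] at h3
  exact zAL_not_mem_nonunits_Rw2 N A h hA h3

include hA in
/-- **`w₁` is not coarser than `w₂` over `K₀`** -/
theorem not_Rw1K0_le_Rw2K0 : ¬ RwK0 A N ≤ (redData2K0 A N h).Rw := by
  intro hle
  apply not_Rw2K0_le_Rw1K0 A N h hA
  intro f hf
  have h1 : wAutK0 A N h f ∈ (redData2K0 A N h).Rw := hle hf
  rw [mem_Rw2K0_iff_wAutK0, wAutK0_wAutK0] at h1
  exact h1

include hA in
theorem Rw1K0_ne_Rw2K0 : RwK0 A N ≠ (redData2K0 A N h).Rw := fun heq =>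
  not_Rw1K0_le_Rw2K0 A N h hA (le_of_eq heq)

end Ne

end W2

end Fermat.Agent.GL.Val.SecondK0
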