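/-
GATE-L / L1e (helper45): the inputs of helper90's RAMIFIED fundamental inequality
(`GL/MultiVal/RamFamily`: `IsUnif`, `IsRamified`) for the two UNRAMIFIED valuations `w₁`, `w₂` of
`K₀(X₀(N))` over the DVR `R₀ = A ∩ K₀`:

* `isUnif_R0 : IsUnif (R0 A) q`;
* `isRamified_Rw1K0 : IsRamified (R0 A) q (RwK0 A N) q 1`;
* `isRamified_Rw2K0 : IsRamified (R0 A) q (redData2K0 A N h).Rw q 1`   (`q ∥ N`);
* generic: `isRamified_one_of_dvd`.
-/
import Fermat.Agent.GL.Val.SecondK0
import Fermat.Agent.GL.MultiVal.RamFamily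

set_option autoImplicit false

noncomputable section

namespace Fermat.Agent.GL.Val.RamK0

open HahnSeries ModularCurve IsLocalRing
open Fermat.Agent.GJ.J1 Fermat.Agent.GJ.J1.Val
open Fermat.Agent.GK.AL
open Fermat.Agent.GL.Val.GaussK0 Fermat.Agent.GL.Val.SecondK0
open Fermat.Agent.GL.MultiVal
open Fermat.Agent.Common_helper32

section Generic

variable {K F : Type*} [Field K] [Field F] [Algebra K F]

/-- an extension `V` of `A` in which every nonunit is divisible by the uniformiser `ϖ` of `A` is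
unramified (`e = 1`) in the sense of `RamFamily` -/
theorem isRamified_one_of_dvd (A : ValuationSubring K) (V : ValuationSubring F) (ϖ : K)
    (hV : ∀ a : K, algebraMap K F a ∈ V ↔ a ∈ A) (hϖ : ϖ ∈ A.nonunits)
    (hdvd : ∀ x ∈ V.nonunits, ∃ y ∈ V, x = algebraMap K F ϖ * y) :
    IsRamified A ϖ V (algebraMap K F ϖ) 1 where
  mem_iff := hV
  lt_one := by
    rw [← ValuationSubring.mem_nonunits_iff, ValuationSubring.mem_nonunits_iff_or]
    rw [ValuationSubring.mem_nonunits_iff_or] at hϖ
    rcases hϖ with h0 | h1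
    · left; rw [h0, map_zero]
    · right
      rw [← map_inv₀, hV]
      exact h1
  gen := by
    intro x hx
    obtain ⟨y, hy, rfl⟩ := hdvd x ((ValuationSubring.mem_nonunits_iff _).2 hx)
    rw [map_mul]
    calc V.valuation (algebraMap K F ϖ) * V.valuation y
        ≤ V.valuation (algebraMap K F ϖ) * 1 :=
          mul_le_mul' le_rfl ((V.valuation_le_one_iff y).2 hy)
      _ = _ := mul_one _
  pow_eq := pow_one _

end Generic

variable (A : ValuationSubring Qb) (N : ℕ) {q : ℕ} (hq : q.Prime) (hA : (q : Qb) ∈ A.nonunits)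

include hA in
theorem q0_mem_nonunits : ((q0 A q : R0 A) : K0 A) ∈ (R0 A).nonunits := by
  rw [ValuationSubring.mem_nonunits_iff_or]
  by_cases h0 : ((q0 A q : R0 A) : K0 A) = 0
  · exact Or.inl h0
  · right
    intro hinv
    have h1 : (ι0 A ((q0 A q : R0 A) : K0 A))⁻¹ ∈ A := by
      rw [← map_inv₀]; exact hinv
    rw [ι0_q0] at h1
    rw [ValuationSubring.mem_nonunits_iff_or] at hA
    rcases hA with hA | hA
    · apply h0
      apply ι0_injective A
      rw [ι0_q0, hA, map_zero]
    · exact hA h1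

include hq hA in
/-- **`q` is a uniformiser of `R₀`** (helper26), in helper90's form -/
theorem isUnif_R0 : IsUnif (R0 A) ((q0 A q : R0 A) : K0 A) where
  ne_zero := by
    intro h0
    have := congrArg (ι0 A) h0
    rw [ι0_q0, map_zero] at this
    exact hq.ne_zero (by exact_mod_cast this)
  mem := q0_mem_nonunits A hA
  gen := by
    intro a ha
    rw [ValuationSubring.mem_nonunits_iff_exists_mem_maximalIdeal] at ha
    obtain ⟨ha1, ha2⟩ := ha
    obtain ⟨b, hb⟩ := exists_eq_q0_mul A hq hA ⟨a, ha1⟩ ((mem_maximalIdeal _).1 ha2)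
    have hab : a = ((q0 A q : R0 A) : K0 A) * (b : K0 A) :=
      congrArg (fun z : R0 A => (z : K0 A)) hb
    rw [hab, map_mul]
    calc (R0 A).valuation ((q0 A q : R0 A) : K0 A) * (R0 A).valuation (b : K0 A)
        ≤ (R0 A).valuation ((q0 A q : R0 A) : K0 A) * 1 :=
          mul_le_mul' le_rfl (((R0 A).valuation_le_one_iff _).2 b.2)
      _ = _ := mul_one _

include hq hA in
/-- **`w₁` over `K₀` is unramified over `R₀`**, in helper90's form -/
theorem isRamified_Rw1K0 :
    IsRamified (R0 A) ((q0 A q : R0 A) : K0 A) (RwK0 A N)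
      (algebraMap (K0 A) (modularFunctionFieldFullC (K0 A) N) ((q0 A q : R0 A) : K0 A)) 1 :=
  isRamified_one_of_dvd (R0 A) (RwK0 A N) _
    (fun a => algebraMap_mem_Rw_iff (hGF := _) a) (q0_mem_nonunits A hA)
    (exists_eq_q_mul₁ A N hq hA)

variable [NeZero N] (h : ExactDvd q N)

include hq hA in
/-- **`w₂` over `K₀` is unramified over `R₀`**, in helper90's form -/
theorem isRamified_Rw2K0 :
    IsRamified (R0 A) ((q0 A q : R0 A) : K0 A) (redData2K0 A N h).Rw
      (algebraMap (K0 A) (modularFunctionFieldFullC (K0 A) N) ((q0 A q : R0 A) : K0 A)) 1 :=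
  isRamified_one_of_dvd (R0 A) (redData2K0 A N h).Rw _
    (fun a => ((redData2K0 A N h).mem_A_iff a).symm) (q0_mem_nonunits A hA)
    (exists_eq_q_mul₂ A N h hq hA)

end Fermat.Agent.GL.Val.RamK0
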