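/-
GATE-L / L1e-w2 at a HALL divisor (helper45): **the second valuation `w₂ = w₁ ∘ W_Q` over the
UNRAMIFIED base `K₀ = ℚ̄^{I_A}`** for helper54's Atkin–Lehner automorphism `wAutQ h` at a Hall
divisor `Q ∥ N` (`Q = q²`, `N = q² M'` for GATE-L).  Same three steps as `SecondK0` (`Q = q`):

* `wAutQK0 A N h : K₀(X₀(N)) ≃ₐ[K₀] K₀(X₀(N))`, `mapK0Bar_wAutQK0`, `wAutQK0_genC`, involutive;
* `redData2QK0 A N h : RedData K₀ (K₀(X₀(N))) k₀ (FresK0 A N)`;
* `mem_Rw2QK0_iff`, `coe_red2QK0` : helper54's `redData2Q N A h` over `ℚ̄` RESTRICTS to it;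
* `isDiscreteValuationRing_Rw2QK0`, `exists_eq_q_mul₂Q`, `isRamified_Rw2QK0` (`e₂ = 1`);
* `not_Rw1K0_le_Rw2QK0`, `not_Rw2QK0_le_Rw1K0` (`Q = q^e`, `A | q`).
-/
import Fermat.Agent.GL.Val.RamK0
import Fermat.Agent.GL.AL.SecondValHall

set_option autoImplicit false

noncomputable section

namespace Fermat.Agent.GL.Val.SecondK0Hall

open HahnSeries ModularCurve IsLocalRing
open Fermat.Agent.S24 Fermat.Agent.S24_helper62
open Fermat.Agent.GJ.J1 Fermat.Agent.GJ.J1.Val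
open Fermat.Agent.GK.Val.GaussBase Fermat.Agent.GK.Val.BaseChange Fermat.Agent.GK.Val.GaussDvr
open Fermat.Agent.GK.AL Fermat.Agent.GL.AL
open Fermat.Agent.GL.Val.GaussK0 Fermat.Agent.GL.Val.AutRestrict Fermat.Agent.GL.Val.SecondK0
open Fermat.Agent.GL.Val.RamK0 Fermat.Agent.GL.MultiVal
open Fermat.Agent.Common_helper32

variable (A : ValuationSubring Qb) (N : ℕ) [NeZero N] {Q : ℕ} (h : HallDvd Q N)

/-! ### The Atkin–Lehner automorphism `W_Q` over `K₀` -/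

section AL

theorem wAutQ_φ0_const (c : K0 A) :
    ((wAutQ h : FN N ≃ₐ[Kbar] FN N) : FN N ≃+* FN N) (φ0 A N (algebraMap (K0 A) _ c)) =
      φ0 A N (algebraMap (K0 A) _ c) := by
  show wAutQ h (mapK0Bar A N (algebraMap (K0 A) _ c)) = mapK0Bar A N (algebraMap (K0 A) _ c)
  rw [mapK0Bar_algebraMap, AlgEquiv.commutes]

theorem wAutQ_φ0_gen (x : LaurentSeries (K0 A)) (hx : x ∈ divisorExpansionsC (K0 A) N) :
    ((wAutQ h : FN N ≃ₐ[Kbar] FN N) : FN N ≃+* FN N)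
      (φ0 A N ⟨x, IntermediateField.subset_adjoin (K0 A) _ hx⟩) ∈ (φ0 A N).range := by
  obtain ⟨d, hd⟩ := φ0_gen A N x hx
  rw [hd]
  show wAutQ h (gen N d) ∈ _
  rw [wAutQ_gen]
  exact gen_mem_range_φ0 A N _

theorem wAutQ_symm_φ0_gen (x : LaurentSeries (K0 A)) (hx : x ∈ divisorExpansionsC (K0 A) N) :
    ((wAutQ h : FN N ≃ₐ[Kbar] FN N) : FN N ≃+* FN N).symm
      (φ0 A N ⟨x, IntermediateField.subset_adjoin (K0 A) _ hx⟩) ∈ (φ0 A N).range := by
  obtain ⟨d, hd⟩ := φ0_gen A N x hx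
  rw [hd]
  show (wAutQ h).symm (gen N d) ∈ _
  rw [wAutQ_symm, wAutQ_gen]
  exact gen_mem_range_φ0 A N _

/-- **the Atkin–Lehner automorphism `W_Q` of `K₀(X₀(N))`** -/
def wAutQK0 : modularFunctionFieldFullC (K0 A) N ≃ₐ[K0 A] modularFunctionFieldFullC (K0 A) N :=
  restrictAut (φ0 A N) ((wAutQ h : FN N ≃ₐ[Kbar] FN N) : FN N ≃+* FN N) (wAutQ_φ0_const A N h)
    (wAutQ_φ0_gen A N h) (wAutQ_symm_φ0_gen A N h)

/-- `W_Q` over `K₀` is the restriction of `W_Q` over `ℚ̄` -/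
theorem mapK0Bar_wAutQK0 (x : modularFunctionFieldFullC (K0 A) N) :
    mapK0Bar A N (wAutQK0 A N h x) = wAutQ h (mapK0Bar A N x) :=
  φ_restrictAut (φ0 A N) _ (wAutQ_φ0_const A N h) (wAutQ_φ0_gen A N h)
    (wAutQ_symm_φ0_gen A N h) x

theorem wAutQK0_genC (d : DivIdx N) :
    wAutQK0 A N h (genC (K0 A) (R0 A) N d.2) = genC (K0 A) (R0 A) N (swapHall h d).2 := by
  apply mapK0Bar_injective A N
  rw [mapK0Bar_wAutQK0, mapK0Bar_genC, mapK0Bar_genC, wAutQ_gen]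

theorem wAutQK0_wAutQK0 (x : modularFunctionFieldFullC (K0 A) N) :
    wAutQK0 A N h (wAutQK0 A N h x) = x := by
  apply mapK0Bar_injective A N
  rw [mapK0Bar_wAutQK0, mapK0Bar_wAutQK0, wAutQ_wAutQ]

theorem wAutQK0_symm : (wAutQK0 A N h).symm = wAutQK0 A N h := by
  refine AlgEquiv.ext fun x => ?_
  rw [AlgEquiv.symm_apply_eq, wAutQK0_wAutQK0]

end AL

/-! ### The second valuation over `K₀` -/

section W2

/-- **the second Gauss valuation `w₂ = w₁ ∘ W_Q` of `K₀(X₀(N))`** -/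
def redData2QK0 : RedData (K0 A) (modularFunctionFieldFullC (K0 A) N) (ResidueField (R0 A))
    (FresK0 A N) :=
  (redDataK0 A N).comapAlgEquiv (wAutQK0 A N h)

theorem mem_Rw2QK0_iff_wAutQK0 (x : modularFunctionFieldFullC (K0 A) N) :
    x ∈ (redData2QK0 A N h).Rw ↔ wAutQK0 A N h x ∈ RwK0 A N := Iff.rfl

theorem red2QK0_eq (x : modularFunctionFieldFullC (K0 A) N) (hx : x ∈ (redData2QK0 A N h).Rw) :
    (redData2QK0 A N h).red ⟨x, hx⟩ = (redDataK0 A N).red ⟨wAutQK0 A N h x, hx⟩ := rfl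

/-- `w₂` over `ℚ̄` (helper54's `redData2Q N A h`) restricts to `w₂` over `K₀` -/
theorem mem_Rw2QK0_iff (x : modularFunctionFieldFullC (K0 A) N) :
    x ∈ (redData2QK0 A N h).Rw ↔ mapK0Bar A N x ∈ (redData2Q N A h).Rw := by
  rw [mem_Rw2QK0_iff_wAutQK0, mem_Rw1K0_iff, mapK0Bar_wAutQK0]
  exact Iff.rfl

/-- **the reductions `red₂` over `K₀` and over `ℚ̄` are compatible** -/
theorem coe_red2QK0 (x : modularFunctionFieldFullC (K0 A) N)
    (hx : x ∈ (redData2QK0 A N h).Rw) (hx' : mapK0Bar A N x ∈ (redData2Q N A h).Rw) :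
    (((redData2Q N A h).red ⟨mapK0Bar A N x, hx'⟩ : FresBar N A) :
        LaurentSeries (ResidueField A)) =
      coeffMap (resMapK0 A)
        (((redData2QK0 A N h).red ⟨x, hx⟩ : FresK0 A N) :
          LaurentSeries (ResidueField (R0 A))) := by
  rw [red2QK0_eq, red2Q_eq]
  have hm : mapK0Bar A N (wAutQK0 A N h x) ∈ (redDataBar N A).Rw := by
    rw [mapK0Bar_wAutQK0]; exact hx'
  rw [← coe_red1K0 A N (wAutQK0 A N h x) hx hm]
  have e : (⟨wAutQ h (mapK0Bar A N x), hx'⟩ : (redDataBar N A).Rw) =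
      ⟨mapK0Bar A N (wAutQK0 A N h x), hm⟩ := Subtype.ext (mapK0Bar_wAutQK0 A N h x).symm
  rw [e]

theorem mem_nonunits_Rw2QK0_iff (x : modularFunctionFieldFullC (K0 A) N) :
    x ∈ (redData2QK0 A N h).Rw.nonunits ↔ mapK0Bar A N x ∈ (redData2Q N A h).Rw.nonunits :=
  mem_nonunits_of_comap (mapK0Bar A N) _ _ (mem_Rw2QK0_iff A N h) x

/-- `W_Q` over `K₀`, as a ring automorphism -/
def wRingQK0 : modularFunctionFieldFullC (K0 A) N ≃+* modularFunctionFieldFullC (K0 A) N :=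
  (wAutQK0 A N h).toRingEquiv

/-- the valuation ring of `w₂` over `K₀` -/
def Rw2QK0 : ValuationSubring (modularFunctionFieldFullC (K0 A) N) :=
  (RwK0 A N).comap (wRingQK0 A N h : _ →+* _)

theorem redData2QK0_Rw : (redData2QK0 A N h).Rw = Rw2QK0 A N h := rfl

/-- the ring isomorphism `Rw₂ ≃ Rw₁` over `K₀` -/
def rw2QEquivRw1 : Rw2QK0 A N h ≃+* RwK0 A N :=
  comapRingEquiv (RwK0 A N) (wRingQK0 A N h)

section Prime

variable {q : ℕ} (hq : q.Prime) (hA : (q : Qb) ∈ A.nonunits)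

include hq hA in
/-- **`w₂` over `K₀` is a DVR** -/
theorem isDiscreteValuationRing_Rw2QK0 : IsDiscreteValuationRing (redData2QK0 A N h).Rw := by
  have := isDiscreteValuationRing_RwK0 A N hq hA
  rw [redData2QK0_Rw]
  exact IsDiscreteValuationRing.RingEquivClass.isDiscreteValuationRing
    (rw2QEquivRw1 A N h).symm

include hq hA in
/-- every nonunit of `w₂` over `K₀` is `q` times an integral element: **`e₂ = 1`** -/
theorem exists_eq_q_mul₂Q (x : modularFunctionFieldFullC (K0 A) N)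
    (hx : x ∈ (redData2QK0 A N h).Rw.nonunits) :
    ∃ y ∈ (redData2QK0 A N h).Rw, x = algebraMap (K0 A) _ ((q0 A q : R0 A) : K0 A) * y := by
  have h1 : wAutQK0 A N h x ∈ (RwK0 A N).nonunits :=
    (mem_nonunits_comapAlgEquiv (redDataK0 A N) (wAutQK0 A N h) x).1 hx
  obtain ⟨y, hy, hxy⟩ := exists_eq_q_mul₁ A N hq hA _ h1
  refine ⟨wAutQK0 A N h y, ?_, ?_⟩
  · rw [mem_Rw2QK0_iff_wAutQK0, wAutQK0_wAutQK0]; exact hy
  · have := congrArg (wAutQK0 A N h) hxy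
    rw [wAutQK0_wAutQK0, map_mul, AlgEquiv.commutes] at this
    exact this

include hq hA in
/-- **`w₂` over `K₀` is unramified over `R₀`**, in helper90's form -/
theorem isRamified_Rw2QK0 :
    IsRamified (R0 A) ((q0 A q : R0 A) : K0 A) (redData2QK0 A N h).Rw
      (algebraMap (K0 A) (modularFunctionFieldFullC (K0 A) N) ((q0 A q : R0 A) : K0 A)) 1 :=
  isRamified_one_of_dvd (R0 A) (redData2QK0 A N h).Rw _
    (fun a => ((redData2QK0 A N h).mem_A_iff a).symm) (q0_mem_nonunits A hA)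
    (exists_eq_q_mul₂Q A N h hq hA)

end Prime

/-! #### incomparability over `K₀` -/

section Ne

variable {q : ℕ} (hq : q.Prime) {e : ℕ} (he : 0 < e) (hQ : Q = q ^ e) (hA : A.LiesOverPrime q)

/-- the witness `j(q^Q) − j^Q`, over `K₀` -/
def zQK0 : modularFunctionFieldFullC (K0 A) N :=
  genC (K0 A) (R0 A) N (idxHall N h).2 - genC (K0 A) (R0 A) N (idxOne N).2 ^ Q

theorem mapK0Bar_zQK0 : mapK0Bar A N (zQK0 A N h) = zHall N h := by
  rw [zQK0, zHall, map_sub, map_pow, mapK0Bar_genC, mapK0Bar_genC]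

include hq he hQ hA in
/-- **`w₂` is not coarser than `w₁` over `K₀`** -/
theorem not_Rw2QK0_le_Rw1K0 : ¬ (redData2QK0 A N h).Rw ≤ RwK0 A N := by
  intro hle
  have h1 := ValuationSubring.nonunits_le_nonunits.mpr hle
  have h2 : zQK0 A N h ∈ (RwK0 A N).nonunits := by
    rw [mem_nonunits_Rw1K0_iff, mapK0Bar_zQK0]
    exact zHall_mem_nonunits_Rw1 N A h hq hQ hA
  have h3 := h1 h2
  rw [mem_nonunits_Rw2QK0_iff, mapK0Bar_zQK0] at h3
  exact zHall_not_mem_nonunits_Rw2Q N A h hq he hQ hA h3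

include hq he hQ hA in
/-- **`w₁` is not coarser than `w₂` over `K₀`** -/
theorem not_Rw1K0_le_Rw2QK0 : ¬ RwK0 A N ≤ (redData2QK0 A N h).Rw := by
  intro hle
  apply not_Rw2QK0_le_Rw1K0 A N h hq he hQ hA
  intro f hf
  have h1 : wAutQK0 A N h f ∈ (redData2QK0 A N h).Rw := hle hf
  rw [mem_Rw2QK0_iff_wAutQK0, wAutQK0_wAutQK0] at h1
  exact h1

include hq he hQ hA in
theorem Rw1K0_ne_Rw2QK0 : RwK0 A N ≠ (redData2QK0 A N h).Rw := fun heq =>
  not_Rw1K0_le_Rw2QK0 A N h hq he hQ hA (le_of_eq heq)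

end Ne

end W2

end Fermat.Agent.GL.Val.SecondK0Hall
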