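/-
GATE-L / L1e-w3, file A (helper26): RATIONALITY OF CUSP EXPANSIONS and the value group of a cusp
valuation on a rational subfield.

`c ∈ I0 N` any cusp of `X₀(N)`, `σ_c = cuspSigma N c : F_N → ℚ̄((t))` the expansion at `c`
(helper62), `ι : T → ℚ̄` a subfield containing the roots of unity `ξ_d` of the Hermite series
`σ_c (j(q^d)) = j(ξ_d t^{m_d})`, `d ∣ N`.  Then

* `cuspFieldT ≤ T((t))`, the field generated over `T` by the `j(ξ_d t^{m_d})`, has the Gauss
  fraction property for every valuation subring of `T` (helper45 `hasGaussFrac_adjoin`), and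
  `coeffMap ι` maps it into helper18's `cuspField N c`;
* `ratSubfield` : the subfield of `F_N` of the functions whose expansion at `c` comes from
  `cuspFieldT`; it contains the constants of `T`, the generators `j(q^d)`, hence the image of
  `L(X₀(N))` for every `L ⊂ T` (`coeffMap_mem_ratSubfield`);
* **`exists_const_div_unit`** : every nonzero `f ∈ ratSubfield` is `ι a · (unit of the cusp valuation
  ring)` with `a ∈ T` — the value group of `w_c` on the `T`-rational functions is `v(Tˣ)`.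

Generic input (`exists_const_div_mem_Rw`): helper45's base change for Gauss valuations.
-/
import Fermat.Agent.GL.Cusp.CuspRedData
import Fermat.Agent.GK.Val.GaussBaseChange

set_option autoImplicit false

noncomputable section

namespace Fermat.Agent.GL.Val.CuspCoeff

open HahnSeries ModularCurve IsLocalRing
open Fermat.Agent.S24 Fermat.Agent.S28 Fermat.Agent.S28.CuspExp Fermat.Agent.S28.Assemble
open Fermat.Agent.S24_helper62 Fermat.Agent.S24.Degree
open Fermat.Agent.GJ.J1 Fermat.Agent.GJ.J1.Val Fermat.Agent.GK.Val Fermat.Agent.GK.Val.BaseChange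
open Fermat.Agent.GL.CuspVal

/-! ### Generic: constants of the small field suffice -/

section Generic

variable {L L' : Type*} [Field L] [Field L'] (ι : L →+* L')
  (A : ValuationSubring L) (A' : ValuationSubring L') (hA : ∀ x : L, x ∈ A ↔ ι x ∈ A')
  (F : IntermediateField L (LaurentSeries L)) (F' : IntermediateField L' (LaurentSeries L'))
  (hF : ∀ x ∈ F, coeffMap ι x ∈ F') (hGF : HasGaussFrac A F) (hGF' : HasGaussFrac A' F')

theorem mapF_algebraMap (a : L) :
    mapF ι F F' hF (algebraMap L F a) = algebraMap L' F' (ι a) := by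
  ext1
  rw [coe_mapF]
  show coeffMap ι (algebraMap L (LaurentSeries L) a) = algebraMap L' (LaurentSeries L') (ι a)
  rw [algebraMap_laurentSeries_eq_single, coeffMap_single, algebraMap_laurentSeries_eq_single]

include hA hGF in
/-- every nonzero element of the image of `F` in `F'` is a constant OF THE SMALL FIELD times a unit
of the Gauss valuation ring of `F'`. -/
theorem exists_const_div_mem_Rw (x : F) (hx : x ≠ 0) :
    ∃ a : L, a ≠ 0 ∧ mapF ι F F' hF x / algebraMap L' F' (ι a) ∈ Rw A' F' hGF' ∧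
      (mapF ι F F' hF x / algebraMap L' F' (ι a))⁻¹ ∈ Rw A' F' hGF' := by
  obtain ⟨a, ha, h1, h2⟩ := unramified A F hGF x hx
  refine ⟨a, ha, ?_, ?_⟩
  · have := mapF_mem_Rw ι A A' hA F F' hF hGF hGF' h1
    rwa [map_div₀, mapF_algebraMap] at this
  · have := mapF_mem_Rw ι A A' hA F F' hF hGF hGF' h2
    rwa [map_inv₀, map_div₀, mapF_algebraMap] at this

end Generic

/-! ### The rational model of the expansions at a cusp -/

section Cusp

variable (N : ℕ) [NeZero N] (c : I0 N) {T : Type*} [Field T] (ι : T →+* Kbar)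

/-- the root of unity `ξ_d` in the expansion `σ_c (j(q^d)) = j(ξ_d t^{m_d})` -/
def cuspXi (d : DivIdx N) : Kbarˣ := xi (zetaBar N) N (herm N c d).Dn (herm N c d).B

/-- the exponent `m_d` -/
def cuspExpo (d : DivIdx N) : ℕ := (herm N c d).expo N

theorem cuspSigma_jdF_eq (d : DivIdx N) :
    cuspSigma N c (jdF N d.1 d.2) = jCuspR Kbar (cuspXi N c d) (cuspExpo N c d) := by
  rw [cuspSigma_jdF, hermiteSer, jCusp_eq_jCuspR]
  rfl

theorem cuspXi_pow (d : DivIdx N) : cuspXi N c d ^ N = 1 := by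
  rw [cuspXi, xi, ← zpow_natCast, ← zpow_mul, mul_comm, zpow_mul, zpow_natCast, zetaBar_pow,
    one_zpow]

variable (hξ : ∀ d : DivIdx N, ((cuspXi N c d : Kbarˣ) : Kbar) ∈ ι.range)

/-- `ξ_d` as a unit of `T` -/
def xiT (d : DivIdx N) : Tˣ :=
  Units.mk0 (hξ d).choose (by
    intro h
    have h1 := (hξ d).choose_spec
    rw [h, map_zero] at h1
    exact (cuspXi N c d).ne_zero h1.symm)

theorem map_xiT (d : DivIdx N) :
    Units.map (ι : T →* Kbar) (xiT N c ι hξ d) = cuspXi N c d :=
  Units.ext (hξ d).choose_spec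

theorem xiT_pow (d : DivIdx N) : xiT N c ι hξ d ^ N = 1 := by
  apply Units.map_injective (f := (ι : T →* Kbar)) (by exact_mod_cast ι.injective)
  rw [map_pow, map_xiT, cuspXi_pow, map_one]

/-- the `T`-rational series `j(ξ_d t^{m_d})` -/
def genT (d : DivIdx N) : LaurentSeries T := jCuspR T (xiT N c ι hξ d) (cuspExpo N c d)

theorem coeffMap_genT (d : DivIdx N) :
    coeffMap ι (genT N c ι hξ d) = cuspSigma N c (jdF N d.1 d.2) := by
  rw [genT, coeffMap_jCuspR, map_xiT, cuspSigma_jdF_eq]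

/-- the field generated over `T` by the expansions of the generators -/
def cuspFieldT : IntermediateField T (LaurentSeries T) :=
  IntermediateField.adjoin T (Set.range (genT N c ι hξ))

theorem genT_mem (d : DivIdx N) : genT N c ι hξ d ∈ cuspFieldT N c ι hξ :=
  IntermediateField.subset_adjoin T _ ⟨d, rfl⟩

/-- `ι_*` maps the rational model into the field of expansions over `ℚ̄` -/
theorem coeffMap_mem_cuspField {x : LaurentSeries T} (hx : x ∈ cuspFieldT N c ι hξ) :
    coeffMap ι x ∈ cuspField N c := by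
  have key : (cuspFieldT N c ι hξ).toSubfield ≤ (cuspField N c).toSubfield.comap (coeffMap ι) := by
    unfold cuspFieldT
    apply IntermediateField.adjoin_le_subfield
    · rintro _ ⟨a, rfl⟩
      rw [SetLike.mem_coe, Subfield.mem_comap, IntermediateField.mem_toSubfield,
        algebraMap_laurentSeries_eq_single, coeffMap_single,
        ← algebraMap_laurentSeries_eq_single]
      exact IntermediateField.algebraMap_mem _ _
    · rintro _ ⟨d, rfl⟩
      rw [SetLike.mem_coe, Subfield.mem_comap, IntermediateField.mem_toSubfield, coeffMap_genT]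
      exact cuspSigma_mem_cuspField N c _
  exact key hx

/-! ### The Gauss fraction property of the rational model -/

/-- the subring `ℤ[ξ_d, ξ_d⁻¹ : d ∣ N]` of `T` -/
def xiRing : Subring T :=
  (Algebra.adjoin ℤ (Set.range (fun d : DivIdx N => ((xiT N c ι hξ d : Tˣ) : T)) ∪
    Set.range (fun d : DivIdx N => (((xiT N c ι hξ d)⁻¹ : Tˣ) : T)))).toSubring

theorem xiT_mem_xiRing (d : DivIdx N) : ((xiT N c ι hξ d : Tˣ) : T) ∈ xiRing N c ι hξ :=
  Algebra.subset_adjoin (Or.inl ⟨d, rfl⟩)

theorem xiT_inv_mem_xiRing (d : DivIdx N) :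
    (((xiT N c ι hξ d)⁻¹ : Tˣ) : T) ∈ xiRing N c ι hξ :=
  Algebra.subset_adjoin (Or.inr ⟨d, rfl⟩)

theorem xiT_zpow_mem_xiRing (d : DivIdx N) (z : ℤ) :
    (((xiT N c ι hξ d) ^ z : Tˣ) : T) ∈ xiRing N c ι hξ := by
  obtain ⟨n, rfl | rfl⟩ := z.eq_nat_or_neg
  · rw [zpow_natCast, Units.val_pow_eq_pow_val]
    exact pow_mem (xiT_mem_xiRing N c ι hξ d) n
  · rw [zpow_neg, zpow_natCast, ← inv_pow, Units.val_pow_eq_pow_val]
    exact pow_mem (xiT_inv_mem_xiRing N c ι hξ d) n

/-- `ℤ[ξ_d^{±1}]` is a finitely generated `ℤ`-module -/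
theorem exists_finite_span_xiRing :
    ∃ B₀ : Set T, B₀.Finite ∧ ∀ x ∈ xiRing N c ι hξ, x ∈ Submodule.span ℤ B₀ := by
  have hN : 0 < N := Nat.pos_of_ne_zero (NeZero.ne N)
  have hfg : (Subalgebra.toSubmodule (Algebra.adjoin ℤ
      (Set.range (fun d : DivIdx N => ((xiT N c ι hξ d : Tˣ) : T)) ∪
        Set.range (fun d : DivIdx N => (((xiT N c ι hξ d)⁻¹ : Tˣ) : T))))).FG := by
    refine fg_adjoin_of_finite ((Set.finite_range _).union (Set.finite_range _)) ?_
    rintro x (⟨d, rfl⟩ | ⟨d, rfl⟩)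
    · refine IsIntegral.of_pow hN ?_
      rw [← Units.val_pow_eq_pow_val, xiT_pow, Units.val_one]
      exact isIntegral_one
    · refine IsIntegral.of_pow hN ?_
      rw [← Units.val_pow_eq_pow_val, inv_pow, xiT_pow, inv_one, Units.val_one]
      exact isIntegral_one
  obtain ⟨S, hS⟩ := hfg
  refine ⟨(S : Set T), S.finite_toSet, fun x hx => ?_⟩
  rw [hS]
  exact hx

/-- the coefficients of `j` lie in every subring -/
theorem jqModC_coeff_mem' (S : Subring T) (n : ℤ) : (jqModC T).coeff n ∈ S := by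
  rw [← coeffMap_jqModC (Int.castRingHom T), coeffMap_coeff]
  exact intCast_mem S _

theorem genT_mem_coeffSubring (d : DivIdx N) :
    genT N c ι hξ d ∈ coeffSubring (xiRing N c ι hξ) := by
  intro k
  rw [genT, ← jCusp_eq_jCuspR]
  by_cases hm : cuspExpo N c d = 0
  · rw [jCusp, dif_pos hm, HahnSeries.coeff_zero]
    exact zero_mem _
  have : NeZero (cuspExpo N c d) := ⟨hm⟩
  by_cases hdvd : (cuspExpo N c d : ℤ) ∣ k
  · obtain ⟨n, rfl⟩ := hdvd
    rw [jCusp_coeff_mul]
    exact mul_mem (xiT_zpow_mem_xiRing N c ι hξ d n) (jqModC_coeff_mem' _ n)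
  · rw [jCusp_coeff_of_not_dvd _ _ hdvd]
    exact zero_mem _

/-- **the rational model has the Gauss fraction property**, for every valuation subring of `T` -/
theorem hasGaussFrac_cuspFieldT (AT : ValuationSubring T) :
    HasGaussFrac AT (cuspFieldT N c ι hξ) := by
  obtain ⟨B₀, hfin, hB₀⟩ := exists_finite_span_xiRing N c ι hξ
  refine hasGaussFrac_adjoin AT (xiRing N c ι hξ) B₀ hfin hB₀ _ ?_
  rintro _ ⟨d, rfl⟩
  exact genT_mem_coeffSubring N c ι hξ d

/-! ### The rational subfield of `F_N` -/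

/-- the expansion at `c` as a bare ring homomorphism (keeps instance search fast) -/
def sigmaHom : FN N →+* LaurentSeries Kbar := (cuspSigma N c).toRingHom

theorem sigmaHom_apply (f : FN N) : sigmaHom N c f = cuspSigma N c f := rfl

/-- the functions whose expansion at the cusp `c` comes from the rational model -/
def ratSubfield : Subfield (FN N) where
  carrier := {f | ∃ x ∈ cuspFieldT N c ι hξ, coeffMap ι x = cuspSigma N c f}
  mul_mem' := by
    rintro f g ⟨x, hx, hxf⟩ ⟨y, hy, hyg⟩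
    refine ⟨x * y, mul_mem hx hy, ?_⟩
    rw [← sigmaHom_apply] at hxf hyg ⊢
    rw [map_mul, map_mul, hxf, hyg]
  one_mem' := by
    refine ⟨1, one_mem _, ?_⟩
    rw [← sigmaHom_apply, map_one, map_one]
  add_mem' := by
    rintro f g ⟨x, hx, hxf⟩ ⟨y, hy, hyg⟩
    refine ⟨x + y, add_mem hx hy, ?_⟩
    rw [← sigmaHom_apply] at hxf hyg ⊢
    rw [map_add, map_add, hxf, hyg]
  zero_mem' := by
    refine ⟨0, zero_mem _, ?_⟩
    rw [← sigmaHom_apply, map_zero, map_zero]
  neg_mem' := by
    rintro f ⟨x, hx, hxf⟩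
    refine ⟨-x, neg_mem hx, ?_⟩
    rw [← sigmaHom_apply] at hxf ⊢
    rw [map_neg, map_neg, hxf]
  inv_mem' := by
    rintro f ⟨x, hx, hxf⟩
    refine ⟨x⁻¹, inv_mem hx, ?_⟩
    rw [← sigmaHom_apply] at hxf ⊢
    rw [map_inv₀, map_inv₀, hxf]

theorem mem_ratSubfield_iff {f : FN N} :
    f ∈ ratSubfield N c ι hξ ↔ ∃ x ∈ cuspFieldT N c ι hξ, coeffMap ι x = cuspSigma N c f :=
  Iff.rfl

theorem jdF_mem_ratSubfield (d : DivIdx N) : jdF N d.1 d.2 ∈ ratSubfield N c ι hξ :=
  ⟨genT N c ι hξ d, genT_mem N c ι hξ d, coeffMap_genT N c ι hξ d⟩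

theorem algebraMap_mem_ratSubfield (a : T) :
    algebraMap Kbar (FN N) (ι a) ∈ ratSubfield N c ι hξ := by
  refine ⟨algebraMap T (LaurentSeries T) a, IntermediateField.algebraMap_mem _ _, ?_⟩
  rw [AlgHom.commutes, algebraMap_laurentSeries_eq_single, coeffMap_single,
    algebraMap_laurentSeries_eq_single]

/-- **the value group of the cusp valuation on the `T`-rational functions is `v(Tˣ)`** -/
theorem exists_const_div_unit (A : ValuationSubring Kbar) {f : FN N}
    (hf : f ∈ ratSubfield N c ι hξ) (hf0 : f ≠ 0) :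
    ∃ a : T, a ≠ 0 ∧ f / algebraMap Kbar (FN N) (ι a) ∈ (redDataCusp N A c).Rw ∧
      (f / algebraMap Kbar (FN N) (ι a))⁻¹ ∈ (redDataCusp N A c).Rw := by
  obtain ⟨x, hx, hxf⟩ := hf
  have hx0 : (⟨x, hx⟩ : cuspFieldT N c ι hξ) ≠ 0 := by
    intro h
    have h1 : x = 0 := congrArg Subtype.val h
    rw [h1, map_zero] at hxf
    exact hf0 ((map_eq_zero_iff _ (cuspSigma N c).toRingHom.injective).mp hxf.symm)
  obtain ⟨a, ha, h1, h2⟩ := exists_const_div_mem_Rw ι (A.comap ι) A (fun _ => Iff.rfl)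
    (cuspFieldT N c ι hξ) (cuspField N c) (fun _ h => coeffMap_mem_cuspField N c ι hξ h)
    (hasGaussFrac_cuspFieldT N c ι hξ (A.comap ι)) (hasGaussFrac_cusp N A c) ⟨x, hx⟩ hx0
  have hmap : mapF ι (cuspFieldT N c ι hξ) (cuspField N c)
      (fun _ h => coeffMap_mem_cuspField N c ι hξ h) ⟨x, hx⟩ = cuspEquiv N c f := by
    ext1
    rw [coe_mapF, coe_cuspEquiv]
    exact hxf
  rw [hmap] at h1 h2
  refine ⟨a, ha, ?_, ?_⟩
  · rw [mem_RwCusp_iff, map_div₀, AlgEquiv.commutes]
    exact h1
  · rw [mem_RwCusp_iff, map_inv₀, map_div₀, AlgEquiv.commutes]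
    exact h2

/-! ### The image of `L(X₀(N))`, `L ⊂ T`, is `T`-rational at every such cusp -/

section BaseField

variable {L : Type*} [Field L] (ι₀ : L →+* Kbar)

omit [NeZero N] in
theorem coeffMap_mem_bar {x : LaurentSeries L} (hx : x ∈ modularFunctionFieldFullC L N) :
    coeffMap ι₀ x ∈ modularFunctionFieldBar N := by
  rw [modularFunctionFieldBar_eq]
  exact coeffMap_mem_fullC ι₀ N hx

/-- the base extension `L(X₀(N)) →+* F_N = ℚ̄(X₀(N))` -/
def toFN : modularFunctionFieldFullC L N →+* FN N where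
  toFun x := ⟨coeffMap ι₀ (x : LaurentSeries L), coeffMap_mem_bar N ι₀ x.2⟩
  map_one' := by ext1; simp
  map_mul' x y := by ext1; simp
  map_zero' := by ext1; simp
  map_add' x y := by ext1; simp

@[simp]
theorem coe_toFN (x : modularFunctionFieldFullC L N) :
    ((toFN N ι₀ x : FN N) : LaurentSeries Kbar) = coeffMap ι₀ (x : LaurentSeries L) := rfl

theorem toFN_algebraMap (a : L) :
    toFN N ι₀ (algebraMap L (modularFunctionFieldFullC L N) a) = algebraMap Kbar (FN N) (ι₀ a) := by
  ext1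
  rw [coe_toFN]
  show coeffMap ι₀ (algebraMap L (LaurentSeries L) a) = algebraMap Kbar (LaurentSeries Kbar) (ι₀ a)
  rw [algebraMap_laurentSeries_eq_single, coeffMap_single, algebraMap_laurentSeries_eq_single]

variable (κ : L →+* T)

/-- **`L(X₀(N))` lands in the `T`-rational subfield**, for every `L ⊂ T`. -/
theorem toFN_mem_ratSubfield (x : modularFunctionFieldFullC L N) :
    toFN N (ι.comp κ) x ∈ ratSubfield N c ι hξ := by
  have key : (modularFunctionFieldFullC L N).toSubfield ≤
      ((ratSubfield N c ι hξ).map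
        ((modularFunctionFieldBar N).val : FN N →+* LaurentSeries Kbar)).comap
          (coeffMap (ι.comp κ)) := by
    unfold modularFunctionFieldFullC
    apply IntermediateField.adjoin_le_subfield
    · rintro _ ⟨a, rfl⟩
      rw [SetLike.mem_coe, Subfield.mem_comap, Subfield.mem_map]
      refine ⟨algebraMap Kbar (FN N) (ι (κ a)), algebraMap_mem_ratSubfield N c ι hξ (κ a), ?_⟩
      rw [algebraMap_laurentSeries_eq_single, coeffMap_single,
        ← algebraMap_laurentSeries_eq_single]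
      rfl
    · rintro _ ⟨d, hne, hd, rfl⟩
      rw [SetLike.mem_coe, Subfield.mem_comap, Subfield.mem_map]
      refine ⟨jdF N d hd, jdF_mem_ratSubfield N c ι hξ ⟨d, hd⟩, ?_⟩
      rw [coeffMap_qExpand, coeffMap_jqModC]
      exact jdSeries_eq_jFam N ⟨d, hd⟩
  obtain ⟨f, hf, hfx⟩ := key x.2
  have : f = toFN N (ι.comp κ) x := Subtype.ext hfx
  rw [← this]
  exact hf

end BaseField

end Cusp

end Fermat.Agent.GL.Val.CuspCoeff
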