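/-
GATE-L / L1e-w3, file B (helper26): the cusp valuation `w_c` RESTRICTED TO `K₀(X₀(N))`.

`A | q` a valuation subring of `ℚ̄`, `K₀ = ℚ̄^{I_A}`, `R = A ∩ K₀` (helper45's `K0 A`, `R0 A`),
`c ∈ I0 N` a cusp all of whose Hermite roots of unity `ξ_d` have order dividing `q · m`, `q ∤ m`
(true at the cusp `1/q` of level `q² M'`: `ξ_d ∈ μ_q`).  Then the expansions at `c` of the
`K₀`-rational functions have coefficients in `K₁ = K₀(ζ_q)` (file A), whose value group is generated
by `v(1 - ζ_q)` (my `TameZeta`), hence: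

* `exists_zpow_div_unit` : every `f ≠ 0` of `K₀(X₀(N))` is `(1-ζ)^n ·` (unit of `w_c`), `n ∈ ℤ`;
* `RwCuspK0 A N c` : the valuation ring induced by `w_c` on `K₀(X₀(N))`;
* **`isRamified_cuspK0`** : if `y ∈ K₀(X₀(N))` has `w_c(y) = v(1-ζ)` (helper93's witness
  `y = j(q²z) - j(z)`) then helper90's `IsRamified (R0 A) q (RwCuspK0 A N c) y (q-1)` holds — `y` is a
  uniformiser and `e = q - 1`;
* `isDiscreteValuationRing_RwCuspK0`.
-/
import Fermat.Agent.GL.Val.CuspCoeff
import Fermat.Agent.GL.Val.GaussK0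
import Fermat.Agent.GL.Local.TameZeta
import Fermat.Agent.GL.MultiVal.RamFamily

set_option autoImplicit false

noncomputable section

namespace Fermat.Agent.GL.Val.CuspK0

open HahnSeries ModularCurve IsLocalRing
open Fermat.Agent.S24 Fermat.Agent.S28 Fermat.Agent.S28.CuspExp Fermat.Agent.S28.Assemble
open Fermat.Agent.S24_helper62 Fermat.Agent.S24.Degree
open Fermat.Agent.GJ.J1 Fermat.Agent.GJ.J1.Val Fermat.Agent.GK.Val
open Fermat.Agent.GL.CuspVal Fermat.Agent.GL.Val.CuspCoeff Fermat.Agent.GL.Val.GaussK0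
open Fermat.Agent.GL.Local.InertiaField Fermat.Agent.GL.MultiVal
open Fermat.Agent.Common_helper32
open IntermediateField

/-! ### Generic valuation-subring lemmas (Mathlib only) -/

section Generic

variable {F₀ F : Type*} [Field F₀] [Field F]

theorem valuation_eq_one_of_mem_of_inv_mem (W : ValuationSubring F) {x : F} (hx0 : x ≠ 0)
    (h1 : x ∈ W) (h2 : x⁻¹ ∈ W) : W.valuation x = 1 := by
  have hx1 : W.valuation x ≤ 1 := (W.valuation_le_one_iff x).mpr h1
  have hx2 : W.valuation x⁻¹ ≤ 1 := (W.valuation_le_one_iff _).mpr h2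
  have hv0 : 0 < W.valuation x := zero_lt_iff.mpr ((Valuation.ne_zero_iff _).mpr hx0)
  rw [map_inv₀, inv_le_one₀ hv0] at hx2
  exact le_antisymm hx1 hx2

/-- the valuation of a pulled-back valuation subring is the pulled-back valuation (as an order) -/
theorem valuation_comap_le_iff (W : ValuationSubring F) (f : F₀ →+* F) (x y : F₀) :
    (W.comap f).valuation x ≤ (W.comap f).valuation y ↔ W.valuation (f x) ≤ W.valuation (f y) := by
  by_cases hy : y = 0
  · subst hy
    rw [map_zero, map_zero, map_zero, le_zero_iff, le_zero_iff, Valuation.zero_iff,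
      Valuation.zero_iff, map_eq_zero]
  · have hfy : f y ≠ 0 := (map_ne_zero f).mpr hy
    have h1 : 0 < (W.comap f).valuation y := zero_lt_iff.mpr ((Valuation.ne_zero_iff _).mpr hy)
    have h2 : 0 < W.valuation (f y) := zero_lt_iff.mpr ((Valuation.ne_zero_iff _).mpr hfy)
    rw [← div_le_one₀ h1, ← div_le_one₀ h2, ← map_div₀, ← map_div₀,
      ValuationSubring.valuation_le_one_iff, ValuationSubring.valuation_le_one_iff,
      ValuationSubring.mem_comap, map_div₀]

theorem valuation_comap_lt_iff (W : ValuationSubring F) (f : F₀ →+* F) (x y : F₀) :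
    (W.comap f).valuation x < (W.comap f).valuation y ↔ W.valuation (f x) < W.valuation (f y) := by
  rw [← not_le, ← not_le, valuation_comap_le_iff]

theorem valuation_comap_eq_iff (W : ValuationSubring F) (f : F₀ →+* F) (x y : F₀) :
    (W.comap f).valuation x = (W.comap f).valuation y ↔ W.valuation (f x) = W.valuation (f y) := by
  rw [le_antisymm_iff, le_antisymm_iff, valuation_comap_le_iff, valuation_comap_le_iff]

/-- a reduction datum induces its base valuation on the constants (as an order) -/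
theorem redData_valuation_algebraMap_le_iff {K F k Ft : Type*} [Field K] [Field F] [Algebra K F]
    [Field k] [Field Ft] [Algebra k Ft] (R : RedData K F k Ft) (a b : K) :
    R.Rw.valuation (algebraMap K F a) ≤ R.Rw.valuation (algebraMap K F b) ↔
      R.A.valuation a ≤ R.A.valuation b := by
  have h : R.A = R.Rw.comap (algebraMap K F) := by
    ext x
    exact R.mem_A_iff x
  rw [h, valuation_comap_le_iff]

theorem redData_valuation_algebraMap_lt_iff {K F k Ft : Type*} [Field K] [Field F] [Algebra K F]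
    [Field k] [Field Ft] [Algebra k Ft] (R : RedData K F k Ft) (a b : K) :
    R.Rw.valuation (algebraMap K F a) < R.Rw.valuation (algebraMap K F b) ↔
      R.A.valuation a < R.A.valuation b := by
  rw [← not_le, ← not_le, redData_valuation_algebraMap_le_iff]

theorem redData_valuation_algebraMap_eq_iff {K F k Ft : Type*} [Field K] [Field F] [Algebra K F]
    [Field k] [Field Ft] [Algebra k Ft] (R : RedData K F k Ft) (a b : K) :
    R.Rw.valuation (algebraMap K F a) = R.Rw.valuation (algebraMap K F b) ↔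
      R.A.valuation a = R.A.valuation b := by
  rw [le_antisymm_iff, le_antisymm_iff, redData_valuation_algebraMap_le_iff,
    redData_valuation_algebraMap_le_iff]

end Generic

/-! ### The tame field `K₁ = K₀(ζ_q)` as a bare field -/

section Tame

variable (A : ValuationSubring Qb) (ζ : Qb)

/-- `K₁ = K₀(ζ_q)` as a BARE field (same reason as helper45's `K0 A`) -/
def K1 : Type := ↥(tameField A ζ)

instance instFieldK1 : Field (K1 A ζ) := inferInstanceAs (Field ↥(tameField A ζ))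

/-- the inclusion `K₁ → ℚ̄` -/
def ι1 : K1 A ζ →+* Qb := algebraMap ↥(tameField A ζ) Qb

/-- the inclusion `K₀ → K₁` -/
def κ01 : K0 A →+* K1 A ζ := algebraMap ↥(inertiaField A) ↥(tameField A ζ)

theorem ι1_comp_κ01 : (ι1 A ζ).comp (κ01 A ζ) = ι0 A := rfl

theorem ι1_mem (a : K1 A ζ) : ι1 A ζ a ∈ (inertiaField A)⟮ζ⟯ := Subtype.property (p := fun x => x ∈ (inertiaField A)⟮ζ⟯) a

theorem mem_range_ι1_iff (x : Qb) : x ∈ (ι1 A ζ).range ↔ x ∈ (inertiaField A)⟮ζ⟯ := by
  constructor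
  · rintro ⟨a, rfl⟩
    exact ι1_mem A ζ a
  · intro hx
    exact ⟨(⟨x, hx⟩ : ↥(tameField A ζ)), rfl⟩

variable {q : ℕ} (hq : q.Prime) (hA : (q : Qb) ∈ A.nonunits) {ζ}

include hq hA in
/-- roots of unity of order dividing `q · m`, `q ∤ m`, lie in `K₀(ζ_q)` -/
theorem rootOfUnity_mem_tameField (hζ : IsPrimitiveRoot ζ q) {x : Qb} {m : ℕ} (hm : ¬ q ∣ m)
    (hx : x ^ (q * m) = 1) : x ∈ (inertiaField A)⟮ζ⟯ := by
  have hm0 : m ≠ 0 := fun h => hm (h ▸ dvd_zero q)
  have hx0 : x ≠ 0 := by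
    intro h0
    rw [h0, zero_pow (Nat.mul_ne_zero hq.ne_zero hm0)] at hx
    exact zero_ne_one hx
  have h1 : x ^ q ∈ inertiaField A :=
    rootOfUnity_mem_inertiaField A hq hA hm (by rw [← pow_mul]; exact hx)
  have h1' : x ^ q ∈ (inertiaField A)⟮ζ⟯ :=
    ((inertiaField A)⟮ζ⟯).algebraMap_mem (⟨x ^ q, h1⟩ : inertiaField A)
  have h2 : x ^ m ∈ (inertiaField A)⟮ζ⟯ := by
    have h3 : (x ^ m) ^ q = 1 := by rw [← pow_mul, mul_comm]; exact hx
    have : NeZero q := ⟨hq.ne_zero⟩
    obtain ⟨i, -, hi⟩ := hζ.eq_pow_of_pow_eq_one h3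
    rw [← hi]
    exact pow_mem (IntermediateField.mem_adjoin_simple_self _ ζ) i
  have hcop : IsCoprime (q : ℤ) (m : ℤ) :=
    Nat.isCoprime_iff_coprime.mpr ((Nat.Prime.coprime_iff_not_dvd hq).mpr hm)
  obtain ⟨a, b, hab⟩ := hcop
  have hx' : x = (x ^ q) ^ a * (x ^ m) ^ b := by
    rw [← zpow_natCast x q, ← zpow_natCast x m, ← zpow_mul, ← zpow_mul, ← zpow_add₀ hx0,
      mul_comm (q : ℤ) a, mul_comm (m : ℤ) b, hab, zpow_one]
  rw [hx']
  exact mul_mem (zpow_mem h1' a) (zpow_mem h2 b)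

end Tame

/-! ### The cusp valuation on `K₀(X₀(N))` -/

section Main

variable (A : ValuationSubring Qb) (N : ℕ) [NeZero N] (c : I0 N) {q : ℕ} (hq : q.Prime)
  (hA : (q : Qb) ∈ A.nonunits) {ζ : Qb} (hζ : IsPrimitiveRoot ζ q)
  (hc : ∀ d : DivIdx N, ∃ m : ℕ, ¬ q ∣ m ∧ ((cuspXi N c d : Kbarˣ) : Kbar) ^ (q * m) = 1)

include hq hA hζ hc in
/-- the Hermite roots of unity of the cusp are `K₁`-rational -/
theorem cuspXi_mem_range (d : DivIdx N) : ((cuspXi N c d : Kbarˣ) : Kbar) ∈ (ι1 A ζ).range := by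
  obtain ⟨m, hm, hx⟩ := hc d
  rw [mem_range_ι1_iff]
  exact rootOfUnity_mem_tameField A hq hA hζ hm hx

/-- the base extension `K₀(X₀(N)) → F_N = ℚ̄(X₀(N))` -/
abbrev toFN0 : modularFunctionFieldFullC (K0 A) N →+* FN N := toFN N (ι0 A)

/-- `toFN0` is helper45's `mapK0`, read in `F_N = ↥(modularFunctionFieldBar N)` -/
theorem coe_toFN0_eq_coe_mapK0 (x : modularFunctionFieldFullC (K0 A) N) :
    ((toFN0 A N x : FN N) : LaurentSeries Kbar) =
      ((mapK0 A N x : modularFunctionFieldFullC Qb N) : LaurentSeries Qb) := by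
  rw [coe_toFN, Fermat.Agent.GK.Val.BaseChange.coe_mapF]

theorem toFN0_eq (x : modularFunctionFieldFullC (K0 A) N) :
    toFN0 A N x = ⟨((mapK0 A N x : modularFunctionFieldFullC Qb N) : LaurentSeries Qb),
      coe_mapK0_mem_bar A N x⟩ :=
  Subtype.ext (coe_toFN0_eq_coe_mapK0 A N x)

/-- the valuation ring induced by the cusp valuation `w_c` on `K₀(X₀(N))` -/
def RwCuspK0 : ValuationSubring (modularFunctionFieldFullC (K0 A) N) :=
  (redDataCusp N A c).Rw.comap (toFN0 A N)

theorem mem_RwCuspK0_iff (x : modularFunctionFieldFullC (K0 A) N) :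
    x ∈ RwCuspK0 A N c ↔ toFN0 A N x ∈ (redDataCusp N A c).Rw := Iff.rfl

/-- constants: `w_c` induces `R = A ∩ K₀` on `K₀` -/
theorem algebraMap_mem_RwCuspK0_iff (a : K0 A) :
    algebraMap (K0 A) (modularFunctionFieldFullC (K0 A) N) a ∈ RwCuspK0 A N c ↔ a ∈ R0 A := by
  rw [mem_RwCuspK0_iff, toFN_algebraMap, ← (redDataCusp N A c).mem_A_iff, redDataCusp_A]
  exact Iff.rfl

include hq hA hζ hc in
/-- `K₀(X₀(N))` lands in the `K₁`-rational subfield at the cusp `c` -/
theorem toFN0_mem_ratSubfield (x : modularFunctionFieldFullC (K0 A) N) :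
    toFN0 A N x ∈ ratSubfield N c (ι1 A ζ) (cuspXi_mem_range A N c hq hA hζ hc) :=
  toFN_mem_ratSubfield N c (ι1 A ζ) (cuspXi_mem_range A N c hq hA hζ hc) (κ01 A ζ) x

/-- constants of `A^×` are units of the cusp valuation ring -/
theorem algebraMap_unit_mem {u : Qb} (h1 : u ∈ A) (h2 : u⁻¹ ∈ A) :
    algebraMap Kbar (FN N) u ∈ (redDataCusp N A c).Rw ∧
      (algebraMap Kbar (FN N) u)⁻¹ ∈ (redDataCusp N A c).Rw := by
  refine ⟨((redDataCusp N A c).mem_A_iff u).1 h1, ?_⟩
  rw [← map_inv₀]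
  exact ((redDataCusp N A c).mem_A_iff u⁻¹).1 h2

include hq hA hζ hc in
/-- **the value group of `w_c` on `K₀(X₀(N))` is contained in `⟨v(1 - ζ_q)⟩`**: every nonzero
`K₀`-rational function is `(1-ζ)^n` times a unit of the cusp valuation ring. -/
theorem exists_zpow_div_unit {x : modularFunctionFieldFullC (K0 A) N} (hx : x ≠ 0) :
    ∃ n : ℤ, toFN0 A N x / algebraMap Kbar (FN N) ((1 - ζ) ^ n) ∈ (redDataCusp N A c).Rw ∧
      (toFN0 A N x / algebraMap Kbar (FN N) ((1 - ζ) ^ n))⁻¹ ∈ (redDataCusp N A c).Rw := by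
  have hfx : toFN0 A N x ≠ 0 := (map_ne_zero _).mpr hx
  obtain ⟨a, ha, h1, h2⟩ := exists_const_div_unit N c (ι1 A ζ)
    (cuspXi_mem_range A N c hq hA hζ hc) A (toFN0_mem_ratSubfield A N c hq hA hζ hc x) hfx
  have ha0 : ι1 A ζ a ≠ 0 := (map_ne_zero _).mpr ha
  obtain ⟨n, hn⟩ := exists_valuation_eq_zpow_of_mem_adjoin_zeta A hq hA hζ (ι1_mem A ζ a) ha0
  have hπ0 : (1 - ζ : Qb) ≠ 0 := one_sub_zeta_ne_zero hq hζ
  have hπn0 : ((1 - ζ : Qb)) ^ n ≠ 0 := zpow_ne_zero _ hπ0
  set u : Qb := ι1 A ζ a / (1 - ζ) ^ n with hu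
  have hvu : A.valuation u = 1 := by
    rw [hu, map_div₀, map_zpow₀, hn, div_self]
    exact zpow_ne_zero _ ((Valuation.ne_zero_iff _).mpr hπ0)
  have hu1 : u ∈ A := (A.valuation_le_one_iff u).mp hvu.le
  have hu2 : u⁻¹ ∈ A := by
    rw [← A.valuation_le_one_iff, map_inv₀, hvu, inv_one]
  obtain ⟨h3, h4⟩ := algebraMap_unit_mem A N c hu1 hu2
  have hAa0 : algebraMap Kbar (FN N) (ι1 A ζ a) ≠ 0 := (map_ne_zero _).mpr ha0
  have hAπ0 : algebraMap Kbar (FN N) ((1 - ζ) ^ n) ≠ 0 := (map_ne_zero _).mpr hπn0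
  have key : toFN0 A N x / algebraMap Kbar (FN N) ((1 - ζ) ^ n) =
      toFN0 A N x / algebraMap Kbar (FN N) (ι1 A ζ a) * algebraMap Kbar (FN N) u := by
    rw [hu, map_div₀]
    field_simp
  refine ⟨n, ?_, ?_⟩
  · rw [key]
    exact mul_mem h1 h3
  · rw [key, mul_inv]
    exact mul_mem h2 h4

include hq hA hζ hc in
/-- valuation form: `w_c(f) ∈ ℤ · w_c(1 - ζ)` -/
theorem exists_valuation_eq_zpow {x : modularFunctionFieldFullC (K0 A) N} (hx : x ≠ 0) :
    ∃ n : ℤ, (redDataCusp N A c).Rw.valuation (toFN0 A N x) =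
      (redDataCusp N A c).Rw.valuation (algebraMap Kbar (FN N) (1 - ζ)) ^ n := by
  obtain ⟨n, h1, h2⟩ := exists_zpow_div_unit A N c hq hA hζ hc hx
  have hfx : toFN0 A N x ≠ 0 := (map_ne_zero _).mpr hx
  have hπ0 : (1 - ζ : Qb) ≠ 0 := one_sub_zeta_ne_zero hq hζ
  have hAπ0 : algebraMap Kbar (FN N) ((1 - ζ) ^ n) ≠ 0 :=
    (map_ne_zero _).mpr (zpow_ne_zero _ hπ0)
  have h3 := valuation_eq_one_of_mem_of_inv_mem _ (div_ne_zero hfx hAπ0) h1 h2
  rw [map_div₀, div_eq_one_iff_eq ((Valuation.ne_zero_iff _).mpr hAπ0), map_zpow₀,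
    map_zpow₀] at h3
  exact ⟨n, h3⟩

include hq hζ in
/-- the hypothesis `hy` below, from the unit form `y / (1 - ζ) ∈ Rw^×` (helper93's witness) -/
theorem valuation_eq_of_div_unit {y : modularFunctionFieldFullC (K0 A) N} (hy0 : y ≠ 0)
    (h1 : toFN0 A N y / algebraMap Kbar (FN N) (1 - ζ) ∈ (redDataCusp N A c).Rw)
    (h2 : (toFN0 A N y / algebraMap Kbar (FN N) (1 - ζ))⁻¹ ∈ (redDataCusp N A c).Rw) :
    (redDataCusp N A c).Rw.valuation (toFN0 A N y) =
      (redDataCusp N A c).Rw.valuation (algebraMap Kbar (FN N) (1 - ζ)) := by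
  have hfy : toFN0 A N y ≠ 0 := (map_ne_zero _).mpr hy0
  have hAπ0 : algebraMap Kbar (FN N) (1 - ζ) ≠ 0 :=
    (map_ne_zero _).mpr (one_sub_zeta_ne_zero hq hζ)
  have h3 := valuation_eq_one_of_mem_of_inv_mem _ (div_ne_zero hfy hAπ0) h1 h2
  rwa [map_div₀, div_eq_one_iff_eq ((Valuation.ne_zero_iff _).mpr hAπ0)] at h3

/-! ### Ramification: `e = q - 1`, uniformiser = any `y` with `w_c(y) = v(1 - ζ)` -/

section Ramified

variable (y : modularFunctionFieldFullC (K0 A) N)
  (hy : (redDataCusp N A c).Rw.valuation (toFN0 A N y) =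
    (redDataCusp N A c).Rw.valuation (algebraMap Kbar (FN N) (1 - ζ)))

include hq hA hζ in
theorem valuation_unif_lt_one :
    (redDataCusp N A c).Rw.valuation (algebraMap Kbar (FN N) (1 - ζ)) < 1 := by
  have h := (redData_valuation_algebraMap_lt_iff (redDataCusp N A c) (1 - ζ) 1).mpr (by
    rw [map_one]
    exact (A.mem_nonunits_iff).mp (one_sub_zeta_mem_nonunits A hq hA hζ))
  rwa [map_one, map_one] at h

include hq hζ in
theorem valuation_unif_ne_zero :
    (redDataCusp N A c).Rw.valuation (algebraMap Kbar (FN N) (1 - ζ)) ≠ 0 :=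
  (Valuation.ne_zero_iff _).mpr ((map_ne_zero _).mpr (one_sub_zeta_ne_zero hq hζ))

include hq hA hζ hc hy in
/-- **`w_c` restricted to `K₀(X₀(N))` is ramified of index `q - 1` over `R`, with uniformiser `y`**
(helper90's `IsRamified`, verbatim). -/
theorem isRamified_cuspK0 :
    IsRamified (R0 A) ((q : ℕ) : K0 A) (RwCuspK0 A N c) y (q - 1) := by
  have hlt := valuation_unif_lt_one A N c hq hA hζ
  have hne := valuation_unif_ne_zero A N c hq hζ
  refine ⟨algebraMap_mem_RwCuspK0_iff A N c, ?_, ?_, ?_⟩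
  · -- `lt_one`
    have h := (valuation_comap_lt_iff (redDataCusp N A c).Rw (toFN0 A N) y 1).mpr (by
      rw [map_one, map_one, hy]
      exact hlt)
    rwa [map_one] at h
  · -- `gen`
    intro x hx
    by_cases hx0 : x = 0
    · rw [hx0, map_zero]
      exact zero_le
    have hx' : (redDataCusp N A c).Rw.valuation (toFN0 A N x) < 1 := by
      have h := (valuation_comap_lt_iff (redDataCusp N A c).Rw (toFN0 A N) x 1).mp (by
        rw [map_one]
        exact hx)
      rwa [map_one, map_one] at h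
    obtain ⟨n, hn⟩ := exists_valuation_eq_zpow A N c hq hA hζ hc hx0
    have hanti := zpow_right_strictAnti₀ (zero_lt_iff.2 hne) hlt
    have hn1 : 1 ≤ n := by
      by_contra hcon
      push Not at hcon
      have hn0 : n ≤ 0 := by omega
      have h1 := hanti.antitone hn0
      simp only [zpow_zero] at h1
      rw [hn] at hx'
      exact absurd hx' (not_lt.mpr h1)
    show (RwCuspK0 A N c).valuation x ≤ (RwCuspK0 A N c).valuation y
    rw [RwCuspK0, valuation_comap_le_iff, hn, hy]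
    have h2 := hanti.antitone hn1
    simpa only [zpow_one] using h2
  · -- `pow_eq`
    rw [← map_pow]
    show (RwCuspK0 A N c).valuation (y ^ (q - 1)) = (RwCuspK0 A N c).valuation _
    rw [RwCuspK0, valuation_comap_eq_iff, map_pow, map_pow, hy, toFN_algebraMap, map_natCast,
      ← map_pow, ← map_pow, redData_valuation_algebraMap_eq_iff, redDataCusp_A, map_pow]
    exact valuation_one_sub_zeta_pow A hq hζ

include hq hA hζ hc hy in
/-- **`w_c` restricted to `K₀(X₀(N))` is a discrete valuation ring** -/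
theorem isDiscreteValuationRing_RwCuspK0 : IsDiscreteValuationRing (RwCuspK0 A N c) := by
  let _ : Algebra (modularFunctionFieldFullC (K0 A) N) (FN N) := (toFN0 A N).toAlgebra
  have hlt := valuation_unif_lt_one A N c hq hA hζ
  have hne := valuation_unif_ne_zero A N c hq hζ
  have hy0 : y ≠ 0 := by
    rintro rfl
    rw [map_zero, map_zero] at hy
    exact hne hy.symm
  refine Fermat.Agent.GL.Local.ComapDVR.isDiscreteValuationRing_sub (redDataCusp N A c).Rw
    (L := modularFunctionFieldFullC (K0 A) N) (π := y) ?_ hy0 ?_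
  · rw [ValuationSubring.mem_nonunits_iff]
    show (redDataCusp N A c).Rw.valuation (toFN0 A N y) < 1
    rw [hy]
    exact hlt
  · intro x hx
    obtain ⟨n, hn⟩ := exists_valuation_eq_zpow A N c hq hA hζ hc hx
    refine ⟨n, ?_⟩
    show (redDataCusp N A c).Rw.valuation (toFN0 A N x) =
      (redDataCusp N A c).Rw.valuation (toFN0 A N y) ^ n
    rw [hn, hy]

end Ramified

end Main

end Fermat.Agent.GL.Val.CuspK0
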