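/-
GATE-L / L1c (helper93): the `ξ`-DERIVATIVE of a Laurent series over an arbitrary commutative ring,

  `qDer ξ f = (f(ξ Q) − f(Q)) / (ξ − 1) = ∑ [n]_ξ f_n Q^n`,   `[n]_ξ = (ξ^n − 1)/(ξ − 1)`   (`n ∈ ℤ`),

defined WITHOUT dividing (geometric sums), so that it makes sense and commutes with coefficient maps
for every unit `ξ` — including `ξ = 1`, where it is Euler's `θ = Q d/dQ` (helper63's `thetaL`).

This is the algebra behind the tame witness of the third Gauss valuation `w₃` at level `q² M'`: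
`σ₃(j(q² z) − j(z)) = j(ξ t^N) − j(t^N) = (ξ − 1) · (qDer ξ j)(t^N)` with `ξ` a primitive `q`-th root
of unity, and `qDer ξ j` reduces to `θ j~` modulo a prime over `q` (where `ξ ↦ 1`).

* `qnum ξ n`, `sub_one_mul_qnum : (ξ − 1) [n]_ξ = ξ^n − 1`, `qnum_one : [n]_1 = n`, `map_qnum`;
* `qDer ξ f`, `coeff_qDer`, `C_mul_qDer : (ξ − 1) • qDer ξ f = f(ξ Q) − f(Q)`,
  `coeffMap_qDer`, `qDer_one : qDer 1 = θ`.
Mathlib + prelude + `scaleHom` (T28) + `thetaL` (helper63) only.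
-/
import Mathlib
import Fermat.Agent.S28.CuspSeries
import Fermat.Agent.GL.Thick.ThetaL

set_option autoImplicit false

noncomputable section

namespace Fermat.Agent.GL.QDer

open HahnSeries ModularCurve Finset
open Fermat.Agent.S28

variable {R : Type*} [CommRing R]

/-- the `ξ`-number `[n]_ξ = (ξ^n − 1)/(ξ − 1)`, `n ∈ ℤ`, as a geometric sum -/
def qnum (ξ : Rˣ) (n : ℤ) : R :=
  if 0 ≤ n then ∑ i ∈ range n.toNat, (ξ : R) ^ i
  else -(((ξ ^ n : Rˣ) : R) * ∑ i ∈ range (-n).toNat, (ξ : R) ^ i)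

theorem qnum_of_nonneg (ξ : Rˣ) {n : ℤ} (hn : 0 ≤ n) :
    qnum ξ n = ∑ i ∈ range n.toNat, (ξ : R) ^ i := by
  rw [qnum, if_pos hn]

theorem qnum_natCast (ξ : Rˣ) (n : ℕ) : qnum ξ (n : ℤ) = ∑ i ∈ range n, (ξ : R) ^ i := by
  rw [qnum_of_nonneg ξ (Int.natCast_nonneg n), Int.toNat_natCast]

theorem qnum_of_neg (ξ : Rˣ) {n : ℤ} (hn : n < 0) :
    qnum ξ n = -(((ξ ^ n : Rˣ) : R) * ∑ i ∈ range (-n).toNat, (ξ : R) ^ i) := by
  rw [qnum, if_neg (not_le.mpr hn)]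

@[simp] theorem qnum_zero (ξ : Rˣ) : qnum ξ 0 = 0 := by
  rw [qnum_of_nonneg ξ le_rfl]
  simp

@[simp] theorem qnum_neg_one (ξ : Rˣ) : qnum ξ (-1) = -((ξ⁻¹ : Rˣ) : R) := by
  rw [qnum_of_neg ξ (by norm_num)]
  simp

/-- **`(ξ − 1) [n]_ξ = ξ^n − 1`** -/
theorem sub_one_mul_qnum (ξ : Rˣ) (n : ℤ) :
    ((ξ : R) - 1) * qnum ξ n = ((ξ ^ n : Rˣ) : R) - 1 := by
  rcases le_or_gt 0 n with hn | hn
  · obtain ⟨k, rfl⟩ := Int.eq_ofNat_of_zero_le hn
    rw [qnum_natCast, mul_geom_sum, zpow_natCast, Units.val_pow_eq_pow_val]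
  · obtain ⟨k, rfl⟩ : ∃ k : ℕ, n = -(k : ℤ) := ⟨(-n).toNat, by omega⟩
    rw [qnum_of_neg ξ hn, neg_neg, Int.toNat_natCast, mul_neg, mul_left_comm, mul_geom_sum,
      ← Units.val_pow_eq_pow_val, mul_sub, mul_one, ← Units.val_mul, zpow_neg, zpow_natCast,
      inv_mul_cancel, Units.val_one]
    ring

/-- `[n]_1 = n` -/
theorem qnum_one (n : ℤ) : qnum (1 : Rˣ) n = (n : R) := by
  rcases le_or_gt 0 n with hn | hn
  · obtain ⟨k, rfl⟩ := Int.eq_ofNat_of_zero_le hn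
    rw [qnum_natCast]
    simp
  · obtain ⟨k, rfl⟩ : ∃ k : ℕ, n = -(k : ℤ) := ⟨(-n).toNat, by omega⟩
    rw [qnum_of_neg _ hn, neg_neg, Int.toNat_natCast]
    simp

theorem map_qnum {S : Type*} [CommRing S] (φ : R →+* S) (ξ : Rˣ) (n : ℤ) :
    φ (qnum ξ n) = qnum (Units.map (φ : R →* S) ξ) n := by
  rcases le_or_gt 0 n with hn | hn
  · rw [qnum_of_nonneg ξ hn, qnum_of_nonneg _ hn, map_sum]
    refine sum_congr rfl fun i _ => ?_
    rw [map_pow]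
    rfl
  · rw [qnum_of_neg ξ hn, qnum_of_neg _ hn, map_neg, map_mul, map_sum, ← map_zpow]
    congr 2
    refine sum_congr rfl fun i _ => ?_
    rw [map_pow]
    rfl

/-- in a ring where `ξ = 1`, `[n]_ξ = n` -/
theorem qnum_eq_of_eq_one {ξ : Rˣ} (hξ : ξ = 1) (n : ℤ) : qnum ξ n = (n : R) := by
  rw [hξ, qnum_one]

variable (R) in
/-- the `ξ`-derivative `(f(ξ Q) − f(Q))/(ξ − 1)` of a Laurent series -/
def qDer (ξ : Rˣ) (f : LaurentSeries R) : LaurentSeries R where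
  coeff n := qnum ξ n * f.coeff n
  isPWO_support' := f.isPWO_support.mono (fun n hn => by
    simp only [Function.mem_support, ne_eq] at hn
    intro h
    exact hn (by rw [h, mul_zero]))

@[simp] theorem coeff_qDer (ξ : Rˣ) (f : LaurentSeries R) (n : ℤ) :
    (qDer R ξ f).coeff n = qnum ξ n * f.coeff n := rfl

/-- **`(ξ − 1) · qDer ξ f = f(ξ Q) − f(Q)`** -/
theorem C_mul_qDer (ξ : Rˣ) (f : LaurentSeries R) :
    HahnSeries.C ((ξ : R) - 1) * qDer R ξ f = scaleHom R ξ f - f := by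
  ext n
  rw [HahnSeries.C_mul_eq_smul, HahnSeries.coeff_smul, coeff_qDer, HahnSeries.coeff_sub,
    scaleHom_coeff, smul_eq_mul, ← mul_assoc, sub_one_mul_qnum, sub_mul, one_mul]

theorem coeffMap_qDer {S : Type*} [CommRing S] (φ : R →+* S) (ξ : Rˣ) (f : LaurentSeries R) :
    coeffMap φ (qDer R ξ f) = qDer S (Units.map (φ : R →* S) ξ) (coeffMap φ f) := by
  ext n
  rw [coeffMap_coeff, coeff_qDer, coeff_qDer, coeffMap_coeff, map_mul, map_qnum]

/-- **`qDer 1 = θ`** -/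
theorem qDer_one (f : LaurentSeries R) : qDer R 1 f = Fermat.Agent.GL.Thick.thetaL R f := by
  ext n
  rw [coeff_qDer, Fermat.Agent.GL.Thick.coeff_thetaL, qnum_one]

theorem qDer_of_eq_one {ξ : Rˣ} (hξ : ξ = 1) (f : LaurentSeries R) :
    qDer R ξ f = Fermat.Agent.GL.Thick.thetaL R f := by
  rw [hξ, qDer_one]

/-- the `ξ`-derivative after `Q ↦ t^m`: `f(ξ t^m) − f(t^m) = (ξ − 1) (qDer ξ f)(t^m)` -/
theorem cuspS_sub_qExpand (ξ : Rˣ) (m : ℕ) [NeZero m] (f : LaurentSeries R) :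
    cuspS R ξ m f - qExpand R m f =
      HahnSeries.C ((ξ : R) - 1) * qExpand R m (qDer R ξ f) := by
  rw [cuspS, RingHom.comp_apply, ← map_sub, ← C_mul_qDer, map_mul, qExpand_C]

end Fermat.Agent.GL.QDer
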