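/-
GATE-L / L1c level-q² specifics (helper93, RULING 1 of helper31 2589): the THIRD Gauss valuation
`w₃` of `F_N`, `N = M' q²`, `q ∤ M'`, on top of helper18's general `redDataCusp N A c`
(`GL/Cusp/CuspRedData.lean`).

`cusp3` := the coset of `γ₃⁻¹`, `γ₃ = [[1,0],[qM',1]]` (the cusp `1/(qM')`: `∞`-like for `M'`,
`1/q`-like for `q²`), `redData3 := redDataCusp N A cusp3`.

* Hermite parameters of `γ₃` at every divisor `d = d' qⁱ` of `N` (`d' ∣ M'`):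
  `i ≤ 1`: `(A, B, D) = (d, 0, 1)`;  `i = 2`: `(A, B, D) = (q d', b, q)` with `q ∤ b`;
* hence `σ₃ j(d' z) = j(t^{N d'})`, `σ₃ j(q d' z) = j(t^{N q d'})`,
  `σ₃ j(q² d' z) = j(ξ t^{N d'})` with `ξ` a PRIMITIVE `q`-th root of unity;
* for `A` over `q`: `red₃ (j, j_q, j_{q²}) = (x, x(t^{Nq}), x)`, `x = j~(t^N)` — the `(1,1)`-component.
-/
import Fermat.Agent.GL.Cusp.CuspRedData
import Fermat.Agent.GL.Val.QDer
import Fermat.Agent.GJ.Kum.ESKummer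

set_option autoImplicit false

noncomputable section

namespace Fermat.Agent.GL.W3

open HahnSeries ModularCurve IsLocalRing Matrix MatrixGroups CongruenceSubgroup
open Fermat.Agent.S24 Fermat.Agent.S28 Fermat.Agent.S28.CuspExp Fermat.Agent.S28.Assemble
open Fermat.Agent.S24_helper62
open Fermat.Agent.GJ.J1 Fermat.Agent.GJ.J1.Val Fermat.Agent.GL.CuspVal

/-! ### The matrix `γ₃ = [[1,0],[c,1]]` and its coset -/

section Gamma3

/-- the lower unipotent matrix `[[1,0],[c,1]]` -/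
def lowerU (c : ℤ) : SL(2, ℤ) := ⟨!![1, 0; c, 1], by simp [Matrix.det_fin_two_of]⟩

@[simp] theorem lowerU_00 (c : ℤ) : lowerU c 0 0 = 1 := rfl
@[simp] theorem lowerU_01 (c : ℤ) : lowerU c 0 1 = 0 := rfl
@[simp] theorem lowerU_10 (c : ℤ) : lowerU c 1 0 = c := rfl
@[simp] theorem lowerU_11 (c : ℤ) : lowerU c 1 1 = 1 := rfl

variable (N : ℕ) [NeZero N]

/-- the coset index whose representative matrix `rep` lies in `Γ₀(N) · lowerU c` -/
def cuspOfLower (c : ℤ) : I0 N := (((lowerU c)⁻¹ : SL(2, ℤ)) : SL(2, ℤ) ⧸ Gamma0 N)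

theorem rep_cuspOfLower (c : ℤ) :
    ∃ γ : SL(2, ℤ), γ ∈ Gamma0 N ∧ rep N (cuspOfLower N c) = γ * lowerU c := by
  obtain ⟨h, hh⟩ := QuotientGroup.mk_out_eq_mul (Gamma0 N) ((lowerU c)⁻¹)
  refine ⟨(h : SL(2, ℤ))⁻¹, inv_mem h.2, ?_⟩
  show (Quotient.out (cuspOfLower N c))⁻¹ = _
  have : Quotient.out (cuspOfLower N c) = (lowerU c)⁻¹ * h := hh
  rw [this, _root_.mul_inv_rev, inv_inv]

/-- Hermite parameters only depend on the coset `Γ₀(d) g` -/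
theorem hermite_params_of_eq_mul {d : ℕ} (hd : 0 < d) {γ g g' : SL(2, ℤ)}
    (hγ : (d : ℤ) ∣ γ 1 0) (hg : g' = γ * g) (H : HermiteData d g) (H' : HermiteData d g') :
    H'.A = H.A ∧ H'.D = H.D ∧ H'.B = H.B := by
  subst hg
  exact hermite_params_mul_left hd hγ H H'

/-- **Hermite parameters of `[[1,0],[c,1]]`** at `d = A D` when `c = c' A` with `c'` prime to `D`:
`(A, B, D)` with `B = u % D` for any Bezout relation `c' u + v D = 1`. -/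
theorem hermite_params_lowerU {d : ℕ} (hd : 0 < d) {c c' A D u v : ℤ} (hA : 0 < A)
    (hAD : A * D = d) (hc : c' * A = c) (huv : c' * u + v * D = 1)
    (H : HermiteData d (lowerU c)) : H.A = A ∧ H.D = D ∧ H.B = u % D := by
  refine hermite_eq_of_factor hd H D c' v A u D ?_ hA hAD ?_ ?_ ?_
  · exact ⟨v, u, by linarith⟩
  · rw [lowerU_00, mul_one, ← hAD, mul_comm]
  · rw [lowerU_10, hc]
  · rw [lowerU_11, huv]

/-- the case `d ∣ c`: parameters `(d, 0, 1)` -/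
theorem hermite_params_lowerU_of_dvd {d : ℕ} (hd : 0 < d) {c : ℤ} (hdc : (d : ℤ) ∣ c)
    (H : HermiteData d (lowerU c)) : H.A = d ∧ H.D = 1 ∧ H.B = 0 := by
  obtain ⟨c', hc'⟩ := hdc
  have h := hermite_params_lowerU hd (c := c) (c' := c') (A := d) (D := 1) (u := 0) (v := 1)
    (by exact_mod_cast hd) (mul_one _) (by rw [hc', mul_comm]) (by ring) H
  simpa using h

variable {N}

/-- the Hermite parameters at the coset `cuspOfLower N c` are those of `lowerU c` -/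
theorem herm_cuspOfLower_params (c : ℤ) (d : {d : ℕ // d ∣ N}) (H : HermiteData d.1 (lowerU c)) :
    (herm N (cuspOfLower N c) d).A = H.A ∧ (herm N (cuspOfLower N c) d).D = H.D ∧
      (herm N (cuspOfLower N c) d).B = H.B := by
  obtain ⟨γ, hγ, hrep⟩ := rep_cuspOfLower N c
  refine hermite_params_of_eq_mul (div_pos' N d) ?_ hrep H _
  rw [Gamma0_mem, ZMod.intCast_zmod_eq_zero_iff_dvd] at hγ
  exact (Int.natCast_dvd_natCast.mpr d.2).trans hγ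

end Gamma3

/-! ### Hermite series from the parameters -/

section Series

variable {K : Type*} [Field K] (ζ : Kˣ) (N : ℕ) {d : ℕ} {g : SL(2, ℤ)}

theorem hermiteSer_of_params (H : HermiteData d g) {a D : ℕ} {b : ℤ}
    (hA : H.A = a) (hD : H.D = D) (hB : H.B = b) :
    (hermiteSer ζ N H : LaurentSeries K) = jCusp (xi ζ N D b) (N / d * a ^ 2) := by
  have hAn : H.An = a := by
    have : (H.An : ℤ) = a := by rw [H.coe_An, hA]
    exact_mod_cast this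
  have hDn : H.Dn = D := by
    rw [HermiteData.Dn, hD, Int.toNat_natCast]
  rw [hermiteSer, hDn, hB, HermiteData.expo, hAn]

/-- parameters `(d, 0, 1)` give the plain expansion `j(t^{N d})` -/
theorem hermiteSer_of_params_low (hN : 0 < N) (hdN : d ∣ N) (H : HermiteData d g)
    (hA : H.A = d) (hD : H.D = 1) (hB : H.B = 0) :
    (hermiteSer ζ N H : LaurentSeries K) = jCusp (1 : Kˣ) (N * d) := by
  rw [hermiteSer_of_params ζ N H (a := d) (D := 1) (b := 0) hA (by exact_mod_cast hD) hB, xi_zero]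
  congr 1
  obtain ⟨e, rfl⟩ := hdN
  have hd : 0 < d := Nat.pos_of_mul_pos_right hN
  rw [Nat.mul_div_cancel_left _ hd]
  ring

end Series


/-! ### The cusp `1/(N/q)` -/

section Cusp3

variable (N : ℕ) [NeZero N] (q : ℕ)

/-- the coset of the cusp `1/(N/q)`; for `N = M' q²` this is the cusp `1/(q M')`, which looks like
`∞` from `M'` and like `1/q` from `q²` -/
def cusp3 : I0 N := cuspOfLower N ((N / q : ℕ) : ℤ)

variable {N q}

/-- at a divisor `d` of `N/q` the Hermite parameters at `cusp3` are `(d, 0, 1)` -/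
theorem herm_cusp3_low {d : ℕ} (hd : d ∣ N / q) (hdN : d ∣ N) :
    (herm N (cusp3 N q) ⟨d, hdN⟩).A = d ∧ (herm N (cusp3 N q) ⟨d, hdN⟩).D = 1 ∧
      (herm N (cusp3 N q) ⟨d, hdN⟩).B = 0 := by
  have hdpos : 0 < d := div_pos' N ⟨d, hdN⟩
  obtain ⟨H⟩ := nonempty_hermiteData d hdpos (lowerU ((N / q : ℕ) : ℤ))
  have h1 := herm_cuspOfLower_params ((N / q : ℕ) : ℤ) ⟨d, hdN⟩ H
  have h2 := hermite_params_lowerU_of_dvd hdpos (Int.natCast_dvd_natCast.mpr hd) H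
  rw [h2.1, h2.2.1, h2.2.2] at h1
  exact h1

/-- **`σ₃ j(d z) = j(t^{N d})`** for `d ∣ N/q` -/
theorem cuspSigma_cusp3_low {d : ℕ} [NeZero d] (hd : d ∣ N / q) (hdN : d ∣ N) :
    cuspSigma N (cusp3 N q) (jdF N d hdN) = qExpand Kbar (N * d) (jqModC Kbar) := by
  obtain ⟨hA, hD, hB⟩ := herm_cusp3_low hd hdN
  rw [cuspSigma_jdF, hermiteSer_of_params_low _ N (Nat.pos_of_ne_zero (NeZero.ne N)) hdN _ hA hD hB,
    jCusp_one]

end Cusp3

/-! ### Level `N = M' q²`: the divisors `q² d'` -/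

section Top

variable {N : ℕ} [NeZero N] {q M' : ℕ}

theorem div_q_eq (hq : q.Prime) (hN : N = M' * q ^ 2) : N / q = M' * q := by
  rw [hN, pow_two, ← mul_assoc, Nat.mul_div_cancel _ hq.pos]

/-- at `d = q² d'`, `d' ∣ M'`, the Hermite parameters at `cusp3` are `(q d', b, q)` with
`(M'/d') b ≡ 1 mod q` -/
theorem herm_cusp3_top (hq : q.Prime) (hN : N = M' * q ^ 2) (hqM : ¬ q ∣ M') {d' : ℕ}
    (hd' : d' ∣ M') (hdN : q ^ 2 * d' ∣ N) :
    (herm N (cusp3 N q) ⟨q ^ 2 * d', hdN⟩).A = q * d' ∧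
      (herm N (cusp3 N q) ⟨q ^ 2 * d', hdN⟩).D = q ∧
      ((M' / d' : ℕ) : ℤ) * (herm N (cusp3 N q) ⟨q ^ 2 * d', hdN⟩).B ≡ 1 [ZMOD q] := by
  have hdpos : 0 < q ^ 2 * d' := div_pos' N ⟨_, hdN⟩
  have hd'pos : 0 < d' := Nat.pos_of_mul_pos_left hdpos
  obtain ⟨H⟩ := nonempty_hermiteData (q ^ 2 * d') hdpos (lowerU ((N / q : ℕ) : ℤ))
  unfold cusp3
  have h1 := herm_cuspOfLower_params ((N / q : ℕ) : ℤ) ⟨q ^ 2 * d', hdN⟩ H
  obtain ⟨e, he⟩ := hd'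
  have hqe : ¬ q ∣ e := fun h => hqM (he ▸ Dvd.dvd.mul_left h d')
  have hcop : IsCoprime (e : ℤ) (q : ℤ) := by
    rw [Nat.isCoprime_iff_coprime]
    exact ((Nat.Prime.coprime_iff_not_dvd hq).mpr hqe).symm
  obtain ⟨u, v, huv⟩ := hcop
  have h2 := hermite_params_lowerU hdpos (c := ((N / q : ℕ) : ℤ)) (c' := (e : ℤ))
    (A := (q : ℤ) * d') (D := (q : ℤ)) (u := u) (v := v)
    (by have : (0 : ℤ) < q := by exact_mod_cast hq.pos
        have : (0 : ℤ) < d' := by exact_mod_cast hd'pos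
        positivity)
    (by push_cast; ring)
    (by rw [div_q_eq hq hN, he]; push_cast; ring)
    (by linarith) H
  have hMd : M' / d' = e := by rw [he, Nat.mul_div_cancel_left _ hd'pos]
  rw [h2.1, h2.2.1, h2.2.2] at h1
  refine ⟨h1.1, h1.2.1, ?_⟩
  rw [h1.2.2, hMd]
  have h3 : (e : ℤ) * (u % q) ≡ e * u [ZMOD q] := Int.ModEq.mul_left _ (Int.mod_modEq u q)
  refine h3.trans ?_
  rw [Int.modEq_iff_dvd]
  exact ⟨v, by linarith⟩

variable (N q) in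
/-- the root of unity `ζ_q^b` of the expansion of `j(d z)` at `cusp3` (`= 1` for `d ∣ N/q`, a
PRIMITIVE `q`-th root of unity for `d = q² d'`) -/
def xi3 {d : ℕ} (hdN : d ∣ N) : Kbarˣ :=
  xi (zetaBar N) N q (herm N (cusp3 N q) ⟨d, hdN⟩).B

/-- **`ξ₃` is a primitive `q`-th root of unity** -/
theorem isPrimitiveRoot_xi3 (hq : q.Prime) (hN : N = M' * q ^ 2) (hqM : ¬ q ∣ M') {d' : ℕ}
    (hd' : d' ∣ M') (hdN : q ^ 2 * d' ∣ N) : IsPrimitiveRoot (xi3 N q hdN) q := by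
  obtain ⟨-, -, hB⟩ := herm_cusp3_top hq hN hqM hd' hdN
  have h1 : IsPrimitiveRoot (zetaBar N ^ (N / q)) q := by
    refine (zetaBar_isPrimitiveRoot N).pow (Nat.pos_of_ne_zero (NeZero.ne N)) ?_
    rw [div_q_eq hq hN, hN]
    ring
  rw [xi3, xi, _root_.zpow_mul, zpow_natCast]
  refine h1.zpow_of_gcd_eq_one _ ?_
  rw [← Int.isCoprime_iff_gcd_eq_one]
  rw [Int.modEq_iff_dvd] at hB
  obtain ⟨k, hk⟩ := hB
  exact ⟨((M' / d' : ℕ) : ℤ), k, by linarith⟩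

/-- the Hermite series at `cusp3` for `d = q² d'`, over any field -/
theorem hermiteSer_cusp3_top {K : Type*} [Field K] (ζ : Kˣ) (hq : q.Prime)
    (hN : N = M' * q ^ 2) (hqM : ¬ q ∣ M') {d' : ℕ} (hd' : d' ∣ M') (hdN : q ^ 2 * d' ∣ N) :
    (hermiteSer ζ N (herm N (cusp3 N q) ⟨q ^ 2 * d', hdN⟩) : LaurentSeries K) =
      jCusp (xi ζ N q (herm N (cusp3 N q) ⟨q ^ 2 * d', hdN⟩).B) (N * d') := by
  obtain ⟨hA, hD, -⟩ := herm_cusp3_top hq hN hqM hd' hdN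
  rw [hermiteSer_of_params ζ N _ (a := q * d') (D := q) (b := _)
    (by rw [hA]; push_cast; ring) hD rfl]
  congr 1
  have hdpos : 0 < q ^ 2 * d' := div_pos' N ⟨_, hdN⟩
  have hd'pos : 0 < d' := Nat.pos_of_mul_pos_left hdpos
  obtain ⟨e, he⟩ := hd'
  have h1 : N / (q ^ 2 * d') = e := by
    rw [hN, he]
    rw [show d' * e * q ^ 2 = (q ^ 2 * d') * e by ring, Nat.mul_div_cancel_left _ hdpos]
  rw [h1, hN, he]
  ring

/-- the Hermite series at `cusp3` for `d ∣ N/q`, over any field -/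
theorem hermiteSer_cusp3_low {K : Type*} [Field K] (ζ : Kˣ) {d : ℕ} [NeZero d]
    (hd : d ∣ N / q) (hdN : d ∣ N) :
    (hermiteSer ζ N (herm N (cusp3 N q) ⟨d, hdN⟩) : LaurentSeries K) =
      qExpand K (N * d) (jqModC K) := by
  obtain ⟨hA, hD, hB⟩ := herm_cusp3_low hd hdN
  rw [hermiteSer_of_params_low _ N (Nat.pos_of_ne_zero (NeZero.ne N)) hdN _ hA hD hB, jCusp_one]

/-- **`σ₃ j(q² d' z) = j(ξ₃ t^{N d'})`**, `ξ₃` a primitive `q`-th root of unity -/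
theorem cuspSigma_cusp3_top (hq : q.Prime) (hN : N = M' * q ^ 2) (hqM : ¬ q ∣ M') {d' : ℕ}
    [NeZero (q ^ 2 * d')] (hd' : d' ∣ M') (hdN : q ^ 2 * d' ∣ N) :
    cuspSigma N (cusp3 N q) (jdF N (q ^ 2 * d') hdN) = jCusp (xi3 N q hdN) (N * d') := by
  rw [cuspSigma_jdF, hermiteSer_cusp3_top _ hq hN hqM hd' hdN, xi3]

end Top

/-! ### The third Gauss reduction datum and the reduction of the generators -/

section Red

variable (N : ℕ) [NeZero N] (A : ValuationSubring Kbar) (q : ℕ)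

local notation "𝕜" => ResidueField A

/-- **the third Gauss reduction datum** `w₃` of `F_N`: the Gauss valuation of the expansion at the
cusp `1/(N/q)` -/
abbrev redData3 : RedData Kbar (FN N) 𝕜 (FresCusp N A (cusp3 N q)) := redDataCusp N A (cusp3 N q)

variable {N q}

/-- `red₃ j(d z) = j~(t^{N d})` for `d ∣ N/q` (every `A`) -/
theorem coe_red3_low {d : ℕ} [NeZero d] (hd : d ∣ N / q) (hdN : d ∣ N)
    (h : jdF N d hdN ∈ (redData3 N A q).Rw) :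
    (((redData3 N A q).red ⟨jdF N d hdN, h⟩ : FresCusp N A (cusp3 N q)) : LaurentSeries 𝕜) =
      qExpand 𝕜 (N * d) (jqModC 𝕜) := by
  rw [coe_redCusp_jdF, hermiteSer_cusp3_low _ hd hdN]

/-- in characteristic `q` the only `q`-th root of unity is `1` -/
theorem units_eq_one_of_pow_char {κ : Type*} [Field κ] (ℓ : ℕ) [Fact ℓ.Prime] [CharP κ ℓ]
    {x : κˣ} (hx : x ^ ℓ = 1) : x = 1 := by
  apply Units.ext
  have h1 : ((x : κ) - 1) ^ ℓ = 0 := by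
    rw [sub_pow_char, one_pow, ← Units.val_pow_eq_pow_val, hx, Units.val_one, sub_self]
  have h2 := pow_eq_zero_iff (Fact.out : ℓ.Prime).ne_zero |>.mp h1
  rw [Units.val_one]
  exact sub_eq_zero.mp h2

variable {M' : ℕ}

/-- for `A` over `q` the reduction of `ξ₃` is `1` -/
theorem xi_zetaRes_eq_one (hq : q.Prime) (hN : N = M' * q ^ 2) (hA : A.LiesOverPrime q) (B : ℤ) :
    xi (zetaRes N A) N q B = 1 := by
  have : Fact q.Prime := ⟨hq⟩
  have : CharP 𝕜 q := Fermat.Agent.GJ.Kum.charP_residueField A hq hA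
  apply units_eq_one_of_pow_char q
  rw [xi, ← zpow_natCast, ← _root_.zpow_mul, mul_right_comm, ← Nat.cast_mul, div_q_eq hq hN,
    show M' * q * q = N by rw [hN]; ring, _root_.zpow_mul, zpow_natCast, zetaRes_pow, _root_.one_zpow]

/-- **`red₃ j(q² d' z) = j~(t^{N d'}) = red₃ j(d' z)`** for `A` over `q`: the `(1,1)`-component -/
theorem coe_red3_top (hq : q.Prime) (hN : N = M' * q ^ 2) (hqM : ¬ q ∣ M')
    (hA : A.LiesOverPrime q) {d' : ℕ} [NeZero (q ^ 2 * d')] [NeZero d'] (hd' : d' ∣ M')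
    (hdN : q ^ 2 * d' ∣ N) (h : jdF N (q ^ 2 * d') hdN ∈ (redData3 N A q).Rw) :
    (((redData3 N A q).red ⟨jdF N (q ^ 2 * d') hdN, h⟩ : FresCusp N A (cusp3 N q)) :
        LaurentSeries 𝕜) = qExpand 𝕜 (N * d') (jqModC 𝕜) := by
  rw [coe_redCusp_jdF, hermiteSer_cusp3_top _ hq hN hqM hd' hdN, xi_zetaRes_eq_one A hq hN hA,
    jCusp_one]

end Red

/-! ### The tame witness `y₃ = j(q² d' z) − j(d' z)`, `τ₃ = y₃ / (ξ₃ − 1)` -/

section Witness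

open Fermat.Agent.GL.QDer Fermat.Agent.GL.Thick

variable (N : ℕ) [NeZero N] (A : ValuationSubring Kbar) (q : ℕ) {M' : ℕ}

local notation "𝕜" => ResidueField A

/-- nonunits of a reduction datum are the elements reducing to `0` -/
theorem mem_nonunits_iff_red {K F k Ft : Type*} [Field K] [Field F] [Algebra K F] [Field k]
    [Field Ft] [Algebra k Ft] (R : RedData K F k Ft) (x : F) :
    x ∈ R.Rw.nonunits ↔ ∃ hx : x ∈ R.Rw, R.red ⟨x, hx⟩ = 0 := by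
  rw [ValuationSubring.mem_nonunits_iff_exists_mem_maximalIdeal]
  constructor
  · rintro ⟨hx, hm⟩
    exact ⟨hx, (R.red_eq_zero_iff _).mpr hm⟩
  · rintro ⟨hx, hm⟩
    exact ⟨hx, (R.red_eq_zero_iff _).mp hm⟩

/-- an element of the valuation ring with nonzero reduction is a unit -/
theorem inv_mem_of_red_ne_zero {K F k Ft : Type*} [Field K] [Field F] [Algebra K F] [Field k]
    [Field Ft] [Algebra k Ft] (R : RedData K F k Ft) {x : F} (hx : x ∈ R.Rw)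
    (hred : R.red ⟨x, hx⟩ ≠ 0) : x⁻¹ ∈ R.Rw := by
  have h1 : (⟨x, hx⟩ : R.Rw) ∉ maximalIdeal R.Rw := fun h => hred ((R.red_eq_zero_iff _).mpr h)
  rw [mem_maximalIdeal, mem_nonunits_iff, not_not] at h1
  obtain ⟨u, hu⟩ := h1
  have h2 : x * (((u⁻¹ : (R.Rw)ˣ) : R.Rw) : F) = 1 := by
    have h3 : (⟨x, hx⟩ : R.Rw) * ((u⁻¹ : (R.Rw)ˣ) : R.Rw) = 1 := by
      rw [← hu]
      exact u.mul_inv
    exact congrArg Subtype.val h3
  rw [← eq_inv_of_mul_eq_one_right h2]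
  exact Subtype.property _

variable {N q}

/-- `ξ₃` as a unit of `A` -/
def xi3A {d : ℕ} (hdN : d ∣ N) : Aˣ :=
  zetaA N A ^ (((N / q : ℕ) : ℤ) * (herm N (cusp3 N q) ⟨d, hdN⟩).B)

theorem map_subtype_xi3A {d : ℕ} (hdN : d ∣ N) :
    Units.map (A.subtype : A →* Kbar) (xi3A A (q := q) hdN) = xi3 N q hdN := by
  rw [xi3A, map_zpow, map_subtype_zetaA]
  rfl

theorem map_residue_xi3A {d : ℕ} (hdN : d ∣ N) :
    Units.map (residue A : A →* 𝕜) (xi3A A (q := q) hdN) =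
      xi (zetaRes N A) N q (herm N (cusp3 N q) ⟨d, hdN⟩).B := by
  rw [xi3A, map_zpow]
  rfl

variable (N q) in
/-- **`y₃ = j(q² d' z) − j(d' z)`** -/
def y3 {d' : ℕ} [NeZero (q ^ 2 * d')] [NeZero d'] (hdN : q ^ 2 * d' ∣ N) (hd'N : d' ∣ N) : FN N :=
  jdF N (q ^ 2 * d') hdN - jdF N d' hd'N

variable (N q) in
/-- **`τ₃ = y₃ / (ξ₃ − 1)`** -/
def tau3 {d' : ℕ} [NeZero (q ^ 2 * d')] [NeZero d'] (hdN : q ^ 2 * d' ∣ N) (hd'N : d' ∣ N) : FN N :=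
  algebraMap Kbar (FN N) (((xi3 N q hdN : Kbarˣ) : Kbar) - 1)⁻¹ * y3 N q hdN hd'N

theorem dvd_div_q (hq : q.Prime) (hN : N = M' * q ^ 2) {d' : ℕ} (hd' : d' ∣ M') : d' ∣ N / q := by
  rw [div_q_eq hq hN]
  exact Dvd.dvd.mul_right hd' q

theorem xi3_sub_one_ne_zero (hq : q.Prime) (hN : N = M' * q ^ 2) (hqM : ¬ q ∣ M') {d' : ℕ}
    (hd' : d' ∣ M') (hdN : q ^ 2 * d' ∣ N) : ((xi3 N q hdN : Kbarˣ) : Kbar) - 1 ≠ 0 := by
  intro h
  have h1 : xi3 N q hdN = 1 := Units.ext (by rw [Units.val_one]; exact sub_eq_zero.mp h)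
  have h2 := isPrimitiveRoot_xi3 hq hN hqM hd' hdN
  rw [h1] at h2
  exact hq.ne_one (IsPrimitiveRoot.one_left_iff.mp h2)

/-- **the expansion of `y₃`**: `σ₃ y₃ = j(ξ₃ t^m) − j(t^m) = (ξ₃ − 1) · (D_{ξ₃} j)(t^m)`, `m = N d'` -/
theorem cuspSigma_y3 (hq : q.Prime) (hN : N = M' * q ^ 2) (hqM : ¬ q ∣ M') {d' : ℕ}
    [NeZero (q ^ 2 * d')] [NeZero d'] (hd' : d' ∣ M') (hdN : q ^ 2 * d' ∣ N) (hd'N : d' ∣ N) :
    cuspSigma N (cusp3 N q) (y3 N q hdN hd'N) =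
      HahnSeries.C (((xi3 N q hdN : Kbarˣ) : Kbar) - 1) *
        qExpand Kbar (N * d') (qDer Kbar (xi3 N q hdN) (jqModC Kbar)) := by
  rw [y3, map_sub, cuspSigma_cusp3_top hq hN hqM hd' hdN,
    cuspSigma_cusp3_low (dvd_div_q hq hN hd') hd'N, jCusp_eq, cuspS_sub_qExpand]

/-- **the expansion of `τ₃`**: `σ₃ τ₃ = (D_{ξ₃} j)(t^m)` -/
theorem cuspSigma_tau3 (hq : q.Prime) (hN : N = M' * q ^ 2) (hqM : ¬ q ∣ M') {d' : ℕ}
    [NeZero (q ^ 2 * d')] [NeZero d'] (hd' : d' ∣ M') (hdN : q ^ 2 * d' ∣ N) (hd'N : d' ∣ N) :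
    cuspSigma N (cusp3 N q) (tau3 N q hdN hd'N) =
      qExpand Kbar (N * d') (qDer Kbar (xi3 N q hdN) (jqModC Kbar)) := by
  rw [tau3, map_mul, AlgHom.commutes, cuspSigma_y3 hq hN hqM hd' hdN hd'N, ← mul_assoc,
    algebraMap_laurentSeries_eq_single, ← HahnSeries.C_apply, ← map_mul,
    inv_mul_cancel₀ (xi3_sub_one_ne_zero hq hN hqM hd' hdN), map_one, one_mul]

/-- the expansion of `τ₃` has coefficients in `A` (EVERY `A`) -/
theorem cuspSigma_tau3_eq_emb (hq : q.Prime) (hN : N = M' * q ^ 2) (hqM : ¬ q ∣ M') {d' : ℕ}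
    [NeZero (q ^ 2 * d')] [NeZero d'] (hd' : d' ∣ M') (hdN : q ^ 2 * d' ∣ N) (hd'N : d' ∣ N) :
    cuspSigma N (cusp3 N q) (tau3 N q hdN hd'N) =
      emb A (qExpand A (N * d') (qDer A (xi3A A (q := q) hdN) (jqModC A))) := by
  rw [cuspSigma_tau3 hq hN hqM hd' hdN hd'N, emb, coeffMap_qExpand, coeffMap_qDer,
    coeffMap_jqModC, map_subtype_xi3A]

/-- **`τ₃ ∈ R_{w₃}`** (every `A`) -/
theorem tau3_mem_Rw3 (hq : q.Prime) (hN : N = M' * q ^ 2) (hqM : ¬ q ∣ M') {d' : ℕ}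
    [NeZero (q ^ 2 * d')] [NeZero d'] (hd' : d' ∣ M') (hdN : q ^ 2 * d' ∣ N) (hd'N : d' ∣ N) :
    tau3 N q hdN hd'N ∈ (redData3 N A q).Rw :=
  mem_RwCusp_of_int N A _ _ (cuspSigma_tau3_eq_emb A hq hN hqM hd' hdN hd'N)

/-- **`red₃ τ₃ = (θ j~)(t^{N d'})`** for `A` over `q` -/
theorem coe_red3_tau3 (hq : q.Prime) (hN : N = M' * q ^ 2) (hqM : ¬ q ∣ M')
    (hA : A.LiesOverPrime q) {d' : ℕ}
    [NeZero (q ^ 2 * d')] [NeZero d'] (hd' : d' ∣ M') (hdN : q ^ 2 * d' ∣ N) (hd'N : d' ∣ N)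
    (h : tau3 N q hdN hd'N ∈ (redData3 N A q).Rw) :
    (((redData3 N A q).red ⟨tau3 N q hdN hd'N, h⟩ : FresCusp N A (cusp3 N q)) :
        LaurentSeries 𝕜) = qExpand 𝕜 (N * d') (thetaL 𝕜 (jqModC 𝕜)) := by
  rw [coe_redCusp_of_int N A _ _ (cuspSigma_tau3_eq_emb A hq hN hqM hd' hdN hd'N) h, rd,
    coeffMap_qExpand, coeffMap_qDer, coeffMap_jqModC, map_residue_xi3A,
    xi_zetaRes_eq_one A hq hN hA, qDer_one]

/-- `red₃ τ₃ ≠ 0`: its coefficient of `t^{-N d'}` is `-1` -/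
theorem red3_tau3_ne_zero (hq : q.Prime) (hN : N = M' * q ^ 2) (hqM : ¬ q ∣ M')
    (hA : A.LiesOverPrime q) {d' : ℕ}
    [NeZero (q ^ 2 * d')] [NeZero d'] (hd' : d' ∣ M') (hdN : q ^ 2 * d' ∣ N) (hd'N : d' ∣ N)
    (h : tau3 N q hdN hd'N ∈ (redData3 N A q).Rw) :
    (redData3 N A q).red ⟨tau3 N q hdN hd'N, h⟩ ≠ 0 := by
  intro h0
  have h1 := coe_red3_tau3 A hq hN hqM hA hd' hdN hd'N h
  rw [h0] at h1
  have h2 : (qExpand 𝕜 (N * d') (thetaL 𝕜 (jqModC 𝕜))).coeff (((N * d' : ℕ) : ℤ) * (-1)) = 0 := by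
    rw [← h1]
    rfl
  rw [qExpand_coeff_mul, coeff_thetaL, ModularCurve.coeff_jqModC_neg_one] at h2
  simp at h2

/-- **`τ₃` is a unit of `R_{w₃}`** for `A` over `q`: `w₃(y₃) = v(ξ₃ − 1) = v(q)/(q − 1)` -/
theorem tau3_inv_mem_Rw3 (hq : q.Prime) (hN : N = M' * q ^ 2) (hqM : ¬ q ∣ M')
    (hA : A.LiesOverPrime q) {d' : ℕ}
    [NeZero (q ^ 2 * d')] [NeZero d'] (hd' : d' ∣ M') (hdN : q ^ 2 * d' ∣ N) (hd'N : d' ∣ N) :
    (tau3 N q hdN hd'N)⁻¹ ∈ (redData3 N A q).Rw :=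
  inv_mem_of_red_ne_zero _ (tau3_mem_Rw3 A hq hN hqM hd' hdN hd'N)
    (red3_tau3_ne_zero A hq hN hqM hA hd' hdN hd'N _)

theorem tau3_not_mem_nonunits (hq : q.Prime) (hN : N = M' * q ^ 2) (hqM : ¬ q ∣ M')
    (hA : A.LiesOverPrime q) {d' : ℕ}
    [NeZero (q ^ 2 * d')] [NeZero d'] (hd' : d' ∣ M') (hdN : q ^ 2 * d' ∣ N) (hd'N : d' ∣ N) :
    tau3 N q hdN hd'N ∉ (redData3 N A q).Rw.nonunits := by
  intro hmem
  obtain ⟨hx, hred⟩ := (mem_nonunits_iff_red _ _).mp hmem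
  exact red3_tau3_ne_zero A hq hN hqM hA hd' hdN hd'N hx hred

/-- `y₃ = (ξ₃ − 1) τ₃` -/
theorem y3_eq (hq : q.Prime) (hN : N = M' * q ^ 2) (hqM : ¬ q ∣ M') {d' : ℕ}
    [NeZero (q ^ 2 * d')] [NeZero d'] (hd' : d' ∣ M') (hdN : q ^ 2 * d' ∣ N) (hd'N : d' ∣ N) :
    y3 N q hdN hd'N =
      algebraMap Kbar (FN N) (((xi3 N q hdN : Kbarˣ) : Kbar) - 1) * tau3 N q hdN hd'N := by
  rw [tau3, ← mul_assoc, ← map_mul, mul_inv_cancel₀ (xi3_sub_one_ne_zero hq hN hqM hd' hdN),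
    map_one, one_mul]

/-- `y₃ ∈ R_{w₃}` (every `A`) -/
theorem y3_mem_Rw3 {d' : ℕ} [NeZero (q ^ 2 * d')] [NeZero d'] (hdN : q ^ 2 * d' ∣ N)
    (hd'N : d' ∣ N) : y3 N q hdN hd'N ∈ (redData3 N A q).Rw :=
  sub_mem (jdF_mem_RwCusp N A _ hdN) (jdF_mem_RwCusp N A _ hd'N)

/-- **`red₃ y₃ = 0`** for `A` over `q`: `j(q² d' z) ≡ j(d' z)` along the `(1,1)`-component -/
theorem y3_mem_nonunits_Rw3 (hq : q.Prime) (hN : N = M' * q ^ 2) (hqM : ¬ q ∣ M')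
    (hA : A.LiesOverPrime q) {d' : ℕ}
    [NeZero (q ^ 2 * d')] [NeZero d'] (hd' : d' ∣ M') (hdN : q ^ 2 * d' ∣ N) (hd'N : d' ∣ N) :
    y3 N q hdN hd'N ∈ (redData3 N A q).Rw.nonunits := by
  rw [mem_nonunits_iff_red]
  refine ⟨y3_mem_Rw3 A hdN hd'N, ?_⟩
  have h1 : (⟨y3 N q hdN hd'N, y3_mem_Rw3 A hdN hd'N⟩ : (redData3 N A q).Rw) =
      ⟨jdF N (q ^ 2 * d') hdN, jdF_mem_RwCusp N A _ hdN⟩ -
        ⟨jdF N d' hd'N, jdF_mem_RwCusp N A _ hd'N⟩ := Subtype.ext rfl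
  rw [h1, map_sub, sub_eq_zero]
  apply Subtype.ext
  rw [coe_red3_top A hq hN hqM hA hd' hdN, coe_red3_low A (dvd_div_q hq hN hd') hd'N]

/-- **`w₃(y₃) = w₃(ξ₃ − 1)`** for `A` over `q` -/
theorem valuation_y3 (hq : q.Prime) (hN : N = M' * q ^ 2) (hqM : ¬ q ∣ M')
    (hA : A.LiesOverPrime q) {d' : ℕ}
    [NeZero (q ^ 2 * d')] [NeZero d'] (hd' : d' ∣ M') (hdN : q ^ 2 * d' ∣ N) (hd'N : d' ∣ N) :
    (redData3 N A q).Rw.valuation (y3 N q hdN hd'N) =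
      (redData3 N A q).Rw.valuation
        (algebraMap Kbar (FN N) (((xi3 N q hdN : Kbarˣ) : Kbar) - 1)) := by
  rw [y3_eq hq hN hqM hd' hdN hd'N, map_mul]
  have h1 : (redData3 N A q).Rw.valuation (tau3 N q hdN hd'N) = 1 := by
    have hmem := tau3_not_mem_nonunits A hq hN hqM hA hd' hdN hd'N
    rw [ValuationSubring.mem_nonunits_iff, not_lt] at hmem
    exact le_antisymm (((redData3 N A q).Rw.valuation_le_one_iff _).mpr
      (tau3_mem_Rw3 A hq hN hqM hd' hdN hd'N)) hmem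
  rw [h1, mul_one]

end Witness

end Fermat.Agent.GL.W3
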