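/-
GATE-L / L1e-w3 INSTANCE (helper26): the THIRD valuation `w₃` of `K₀(X₀(N))`, `N = M' q²`, `q ∤ M'`,
over the unramified base `R = A ∩ K₀`: helper93's `cusp3 N q` (the cusp `1/(qM')`) satisfies the
rationality hypothesis of `CuspK0` (all Hermite roots of unity are `q`-th roots of unity) and his
tame witness `y₃ = j(q² d' z) − j(d' z)` is `K₀`-rational, hence

* `isRamified_Rw3K0 : IsRamified (R0 A) q (Rw3K0 A N q) (y3K0 …) (q - 1)`  (helper90's structure);
* `isDiscreteValuationRing_Rw3K0`;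
* `IsRamified.of_base` : change of the base field in helper90's `IsRamified` (the three internal
  fields do not depend on the base).
-/
import Fermat.Agent.GL.Val.ThirdVal
import Fermat.Agent.GL.Val.CuspK0

set_option autoImplicit false

noncomputable section

namespace Fermat.Agent.GL.Val.ThirdK0

open HahnSeries ModularCurve IsLocalRing
open Fermat.Agent.S24 Fermat.Agent.S28 Fermat.Agent.S28.CuspExp Fermat.Agent.S28.Assemble
open Fermat.Agent.S24_helper62 Fermat.Agent.S24.Degree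
open Fermat.Agent.GJ.J1 Fermat.Agent.GJ.J1.Val Fermat.Agent.GK.Val Fermat.Agent.GK.Val.GaussBase
open Fermat.Agent.GL.CuspVal Fermat.Agent.GL.Val.CuspCoeff Fermat.Agent.GL.Val.GaussK0
open Fermat.Agent.GL.Val.CuspK0 Fermat.Agent.GL.W3
open Fermat.Agent.GL.Local.InertiaField Fermat.Agent.GL.MultiVal
open Fermat.Agent.Common_helper32

/-! ### Change of base in `IsRamified` -/

/-- the fields `lt_one`, `gen`, `pow_eq` of helper90's `IsRamified` do not depend on the base: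
an extension `V` which is ramified with uniformiser `ϖ` and index `e` over `(K, A, q)` is so over
every other base `(K', A', q')` it induces, as soon as `q` and `q'` have the same image. -/
theorem IsRamified.of_base {K K' F : Type*} [Field K] [Field K'] [Field F] [Algebra K F]
    [Algebra K' F] {A : ValuationSubring K} {A' : ValuationSubring K'} {q : K} {q' : K'}
    {V : ValuationSubring F} {ϖ : F} {e : ℕ} (h : IsRamified A q V ϖ e)
    (hmem : ∀ a : K', algebraMap K' F a ∈ V ↔ a ∈ A')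
    (hq : algebraMap K' F q' = algebraMap K F q) : IsRamified A' q' V ϖ e :=
  ⟨hmem, h.lt_one, h.gen, by rw [h.pow_eq, hq]⟩

/-! ### The divisors of `N = M' q²` -/

section Divisors

variable {N q M' : ℕ}

/-- a divisor of `M' q²` divides `M' q` or is `q² d'` with `d' ∣ M'` -/
theorem dvd_cases (hq : q.Prime) (hN : N = M' * q ^ 2) {d : ℕ} (hd : d ∣ N) :
    d ∣ N / q ∨ ∃ d', d' ∣ M' ∧ d = q ^ 2 * d' := by
  have hNq : N / q = M' * q := by
    rw [hN, pow_two, ← mul_assoc, Nat.mul_div_cancel _ hq.pos]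
  by_cases h2 : q ^ 2 ∣ d
  · right
    obtain ⟨d', rfl⟩ := h2
    refine ⟨d', ?_, rfl⟩
    rw [hN, mul_comm M'] at hd
    exact (Nat.mul_dvd_mul_iff_left (pow_pos hq.pos 2)).mp hd
  · left
    rw [hNq]
    by_cases h1 : q ∣ d
    · obtain ⟨d₁, rfl⟩ := h1
      have hq1 : ¬ q ∣ d₁ := by
        intro h
        apply h2
        obtain ⟨d₂, rfl⟩ := h
        exact ⟨d₂, by ring⟩
      have h3 : d₁ ∣ M' * q := by
        have : q * d₁ ∣ q * (M' * q) := by
          rw [hN] at hd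
          convert hd using 1
          ring
        exact (Nat.mul_dvd_mul_iff_left hq.pos).mp this
      have hcop : Nat.Coprime d₁ q := ((Nat.Prime.coprime_iff_not_dvd hq).mpr hq1).symm
      have h4 : d₁ ∣ M' := hcop.dvd_of_dvd_mul_right h3
      rw [mul_comm M' q]
      exact Nat.mul_dvd_mul_left q h4
    · have hcop : Nat.Coprime d q := ((Nat.Prime.coprime_iff_not_dvd hq).mpr h1).symm
      rw [hN, pow_two, ← mul_assoc] at hd
      exact hcop.dvd_of_dvd_mul_right hd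

end Divisors

/-! ### `cusp3` satisfies the rationality hypothesis -/

section Cusp3

variable {N : ℕ} [NeZero N] {q M' : ℕ}

/-- **all Hermite roots of unity at `cusp3` are `q`-th roots of unity** -/
theorem cuspXi_cusp3_pow (hq : q.Prime) (hN : N = M' * q ^ 2) (hqM : ¬ q ∣ M') (d : DivIdx N) :
    cuspXi N (cusp3 N q) d ^ q = 1 := by
  rcases d with ⟨d, hd⟩
  rcases dvd_cases hq hN hd with hlow | ⟨d', hd', rfl⟩
  · obtain ⟨-, -, hB⟩ := herm_cusp3_low hlow hd
    rw [cuspXi, hB, xi_zero, one_pow]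
  · obtain ⟨-, hD, -⟩ := herm_cusp3_top hq hN hqM hd' hd
    have hDn : (herm N (cusp3 N q) ⟨q ^ 2 * d', hd⟩).Dn = q := by
      have h1 := (herm N (cusp3 N q) ⟨q ^ 2 * d', hd⟩).coe_Dn (div_pos' N ⟨_, hd⟩)
      rw [hD] at h1
      exact_mod_cast h1
    have h2 : cuspXi N (cusp3 N q) ⟨q ^ 2 * d', hd⟩ = xi3 N q hd := by
      rw [cuspXi, xi3, hDn]
    rw [h2]
    exact (isPrimitiveRoot_xi3 hq hN hqM hd' hd).pow_eq_one

/-- the hypothesis `hc` of `CuspK0` at `cusp3` -/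
theorem hc_cusp3 (hq : q.Prime) (hN : N = M' * q ^ 2) (hqM : ¬ q ∣ M') :
    ∀ d : DivIdx N, ∃ m : ℕ, ¬ q ∣ m ∧
      ((cuspXi N (cusp3 N q) d : Kbarˣ) : Kbar) ^ (q * m) = 1 := by
  intro d
  refine ⟨1, fun h => hq.one_lt.ne' (Nat.dvd_one.mp h), ?_⟩
  rw [mul_one, ← Units.val_pow_eq_pow_val, cuspXi_cusp3_pow hq hN hqM d, Units.val_one]

end Cusp3

/-! ### The third valuation over `K₀` -/

section Third

variable (A : ValuationSubring Qb) (N : ℕ) [NeZero N] (q : ℕ) {M' : ℕ}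

/-- **the valuation ring of `w₃` on `K₀(X₀(N))`** -/
abbrev Rw3K0 : ValuationSubring (modularFunctionFieldFullC (K0 A) N) :=
  RwCuspK0 A N (cusp3 N q)

/-- **the tame witness `y₃ = j(q² d' z) − j(d' z)` over `K₀`** -/
def y3K0 {d' : ℕ} [NeZero (q ^ 2 * d')] [NeZero d'] (hdN : q ^ 2 * d' ∣ N) (hd'N : d' ∣ N) :
    modularFunctionFieldFullC (K0 A) N :=
  genC (K0 A) (R0 A) N hdN - genC (K0 A) (R0 A) N hd'N

variable {N q}

theorem toFN0_genC {d : ℕ} [NeZero d] (hd : d ∣ N) :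
    toFN0 A N (genC (K0 A) (R0 A) N hd) = jdF N d hd := by
  apply Subtype.ext
  rw [coe_toFN, coe_genC, coeffMap_qExpand, coeffMap_jqModC]
  exact (jdSeries_eq_jFam N ⟨d, hd⟩).symm

/-- `y₃` over `K₀` maps to helper93's `y₃` -/
theorem toFN0_y3K0 {d' : ℕ} [NeZero (q ^ 2 * d')] [NeZero d'] (hdN : q ^ 2 * d' ∣ N)
    (hd'N : d' ∣ N) : toFN0 A N (y3K0 A N q hdN hd'N) = y3 N q hdN hd'N := by
  rw [y3K0, map_sub, toFN0_genC, toFN0_genC, y3]

variable (hq : q.Prime) (hN : N = M' * q ^ 2) (hqM : ¬ q ∣ M') (hA : (q : Qb) ∈ A.nonunits)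
  {d' : ℕ} [NeZero (q ^ 2 * d')] [NeZero d'] (hd' : d' ∣ M') (hdN : q ^ 2 * d' ∣ N)
  (hd'N : d' ∣ N)

omit [NeZero (q ^ 2 * d')] [NeZero d'] in
include hq hN hqM hd' in
theorem isPrimitiveRoot_coe_xi3 : IsPrimitiveRoot ((xi3 N q hdN : Kbarˣ) : Kbar) q :=
  IsPrimitiveRoot.coe_units_iff.mpr (isPrimitiveRoot_xi3 hq hN hqM hd' hdN)

include hq hN hqM hA hd' in
/-- `w₃(y₃) = v(1 - ξ₃)` -/
theorem valuation_toFN0_y3K0 :
    (redDataCusp N A (cusp3 N q)).Rw.valuation (toFN0 A N (y3K0 A N q hdN hd'N)) =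
      (redDataCusp N A (cusp3 N q)).Rw.valuation
        (algebraMap Kbar (FN N) (1 - ((xi3 N q hdN : Kbarˣ) : Kbar))) := by
  rw [toFN0_y3K0, valuation_y3 A hq hN hqM hA hd' hdN hd'N, ← Valuation.map_neg, ← map_neg,
    neg_sub]

include hq hN hqM hA hd' in
/-- **`w₃` on `K₀(X₀(N))` is ramified of index `q - 1` over `R = A ∩ K₀`, with uniformiser `y₃`** -/
theorem isRamified_Rw3K0 :
    IsRamified (R0 A) ((q : ℕ) : K0 A) (Rw3K0 A N q) (y3K0 A N q hdN hd'N) (q - 1) :=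
  isRamified_cuspK0 A N (cusp3 N q) hq hA (isPrimitiveRoot_coe_xi3 hq hN hqM hd' hdN)
    (hc_cusp3 hq hN hqM) _ (valuation_toFN0_y3K0 A hq hN hqM hA hd' hdN hd'N)

include hq hN hqM hA hd' hdN hd'N in
/-- **`w₃` on `K₀(X₀(N))` is a discrete valuation ring** -/
theorem isDiscreteValuationRing_Rw3K0 : IsDiscreteValuationRing (Rw3K0 A N q) :=
  isDiscreteValuationRing_RwCuspK0 A N (cusp3 N q) hq hA (isPrimitiveRoot_coe_xi3 hq hN hqM hd' hdN)
    (hc_cusp3 hq hN hqM) _ (valuation_toFN0_y3K0 A hq hN hqM hA hd' hdN hd'N)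

include hq hN hqM hA hd' in
/-- the value group of `w₃` on `K₀(X₀(N))` is generated by `w₃(y₃)` -/
theorem exists_valuation_eq_zpow_y3K0 {x : modularFunctionFieldFullC (K0 A) N} (hx : x ≠ 0) :
    ∃ n : ℤ, (Rw3K0 A N q).valuation x = (Rw3K0 A N q).valuation (y3K0 A N q hdN hd'N) ^ n := by
  obtain ⟨n, hn⟩ := exists_valuation_eq_zpow A N (cusp3 N q) hq hA
    (isPrimitiveRoot_coe_xi3 hq hN hqM hd' hdN) (hc_cusp3 hq hN hqM) hx
  refine ⟨n, ?_⟩
  rw [← valuation_toFN0_y3K0 A hq hN hqM hA hd' hdN hd'N, ← map_zpow₀, ← map_zpow₀] at hn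
  rw [← map_zpow₀]
  exact (valuation_comap_eq_iff _ (toFN0 A N) _ _).mpr hn

end Third

end Fermat.Agent.GL.Val.ThirdK0
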