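/-
GATE-L / L1e-w3 (helper26): `j` is a GAUSS POINT of the cusp valuation `w_c` restricted to
`K₀(X₀(N))` over `R = A ∩ K₀` (helper90's `IsGaussAt`), for EVERY cusp `c` — the only extra input
per valuation of helper90's base change `K₀ ⟶ K₀(j)` (`GL/MultiVal/GaussBaseJ`).

* `isGaussAt_comap` (generic): Gauss points pull back along a compatible pair `ι : K₀ → K`,
  `φ : F₀ → F`;
* `isGaussAt_RwCuspK0 : IsGaussAt (R0 A) (RwCuspK0 A N c) (genC … (one_dvd N))`  (`genC … 1 = j`);
* `isGaussAt_Rw3K0` (the instance at helper93's `cusp3`).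
-/
import Fermat.Agent.GL.Val.ThirdK0
import Fermat.Agent.GL.Frame.GaussAtRedData

set_option autoImplicit false

noncomputable section

namespace Fermat.Agent.GL.Val.CuspK0

open HahnSeries ModularCurve IsLocalRing Polynomial
open Fermat.Agent.S24 Fermat.Agent.S24_helper62
open Fermat.Agent.GJ.J1 Fermat.Agent.GJ.J1.Val Fermat.Agent.GK.Val Fermat.Agent.GK.Val.GaussBase
open Fermat.Agent.GL.CuspVal Fermat.Agent.GL.Val.CuspCoeff Fermat.Agent.GL.Val.GaussK0
open Fermat.Agent.GL.GaussAt Fermat.Agent.GL.GaussAtRedData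
open Fermat.Agent.Common_helper32

/-! ### Gauss points pull back -/

section GenericGauss

variable {K₀ K F₀ F : Type*} [Field K₀] [Field K] [Field F₀] [Field F] [Algebra K₀ F₀]
  [Algebra K F] (ι : K₀ →+* K) (φ : F₀ →+* F)
  (hsq : ∀ a : K₀, φ (algebraMap K₀ F₀ a) = algebraMap K F (ι a))
  (A : ValuationSubring K) (V : ValuationSubring F)

include hsq in
/-- a Gauss point of `V` over `A` which comes from `F₀` is a Gauss point of `V ∩ F₀` over
`A ∩ K₀`. -/
theorem isGaussAt_comap {x₀ : F₀} (h : IsGaussAt A V (φ x₀)) :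
    IsGaussAt (A.comap ι) (V.comap φ) x₀ := by
  refine ⟨h.1, fun f hf => ?_⟩
  obtain ⟨i, hi⟩ := hf
  let ιA : ↥(A.comap ι) →+* ↥A :=
    (ι.comp (A.comap ι).subtype).codRestrict A.toSubring (fun x => x.2)
  have h1 := h.2 (f.map ιA) ⟨i, by rw [coeff_map]; exact hi.map ιA⟩
  have key : φ (aeval x₀ (f.map (A.comap ι).subtype)) =
      aeval (φ x₀) ((f.map ιA).map A.subtype) := by
    rw [aeval_def, aeval_def, hom_eval₂, eval₂_map, eval₂_map, eval₂_map]
    congr 1
    ext a
    exact hsq _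
  have h2 := (valuation_comap_eq_iff V φ (aeval x₀ (f.map (A.comap ι).subtype)) 1).mpr (by
    rw [key, h1, map_one, map_one])
  rwa [map_one] at h2

end GenericGauss

/-! ### `j` is a Gauss point of every cusp valuation over `K₀` -/

section Cusp

variable (A : ValuationSubring Qb) (N : ℕ) [NeZero N] (c : I0 N)

theorem toFN0_genC_one :
    toFN0 A N (genC (K0 A) (R0 A) N (one_dvd N)) = jF N :=
  Fermat.Agent.GL.Val.ThirdK0.toFN0_genC A (one_dvd N)

/-- **`j` is a Gauss point of `w_c` on `K₀(X₀(N))` over `R = A ∩ K₀`**, for every cusp `c` -/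
theorem isGaussAt_RwCuspK0 :
    IsGaussAt (R0 A) (RwCuspK0 A N c) (genC (K0 A) (R0 A) N (one_dvd N)) := by
  have h1 : IsGaussAt A (redDataCusp N A c).Rw (jF N) :=
    isGaussAt_of_isGaussChart (redDataCusp N A c) (isGaussChart_jF_cusp N A c)
  rw [← toFN0_genC_one A N] at h1
  exact isGaussAt_comap (ι0 A) (toFN0 A N) (fun a => toFN_algebraMap N (ι0 A) a) A
    (redDataCusp N A c).Rw h1

/-- the instance at helper93's `cusp3` (`N = M' q²`): `j` is a Gauss point of `w₃` over `K₀` -/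
theorem isGaussAt_Rw3K0 (q : ℕ) :
    IsGaussAt (R0 A) (Fermat.Agent.GL.Val.ThirdK0.Rw3K0 A N q)
      (genC (K0 A) (R0 A) N (one_dvd N)) :=
  isGaussAt_RwCuspK0 A N (Fermat.Agent.GL.W3.cusp3 N q)

end Cusp

end Fermat.Agent.GL.Val.CuspK0
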