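/-
GATE-L / L1e ASSEMBLY, generic part (helper75).

Setting of helper90's `GL/MultiVal/RamFamily.lean`: `F / K` finite, `A ⊂ K` a valuation subring
with uniformiser `q`, `W : ι → ValuationSubring F` pairwise incomparable extensions of `A` with
uniformisers `ϖ i` and ramification indices `e i` (`IsRamified`).  The concrete owners deliver ONE
orthonormal "leg" per valuation: `g i : Fin (f i) → F`, orthonormal for `(W i, 𝔪_{W i})` over `A`
(`f i` = a lower bound for the residue degree).  This file builds the index type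
`J = Σ i, Fin (e i) × Fin (f i)` of `card_le_finrank_ram'` / `exists_basis_ram'` /
`NoOtherExt.exists_eq_of_finrank_le` once and for all:

* `card_legIdx`              : `card J = ∑ i, e i * f i`;
* `sum_le_finrank_of_legs`   : the fundamental inequality `∑ e_i f_i ≤ [F : K]`;
* `finrank_eq_of_legs`       : `[F : K] ≤ ∑ e_i f_i` ⟹ equality;
* `exists_eq_of_legs`        : **NOEXT**: every valuation subring of `F` inducing `A` on `K` is one
                               of the `W i`;
* `mem_ball_iff_of_legs`     : `⋂ W i` = the elements of `F` integral over `A`;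
* `exists_basis_of_legs`     : the orthonormal basis of `exists_basis_ram'`;
* `f_eq_of_legs`             : if moreover `f' i ≥ f i` are the cardinalities of OTHER legs, then
                               `f' = f` (the residue degrees are exactly the lower bounds).
-/
import Mathlib
import Fermat.Agent.GL.MultiVal.NoOtherExt

set_option autoImplicit false

open Module

namespace Fermat.Agent.GL.Val.L1eAsm

open Fermat.Agent.GK.MultiVal Fermat.Agent.GL.MultiVal Fermat.Agent.GL.MultiVal.NoOtherExt

variable {K F : Type*} [Field K] [Field F] [Algebra K F]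

section idx

variable {ι : Type*} (e f : ι → ℕ)

/-- the index type of the joint family: triples `(i, a, m)` with `a < e i`, `m < f i` -/
abbrev LegIdx : Type _ := Σ i : ι, Fin (e i) × Fin (f i)

variable {e f}

/-- the valuation index of a triple -/
def legPi (j : LegIdx e f) : ι := j.1

/-- the exponent of the uniformiser -/
def legAlpha (j : LegIdx e f) : ℕ := (j.2.1 : ℕ)

/-- the joint family -/
def legFam (g : ∀ i, Fin (f i) → F) (j : LegIdx e f) : F := g j.1 j.2.2

theorem legAlpha_lt (j : LegIdx e f) : legAlpha j < e (legPi j) := j.2.1.2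

theorem card_legIdx [Fintype ι] : Fintype.card (LegIdx e f) = ∑ i, e i * f i := by
  rw [Fintype.card_sigma]
  refine Finset.sum_congr rfl fun i _ => ?_
  rw [Fintype.card_prod, Fintype.card_fin, Fintype.card_fin]

/-- the fibre of `(legPi, legAlpha)` over `(i, a)` maps injectively to `Fin (f i)` -/
def legFibre (i : ι) (a : ℕ) (j : {j : LegIdx e f // legPi j = i ∧ legAlpha j = a}) :
    Fin (f i) :=
  Fin.cast (congrArg f j.2.1) j.1.2.2

theorem legFibre_injective (i : ι) (a : ℕ) :
    Function.Injective (legFibre (e := e) (f := f) i a) := by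
  rintro ⟨⟨i₁, a₁, m₁⟩, h₁, h₁'⟩ ⟨⟨i₂, a₂, m₂⟩, h₂, h₂'⟩ h
  simp only [legPi] at h₁ h₂
  subst h₁
  subst h₂
  simp only [legAlpha] at h₁' h₂'
  have ha : a₁ = a₂ := Fin.ext (h₁'.trans h₂'.symm)
  subst ha
  have hm : m₁ = m₂ := by
    have := congrArg (fun z : Fin (f _) => (z : ℕ)) h
    exact Fin.ext this
  subst hm
  rfl

omit [Field F] in
theorem legFam_eq (g : ∀ i, Fin (f i) → F) (i : ι) (a : ℕ)
    (j : {j : LegIdx e f // legPi j = i ∧ legAlpha j = a}) :
    legFam g j.1 = g i (legFibre i a j) := by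
  obtain ⟨⟨i₁, a₁, m₁⟩, h₁, h₁'⟩ := j
  simp only [legPi] at h₁
  subst h₁
  rfl

end idx

section main

variable {ι : Type*} [Fintype ι] [Nonempty ι] {A : ValuationSubring K} {q : K}
  {W : ι → ValuationSubring F} {ϖ : ι → F} {e f : ι → ℕ} {g : ∀ i, Fin (f i) → F}
  [FiniteDimensional K F]

omit [Fintype ι] [Nonempty ι] [FiniteDimensional K F] in
/-- the legs give the local families of `card_le_finrank_ram'` -/
theorem isOrthoFamily_legFam
    (hg : ∀ i, IsOrthoFamily A (W i).toSubring (vrad (W i)) (g i)) (i : ι) (a : ℕ) :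
    IsOrthoFamily A (W i).toSubring (vrad (W i))
      (fun j : {j : LegIdx e f // legPi j = i ∧ legAlpha j = a} => legFam g j.1) := by
  have h := IsOrthoFamily.comp (hg i) (legFibre_injective (e := e) (f := f) i a)
  have hfun : (g i ∘ legFibre (e := e) (f := f) i a) =
      (fun j : {j : LegIdx e f // legPi j = i ∧ legAlpha j = a} => legFam g j.1) := by
    funext j
    exact (legFam_eq g i a j).symm
  rw [hfun] at h
  exact h

/-- **the fundamental inequality `∑ e_i f_i ≤ [F : K]`** for legs. -/
theorem sum_le_finrank_of_legs (hW : Incomparable W) (hq : IsUnif A q)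
    (hR : ∀ i, IsRamified A q (W i) (ϖ i) (e i))
    (hg : ∀ i, IsOrthoFamily A (W i).toSubring (vrad (W i)) (g i)) :
    ∑ i, e i * f i ≤ finrank K F := by
  rw [← card_legIdx (e := e) (f := f)]
  exact card_le_finrank_ram' (π := legPi) (α := legAlpha) (g := legFam g) hW hq hR legAlpha_lt
    (isOrthoFamily_legFam hg)

/-- equality in the fundamental inequality -/
theorem finrank_eq_of_legs (hW : Incomparable W) (hq : IsUnif A q)
    (hR : ∀ i, IsRamified A q (W i) (ϖ i) (e i))
    (hg : ∀ i, IsOrthoFamily A (W i).toSubring (vrad (W i)) (g i))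
    (hdeg : finrank K F ≤ ∑ i, e i * f i) : finrank K F = ∑ i, e i * f i :=
  le_antisymm hdeg (sum_le_finrank_of_legs hW hq hR hg)

omit [Nonempty ι] in
/-- **NOEXT for legs**: every valuation subring of `F` inducing `A` on `K` is one of the `W i`. -/
theorem exists_eq_of_legs (hW : Incomparable W) (hq : IsUnif A q)
    (hR : ∀ i, IsRamified A q (W i) (ϖ i) (e i))
    (hg : ∀ i, IsOrthoFamily A (W i).toSubring (vrad (W i)) (g i))
    (hdeg : finrank K F ≤ ∑ i, e i * f i)
    {V : ValuationSubring F} (hV : ∀ a : K, algebraMap K F a ∈ V ↔ a ∈ A) :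
    ∃ i, V = W i := by
  rw [← card_legIdx (e := e) (f := f)] at hdeg
  exact exists_eq_of_finrank_le (π := legPi) (α := legAlpha) (g := legFam g) hW hq hR
    legAlpha_lt (isOrthoFamily_legFam hg) hdeg hV

open Polynomial in
/-- **`⋂ W i` is the integral closure of `A` in `F`** (elementary form). -/
theorem mem_ball_iff_of_legs (hW : Incomparable W) (hq : IsUnif A q)
    (hR : ∀ i, IsRamified A q (W i) (ϖ i) (e i))
    (hg : ∀ i, IsOrthoFamily A (W i).toSubring (vrad (W i)) (g i))
    (hdeg : finrank K F ≤ ∑ i, e i * f i) {x : F} :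
    x ∈ ball W ↔ ∃ p : K[X], p.Monic ∧ (∀ n, p.coeff n ∈ A) ∧ aeval x p = 0 := by
  rw [← card_legIdx (e := e) (f := f)] at hdeg
  exact mem_ball_iff_exists_monic (π := legPi) (α := legAlpha) (g := legFam g) hW hq hR
    legAlpha_lt (isOrthoFamily_legFam hg) hdeg x

/-- the orthonormal basis of `exists_basis_ram'` for legs -/
theorem exists_basis_of_legs (hW : Incomparable W) (hq : IsUnif A q)
    (hR : ∀ i, IsRamified A q (W i) (ϖ i) (e i))
    (hg : ∀ i, IsOrthoFamily A (W i).toSubring (vrad (W i)) (g i))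
    (hdeg : finrank K F ≤ ∑ i, e i * f i) :
    ∃ b : Basis (LegIdx e f) K F,
      IsOrthoFamily A (ball W) (brad W (algebraMap K F q)) b ∧
      (∀ j i, i ≠ legPi j → b j ∈ qrad (W i) (algebraMap K F q)) ∧
      (∀ j, b j - ϖ (legPi j) ^ legAlpha j * legFam g j ∈
        qrad (W (legPi j)) (algebraMap K F q)) ∧
      (∀ d : LegIdx e f → K, (∑ j, d j • b j) ∈ ball W ↔ ∀ j, d j ∈ A) ∧
      (∀ d : LegIdx e f → K, (∑ j, d j • b j) ∈ brad W (algebraMap K F q) ↔
        ∀ j, d j ∈ A.nonunits) := by
  rw [← card_legIdx (e := e) (f := f)] at hdeg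
  exact exists_basis_ram' (π := legPi) (α := legAlpha) (g := legFam g) hW hq hR legAlpha_lt
    (isOrthoFamily_legFam hg) hdeg

/-- **the lower bounds are the residue degrees**: if equality holds for the legs `g` and `g'` are
other legs of cardinalities `f' i ≥ f i`, then `f' = f`. -/
theorem f_eq_of_legs (hW : Incomparable W) (hq : IsUnif A q)
    (hR : ∀ i, IsRamified A q (W i) (ϖ i) (e i))
    (hdeg : finrank K F ≤ ∑ i, e i * f i)
    {f' : ι → ℕ} {g' : ∀ i, Fin (f' i) → F}
    (hg' : ∀ i, IsOrthoFamily A (W i).toSubring (vrad (W i)) (g' i)) (hff' : ∀ i, f i ≤ f' i)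
    (i : ι) : f' i = f i := by
  have h1 : ∑ i, e i * f' i ≤ ∑ i, e i * f i := (sum_le_finrank_of_legs hW hq hR hg').trans hdeg
  by_contra hne
  have hlt : f i < f' i := lt_of_le_of_ne (hff' i) (Ne.symm hne)
  have hepos : 0 < e i := (hR i).e_pos hq
  have h2 : ∑ i, e i * f i < ∑ i, e i * f' i := by
    refine Finset.sum_lt_sum (fun i' _ => Nat.mul_le_mul_left _ (hff' i')) ⟨i, Finset.mem_univ i, ?_⟩
    exact Nat.mul_lt_mul_of_pos_left hlt hepos
  omega

end main

end Fermat.Agent.GL.Val.L1eAsm
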