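/-
GATE-L / L1e-DEG (helper45): **`[L(X₀(N)) : L(j)] = ψ(N)` for EVERY field `L` of characteristic `0`**
(e.g. `L = K₀ = ℚ̄^{I_q}`, or a number field), any level `N`.

Proof: helper28's `exists_basis_rat N ℓ` (for an auxiliary prime `ℓ ∤ N`) provides RATIONAL series
`b₁ … bₙ ∈ ℚ(X₀(N))` which are polynomially independent over `L[j]` and polynomially span
`L(X₀(N))` for every `L`; so `[L(X₀(N)) : L(j)] = n` does not depend on `L`, and `n = ψ(N)`
for `L = ℚ̄` (S24).

* `ratBasis N : Fin (ratCard N) → LaurentSeries ℚ`, `ratCard_eq_psi`;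
* `polyIndep_ratBasis L`, `polySpan_ratBasis L` : a polynomial basis over EVERY `L`;
* `finrank_baseChange_eq_psi`  : `[laurentBaseChange L F_N : L(j)] = ψ(N)`;
* `finrank_fullC_eq_psi`, `finiteDimensional_fullC` : the same for `modularFunctionFieldFullC L N`
  over `L⟮j⟯`, `j = genC L A N (one_dvd N)`.
-/
import Fermat.Agent.GJ.J1.Gauss.DegPres
import Fermat.Agent.S24_helper62.FieldGen
import Fermat.Agent.GK.Val.GaussBase

set_option autoImplicit false

noncomputable section

namespace Fermat.Agent.GL.Val.DegBase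

open ModularCurve HahnSeries Polynomial IntermediateField GaloisRep
open Fermat.Agent.GJ.GaussDeg Fermat.Agent.GK.Val.GaussBase

variable (N : ℕ) [NeZero N]

/-- a prime not dividing `N` -/
theorem exists_prime_not_dvd : ∃ ℓ : ℕ, ℓ.Prime ∧ ¬ ℓ ∣ N := by
  obtain ⟨p, hp1, hp2⟩ := Nat.exists_infinite_primes (N + 1)
  refine ⟨p, hp2, fun hdvd => ?_⟩
  have := Nat.le_of_dvd (Nat.pos_of_ne_zero (NeZero.ne N)) hdvd
  omega

/-- **a RATIONAL polynomial basis of `ℚ(X₀(N))` over `ℚ[j]`** -/
theorem exists_ratBasis :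
    ∃ (n : ℕ) (b : Fin n → LaurentSeries ℚ), (∀ i, b i ∈ modularFunctionFieldFull N) ∧
      PolyIndep ℚ jq b ∧ ∀ x : LaurentSeries ℚ, x ∈ modularFunctionFieldFull N → PolySpan ℚ jq b x := by
  obtain ⟨ℓ, hℓ, hℓN⟩ := exists_prime_not_dvd N
  have : Fact ℓ.Prime := ⟨hℓ⟩
  obtain ⟨n, y, ha, hb, hc, -⟩ := exists_basis_rat N ℓ hℓN
  refine ⟨n, fun i => coeffMap (algebraMap ↥(ratLocalizedAt ℓ) ℚ) (y i), ?_, hb, hc⟩
  intro i
  obtain ⟨x, hx⟩ := ha i
  show coeffMap (algebraMap ↥(ratLocalizedAt ℓ) ℚ) (y i) ∈ modularFunctionFieldFull N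
  rw [hx]
  exact x.1.2

/-- the number of elements of the rational basis -/
def ratCard : ℕ := (exists_ratBasis N).choose

/-- the rational basis -/
def ratBasis : Fin (ratCard N) → LaurentSeries ℚ := (exists_ratBasis N).choose_spec.choose

theorem ratBasis_mem (i : Fin (ratCard N)) : ratBasis N i ∈ modularFunctionFieldFull N :=
  (exists_ratBasis N).choose_spec.choose_spec.1 i

theorem polyIndep_ratBasis_rat : PolyIndep ℚ jq (ratBasis N) :=
  (exists_ratBasis N).choose_spec.choose_spec.2.1

theorem polySpan_ratBasis_rat (x : LaurentSeries ℚ) (hx : x ∈ modularFunctionFieldFull N) :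
    PolySpan ℚ jq (ratBasis N) x :=
  (exists_ratBasis N).choose_spec.choose_spec.2.2 x hx

variable (L : Type*) [Field L] [Algebra ℚ L]

/-- the rational basis is polynomially independent over `L[j]` -/
theorem polyIndep_ratBasis : PolyIndep L (jqModC L) (fun i => coeffEmb L (ratBasis N i)) := by
  have h1 := (polyIndep_ratBasis_rat N).baseChange (K := L)
  rw [jqModC_eq_coeffEmb]
  exact h1

/-- the rational basis polynomially spans `L(X₀(N))` -/
theorem polySpan_ratBasis (X : LaurentSeries L)
    (hX : X ∈ laurentBaseChange L (modularFunctionFieldFull N)) :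
    PolySpan L (jqModC L) (fun i => coeffEmb L (ratBasis N i)) X := by
  have h1 := polySpan_of_mem_laurentBaseChange L (ratBasis_mem N) (polySpan_ratBasis_rat N) hX
  rw [jqModC_eq_coeffEmb]
  exact h1

theorem coeffEmb_ratBasis_mem (i : Fin (ratCard N)) :
    coeffEmb L (ratBasis N i) ∈ laurentBaseChange L (modularFunctionFieldFull N) :=
  coeffEmb_mem_laurentBaseChange L (ratBasis_mem N i)

/-- the rational basis, inside `F_L` -/
def ratBasisL (i : Fin (ratCard N)) : ↥(laurentBaseChange L (modularFunctionFieldFull N)) :=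
  ⟨coeffEmb L (ratBasis N i), coeffEmb_ratBasis_mem N L i⟩

theorem polyIndep_ratBasisL : PolyIndep L (jBar N (L := L)) (ratBasisL N L) :=
  (polyIndep_map_iff (laurentBaseChange L (modularFunctionFieldFull N)).val
    Subtype.val_injective (jBar N (L := L)) (ratBasisL N L)).mp (polyIndep_ratBasis N L)

theorem polySpan_ratBasisL (X : ↥(laurentBaseChange L (modularFunctionFieldFull N))) :
    PolySpan L (jBar N (L := L)) (ratBasisL N L) X :=
  (polySpan_map_iff (laurentBaseChange L (modularFunctionFieldFull N)).val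
    Subtype.val_injective (jBar N (L := L)) (ratBasisL N L) X).mp (polySpan_ratBasis N L X.1 X.2)

/-- `[F_L : L(j)] = n` for every `L` -/
theorem finrank_baseChange_eq_ratCard :
    Module.finrank L⟮jBar N (L := L)⟯ ↥(laurentBaseChange L (modularFunctionFieldFull N)) =
      ratCard N := by
  rw [finrank_eq_card_of_polyIndep_of_polySpan (polyIndep_ratBasisL N L) (polySpan_ratBasisL N L),
    Fintype.card_fin]

/-- `n = ψ(N)` -/
theorem ratCard_eq_psi : ratCard N = dedekindPsi N := by
  rw [← finrank_baseChange_eq_ratCard N (AlgebraicClosure ℚ)]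
  exact finrank_jBar_eq_psi N

/-- **`[L(X₀(N)) : L(j)] = ψ(N)` for every field `L` of characteristic `0`** -/
theorem finrank_baseChange_eq_psi :
    Module.finrank L⟮jBar N (L := L)⟯ ↥(laurentBaseChange L (modularFunctionFieldFull N)) =
      dedekindPsi N := by
  rw [finrank_baseChange_eq_ratCard, ratCard_eq_psi]

/-! ### The same for `modularFunctionFieldFullC L N` -/

/-- `j` as an element of `L(X₀(N))` -/
def jC : modularFunctionFieldFullC L N :=
  ⟨jqModC L, by
    rw [← Fermat.Agent.S24_helper62.laurentBaseChange_full]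
    exact jqModC_mem_laurentBaseChange N⟩

@[simp] theorem coe_jC : ((jC N L : modularFunctionFieldFullC L N) : LaurentSeries L) = jqModC L :=
  rfl

omit [NeZero N] [Algebra ℚ L] in
theorem genC_one_eq_jC' (A : ValuationSubring L)
    (h : jqModC L ∈ modularFunctionFieldFullC L N) :
    genC L A N (one_dvd N) = ⟨jqModC L, h⟩ := by
  apply Subtype.ext
  rw [coe_genC, qExpand_one_apply]

theorem genC_one_eq_jC (A : ValuationSubring L) : genC L A N (one_dvd N) = jC N L :=
  genC_one_eq_jC' N L A _

/-- the rational basis, inside `L(X₀(N))` -/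
def ratBasisC (i : Fin (ratCard N)) : modularFunctionFieldFullC L N :=
  ⟨coeffEmb L (ratBasis N i), by
    rw [← Fermat.Agent.S24_helper62.laurentBaseChange_full]
    exact coeffEmb_ratBasis_mem N L i⟩

theorem polyIndep_ratBasisC : PolyIndep L (jC N L) (ratBasisC N L) :=
  (polyIndep_map_iff (modularFunctionFieldFullC L N).val
    Subtype.val_injective (jC N L) (ratBasisC N L)).mp (polyIndep_ratBasis N L)

theorem polySpan_ratBasisC (X : modularFunctionFieldFullC L N) :
    PolySpan L (jC N L) (ratBasisC N L) X := by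
  refine (polySpan_map_iff (modularFunctionFieldFullC L N).val
    Subtype.val_injective (jC N L) (ratBasisC N L) X).mp (polySpan_ratBasis N L X.1 ?_)
  rw [Fermat.Agent.S24_helper62.laurentBaseChange_full]
  exact X.2

/-- the rational basis as an `L(j)`-basis of `L(X₀(N))` -/
def basisC : Module.Basis (Fin (ratCard N)) L⟮jC N L⟯ (modularFunctionFieldFullC L N) :=
  Module.Basis.mk (polyIndep_ratBasisC N L).linearIndependent
    (fun x _ => (polySpan_ratBasisC N L x).mem_span)

/-- **`L(X₀(N))` is finite over `L(j)`** -/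
theorem finiteDimensional_fullC : FiniteDimensional L⟮jC N L⟯ (modularFunctionFieldFullC L N) :=
  Module.Finite.of_basis (basisC N L)

/-- **`[L(X₀(N)) : L(j)] = ψ(N)` for every field `L` of characteristic `0`** -/
theorem finrank_fullC_eq_psi :
    Module.finrank L⟮jC N L⟯ (modularFunctionFieldFullC L N) = dedekindPsi N := by
  rw [Module.finrank_eq_card_basis (basisC N L), Fintype.card_fin, ratCard_eq_psi]

end Fermat.Agent.GL.Val.DegBase
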