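/-
GATE-L / L1e-DEG part 2 (helper45): **residue degrees of the cusp-`∞` Gauss valuation of
`L(X₀(N))`** for EVERY field `L` of characteristic `0` and EVERY valuation subring `A` of `L`
over a prime `q` (e.g. `L = K₀ = ℚ̄^{I_q}`, `A = R₀`).  Everything is computed INSIDE `k((X))`
(`k` the residue field of `A`, `F~ = FresC L A N` the residue field of the Gauss valuation):

* `relfinrank_pow_pow_char` : `[k(x) : k(x^(ℓ^e))] = ℓ^e` in characteristic `ℓ` (from the layers);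
* `jqModC_pow_not_mem`      : `j~^(ℓ^i) ∉ k(j~^(ℓ^(i+1)))`;
* `relfinrank_jqModC_pow`   : `[k(j~) : k(j~^(ℓ^e))] = ℓ^e`;
* `psi_le_relfinrank`       : **`ψ(N') ≤ [F~ : k(j~)]`** for `N' ∣ N`, `q ∤ N'`
                              (helper28's degree preservation at level `N'`, any `(L, A)`);
* `relfinrank_pow_eq_mul`   : `[F~ : k(j~^(q^e))] = q^e [F~ : k(j~)]`;
* `finrank_red_eq_relfinrank` : `[F~ : k(red t)]` for the `RedData` charts, in `relfinrank` form.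
-/
import Fermat.Agent.GL.Val.DegBase
import Fermat.Agent.GK.Val.Degrees
import Fermat.Agent.GJ.AuxLevel.DegFinal
import Fermat.Agent.GL.AL.SecondValHall

set_option autoImplicit false

noncomputable section

namespace Fermat.Agent.GL.Val.DegFres

open HahnSeries ModularCurve IsLocalRing IntermediateField GaloisRep
open Fermat.Agent.GJ.J1 Fermat.Agent.GJ.J1.Val Fermat.Agent.GJ.GaussDeg
open Fermat.Agent.GK.Val.GaussBase Fermat.Agent.GK.Val.Degrees Fermat.Agent.GL.Val.DegBase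

/-! ### Purely inseparable layers -/

section Generic

variable {k Ω : Type*} [Field k] [Field Ω] [Algebra k Ω]

/-- `[k(x) : k(x^(ℓ^e))] = ℓ^e` in characteristic `ℓ`, as soon as every layer is non-trivial -/
theorem relfinrank_pow_pow_char (ℓ : ℕ) [hℓ : Fact ℓ.Prime] [CharP Ω ℓ] (x : Ω) :
    ∀ e : ℕ, (∀ i < e, x ^ ℓ ^ i ∉ k⟮x ^ ℓ ^ (i + 1)⟯) →
      relfinrank k⟮x ^ ℓ ^ e⟯ k⟮x⟯ = ℓ ^ e
  | 0, _ => by
      rw [pow_zero, pow_one, relfinrank_self]
  | e + 1, h => by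
      have ih := relfinrank_pow_pow_char ℓ x e (fun i hi => h i (Nat.lt_succ_of_lt hi))
      have hle1 : k⟮x ^ ℓ ^ (e + 1)⟯ ≤ k⟮x ^ ℓ ^ e⟯ := by
        rw [adjoin_simple_le_iff, pow_succ, pow_mul]
        exact pow_mem (mem_adjoin_simple_self k _) ℓ
      have hle2 : k⟮x ^ ℓ ^ e⟯ ≤ k⟮x⟯ := by
        rw [adjoin_simple_le_iff]
        exact pow_mem (mem_adjoin_simple_self k _) _
      have h1 : relfinrank k⟮x ^ ℓ ^ (e + 1)⟯ k⟮x ^ ℓ ^ e⟯ = ℓ := by
        have h2 : x ^ ℓ ^ (e + 1) = (x ^ ℓ ^ e) ^ ℓ := by rw [pow_succ, pow_mul]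
        rw [h2]
        apply relfinrank_pow_char ℓ
        rw [← h2]
        exact h e (Nat.lt_succ_self e)
      rw [← relfinrank_mul_relfinrank hle1 hle2, h1, ih, pow_succ, mul_comm]

end Generic

/-! ### `j~` in characteristic `ℓ` -/

section JChar

variable (ℓ : ℕ) [hℓ : Fact ℓ.Prime] [NeZero ℓ] (κ : Type*) [Field κ] [CharP κ ℓ]

/-- `j~^(ℓ^i) ∉ κ(j~^(ℓ^(i+1)))`: the latter consists of series in `X^(ℓ^(i+1))` -/
theorem jqModC_pow_not_mem (i : ℕ) :
    jqModC κ ^ ℓ ^ i ∉ κ⟮jqModC κ ^ ℓ ^ (i + 1)⟯ := by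
  have hne1 : NeZero (ℓ ^ i) := ⟨pow_ne_zero i (NeZero.ne ℓ)⟩
  have hne2 : NeZero (ℓ ^ (i + 1)) := ⟨pow_ne_zero (i + 1) (NeZero.ne ℓ)⟩
  intro h
  have hle : κ⟮jqModC κ ^ ℓ ^ (i + 1)⟯ ≤ (qExpandAlgHomC κ (ℓ ^ (i + 1))).fieldRange := by
    rw [adjoin_simple_le_iff, ← Fermat.Agent.GL.AL.qExpand_pow_jqModC_char κ ℓ (i + 1)]
    exact ⟨jqModC κ, rfl⟩
  obtain ⟨y, hy⟩ := hle h
  have h1 : (jqModC κ ^ ℓ ^ i).coeff (((ℓ ^ i : ℕ) : ℤ) * (-1)) = 0 := by
    rw [← hy]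
    show (qExpand κ (ℓ ^ (i + 1)) y).coeff _ = 0
    apply qExpand_coeff_of_not_dvd
    intro hdvd
    rw [mul_neg, mul_one, dvd_neg] at hdvd
    have h3 : ℓ ^ (i + 1) ∣ ℓ ^ i := by exact_mod_cast hdvd
    have h4 := Nat.le_of_dvd (pow_pos hℓ.out.pos i) h3
    have h5 : ℓ ^ i < ℓ ^ (i + 1) := Nat.pow_lt_pow_right hℓ.out.one_lt (Nat.lt_succ_self i)
    omega
  rw [← Fermat.Agent.GL.AL.qExpand_pow_jqModC_char κ ℓ i, qExpand_coeff_mul,
    coeff_jqModC_neg_one] at h1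
  exact one_ne_zero h1

/-- `[κ(j~) : κ(j~^(ℓ^e))] = ℓ^e` -/
theorem relfinrank_jqModC_pow (e : ℕ) :
    relfinrank κ⟮jqModC κ ^ ℓ ^ e⟯ κ⟮jqModC κ⟯ = ℓ ^ e := by
  have : CharP (LaurentSeries κ) ℓ := charP_laurent ℓ κ
  exact relfinrank_pow_pow_char ℓ (jqModC κ) e (fun i _ => jqModC_pow_not_mem ℓ κ i)

end JChar

/-! ### The residue field of the Gauss valuation -/

section Fres

variable (L : Type*) [Field L] (A : ValuationSubring L) (N : ℕ)

local notation "𝕜" => ResidueField A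

/-- `j~ ∈ F~` -/
theorem jqModC_mem_FresC : jqModC 𝕜 ∈ FresC L A N := by
  have h := ((redDataC L A N).red ⟨genC L A N (one_dvd N), genC_mem_RwC L A N _⟩).2
  rw [coe_red_genC, qExpand_one_apply] at h
  exact h

/-- `[F~ : k(red t)]` inside `k((X))` -/
theorem finrank_red_eq_relfinrank (x : FresC L A N)
    (s : LaurentSeries 𝕜) (hs : (x : LaurentSeries 𝕜) = s) :
    Module.finrank 𝕜⟮x⟯ (FresC L A N) = relfinrank 𝕜⟮s⟯ (FresC L A N) := by
  rw [finrank_adjoin_eq_relfinrank, hs]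

/-- the residue characteristic -/
theorem charP_residue' {q : ℕ} (hq : q.Prime) (hA : (q : L) ∈ A.nonunits) : CharP 𝕜 q := by
  have h1 : ((q : ℕ) : 𝕜) = 0 := by
    have h2 : residue A ((q : ℕ) : A) = 0 := by
      rw [residue_eq_zero_iff, mem_maximalIdeal, mem_nonunits_iff]
      intro hu
      have h3 : (((q : ℕ) : A) : L) ∈ A.nonunits := by
        rw [show (((q : ℕ) : A) : L) = (q : L) from by simp]
        exact hA
      rw [ValuationSubring.mem_nonunits_iff_exists_mem_maximalIdeal] at h3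
      obtain ⟨hmem, hmax⟩ := h3
      exact ((mem_maximalIdeal _).1 hmax) hu
    rwa [map_natCast] at h2
  have h2 := CharP.ringChar_of_prime_eq_zero hq h1
  have h3 : CharP 𝕜 (ringChar 𝕜) := ringChar.charP _
  rwa [h2] at h3

/-- **`[F~ : k(j~^(q^e))] = q^e [F~ : k(j~)]`** -/
theorem relfinrank_pow_eq_mul {q : ℕ} (hq : q.Prime) (hA : (q : L) ∈ A.nonunits) (e : ℕ) :
    relfinrank 𝕜⟮jqModC 𝕜 ^ q ^ e⟯ (FresC L A N) =
      q ^ e * relfinrank 𝕜⟮jqModC 𝕜⟯ (FresC L A N) := by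
  have : Fact q.Prime := ⟨hq⟩
  have : NeZero q := ⟨hq.ne_zero⟩
  have : CharP 𝕜 q := charP_residue' L A hq hA
  have hle1 : 𝕜⟮jqModC 𝕜 ^ q ^ e⟯ ≤ 𝕜⟮jqModC 𝕜⟯ := by
    rw [adjoin_simple_le_iff]
    exact pow_mem (mem_adjoin_simple_self 𝕜 _) _
  have hle2 : 𝕜⟮jqModC 𝕜⟯ ≤ FresC L A N := by
    rw [adjoin_simple_le_iff]
    exact jqModC_mem_FresC L A N
  rw [← relfinrank_mul_relfinrank hle1 hle2, relfinrank_jqModC_pow q 𝕜 e]

end Fres

/-! ### `ψ(N') ≤ f₁` -/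

section Psi

variable (L : Type*) [Field L] [Algebra ℚ L] (A : ValuationSubring L) (N : ℕ) [NeZero N]

local notation "𝕜" => ResidueField A

/-- **`ψ(N') ≤ [F~ : k(j~)]`** for `N' ∣ N`, `q ∤ N'`: the reductions of helper28's integral
`L(j)`-basis of `L(X₀(N'))` stay independent over `k(j~)`. -/
theorem psi_le_relfinrank {q : ℕ} (hq : q.Prime) (hA : (q : L) ∈ A.nonunits) (N' : ℕ) [NeZero N']
    (hN' : N' ∣ N) (hqN' : ¬ q ∣ N') :
    dedekindPsi N' ≤ relfinrank 𝕜⟮jqModC 𝕜⟯ (FresC L A N) := by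
  have : Fact q.Prime := ⟨hq⟩
  have hπ : residue A ((q : ℕ) : A) = 0 := by
    have := charP_residue' L A hq hA
    rw [map_natCast]
    exact CharP.cast_eq_zero 𝕜 q
  obtain ⟨n, y, z, hz, -, -, hn, -, -, -, hli⟩ :=
    exists_basis_field N' q A (residue A) hqN' hA hπ
  rw [finrank_baseChange_eq_psi N' L] at hn
  rw [hn]
  have ha : emb A (jqModC A) ∈ modularFunctionFieldFullC L N := by
    rw [emb, coeffMap_jqModC]
    exact jqModC_mem_full L N
  have hrd : rd A (jqModC A) = jqModC 𝕜 := by rw [rd, coeffMap_jqModC]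
  have htr : Transcendental 𝕜 (rd A (jqModC A)) := by
    rw [hrd]
    exact transcendental_jqModC _
  have hfd : FiniteDimensional L⟮(⟨emb A (jqModC A), ha⟩ : modularFunctionFieldFullC L N)⟯
      (modularFunctionFieldFullC L N) := by
    have h1 : (⟨emb A (jqModC A), ha⟩ : modularFunctionFieldFullC L N) = jC N L := by
      apply Subtype.ext
      show emb A (jqModC A) = jqModC L
      rw [emb, coeffMap_jqModC]
    rw [h1]
    exact finiteDimensional_fullC N L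
  have hz' : ∀ i, emb A (z i) ∈ modularFunctionFieldFullC L N := by
    intro i
    have h1 := hz i
    rw [Fermat.Agent.S24_helper62.laurentBaseChange_full] at h1
    exact full_degeneracyC_le L hN' h1
  have hli' : LinearIndependent 𝕜⟮rd A (jqModC A)⟯ (fun i => rd A (z i)) := by
    rw [hrd]
    exact hli
  have h := Fermat.Agent.GJ.AuxLevel.Deg.card_le_finrank_Fres A (modularFunctionFieldFullC L N)
    (hasGaussFrac_fullC L A N) ha htr z hz' hli'
  rw [finrank_adjoin_eq_relfinrank,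
    Fermat.Agent.GJ.AuxLevel.Deg.coe_red_chartRw, hrd] at h
  exact h

end Psi

end Fermat.Agent.GL.Val.DegFres
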