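/-
GATE-L / L5e-ORTH (helper45, requested by helper96 2790): **ORTH over the unramified base**.

`A | q` a valuation subring of `ℚ̄`, `K₀ = ℚ̄^{I_A}`, `R₀ = A ∩ K₀`, `F₀ = K₀(X₀(N))`, `j = jK0 A N`,
`k₀` the residue field of `R₀`, `F~ = FresK0 A N ≤ k₀((X))`.

* `finrank_jK0 : [F₀ : K₀(j)] = ψ(N)`,  `finiteDimensional_jK0`;
* `f1K0_eq`, `psi_le_f1K0` : `f₁ = [F~ : k₀(j~)] ≥ ψ(N')` for `N' ∣ N`, `q ∤ N'`;
* `q ∤ N`:  `f1K0_eq_psi : f₁ = ψ(N)`,  **`hasOrthoK0_single`** :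
            `HasOrthoBases (R0 A) (RwK0 A N).toSubring (vrad (RwK0 A N))`,  `hasOrthoK0 : (redDataK0 A N).HasOrtho`;
* `q ∥ N`:  `isGaussChart_jK0_2`, `f2K0_eq` (`f₂ = q f₁`), `redCompatK0`,
            `degreesK0 : f₁ = ψ(N/q) ∧ f₂ = q ψ(N/q) ∧ f₁ + f₂ = [F₀ : K₀(j)]`,  **`hasOrthoBasesK0`** :
            `HasOrthoBases (R0 A) (ball2 (redDataK0 A N) (redData2K0 A N h)) (rad2 …)`
  = the hypotheses `ho` of helper96's `RatLiftK0.exists_rat_lift_w1 / exists_rat_lift_ball2` VERBATIM;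
* Hall divisor `Q = q^e ∥ N` (helper54's `wAutQ`): `isGaussChart_jK0_2Q`, `f2QK0_eq` (`f₂ = q^e f₁`),
  `redCompatQK0`, `sum_le_QK0 : f₁ + q^e f₁ ≤ ψ(N)`.
-/
import Fermat.Agent.GL.Val.DegFres
import Fermat.Agent.GL.Val.SecondK0Hall
import Fermat.Agent.GK.MultiVal.TwoRedData
import Fermat.Agent.GL.Red.FamRed

set_option autoImplicit false

noncomputable section

namespace Fermat.Agent.GL.Val.OrthK0

open HahnSeries ModularCurve IsLocalRing IntermediateField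
open Fermat.Agent.S24 Fermat.Agent.S24_helper62
open Fermat.Agent.GJ.J1 Fermat.Agent.GJ.J1.Val
open Fermat.Agent.GK.Val.GaussBase Fermat.Agent.GK.Val.Degrees
open Fermat.Agent.GK.AL Fermat.Agent.GL.AL Fermat.Agent.GK.MultiVal
open Fermat.Agent.GL.Val.GaussK0 Fermat.Agent.GL.Val.SecondK0 Fermat.Agent.GL.Val.SecondK0Hall
open Fermat.Agent.GL.Val.RamK0 Fermat.Agent.GL.Val.DegBase Fermat.Agent.GL.Val.DegFres
open Fermat.Agent.Common_helper32

/-! ### Generic: one valuation, and the arithmetic of the degrees -/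

section Generic

variable {K F k Ft : Type*} [Field K] [Field F] [Algebra K F] [Field k] [Field Ft] [Algebra k Ft]

/-- **orthonormal bases for ONE reduction datum** in the language of `GK/MultiVal`
(`HasOrthoBases A B I` with `B = Rw`, `I = 𝔪_w`), from degree preservation at a Gauss chart -/
theorem hasOrthoBases_single_of_finrank_le (R : RedData K F k Ft) {t : F}
    (ht : R.IsGaussChart t) [FiniteDimensional K⟮t⟯ F]
    (hdeg : Module.finrank K⟮t⟯ F ≤ Module.finrank k⟮R.red ⟨t, ht.1⟩⟯ Ft) :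
    HasOrthoBases R.A R.Rw.toSubring (vrad R.Rw) := by
  have hc : Fermat.Agent.GL.FamRed.FamCompat (ι := Unit) (Ft := fun _ : Unit => Ft)
      (fun _ => R) R.A R.res := ⟨fun _ => rfl, fun _ _ _ _ => rfl⟩
  have ht' : ∀ _ : Unit, R.IsGaussChart t := fun _ => ht
  have h := Fermat.Agent.GL.FamRed.hasOrthoBases_fam (ι := Unit) (Ft := fun _ : Unit => Ft)
    (R := fun _ => R) hc (fun a b _ => Subsingleton.elim a b) ht' (by
      rw [Fintype.sum_unique]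
      exact hdeg)
  have e1 : Fermat.Agent.GL.FamRed.ballFam (ι := Unit) (Ft := fun _ : Unit => Ft)
      (fun _ => R) = R.Rw.toSubring := by
    ext x
    rw [Fermat.Agent.GL.FamRed.mem_ballFam]
    exact ⟨fun h => h (), fun h _ => h⟩
  have e2 : Fermat.Agent.GL.FamRed.radFam (ι := Unit) (Ft := fun _ : Unit => Ft)
      (fun _ => R) = vrad R.Rw := by
    ext x
    rw [Fermat.Agent.GL.FamRed.mem_radFam]
    exact ⟨fun h => h (), fun h _ => h⟩
  rwa [e1, e2] at h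

/-- the arithmetic of the two residue degrees at `q ∥ N` -/
theorem degrees_arith {f1 f2 n ψ' q : ℕ} (hf2 : f2 = q * f1) (hle : ψ' ≤ f1)
    (hsum : f1 + f2 ≤ n) (hn : n = ψ' * (q + 1)) :
    f1 = ψ' ∧ f2 = q * ψ' ∧ f1 + f2 = n := by
  subst hf2 hn
  have hf1le : f1 ≤ ψ' := by
    have h3 : f1 * (q + 1) ≤ ψ' * (q + 1) := by
      calc f1 * (q + 1) = f1 + q * f1 := by ring
        _ ≤ _ := hsum
    exact Nat.le_of_mul_le_mul_right h3 (Nat.succ_pos q)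
  have hf1eq : f1 = ψ' := le_antisymm hf1le hle
  subst hf1eq
  exact ⟨rfl, rfl, by ring⟩

end Generic

variable (A : ValuationSubring Qb) (N : ℕ) [NeZero N]

local notation "k₀" => ResidueField (R0 A)

/-! ### The chart `j` over `K₀` -/

/-- `j ∈ K₀(X₀(N))` -/
def jK0 : modularFunctionFieldFullC (K0 A) N := genC (K0 A) (R0 A) N (one_dvd N)

theorem jK0_eq_jC : jK0 A N = jC N (K0 A) := genC_one_eq_jC N (K0 A) (R0 A)

theorem jK0_eq_genC_idxOne : jK0 A N = genC (K0 A) (R0 A) N (idxOne N).2 := rfl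

/-- `j` over `K₀` goes to `j` over `ℚ̄` -/
theorem mapK0Bar_jK0 : mapK0Bar A N (jK0 A N) = jF N := by
  rw [jK0_eq_genC_idxOne, mapK0Bar_genC, ← jF_eq_gen]

/-- **`K₀(X₀(N))` is finite over `K₀(j)`** -/
theorem finiteDimensional_jK0 :
    FiniteDimensional (K0 A)⟮jK0 A N⟯ (modularFunctionFieldFullC (K0 A) N) := by
  rw [jK0_eq_jC]
  exact finiteDimensional_fullC N (K0 A)

/-- **`[K₀(X₀(N)) : K₀(j)] = ψ(N)`** -/
theorem finrank_jK0 :
    Module.finrank (K0 A)⟮jK0 A N⟯ (modularFunctionFieldFullC (K0 A) N) = dedekindPsi N := by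
  rw [jK0_eq_jC]
  exact finrank_fullC_eq_psi N (K0 A)

omit [NeZero N] in
theorem isGaussChart_jK0 : (redDataK0 A N).IsGaussChart (jK0 A N) :=
  isGaussChart_jC (K0 A) (R0 A) N

omit [NeZero N] in
theorem jK0_mem_RwK0 : jK0 A N ∈ RwK0 A N := genC_mem_RwC (K0 A) (R0 A) N _

omit [NeZero N] in
/-- `red₁ j = j~` -/
theorem coe_red1K0_jK0 (h : jK0 A N ∈ (redDataK0 A N).Rw) :
    (((redDataK0 A N).red ⟨jK0 A N, h⟩ : FresK0 A N) : LaurentSeries k₀) = jqModC k₀ := by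
  exact (coe_red_genC (K0 A) (R0 A) N (one_dvd N) h).trans (qExpand_one_apply _)

omit [NeZero N] in
/-- `f₁ = [F~ : k₀(j~)]`, inside `k₀((X))` -/
theorem f1K0_eq (h : jK0 A N ∈ (redDataK0 A N).Rw) :
    Module.finrank k₀⟮(redDataK0 A N).red ⟨jK0 A N, h⟩⟯ (FresK0 A N) =
      relfinrank k₀⟮jqModC k₀⟯ (FresK0 A N) := by
  rw [finrank_adjoin_eq_relfinrank, coe_red1K0_jK0]

section Prime

variable {q : ℕ} (hq : q.Prime) (hA : (q : Qb) ∈ A.nonunits)

include hA in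
/-- `q` is a nonunit of `R₀` -/
theorem natCast_mem_nonunits_R0 : ((q : ℕ) : K0 A) ∈ (R0 A).nonunits := by
  have h := q0_mem_nonunits A hA
  have e : ((q0 A q : R0 A) : K0 A) = ((q : ℕ) : K0 A) := by
    apply ι0_injective A
    rw [ι0_q0, map_natCast]
  rwa [e] at h

include hq hA in
/-- the residue field of `R₀` has characteristic `q` -/
theorem charP_k0 : CharP k₀ q := charP_residue' (K0 A) (R0 A) hq (natCast_mem_nonunits_R0 A hA)

include hq hA in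
/-- **`ψ(N') ≤ f₁`** for `N' ∣ N`, `q ∤ N'` -/
theorem psi_le_f1K0 (N' : ℕ) [NeZero N'] (hN' : N' ∣ N) (hqN' : ¬ q ∣ N')
    (h : jK0 A N ∈ (redDataK0 A N).Rw) :
    dedekindPsi N' ≤
      Module.finrank k₀⟮(redDataK0 A N).red ⟨jK0 A N, h⟩⟯ (FresK0 A N) := by
  rw [f1K0_eq]
  exact psi_le_relfinrank (K0 A) (R0 A) N hq (natCast_mem_nonunits_R0 A hA) N' hN' hqN'

/-! ### `q ∤ N` : one valuation -/

include hq hA in
/-- **`f₁ = ψ(N)` for `q ∤ N`** -/
theorem f1K0_eq_psi (hqN : ¬ q ∣ N) (h : jK0 A N ∈ (redDataK0 A N).Rw) :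
    Module.finrank k₀⟮(redDataK0 A N).red ⟨jK0 A N, h⟩⟯ (FresK0 A N) = dedekindPsi N := by
  have := finiteDimensional_jK0 A N
  apply le_antisymm
  · rw [← finrank_jK0 A N]
    exact (Fermat.Agent.GJ.S37.ResDeg.finrank_residue_le (redDataK0 A N).A
      (redDataK0 A N).Rw (fun a ha => ((redDataK0 A N).mem_A_iff a).1 ha)
      (redDataK0 A N).red (redDataK0 A N).res (redDataK0 A N).red_algebraMap
      (redDataK0 A N).red_surjective ⟨jK0 A N, h⟩ (isGaussChart_jK0 A N).2).2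
  · exact psi_le_f1K0 A N hq hA N dvd_rfl hqN h

include hq hA in
/-- **ORTH over `K₀`, one valuation (`q ∤ N`)**, in the single-valuation language of GATE-J -/
theorem hasOrthoK0 (hqN : ¬ q ∣ N) : (redDataK0 A N).HasOrtho := by
  have := finiteDimensional_jK0 A N
  refine (redDataK0 A N).hasOrtho_of_finrank_le (jK0 A N) (isGaussChart_jK0 A N).1
    (isGaussChart_jK0 A N).2 ?_
  rw [f1K0_eq_psi A N hq hA hqN, finrank_jK0]

include hq hA in
/-- **ORTH over `K₀`, one valuation (`q ∤ N`)** = the hypothesis `ho` of helper96's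
`RatLiftK0.exists_rat_lift_w1` VERBATIM -/
theorem hasOrthoK0_single (hqN : ¬ q ∣ N) :
    HasOrthoBases (R0 A) (RwK0 A N).toSubring (vrad (RwK0 A N)) := by
  have := finiteDimensional_jK0 A N
  refine hasOrthoBases_single_of_finrank_le (redDataK0 A N) (isGaussChart_jK0 A N) ?_
  rw [finrank_jK0]
  exact (f1K0_eq_psi A N hq hA hqN _).ge

end Prime

/-! ### `q ∥ N` : the two valuations `w₁`, `w₂ = w₁ ∘ W_q` -/

section Exact

variable {q : ℕ} (h : ExactDvd q N)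

theorem wAutK0_jK0 :
    wAutK0 A N h (jK0 A N) = genC (K0 A) (R0 A) N (swapIdx h (idxOne N)).2 :=
  wAutK0_genC A N h (idxOne N)

/-- `red₂ x = red₁ (W_q x)`, with the image named -/
theorem red2K0_of_eq (x : modularFunctionFieldFullC (K0 A) N) (hx : x ∈ (redData2K0 A N h).Rw)
    (y : modularFunctionFieldFullC (K0 A) N) (hy : y ∈ RwK0 A N) (e : wAutK0 A N h x = y) :
    (redData2K0 A N h).red ⟨x, hx⟩ = (redDataK0 A N).red ⟨y, hy⟩ := by
  subst e
  rfl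

theorem jK0_mem_Rw2K0 : jK0 A N ∈ (redData2K0 A N h).Rw := by
  rw [mem_Rw2K0_iff_wAutK0, wAutK0_jK0]
  exact genC_mem_RwC (K0 A) (R0 A) N _

/-- `red₂ j = j~(X^q)` -/
theorem coe_red2K0_jK0 [NeZero q] (h2 : jK0 A N ∈ (redData2K0 A N h).Rw) :
    (((redData2K0 A N h).red ⟨jK0 A N, h2⟩ : FresK0 A N) : LaurentSeries k₀) =
      qExpand k₀ q (jqModC k₀) := by
  rw [red2K0_of_eq A N h _ h2 _ (genC_mem_RwC (K0 A) (R0 A) N _) (wAutK0_jK0 A N h)]
  exact (coe_red_genC (K0 A) (R0 A) N (swapIdx h (idxOne N)).2 _).trans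
    (qExpand_congr (swapIdx_idxOne_val N h) _)

/-- `j` is a Gauss chart for `w₂` -/
theorem isGaussChart_jK0_2 : (redData2K0 A N h).IsGaussChart (jK0 A N) := by
  have : NeZero q := ⟨h.prime.ne_zero⟩
  refine ⟨jK0_mem_Rw2K0 A N h, ?_⟩
  apply Fres.transcendental_of_coe
  rw [coe_red2K0_jK0]
  exact transcendental_qExpand_jqModC k₀ _

/-- the two reduction data over `K₀` are compatible -/
theorem redCompatK0 : RedCompat (redDataK0 A N) (redData2K0 A N h) :=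
  ⟨rfl, fun _ _ _ => rfl⟩

variable (hA : (q : Qb) ∈ A.nonunits)

include hA in
/-- **`f₂ = q f₁`** -/
theorem f2K0_eq (h1 : jK0 A N ∈ (redDataK0 A N).Rw) (h2 : jK0 A N ∈ (redData2K0 A N h).Rw) :
    Module.finrank k₀⟮(redData2K0 A N h).red ⟨jK0 A N, h2⟩⟯ (FresK0 A N) =
      q * Module.finrank k₀⟮(redDataK0 A N).red ⟨jK0 A N, h1⟩⟯ (FresK0 A N) := by
  have : Fact q.Prime := ⟨h.prime⟩
  have : NeZero q := ⟨h.prime.ne_zero⟩
  have : CharP k₀ q := charP_k0 A h.prime hA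
  rw [f1K0_eq, finrank_adjoin_eq_relfinrank, coe_red2K0_jK0,
    Fermat.Agent.GJ.J3.QS.qExpand_jqModC_char q]
  have h3 := relfinrank_pow_eq_mul (K0 A) (R0 A) N h.prime (natCast_mem_nonunits_R0 A hA) 1
  rwa [pow_one] at h3

include hA in
/-- **the residue degrees over `K₀` at `q ∥ N`**: `f₁ = ψ(N/q)`, `f₂ = q ψ(N/q)`,
`f₁ + f₂ = [K₀(X₀(N)) : K₀(j)]` -/
theorem degreesK0 (h1 : jK0 A N ∈ (redDataK0 A N).Rw) (h2 : jK0 A N ∈ (redData2K0 A N h).Rw) :
    Module.finrank k₀⟮(redDataK0 A N).red ⟨jK0 A N, h1⟩⟯ (FresK0 A N) = dedekindPsi (N / q) ∧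
      Module.finrank k₀⟮(redData2K0 A N h).red ⟨jK0 A N, h2⟩⟯ (FresK0 A N) =
        q * dedekindPsi (N / q) ∧
      Module.finrank k₀⟮(redDataK0 A N).red ⟨jK0 A N, h1⟩⟯ (FresK0 A N) +
        Module.finrank k₀⟮(redData2K0 A N h).red ⟨jK0 A N, h2⟩⟯ (FresK0 A N) =
        Module.finrank (K0 A)⟮jK0 A N⟯ (modularFunctionFieldFullC (K0 A) N) := by
  have : Fact q.Prime := ⟨h.prime⟩
  have := finiteDimensional_jK0 A N
  have hNq : N / q * q = N := Nat.div_mul_cancel h.dvd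
  have hpos : N / q ≠ 0 := by
    intro h0
    rw [h0, zero_mul] at hNq
    exact NeZero.ne N hNq.symm
  have : NeZero (N / q) := ⟨hpos⟩
  have hqN' : ¬ q ∣ N / q := by
    intro hd
    apply h.not_sq
    rw [pow_two, ← hNq]
    exact mul_dvd_mul_right hd q
  have hψ : dedekindPsi N = dedekindPsi (N / q) * (q + 1) := by
    conv_lhs => rw [← hNq]
    exact dedekindPsi_mul_prime (N / q) q hqN'
  have hsum := sum_finrank_le (redCompatK0 A N h) (Rw1K0_ne_Rw2K0 A N h hA)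
    (isGaussChart_jK0 A N) (isGaussChart_jK0_2 A N h)
  exact degrees_arith (f2K0_eq A N h hA h1 h2)
    (psi_le_f1K0 A N h.prime hA (N / q) (Dvd.intro _ hNq) hqN' h1) hsum
    ((finrank_jK0 A N).trans hψ)

include hA in
/-- **ORTH over `K₀` at `q ∥ N`** = the hypothesis `ho` of helper96's
`RatLiftK0.exists_rat_lift_ball2` VERBATIM: the semilocal ring `Rw₁ ∩ Rw₂` of `K₀(X₀(N))` has
orthonormal bases over `R₀` for the norm `max(w₁, w₂)`. -/
theorem hasOrthoBasesK0 :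
    HasOrthoBases (R0 A) (ball2 (redDataK0 A N) (redData2K0 A N h))
      (rad2 (redDataK0 A N) (redData2K0 A N h)) := by
  have := finiteDimensional_jK0 A N
  refine hasOrthoBases2 (redCompatK0 A N h) (Rw1K0_ne_Rw2K0 A N h hA)
    (isGaussChart_jK0 A N) (isGaussChart_jK0_2 A N h) ?_
  exact (degreesK0 A N h hA _ _).2.2.ge

end Exact

/-! ### A Hall divisor `Q = q^e ∥ N` : `w₁` and `w₂ = w₁ ∘ W_Q` -/

section Hall

variable {Q : ℕ} (h : HallDvd Q N)

theorem wAutQK0_jK0 :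
    wAutQK0 A N h (jK0 A N) = genC (K0 A) (R0 A) N (swapHall h (idxOne N)).2 :=
  wAutQK0_genC A N h (idxOne N)

/-- `red₂ x = red₁ (W_Q x)`, with the image named -/
theorem red2QK0_of_eq (x : modularFunctionFieldFullC (K0 A) N) (hx : x ∈ (redData2QK0 A N h).Rw)
    (y : modularFunctionFieldFullC (K0 A) N) (hy : y ∈ RwK0 A N) (e : wAutQK0 A N h x = y) :
    (redData2QK0 A N h).red ⟨x, hx⟩ = (redDataK0 A N).red ⟨y, hy⟩ := by
  subst e
  rfl

theorem jK0_mem_Rw2QK0 : jK0 A N ∈ (redData2QK0 A N h).Rw := by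
  rw [mem_Rw2QK0_iff_wAutQK0, wAutQK0_jK0]
  exact genC_mem_RwC (K0 A) (R0 A) N _

/-- `red₂ j = j~(X^Q)` -/
theorem coe_red2QK0_jK0 [NeZero Q] (h2 : jK0 A N ∈ (redData2QK0 A N h).Rw) :
    (((redData2QK0 A N h).red ⟨jK0 A N, h2⟩ : FresK0 A N) : LaurentSeries k₀) =
      qExpand k₀ Q (jqModC k₀) := by
  rw [red2QK0_of_eq A N h _ h2 _ (genC_mem_RwC (K0 A) (R0 A) N _) (wAutQK0_jK0 A N h)]
  exact (coe_red_genC (K0 A) (R0 A) N (swapHall h (idxOne N)).2 _).trans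
    (qExpand_congr (swapHall_idxOne_val N h) _)

/-- `j` is a Gauss chart for `w₂ = w₁ ∘ W_Q` -/
theorem isGaussChart_jK0_2Q : (redData2QK0 A N h).IsGaussChart (jK0 A N) := by
  have : NeZero Q := ⟨h.pos.ne'⟩
  refine ⟨jK0_mem_Rw2QK0 A N h, ?_⟩
  apply Fres.transcendental_of_coe
  rw [coe_red2QK0_jK0]
  exact transcendental_qExpand_jqModC k₀ _

/-- the two reduction data over `K₀` are compatible -/
theorem redCompatQK0 : RedCompat (redDataK0 A N) (redData2QK0 A N h) :=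
  ⟨rfl, fun _ _ _ => rfl⟩

variable {q : ℕ} (hq : q.Prime) {e : ℕ} (hQ : Q = q ^ e) (hA : (q : Qb) ∈ A.nonunits)

include hq hQ hA in
/-- **`f₂ = q^e f₁`** at the Hall divisor `Q = q^e` -/
theorem f2QK0_eq (h1 : jK0 A N ∈ (redDataK0 A N).Rw) (h2 : jK0 A N ∈ (redData2QK0 A N h).Rw) :
    Module.finrank k₀⟮(redData2QK0 A N h).red ⟨jK0 A N, h2⟩⟯ (FresK0 A N) =
      q ^ e * Module.finrank k₀⟮(redDataK0 A N).red ⟨jK0 A N, h1⟩⟯ (FresK0 A N) := by
  have : Fact q.Prime := ⟨hq⟩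
  have : NeZero q := ⟨hq.ne_zero⟩
  have : NeZero (q ^ e) := ⟨pow_ne_zero e hq.ne_zero⟩
  have : NeZero Q := ⟨by rw [hQ]; exact pow_ne_zero e hq.ne_zero⟩
  have : CharP k₀ q := charP_k0 A hq hA
  rw [f1K0_eq, finrank_adjoin_eq_relfinrank, coe_red2QK0_jK0, qExpand_congr hQ,
    qExpand_pow_jqModC_char k₀ q e]
  exact relfinrank_pow_eq_mul (K0 A) (R0 A) N hq (natCast_mem_nonunits_R0 A hA) e

include h hq hQ hA in
/-- the fundamental inequality for `w₁, w₂` at the Hall divisor `Q = q^e` (`e ≥ 1`):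
`f₁ + q^e f₁ ≤ ψ(N)` -/
theorem sum_le_QK0 (he : 0 < e) (h1 : jK0 A N ∈ (redDataK0 A N).Rw) :
    Module.finrank k₀⟮(redDataK0 A N).red ⟨jK0 A N, h1⟩⟯ (FresK0 A N) +
      q ^ e * Module.finrank k₀⟮(redDataK0 A N).red ⟨jK0 A N, h1⟩⟯ (FresK0 A N) ≤
        dedekindPsi N := by
  have := finiteDimensional_jK0 A N
  have hsum := sum_finrank_le (redCompatQK0 A N h) (Rw1K0_ne_Rw2QK0 A N h hq he hQ hA)
    (isGaussChart_jK0 A N) (isGaussChart_jK0_2Q A N h)
  rw [finrank_jK0] at hsum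
  rw [← f2QK0_eq A N h hq hQ hA h1 (isGaussChart_jK0_2Q A N h).1]
  exact hsum

end Hall

end Fermat.Agent.GL.Val.OrthK0
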