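/-
GATE-L / L1c level-q² specifics, part 2 (helper93): the THREE Gauss valuations `w₁`, `w₂ = w₁ ∘ W_{q²}`
(helper54 `redData2Q`), `w₃` (`redData3`, the cusp `1/(N/q)`) of `F_N`, `N = M' q²`, `q ∤ M'`, at a
valuation subring `A` of `ℚ̄` over `q` are PAIRWISE INCOMPARABLE.

Reductions of `(j, j_q, j_{q²})`:  `w₁ : (x, x^q, x^{q²})`,  `w₂ : (x^{q²}, x^q, x)`,
`w₃ : (x, x^q, x)`.  Witnesses (all RATIONAL: polynomial in the generators, so they also separate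
the restrictions to `F_L` for every subfield `L`):

* `yW = j_{q²} − j`       : `red₃ = 0`, `red₁ ≠ 0`, `red₂ ≠ 0`;
* `z1W = j_{q²} − j_q^q`  : `red₁ = 0`, `red₃ ≠ 0`;
* `z2W = j − j_q^q`       : `red₂ = 0`, `red₃ ≠ 0`.

`incomparable_three : Incomparable ![Rw₁, Rw₂, Rw₃]` (helper90 / K `MultiVal` input).
-/
import Fermat.Agent.GL.Val.ThirdVal
import Fermat.Agent.GL.AL.SecondValHall

set_option autoImplicit false

noncomputable section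

namespace Fermat.Agent.GL.W3

open HahnSeries ModularCurve IsLocalRing
open Fermat.Agent.S24 Fermat.Agent.S28 Fermat.Agent.S28.CuspExp Fermat.Agent.S28.Assemble
open Fermat.Agent.S24_helper62 Fermat.Agent.S24_helper82
open Fermat.Agent.GJ.J1 Fermat.Agent.GJ.J1.Val Fermat.Agent.GL.CuspVal
open Fermat.Agent.GK.AL Fermat.Agent.GL.AL Fermat.Agent.GK.MultiVal

variable (N : ℕ) [NeZero N] (A : ValuationSubring Kbar) {q M' : ℕ}

local notation "𝕜" => ResidueField A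

/-! ### `red₃` of the generators `gen N d` -/

theorem gen_mem_Rw3 (d : DivIdx N) : gen N d ∈ (redData3 N A q).Rw := by
  rw [gen_eq_jdF]
  exact jdF_mem_RwCusp N A _ d.2

theorem coe_red3_gen_low (d : DivIdx N) (n : ℕ) [NeZero n] (hn : d.1 = n) (hd : n ∣ N / q)
    (h : gen N d ∈ (redData3 N A q).Rw) :
    (((redData3 N A q).red ⟨gen N d, h⟩ : FresCusp N A (cusp3 N q)) : LaurentSeries 𝕜) =
      qExpand 𝕜 (N * n) (jqModC 𝕜) := by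
  subst hn
  have h1 : (⟨gen N d, h⟩ : (redData3 N A q).Rw) =
      ⟨jdF N d.1 d.2, jdF_mem_RwCusp N A _ d.2⟩ := Subtype.ext (gen_eq_jdF d)
  rw [h1, coe_red3_low A hd d.2]

theorem coe_red3_gen_top (hq : q.Prime) (hN : N = M' * q ^ 2) (hqM : ¬ q ∣ M')
    (hA : A.LiesOverPrime q) (d : DivIdx N) (d' : ℕ) [NeZero d'] (hn : d.1 = q ^ 2 * d')
    (hd' : d' ∣ M') (h : gen N d ∈ (redData3 N A q).Rw) :
    (((redData3 N A q).red ⟨gen N d, h⟩ : FresCusp N A (cusp3 N q)) : LaurentSeries 𝕜) =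
      qExpand 𝕜 (N * d') (jqModC 𝕜) := by
  obtain ⟨dv, hdv⟩ := d
  simp only at hn
  subst hn
  have : NeZero (q ^ 2 * d') := ⟨(div_pos' N ⟨_, hdv⟩).ne'⟩
  have h1 : (⟨gen N ⟨q ^ 2 * d', hdv⟩, h⟩ : (redData3 N A q).Rw) =
      ⟨jdF N (q ^ 2 * d') hdv, jdF_mem_RwCusp N A _ hdv⟩ := Subtype.ext (gen_eq_jdF _)
  rw [h1, coe_red3_top A hq hN hqM hA hd' hdv]


/-! ### The witnesses -/

section Witnesses

theorem hallDvd_sq (hq : q.Prime) (hN : N = M' * q ^ 2) (hqM : ¬ q ∣ M') : HallDvd (q ^ 2) N := by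
  refine HallDvd.of_sq hq ⟨M', by rw [hN, mul_comm]⟩ (fun h3 => hqM ?_)
  rw [hN, pow_succ, mul_comm M'] at h3
  exact (Nat.mul_dvd_mul_iff_left (pow_pos hq.pos 2)).mp h3

theorem q_dvd_level (hN : N = M' * q ^ 2) : q ∣ N := by
  rw [hN]
  exact Dvd.dvd.mul_left (dvd_pow_self q two_ne_zero) M'

variable {N}

/-- `j_{q²} − j` -/
def yW (h : HallDvd (q ^ 2) N) : FN N := gen N (idxHall N h) - gen N (idxOne N)

/-- `j_{q²} − j_q^q` -/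
def z1W (h : HallDvd (q ^ 2) N) (hqN : q ∣ N) : FN N := gen N (idxHall N h) - gen N ⟨q, hqN⟩ ^ q

/-- `j − j_q^q` -/
def z2W (hqN : q ∣ N) : FN N := gen N (idxOne N) - gen N ⟨q, hqN⟩ ^ q

theorem coe_sub_Fres3 (a b : FresCusp N A (cusp3 N q)) :
    ((a - b : FresCusp N A (cusp3 N q)) : LaurentSeries 𝕜) =
      (a : LaurentSeries 𝕜) - (b : LaurentSeries 𝕜) := rfl

theorem coe_sub_pow_Fres3 (a b : FresCusp N A (cusp3 N q)) (n : ℕ) :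
    ((a - b ^ n : FresCusp N A (cusp3 N q)) : LaurentSeries 𝕜) =
      (a : LaurentSeries 𝕜) - (b : LaurentSeries 𝕜) ^ n := rfl

theorem coe_sub_Fres1 (a b : FresBar N A) :
    ((a - b : FresBar N A) : LaurentSeries 𝕜) =
      (a : LaurentSeries 𝕜) - (b : LaurentSeries 𝕜) := rfl

/-! #### `yW` -/

theorem yW_mem_Rw1 (h : HallDvd (q ^ 2) N) : yW h ∈ (redDataBar N A).Rw :=
  sub_mem (gen_mem_Rw1 N A _) (gen_mem_Rw1 N A _)

theorem yW_mem_Rw2 (h : HallDvd (q ^ 2) N) : yW h ∈ (redData2Q N A h).Rw :=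
  sub_mem (gen_mem_Rw2Q N A h _) (gen_mem_Rw2Q N A h _)

theorem yW_mem_Rw3 (h : HallDvd (q ^ 2) N) : yW h ∈ (redData3 N A q).Rw :=
  sub_mem (gen_mem_Rw3 N A _) (gen_mem_Rw3 N A _)

theorem not_sq_dvd_neg_one (hq : q.Prime) : ¬ ((q ^ 2 : ℕ) : ℤ) ∣ -1 := by
  intro hdvd
  have h1 : ((q ^ 2 : ℕ) : ℤ) ∣ 1 := dvd_neg.mp hdvd
  have h2 : q ^ 2 ∣ 1 := by exact_mod_cast h1
  have h3 : q ∣ 1 := (dvd_pow_self q two_ne_zero).trans h2
  exact hq.ne_one (Nat.dvd_one.mp h3)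

/-- `red₁ (j_{q²} − j) ≠ 0` -/
theorem red1_yW_ne_zero (hq : q.Prime) (h : HallDvd (q ^ 2) N) :
    (redDataBar N A).red ⟨yW h, yW_mem_Rw1 A h⟩ ≠ 0 := by
  have : NeZero (q ^ 2) := ⟨pow_ne_zero 2 hq.ne_zero⟩
  intro h0
  have h1 : (⟨yW h, yW_mem_Rw1 A h⟩ : (redDataBar N A).Rw) =
      ⟨gen N (idxHall N h), gen_mem_Rw1 N A _⟩ - ⟨gen N (idxOne N), gen_mem_Rw1 N A _⟩ :=
    Subtype.ext rfl
  rw [h1, map_sub] at h0
  have h2 := congrArg (fun x : FresBar N A => (x : LaurentSeries 𝕜).coeff (-1)) h0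
  beta_reduce at h2
  rw [coe_sub_Fres1, coe_red1_gen_of_val N A (idxHall N h) (q ^ 2) rfl,
    coe_red1_gen_of_val N A (idxOne N) 1 rfl, qExpand_one_apply, HahnSeries.coeff_sub,
    qExpand_coeff_of_not_dvd _ _ (not_sq_dvd_neg_one hq), ModularCurve.coeff_jqModC_neg_one] at h2
  have h3 : ((0 : FresBar N A) : LaurentSeries 𝕜).coeff (-1) = 0 := rfl
  rw [h3] at h2
  simp at h2

/-- `red₂ (j_{q²} − j) ≠ 0` -/
theorem red2_yW_ne_zero (hq : q.Prime) (h : HallDvd (q ^ 2) N) :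
    (redData2Q N A h).red ⟨yW h, yW_mem_Rw2 A h⟩ ≠ 0 := by
  have : NeZero (q ^ 2) := ⟨pow_ne_zero 2 hq.ne_zero⟩
  intro h0
  have h1 : (⟨yW h, yW_mem_Rw2 A h⟩ : (redData2Q N A h).Rw) =
      ⟨gen N (idxHall N h), gen_mem_Rw2Q N A h _⟩ - ⟨gen N (idxOne N), gen_mem_Rw2Q N A h _⟩ :=
    Subtype.ext rfl
  rw [h1, map_sub] at h0
  have h2 := congrArg (fun x : FresBar N A => (x : LaurentSeries 𝕜).coeff (-1)) h0
  beta_reduce at h2
  rw [coe_sub_Fres1, coe_red2Q_gen, coe_red2Q_gen,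
    qExpand_congr (swapHall_idxHall_val N h), qExpand_congr (swapHall_idxOne_val N h),
    qExpand_one_apply, HahnSeries.coeff_sub,
    qExpand_coeff_of_not_dvd _ _ (not_sq_dvd_neg_one hq), ModularCurve.coeff_jqModC_neg_one] at h2
  have h3 : ((0 : FresBar N A) : LaurentSeries 𝕜).coeff (-1) = 0 := rfl
  rw [h3] at h2
  simp at h2

/-- `red₃ (j_{q²} − j) = 0` -/
theorem red3_yW (hq : q.Prime) (hN : N = M' * q ^ 2) (hqM : ¬ q ∣ M') (hA : A.LiesOverPrime q)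
    (h : HallDvd (q ^ 2) N) : (redData3 N A q).red ⟨yW h, yW_mem_Rw3 A h⟩ = 0 := by
  have h1 : (⟨yW h, yW_mem_Rw3 A h⟩ : (redData3 N A q).Rw) =
      ⟨gen N (idxHall N h), gen_mem_Rw3 N A _⟩ - ⟨gen N (idxOne N), gen_mem_Rw3 N A _⟩ :=
    Subtype.ext rfl
  rw [h1, map_sub, sub_eq_zero]
  apply Subtype.ext
  rw [coe_red3_gen_top N A hq hN hqM hA (idxHall N h) 1 (mul_one _).symm (one_dvd _),
    coe_red3_gen_low N A (idxOne N) 1 rfl (one_dvd _)]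

/-! #### `z1W`, `z2W` -/

theorem z1W_mem_Rw1 (h : HallDvd (q ^ 2) N) (hqN : q ∣ N) : z1W h hqN ∈ (redDataBar N A).Rw :=
  sub_mem (gen_mem_Rw1 N A _) (pow_mem (gen_mem_Rw1 N A _) q)

theorem z1W_mem_Rw3 (h : HallDvd (q ^ 2) N) (hqN : q ∣ N) : z1W h hqN ∈ (redData3 N A q).Rw :=
  sub_mem (gen_mem_Rw3 N A _) (pow_mem (gen_mem_Rw3 N A _) q)

theorem z2W_mem_Rw2 (h : HallDvd (q ^ 2) N) (hqN : q ∣ N) : z2W hqN ∈ (redData2Q N A h).Rw :=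
  sub_mem (gen_mem_Rw2Q N A h _) (pow_mem (gen_mem_Rw2Q N A h _) q)

theorem z2W_mem_Rw3 (hqN : q ∣ N) : z2W hqN ∈ (redData3 N A q).Rw :=
  sub_mem (gen_mem_Rw3 N A _) (pow_mem (gen_mem_Rw3 N A _) q)

/-- in characteristic `q`: `j~(X^{q²}) = j~(X^q)^q` -/
theorem qExpand_sq_eq_pow (κ : Type*) [Field κ] (ℓ : ℕ) [Fact ℓ.Prime] [NeZero ℓ] [CharP κ ℓ]
    [NeZero (ℓ ^ 2)] : qExpand κ (ℓ ^ 2) (jqModC κ) = qExpand κ ℓ (jqModC κ) ^ ℓ := by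
  have : NeZero (ℓ * ℓ) := ⟨mul_ne_zero (NeZero.ne ℓ) (NeZero.ne ℓ)⟩
  rw [qExpand_congr (pow_two ℓ), Fermat.Agent.GJ.J3.QS.qExpand_mul_jqModC_char]

/-- `red₁ (j_{q²} − j_q^q) = 0` -/
theorem red1_z1W (hq : q.Prime) (hA : A.LiesOverPrime q) (h : HallDvd (q ^ 2) N) (hqN : q ∣ N) :
    (redDataBar N A).red ⟨z1W h hqN, z1W_mem_Rw1 A h hqN⟩ = 0 := by
  have : Fact q.Prime := ⟨hq⟩
  have : NeZero q := ⟨hq.ne_zero⟩
  have : NeZero (q ^ 2) := ⟨pow_ne_zero 2 hq.ne_zero⟩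
  have : CharP 𝕜 q := Fermat.Agent.GJ.Kum.charP_residueField A hq hA
  have h1 : (⟨z1W h hqN, z1W_mem_Rw1 A h hqN⟩ : (redDataBar N A).Rw) =
      ⟨gen N (idxHall N h), gen_mem_Rw1 N A _⟩ - ⟨gen N ⟨q, hqN⟩, gen_mem_Rw1 N A _⟩ ^ q :=
    Subtype.ext rfl
  rw [h1, map_sub, map_pow]
  apply Subtype.ext
  rw [coe_sub_pow_Fres, coe_red1_gen_of_val N A (idxHall N h) (q ^ 2) rfl,
    coe_red1_gen_of_val N A ⟨q, hqN⟩ q rfl, qExpand_sq_eq_pow 𝕜 q]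
  exact sub_self _

/-- `red₂ (j − j_q^q) = 0` -/
theorem red2_z2W (hq : q.Prime) (hA : A.LiesOverPrime q) (h : HallDvd (q ^ 2) N) (hqN : q ∣ N) :
    (redData2Q N A h).red ⟨z2W hqN, z2W_mem_Rw2 A h hqN⟩ = 0 := by
  have : Fact q.Prime := ⟨hq⟩
  have : NeZero q := ⟨hq.ne_zero⟩
  have : NeZero (q ^ 2) := ⟨pow_ne_zero 2 hq.ne_zero⟩
  have : CharP 𝕜 q := Fermat.Agent.GJ.Kum.charP_residueField A hq hA
  have h1 : (⟨z2W hqN, z2W_mem_Rw2 A h hqN⟩ : (redData2Q N A h).Rw) =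
      ⟨gen N (idxOne N), gen_mem_Rw2Q N A h _⟩ - ⟨gen N ⟨q, hqN⟩, gen_mem_Rw2Q N A h _⟩ ^ q :=
    Subtype.ext rfl
  rw [h1, map_sub, map_pow]
  apply Subtype.ext
  have hsw : (swapHall h (⟨q, hqN⟩ : DivIdx N)).1 = q := by
    rw [swapHall_val_of_eq h (⟨q, hqN⟩ : DivIdx N) (Q₁ := q) (Q₂ := q) (d' := 1) (pow_two q).symm
      (one_dvd _) (mul_one q).symm, mul_one]
  rw [coe_sub_pow_Fres, coe_red2Q_gen, coe_red2Q_gen, qExpand_congr (swapHall_idxOne_val N h),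
    qExpand_congr hsw, qExpand_sq_eq_pow 𝕜 q]
  exact sub_self _

/-- the coefficient of `t^{-N}` of `j~(t^N) − j~(t^{Nq})^q` is `1` -/
theorem coeff_red3_z [NeZero q] (hq : q.Prime) (hA : A.LiesOverPrime q) :
    (qExpand 𝕜 (N * 1) (jqModC 𝕜) - qExpand 𝕜 (N * q) (jqModC 𝕜) ^ q).coeff
      (((N * 1 : ℕ) : ℤ) * (-1)) = 1 := by
  have : Fact q.Prime := ⟨hq⟩
  have : CharP 𝕜 q := Fermat.Agent.GJ.Kum.charP_residueField A hq hA
  have hNq : NeZero (N * q) := ⟨mul_ne_zero (NeZero.ne N) hq.ne_zero⟩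
  have : NeZero (N * q * q) := ⟨mul_ne_zero hNq.ne hq.ne_zero⟩
  rw [HahnSeries.coeff_sub, qExpand_coeff_mul, ModularCurve.coeff_jqModC_neg_one,
    ← Fermat.Agent.GJ.J3.QS.qExpand_mul_jqModC_char, qExpand_coeff_of_not_dvd, sub_zero]
  intro hdvd
  have hNpos : (0 : ℤ) < N := by exact_mod_cast Nat.pos_of_ne_zero (NeZero.ne N)
  have h1 : ((N * q * q : ℕ) : ℤ) ∣ (N : ℤ) := by
    have := dvd_neg.mp (by simpa using hdvd : ((N * q * q : ℕ) : ℤ) ∣ -(N : ℤ))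
    exact this
  have h2 : N * q * q ∣ N := by exact_mod_cast h1
  have h3 := Nat.le_of_dvd (Nat.pos_of_ne_zero (NeZero.ne N)) h2
  have h4 : 2 ≤ q := hq.two_le
  have h5 : 0 < N := Nat.pos_of_ne_zero (NeZero.ne N)
  have h6 : N * (2 * 2) ≤ N * (q * q) := Nat.mul_le_mul_left N (Nat.mul_le_mul h4 h4)
  rw [mul_assoc] at h3
  linarith

/-- `red₃ (j_{q²} − j_q^q) ≠ 0` -/
theorem red3_z1W_ne_zero (hq : q.Prime) (hN : N = M' * q ^ 2) (hqM : ¬ q ∣ M')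
    (hA : A.LiesOverPrime q) (h : HallDvd (q ^ 2) N) (hqN : q ∣ N) :
    (redData3 N A q).red ⟨z1W h hqN, z1W_mem_Rw3 A h hqN⟩ ≠ 0 := by
  have : NeZero q := ⟨hq.ne_zero⟩
  intro h0
  have h1 : (⟨z1W h hqN, z1W_mem_Rw3 A h hqN⟩ : (redData3 N A q).Rw) =
      ⟨gen N (idxHall N h), gen_mem_Rw3 N A _⟩ - ⟨gen N ⟨q, hqN⟩, gen_mem_Rw3 N A _⟩ ^ q :=
    Subtype.ext rfl
  rw [h1, map_sub, map_pow] at h0
  have h2 := congrArg (fun x : FresCusp N A (cusp3 N q) =>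
    (x : LaurentSeries 𝕜).coeff (((N * 1 : ℕ) : ℤ) * (-1))) h0
  beta_reduce at h2
  have hq1 : q ∣ N / q := by
    rw [div_q_eq hq hN]
    exact dvd_mul_left q M'
  rw [coe_sub_pow_Fres3,
    coe_red3_gen_top N A hq hN hqM hA (idxHall N h) 1 (mul_one _).symm (one_dvd _),
    coe_red3_gen_low N A ⟨q, hqN⟩ q rfl hq1, coeff_red3_z A hq hA] at h2
  have h3 : ((0 : FresCusp N A (cusp3 N q)) : LaurentSeries 𝕜).coeff
      (((N * 1 : ℕ) : ℤ) * (-1)) = 0 := rfl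
  rw [h3] at h2
  exact one_ne_zero h2

/-- `red₃ (j − j_q^q) ≠ 0` -/
theorem red3_z2W_ne_zero (hq : q.Prime) (hN : N = M' * q ^ 2)
    (hA : A.LiesOverPrime q) (hqN : q ∣ N) :
    (redData3 N A q).red ⟨z2W hqN, z2W_mem_Rw3 A hqN⟩ ≠ 0 := by
  have : NeZero q := ⟨hq.ne_zero⟩
  intro h0
  have h1 : (⟨z2W hqN, z2W_mem_Rw3 A hqN⟩ : (redData3 N A q).Rw) =
      ⟨gen N (idxOne N), gen_mem_Rw3 N A _⟩ - ⟨gen N ⟨q, hqN⟩, gen_mem_Rw3 N A _⟩ ^ q :=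
    Subtype.ext rfl
  rw [h1, map_sub, map_pow] at h0
  have h2 := congrArg (fun x : FresCusp N A (cusp3 N q) =>
    (x : LaurentSeries 𝕜).coeff (((N * 1 : ℕ) : ℤ) * (-1))) h0
  beta_reduce at h2
  have hq1 : q ∣ N / q := by
    rw [div_q_eq hq hN]
    exact dvd_mul_left q M'
  rw [coe_sub_pow_Fres3, coe_red3_gen_low N A (idxOne N) 1 rfl (one_dvd _),
    coe_red3_gen_low N A ⟨q, hqN⟩ q rfl hq1, coeff_red3_z A hq hA] at h2
  have h3 : ((0 : FresCusp N A (cusp3 N q)) : LaurentSeries 𝕜).coeff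
      (((N * 1 : ℕ) : ℤ) * (-1)) = 0 := rfl
  rw [h3] at h2
  exact one_ne_zero h2

end Witnesses

/-! ### Incomparability -/

section Incomparable

variable {N}

/-- a witness: nonunit for `V`, in `W` but not a nonunit for `W` ⟹ `W ⊄ V`... in the form used
below: `x ∈ 𝔪_V`, `x ∉ 𝔪_W` ⟹ `¬ W ≤ V` -/
theorem not_le_of_witness {F : Type*} [Field F] {V W : ValuationSubring F} {x : F}
    (hV : x ∈ V.nonunits) (hW : x ∉ W.nonunits) : ¬ W ≤ V := fun hle =>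
  hW (ValuationSubring.nonunits_le_nonunits.mpr hle hV)

theorem yW_mem_nonunits_Rw3 (hq : q.Prime) (hN : N = M' * q ^ 2) (hqM : ¬ q ∣ M')
    (hA : A.LiesOverPrime q) (h : HallDvd (q ^ 2) N) : yW h ∈ (redData3 N A q).Rw.nonunits :=
  (mem_nonunits_iff_red _ _).mpr ⟨yW_mem_Rw3 A h, red3_yW A hq hN hqM hA h⟩

theorem yW_not_mem_nonunits_Rw1 (hq : q.Prime) (h : HallDvd (q ^ 2) N) :
    yW h ∉ (redDataBar N A).Rw.nonunits := fun hmem => by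
  obtain ⟨hx, hred⟩ := (mem_nonunits_iff_red _ _).mp hmem
  exact red1_yW_ne_zero A hq h hred

theorem yW_not_mem_nonunits_Rw2 (hq : q.Prime) (h : HallDvd (q ^ 2) N) :
    yW h ∉ (redData2Q N A h).Rw.nonunits := fun hmem => by
  obtain ⟨hx, hred⟩ := (mem_nonunits_iff_red _ _).mp hmem
  exact red2_yW_ne_zero A hq h hred

/-- **`w₁` is not coarser than `w₃`** -/
theorem not_Rw1_le_Rw3 (hq : q.Prime) (hN : N = M' * q ^ 2) (hqM : ¬ q ∣ M')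
    (hA : A.LiesOverPrime q) : ¬ (redDataBar N A).Rw ≤ (redData3 N A q).Rw :=
  not_le_of_witness (yW_mem_nonunits_Rw3 A hq hN hqM hA (hallDvd_sq N hq hN hqM))
    (yW_not_mem_nonunits_Rw1 A hq _)

/-- **`w₂` is not coarser than `w₃`** -/
theorem not_Rw2_le_Rw3 (hq : q.Prime) (hN : N = M' * q ^ 2) (hqM : ¬ q ∣ M')
    (hA : A.LiesOverPrime q) (h : HallDvd (q ^ 2) N) :
    ¬ (redData2Q N A h).Rw ≤ (redData3 N A q).Rw :=
  not_le_of_witness (yW_mem_nonunits_Rw3 A hq hN hqM hA h) (yW_not_mem_nonunits_Rw2 A hq h)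

/-- **`w₃` is not coarser than `w₁`** -/
theorem not_Rw3_le_Rw1 (hq : q.Prime) (hN : N = M' * q ^ 2) (hqM : ¬ q ∣ M')
    (hA : A.LiesOverPrime q) : ¬ (redData3 N A q).Rw ≤ (redDataBar N A).Rw := by
  have hqN := q_dvd_level N hN
  have h := hallDvd_sq N hq hN hqM
  refine not_le_of_witness (x := z1W h hqN)
    ((mem_nonunits_iff_red _ _).mpr ⟨z1W_mem_Rw1 A h hqN, red1_z1W A hq hA h hqN⟩) ?_
  intro hmem
  obtain ⟨hx, hred⟩ := (mem_nonunits_iff_red _ _).mp hmem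
  exact red3_z1W_ne_zero A hq hN hqM hA h hqN hred

/-- **`w₃` is not coarser than `w₂`** -/
theorem not_Rw3_le_Rw2 (hq : q.Prime) (hN : N = M' * q ^ 2)
    (hA : A.LiesOverPrime q) (h : HallDvd (q ^ 2) N) :
    ¬ (redData3 N A q).Rw ≤ (redData2Q N A h).Rw := by
  have hqN := q_dvd_level N hN
  refine not_le_of_witness (x := z2W hqN)
    ((mem_nonunits_iff_red _ _).mpr ⟨z2W_mem_Rw2 A h hqN, red2_z2W A hq hA h hqN⟩) ?_
  intro hmem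
  obtain ⟨hx, hred⟩ := (mem_nonunits_iff_red _ _).mp hmem
  exact red3_z2W_ne_zero A hq hN hA hqN hred

/-- **the three Gauss valuations of `F_N`, `N = M' q²`, over `q` are pairwise incomparable** -/
theorem incomparable_three (hq : q.Prime) (hN : N = M' * q ^ 2) (hqM : ¬ q ∣ M')
    (hA : A.LiesOverPrime q) (h : HallDvd (q ^ 2) N) :
    Incomparable ![(redDataBar N A).Rw, (redData2Q N A h).Rw, (redData3 N A q).Rw] := by
  intro i j hij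
  fin_cases i <;> fin_cases j
  · exact absurd rfl hij
  · exact not_Rw1_le_Rw2Q N A h hq two_pos rfl hA
  · exact not_Rw1_le_Rw3 A hq hN hqM hA
  · exact not_Rw2Q_le_Rw1 N A h hq two_pos rfl hA
  · exact absurd rfl hij
  · exact not_Rw2_le_Rw3 A hq hN hqM hA h
  · exact not_Rw3_le_Rw1 A hq hN hqM hA
  · exact not_Rw3_le_Rw2 A hq hN hA h
  · exact absurd rfl hij

end Incomparable

end Fermat.Agent.GL.W3
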