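/-
GATE-L / L1e (helper93): the THREE Gauss valuations over the UNRAMIFIED base `K₀ = ℚ̄^{I_A}` at level
`N = M' q²`, `q ∤ M'`, `A` over `q`, are PAIRWISE INCOMPARABLE:

  `incomparable_three_K0 : Incomparable ![RwK0 A N, (redData2QK0 A N h).Rw, Rw3K0 A N q]`

(`RwK0` = helper45 `GaussK0`, `redData2QK0` = helper45 `SecondK0Hall`, `Rw3K0` = helper26 `ThirdK0`),
from the RATIONAL witnesses of `ThirdValNe.lean`: `yK0 = j_{q²} − j`, `z1K0 = j_{q²} − j_q^q`,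
`z2K0 = j − j_q^q` in `K₀(X₀(N))`.  This is the `hW` input of helper90 `RamFamily` /
helper75 `NoOtherExt` for the family `w₁, w₂, w₃` over `R`.
-/
import Fermat.Agent.GL.Val.ThirdValNe
import Fermat.Agent.GL.Val.ThirdK0
import Fermat.Agent.GL.Val.SecondK0Hall

set_option autoImplicit false

noncomputable section

namespace Fermat.Agent.GL.W3

open HahnSeries ModularCurve IsLocalRing
open Fermat.Agent.S24 Fermat.Agent.S28 Fermat.Agent.S28.CuspExp Fermat.Agent.S28.Assemble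
open Fermat.Agent.S24_helper62 Fermat.Agent.S24_helper82
open Fermat.Agent.GJ.J1 Fermat.Agent.GJ.J1.Val Fermat.Agent.GL.CuspVal
open Fermat.Agent.GK.AL Fermat.Agent.GL.AL Fermat.Agent.GK.MultiVal
open Fermat.Agent.GK.Val.GaussBase
open Fermat.Agent.GL.Val.GaussK0 Fermat.Agent.GL.Val.SecondK0 Fermat.Agent.GL.Val.SecondK0Hall
open Fermat.Agent.GL.Val.CuspK0 Fermat.Agent.GL.Val.CuspCoeff Fermat.Agent.GL.MultiVal
open Fermat.Agent.Common_helper32 Fermat.Agent.GL.Val.ThirdK0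

variable (A : ValuationSubring Qb) (N : ℕ) [NeZero N] (q : ℕ) {M' : ℕ}

/-- helper26's `toFN0` is helper45's `mapK0Bar` -/
theorem toFN0_eq_mapK0Bar (x : modularFunctionFieldFullC (K0 A) N) :
    toFN0 A N x = mapK0Bar A N x := toFN0_eq A N x

theorem mem_Rw3K0_iff_mapK0Bar (x : modularFunctionFieldFullC (K0 A) N) :
    x ∈ Rw3K0 A N q ↔ mapK0Bar A N x ∈ (redData3 N A q).Rw := by
  rw [← toFN0_eq_mapK0Bar]
  exact Iff.rfl

theorem mem_nonunits_Rw3K0_iff_mapK0Bar (x : modularFunctionFieldFullC (K0 A) N) :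
    x ∈ (Rw3K0 A N q).nonunits ↔ mapK0Bar A N x ∈ (redData3 N A q).Rw.nonunits :=
  mem_nonunits_of_comap (mapK0Bar A N) _ _ (mem_Rw3K0_iff_mapK0Bar A N q) x


variable {N q}

/-! ### The rational witnesses over `K₀` -/

/-- `j_{q²} − j` over `K₀` -/
def yK0 (h : HallDvd (q ^ 2) N) : modularFunctionFieldFullC (K0 A) N :=
  genC (K0 A) (R0 A) N (idxHall N h).2 - genC (K0 A) (R0 A) N (idxOne N).2

/-- the index `q` -/
def idxQ1 (hqN : q ∣ N) : DivIdx N := ⟨q, hqN⟩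

/-- `j_{q²} − j_q^q` over `K₀` -/
def z1K0 (h : HallDvd (q ^ 2) N) (hqN : q ∣ N) : modularFunctionFieldFullC (K0 A) N :=
  genC (K0 A) (R0 A) N (idxHall N h).2 - genC (K0 A) (R0 A) N (idxQ1 hqN).2 ^ q

/-- `j − j_q^q` over `K₀` -/
def z2K0 (hqN : q ∣ N) : modularFunctionFieldFullC (K0 A) N :=
  genC (K0 A) (R0 A) N (idxOne N).2 - genC (K0 A) (R0 A) N (idxQ1 hqN).2 ^ q

theorem mapK0Bar_yK0 (h : HallDvd (q ^ 2) N) : mapK0Bar A N (yK0 A h) = yW h := by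
  rw [yK0, yW, map_sub, mapK0Bar_genC, mapK0Bar_genC]

theorem mapK0Bar_z1K0 (h : HallDvd (q ^ 2) N) (hqN : q ∣ N) :
    mapK0Bar A N (z1K0 A h hqN) = z1W h hqN := by
  rw [z1K0, map_sub, map_pow, mapK0Bar_genC, mapK0Bar_genC]
  rfl

theorem mapK0Bar_z2K0 (hqN : q ∣ N) : mapK0Bar A N (z2K0 A hqN) = z2W hqN := by
  rw [z2K0, map_sub, map_pow, mapK0Bar_genC, mapK0Bar_genC]
  rfl

/-! ### `yK0` is helper26's uniformiser `y3K0` at `d' = 1` -/

theorem jdF_congr {d d' : ℕ} [NeZero d] [NeZero d'] (hdd : d = d') (hd : d ∣ N) (hd' : d' ∣ N) :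
    jdF N d hd = jdF N d' hd' := by
  subst hdd
  rfl

theorem yW_eq_y3 (h : HallDvd (q ^ 2) N) [NeZero (q ^ 2 * 1)] (hdN : q ^ 2 * 1 ∣ N) :
    yW h = y3 N q hdN (one_dvd N) := by
  rw [yW, y3, gen_eq_jdF, gen_eq_jdF]
  congr 1
  exact jdF_congr (mul_one _).symm _ _

theorem yK0_eq_y3K0 (h : HallDvd (q ^ 2) N) [NeZero (q ^ 2 * 1)] (hdN : q ^ 2 * 1 ∣ N) :
    yK0 A h = y3K0 A N q hdN (one_dvd N) := by
  apply mapK0Bar_injective A N
  rw [mapK0Bar_yK0, yW_eq_y3 h hdN, ← toFN0_eq_mapK0Bar, toFN0_y3K0]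

/-! ### The three valuations over `K₀` are pairwise incomparable -/

section IncomparableK0

variable (hq : q.Prime) (hN : N = M' * q ^ 2) (hqM : ¬ q ∣ M') (hA : A.LiesOverPrime q)
  (h : HallDvd (q ^ 2) N)

include hq hN hqM hA

theorem not_Rw1K0_le_Rw3K0 : ¬ RwK0 A N ≤ Rw3K0 A N q := by
  have hh := hallDvd_sq N hq hN hqM
  refine not_le_of_witness (x := yK0 A hh) ?_ ?_
  · rw [mem_nonunits_Rw3K0_iff_mapK0Bar, mapK0Bar_yK0]
    exact yW_mem_nonunits_Rw3 A hq hN hqM hA hh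
  · rw [mem_nonunits_Rw1K0_iff, mapK0Bar_yK0]
    exact yW_not_mem_nonunits_Rw1 A hq hh

theorem not_Rw2K0_le_Rw3K0 : ¬ (redData2QK0 A N h).Rw ≤ Rw3K0 A N q := by
  refine not_le_of_witness (x := yK0 A h) ?_ ?_
  · rw [mem_nonunits_Rw3K0_iff_mapK0Bar, mapK0Bar_yK0]
    exact yW_mem_nonunits_Rw3 A hq hN hqM hA h
  · rw [mem_nonunits_Rw2QK0_iff, mapK0Bar_yK0]
    exact yW_not_mem_nonunits_Rw2 A hq h

theorem not_Rw3K0_le_Rw1K0 : ¬ Rw3K0 A N q ≤ RwK0 A N := by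
  have hh := hallDvd_sq N hq hN hqM
  have hqN := q_dvd_level N hN
  refine not_le_of_witness (x := z1K0 A hh hqN) ?_ ?_
  · rw [mem_nonunits_Rw1K0_iff, mapK0Bar_z1K0]
    exact (mem_nonunits_iff_red _ _).mpr ⟨z1W_mem_Rw1 A hh hqN, red1_z1W A hq hA hh hqN⟩
  · rw [mem_nonunits_Rw3K0_iff_mapK0Bar, mapK0Bar_z1K0]
    intro hmem
    obtain ⟨hx, hred⟩ := (mem_nonunits_iff_red _ _).mp hmem
    exact red3_z1W_ne_zero A hq hN hqM hA hh hqN hred

omit hqM in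
theorem not_Rw3K0_le_Rw2K0 : ¬ Rw3K0 A N q ≤ (redData2QK0 A N h).Rw := by
  have hqN := q_dvd_level N hN
  refine not_le_of_witness (x := z2K0 A hqN) ?_ ?_
  · rw [mem_nonunits_Rw2QK0_iff, mapK0Bar_z2K0]
    exact (mem_nonunits_iff_red _ _).mpr ⟨z2W_mem_Rw2 A h hqN, red2_z2W A hq hA h hqN⟩
  · rw [mem_nonunits_Rw3K0_iff_mapK0Bar, mapK0Bar_z2K0]
    intro hmem
    obtain ⟨hx, hred⟩ := (mem_nonunits_iff_red _ _).mp hmem
    exact red3_z2W_ne_zero A hq hN hA hqN hred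

/-- **the three Gauss valuations of `K₀(X₀(N))`, `N = M' q²`, over `q` are pairwise incomparable** -/
theorem incomparable_three_K0 :
    Incomparable ![RwK0 A N, (redData2QK0 A N h).Rw, Rw3K0 A N q] := by
  intro i j hij
  fin_cases i <;> fin_cases j
  · exact absurd rfl hij
  · exact not_Rw1K0_le_Rw2QK0 A N h hq two_pos rfl hA
  · exact not_Rw1K0_le_Rw3K0 A hq hN hqM hA
  · exact not_Rw2QK0_le_Rw1K0 A N h hq two_pos rfl hA
  · exact absurd rfl hij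
  · exact not_Rw2K0_le_Rw3K0 A hq hN hqM hA h
  · exact not_Rw3K0_le_Rw1K0 A hq hN hqM hA
  · exact not_Rw3K0_le_Rw2K0 A hq hN hA h
  · exact absurd rfl hij

end IncomparableK0

end Fermat.Agent.GL.W3
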