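/-
GATE-L / L1e ASSEMBLY at `K₀(X₀(N))`, `N = M' q²` (helper75).

`A | q` a valuation subring of `ℚ̄`, `K₀ = ℚ̄^{I_A}`, `R₀ = A ∩ K₀`, `F₀ = K₀(X₀(N))`,
`j = jK0 A N`, base `A₀ := baseJ (RwK0 A N) j ⊂ K₀(j)` (the Gauss valuation subring of `K₀(j)`),
`W = ![w₁, w₂, w₃] = ![RwK0 A N, (redData2QK0 A N h).Rw, Rw3K0 A N q]`.

LANDED inputs used here: `incomparable_three_K0` (helper93), `isRamified_Rw1K0`,
`isRamified_Rw2QK0`, `finrank_jK0`, Gauss charts (helper45), `isRamified_Rw3K0`, `isGaussAt_Rw3K0`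
(helper26), `isRamified_baseJ`, `isUnif_baseJ` (helper90), `dedekindPsi` arithmetic (helper27).

HYPOTHESES (the three legs, helper45 `LegsK0` / helper93): orthonormal families over `A₀`
`g₁ : Fin f₁ → F₀` at `w₁`, `g₂ : Fin f₂ → F₀` at `w₂`, `g₃ : Fin f₃ → F₀` at `w₃` with
`ψ(M') (q² + q) ≤ f₁ + f₂ + (q - 1) f₃`  (e.g. `ψ(M') ≤ f₁`, `f₂ = q² f₁`, `f₃ = ψ(M')`).

CONCLUSIONS:
* `exists_eq_W3` : every valuation subring of `F₀` inducing `A₀` on `K₀(j)` is `w₁`, `w₂` or `w₃`;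
* `exists_eq_W3_of_isGaussAt` : every valuation subring of `F₀` over `R₀` which is Gauss at `j` is
  `w₁`, `w₂` or `w₃`;
* `mem_ball_W3_iff` : `w₁ ∩ w₂ ∩ w₃` = the elements of `F₀` integral over `A₀`;
* `finrank_eq_W3` : `ψ(N) = f₁ + f₂ + (q - 1) f₃`.
-/
import Fermat.Agent.GL.Val.L1eAsm
import Fermat.Agent.GL.MultiVal.GaussBaseJ
import Fermat.Agent.GL.Val.ThirdK0Ne
import Fermat.Agent.GL.Val.CuspK0Gauss
import Fermat.Agent.GL.Val.OrthK0
import Fermat.Agent.GL.Val.RamK0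
import Fermat.Agent.GL.Frame.GaussAtRedData
import Fermat.Agent.S20_helper27.Prim

set_option autoImplicit false

noncomputable section

namespace Fermat.Agent.GL.Val.L1eAsmK0

open HahnSeries ModularCurve IsLocalRing IntermediateField Module
open Fermat.Agent.GJ.J1 Fermat.Agent.GJ.J1.Val
open Fermat.Agent.GK.AL Fermat.Agent.GL.AL Fermat.Agent.GK.MultiVal
open Fermat.Agent.GL.Val.GaussK0 Fermat.Agent.GL.Val.SecondK0 Fermat.Agent.GL.Val.SecondK0Hall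
open Fermat.Agent.GL.Val.RamK0 Fermat.Agent.GL.Val.OrthK0 Fermat.Agent.GL.Val.ThirdK0
open Fermat.Agent.GL.Val.CuspK0 Fermat.Agent.GL.W3
open Fermat.Agent.GL.MultiVal Fermat.Agent.GL.MultiVal.GaussBaseJ Fermat.Agent.GL.GaussAt
open Fermat.Agent.GL.GaussAtRedData
open Fermat.Agent.GL.Val.L1eAsm
open Fermat.Agent.Common_helper32

variable (A : ValuationSubring Qb) (N : ℕ) [NeZero N]

/-- the Gauss valuation subring of `K₀(j)` -/
def A0 : ValuationSubring (K0 A)⟮jK0 A N⟯ := baseJ (K := K0 A) (RwK0 A N) (jK0 A N)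

/-- `q` as an element of `K₀(j)` -/
def qJ (q : ℕ) : (K0 A)⟮jK0 A N⟯ :=
  algebraMap (K0 A) (K0 A)⟮jK0 A N⟯ ((q0 A q : R0 A) : K0 A)

variable {N} {q : ℕ}

/-- the three vertical valuation subrings of `K₀(X₀(N))` -/
def W3 (h : HallDvd (q ^ 2) N) : Fin 3 → ValuationSubring (modularFunctionFieldFullC (K0 A) N) :=
  ![RwK0 A N, (redData2QK0 A N h).Rw, Rw3K0 A N q]

theorem q0_coe_eq_natCast (q : ℕ) : ((q0 A q : R0 A) : K0 A) = ((q : ℕ) : K0 A) := by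
  apply ι0_injective A
  rw [ι0_q0, map_natCast]

/-! ### Gauss points -/

theorem isGaussAt_Rw1K0 : IsGaussAt (R0 A) (RwK0 A N) (jK0 A N) :=
  isGaussAt_of_isGaussChart (redDataK0 A N) (isGaussChart_jK0 A N)

theorem isGaussAt_Rw2QK0 (h : HallDvd (q ^ 2) N) :
    IsGaussAt (R0 A) (redData2QK0 A N h).Rw (jK0 A N) :=
  isGaussAt_of_isGaussChart (redData2QK0 A N h) (isGaussChart_jK0_2Q A N h)

theorem isGaussAt_Rw3K0' : IsGaussAt (R0 A) (Rw3K0 A N q) (jK0 A N) :=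
  isGaussAt_Rw3K0 A N q

theorem isGaussAt_W3 (h : HallDvd (q ^ 2) N) (i : Fin 3) :
    IsGaussAt (R0 A) (W3 A h i) (jK0 A N) := by
  fin_cases i
  · exact isGaussAt_Rw1K0 A
  · exact isGaussAt_Rw2QK0 A h
  · exact isGaussAt_Rw3K0' A

/-! ### Ramification data over `K₀(j)` -/

section Ram

variable {M' : ℕ} (hq : q.Prime) (hN : N = M' * q ^ 2) (hqM : ¬ q ∣ M')
  (hA : A.LiesOverPrime q) (h : HallDvd (q ^ 2) N)
  {d' : ℕ} [NeZero (q ^ 2 * d')] [NeZero d'] (hd' : d' ∣ M') (hdN : q ^ 2 * d' ∣ N)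
  (hd'N : d' ∣ N)

/-- the uniformisers `q, q, y₃` -/
def pi3 : Fin 3 → modularFunctionFieldFullC (K0 A) N :=
  ![algebraMap (K0 A) (modularFunctionFieldFullC (K0 A) N) ((q0 A q : R0 A) : K0 A),
    algebraMap (K0 A) (modularFunctionFieldFullC (K0 A) N) ((q0 A q : R0 A) : K0 A),
    y3K0 A N q hdN hd'N]

/-- the ramification indices `1, 1, q - 1` -/
def e3 (q : ℕ) : Fin 3 → ℕ := ![1, 1, q - 1]

include hq hA in
theorem over_Rw1K0 : ∀ a : K0 A,
    algebraMap (K0 A) (modularFunctionFieldFullC (K0 A) N) a ∈ RwK0 A N ↔ a ∈ R0 A :=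
  (isRamified_Rw1K0 A N hq hA).mem_iff

include hq hA in
/-- **`q` is a uniformiser of the Gauss valuation subring of `K₀(j)`** -/
theorem isUnif_A0 : IsUnif (A0 A N) (qJ A N q) :=
  isUnif_baseJ (isUnif_R0 A hq hA) (over_Rw1K0 A hq hA) (isGaussAt_Rw1K0 A)

include hq hN hqM hA hd' in
/-- ramification over `R₀`, with the common uniformiser `q0` of the base -/
theorem isRamified_W3_R0 (i : Fin 3) :
    IsRamified (R0 A) ((q0 A q : R0 A) : K0 A) (W3 A h i) (pi3 A hdN hd'N i) (e3 q i) := by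
  fin_cases i
  · exact isRamified_Rw1K0 A N hq hA
  · exact isRamified_Rw2QK0 A N h hq hA
  · have := isRamified_Rw3K0 A hq hN hqM hA hd' hdN hd'N
    rw [← q0_coe_eq_natCast] at this
    exact this

include hq hN hqM hA hd' in
/-- **ramification over the Gauss valuation subring of `K₀(j)`** -/
theorem isRamified_W3 (i : Fin 3) :
    IsRamified (A0 A N) (qJ A N q) (W3 A h i) (pi3 A hdN hd'N i) (e3 q i) :=
  isRamified_baseJ (over_Rw1K0 A hq hA) (isGaussAt_Rw1K0 A)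
    (isRamified_W3_R0 A hq hN hqM hA h hd' hdN hd'N i) (isGaussAt_W3 A h i)

include hq hN hqM hA in
theorem incomparable_W3 : Incomparable (W3 A h) :=
  incomparable_three_K0 A hq hN hqM hA h

end Ram

/-! ### The assembly -/

section Asm

variable {M' : ℕ} (hq : q.Prime) (hN : N = M' * q ^ 2) (hqM : ¬ q ∣ M')
  (hA : A.LiesOverPrime q) (h : HallDvd (q ^ 2) N)
  {d' : ℕ} [NeZero (q ^ 2 * d')] [NeZero d'] (hd' : d' ∣ M') (hdN : q ^ 2 * d' ∣ N)
  (hd'N : d' ∣ N)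

/-- the cardinalities of the three legs -/
def f3 (f₁ f₂ f₃ : ℕ) : Fin 3 → ℕ := ![f₁, f₂, f₃]

/-- the three legs as one dependent family -/
def legs3 {f₁ f₂ f₃ : ℕ} (g₁ : Fin f₁ → modularFunctionFieldFullC (K0 A) N)
    (g₂ : Fin f₂ → modularFunctionFieldFullC (K0 A) N)
    (g₃ : Fin f₃ → modularFunctionFieldFullC (K0 A) N) :
    ∀ i : Fin 3, Fin (f3 f₁ f₂ f₃ i) → modularFunctionFieldFullC (K0 A) N
  | 0 => g₁
  | 1 => g₂
  | 2 => g₃

theorem sum_e3_f3 (q f₁ f₂ f₃ : ℕ) :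
    ∑ i, e3 q i * f3 f₁ f₂ f₃ i = f₁ + f₂ + (q - 1) * f₃ := by
  rw [Fin.sum_univ_three]
  simp [e3, f3]

include hq hN hqM in
/-- `ψ(M' q²) = ψ(M') (q² + q)` -/
theorem dedekindPsi_level : dedekindPsi N = dedekindPsi M' * (q ^ 2 + q) := by
  have hcop : Nat.Coprime M' (q ^ 2) :=
    Nat.Coprime.pow_right 2 ((Nat.Prime.coprime_iff_not_dvd hq).mpr hqM).symm
  rw [hN, Fermat.Agent.S20_helper27.dedekindPsi_mul hcop,
    Fermat.Agent.S20_helper27.dedekindPsi_prime_pow hq two_pos]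
  norm_num

variable {f₁ f₂ f₃ : ℕ} {g₁ : Fin f₁ → modularFunctionFieldFullC (K0 A) N}
  {g₂ : Fin f₂ → modularFunctionFieldFullC (K0 A) N}
  {g₃ : Fin f₃ → modularFunctionFieldFullC (K0 A) N}
  (hg₁ : IsOrthoFamily (A0 A N) (RwK0 A N).toSubring (vrad (RwK0 A N)) g₁)
  (hg₂ : IsOrthoFamily (A0 A N) (redData2QK0 A N h).Rw.toSubring
    (vrad (redData2QK0 A N h).Rw) g₂)
  (hg₃ : IsOrthoFamily (A0 A N) (Rw3K0 A N q).toSubring (vrad (Rw3K0 A N q)) g₃)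
  (hsum : dedekindPsi M' * (q ^ 2 + q) ≤ f₁ + f₂ + (q - 1) * f₃)

include hg₁ hg₂ hg₃ in
theorem isOrthoFamily_legs3 (i : Fin 3) :
    IsOrthoFamily (A0 A N) (W3 A h i).toSubring (vrad (W3 A h i)) (legs3 A g₁ g₂ g₃ i) := by
  fin_cases i
  · exact hg₁
  · exact hg₂
  · exact hg₃

include hq hN hqM hsum in
theorem finrank_le_sum :
    finrank (K0 A)⟮jK0 A N⟯ (modularFunctionFieldFullC (K0 A) N) ≤
      ∑ i, e3 q i * f3 f₁ f₂ f₃ i := by
  rw [finrank_jK0, sum_e3_f3, dedekindPsi_level hq hN hqM]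
  exact hsum

include hq hN hqM hA hd' hdN hd'N hg₁ hg₂ hg₃ hsum in
/-- **L1e, NOEXT**: every valuation subring of `K₀(X₀(N))` inducing the Gauss valuation subring
on `K₀(j)` is one of `w₁, w₂, w₃`. -/
theorem exists_eq_W3 {V : ValuationSubring (modularFunctionFieldFullC (K0 A) N)}
    (hV : ∀ a : (K0 A)⟮jK0 A N⟯,
      algebraMap (K0 A)⟮jK0 A N⟯ (modularFunctionFieldFullC (K0 A) N) a ∈ V ↔ a ∈ A0 A N) :
    ∃ i, V = W3 A h i := by
  have := finiteDimensional_jK0 A N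
  exact exists_eq_of_legs (incomparable_W3 A hq hN hqM hA h) (isUnif_A0 A hq hA)
    (isRamified_W3 A hq hN hqM hA h hd' hdN hd'N) (isOrthoFamily_legs3 A h hg₁ hg₂ hg₃)
    (finrank_le_sum A hq hN hqM hsum) hV

include hq hN hqM hA hd' hdN hd'N hg₁ hg₂ hg₃ hsum in
/-- **L1e, NOEXT, Gauss form**: every valuation subring of `K₀(X₀(N))` over `R₀` which is Gauss at
`j` is `w₁`, `w₂` or `w₃`. -/
theorem exists_eq_W3_of_isGaussAt {V : ValuationSubring (modularFunctionFieldFullC (K0 A) N)}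
    (hV : ∀ a : K0 A, algebraMap (K0 A) (modularFunctionFieldFullC (K0 A) N) a ∈ V ↔ a ∈ R0 A)
    (hj : IsGaussAt (R0 A) V (jK0 A N)) :
    V = RwK0 A N ∨ V = (redData2QK0 A N h).Rw ∨ V = Rw3K0 A N q := by
  obtain ⟨i, hi⟩ := exists_eq_W3 A hq hN hqM hA h hd' hdN hd'N hg₁ hg₂ hg₃ hsum
    (over_baseJ (over_Rw1K0 A hq hA) hV (isGaussAt_Rw1K0 A) hj)
  fin_cases i
  · exact Or.inl hi
  · exact Or.inr (Or.inl hi)
  · exact Or.inr (Or.inr hi)

include hq hN hqM hA hd' hdN hd'N hg₁ hg₂ hg₃ hsum in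
/-- **equality in the fundamental inequality**: `ψ(N) = f₁ + f₂ + (q - 1) f₃`. -/
theorem finrank_eq_W3 : dedekindPsi N = f₁ + f₂ + (q - 1) * f₃ := by
  have := finiteDimensional_jK0 A N
  have := finrank_eq_of_legs (incomparable_W3 A hq hN hqM hA h) (isUnif_A0 A hq hA)
    (isRamified_W3 A hq hN hqM hA h hd' hdN hd'N) (isOrthoFamily_legs3 A h hg₁ hg₂ hg₃)
    (finrank_le_sum A hq hN hqM hsum)
  rwa [finrank_jK0, sum_e3_f3] at this

open Polynomial in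
include hq hN hqM hA hd' hdN hd'N hg₁ hg₂ hg₃ hsum in
/-- **`w₁ ∩ w₂ ∩ w₃` is the integral closure of the Gauss valuation subring of `K₀(j)`**. -/
theorem mem_ball_W3_iff {x : modularFunctionFieldFullC (K0 A) N} :
    (x ∈ RwK0 A N ∧ x ∈ (redData2QK0 A N h).Rw ∧ x ∈ Rw3K0 A N q) ↔
      ∃ p : (K0 A)⟮jK0 A N⟯[X], p.Monic ∧ (∀ n, p.coeff n ∈ A0 A N) ∧ aeval x p = 0 := by
  have := finiteDimensional_jK0 A N
  rw [← mem_ball_iff_of_legs (incomparable_W3 A hq hN hqM hA h) (isUnif_A0 A hq hA)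
    (isRamified_W3 A hq hN hqM hA h hd' hdN hd'N) (isOrthoFamily_legs3 A h hg₁ hg₂ hg₃)
    (finrank_le_sum A hq hN hqM hsum)]
  rw [ball, Subring.mem_iInf]
  constructor
  · rintro ⟨h1, h2, h3⟩ i
    fin_cases i
    · exact h1
    · exact h2
    · exact h3
  · intro hx
    exact ⟨hx 0, hx 1, hx 2⟩

end Asm

end Fermat.Agent.GL.Val.L1eAsmK0
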