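/-
GATE-L / L1e LEGS (helper45): **orthonormal families over the base `K(t)`** for the ramified
fundamental inequality (helper90 `card_le_finrank_ram'` / `exists_basis_ram'`, helper75 NOEXT),
in the `hg` shape  `IsOrthoFamily A₀ (W i).toSubring (vrad (W i)) g`  with
`A₀ = baseJ V₀ t : ValuationSubring K⟮t⟯` (helper90 `GaussBaseJ`).

GENERIC (any J1 reduction datum `R : RedData K F k Ft`, `t` a Gauss chart):
* `isOrthoFamily_baseJ` : `y m ∈ Rw` with reductions linearly independent over `k(red t)` are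
  orthonormal over `(K(t), baseJ Rw t)`;
* `exists_orthoFamily_baseJ` : such a family of size `f = [Ft : k(red t)]` exists;
* `baseJ_eq_of_isGaussChart` : two compatible reduction data with a common Gauss chart induce the
  same valuation subring on `K(t)`;
* `dedekindPsi_mul_prime_pow`, `dedekindPsi_mul_prime_sq` : `ψ(M' q²) = ψ(M') q (q + 1)`.

CONCRETE, over `K₀ = ℚ̄^{I_A}`, `F₀ = K₀(X₀(N))`, `j = jK0 A N`, `A₀ = baseJK0 A N`:
* `exists_leg1` : `∃ g₁ : Fin f₁ → F₀, IsOrthoFamily A₀ (RwK0 A N) 𝔪₁ g₁`      (`f₁ ≥ ψ(M')`: `OrthK0.psi_le_f1K0`);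
* `exists_leg2` (`q ∥ N`), `exists_leg2Q` (Hall divisor `Q ∥ N`) : the same for `w₂ = w₁ ∘ W`
  (`f₂ = q^e f₁`: `OrthK0.f2QK0_eq`), over THE SAME base `A₀`.
-/
import Fermat.Agent.GL.Val.OrthK0
import Fermat.Agent.GL.MultiVal.GaussBaseJ
import Fermat.Agent.GL.Frame.GaussAtRedData
import Fermat.Agent.GJ.J1.Val.Uniq

set_option autoImplicit false

noncomputable section

namespace Fermat.Agent.GL.Val.LegsK0

open Module IntermediateField IsLocalRing ModularCurve
open Fermat.Agent.GJ.J1 Fermat.Agent.GK.MultiVal Fermat.Agent.GL.MultiVal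
open Fermat.Agent.GL.MultiVal.GaussBaseJ Fermat.Agent.GL.GaussAtRedData

/-! ### Generic -/

section Generic

variable {K F k Ft : Type*} [Field K] [Field F] [Algebra K F] [Field k] [Field Ft] [Algebra k Ft]

/-- nonunits of `baseJ` -/
theorem mem_nonunits_baseJ_iff (V : ValuationSubring F) (t : F) (a : K⟮t⟯) :
    a ∈ (baseJ (K := K) V t).nonunits ↔ ((a : K⟮t⟯) : F) ∈ V.nonunits := by
  rw [ValuationSubring.mem_nonunits_iff_or, ValuationSubring.mem_nonunits_iff_or, mem_baseJ_iff]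
  have h1 : (algebraMap K⟮t⟯ F) a⁻¹ = ((a : K⟮t⟯) : F)⁻¹ := map_inv₀ _ a
  have h2 : a = 0 ↔ ((a : K⟮t⟯) : F) = 0 := by
    constructor
    · intro h; rw [h]; rfl
    · intro h; exact Subtype.ext h
  rw [h1, h2]

/-- **elements of `Rw` whose reductions are linearly independent over `k(red t)` form an orthonormal
family over the base `(K(t), Rw ∩ K(t))`** -/
theorem isOrthoFamily_baseJ (R : RedData K F k Ft) {t : F} (ht : R.IsGaussChart t) {M : Type*}
    (y : M → F) (hy : ∀ m, y m ∈ R.Rw)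
    (hind : LinearIndependent k⟮R.red ⟨t, ht.1⟩⟯ fun m => R.red ⟨y m, hy m⟩) :
    IsOrthoFamily (baseJ (K := K) R.Rw t) R.Rw.toSubring (vrad R.Rw) y where
  mem := hy
  indep := by
    classical
    intro c hc hsum m
    have hcw : ∀ m, ((c m : K⟮t⟯) : F) ∈ R.Rw := fun m => hc m
    by_cases hm : m ∈ c.support
    swap
    · rw [Finsupp.notMem_support_iff.mp hm, ValuationSubring.mem_nonunits_iff_or]
      exact Or.inl rfl
    set X : R.Rw := ∑ m ∈ c.support, (⟨((c m : K⟮t⟯) : F), hcw m⟩ : R.Rw) * ⟨y m, hy m⟩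
      with hXdef
    have hXcoe : (X : F) = Finsupp.linearCombination K⟮t⟯ y c := by
      rw [Finsupp.linearCombination_apply, Finsupp.sum, hXdef, AddSubmonoidClass.coe_finsetSum]
      refine Finset.sum_congr rfl fun m _ => ?_
      rw [Algebra.smul_def]
      rfl
    have hred : R.red X = 0 := by
      rw [R.orthoRedSystem.red_ker, hXcoe, ValuationSubring.mem_nonunits_iff]
      exact hsum
    have h1 : ∑ m ∈ c.support,
        (⟨R.red ⟨((c m : K⟮t⟯) : F), hcw m⟩,
          Fermat.Agent.GJ.J1.ValUniq.red_mem_adjoin ht (c m) (hcw m)⟩ :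
            k⟮R.red ⟨t, ht.1⟩⟯) • R.red ⟨y m, hy m⟩ = 0 := by
      rw [← hred, hXdef, map_sum]
      refine Finset.sum_congr rfl fun m _ => ?_
      rw [map_mul, Algebra.smul_def]
      rfl
    have h2 := linearIndependent_iff'.1 hind c.support _ h1 m hm
    have h3 : R.red ⟨((c m : K⟮t⟯) : F), hcw m⟩ = 0 := congrArg Subtype.val h2
    rw [R.orthoRedSystem.red_ker] at h3
    exact (mem_nonunits_baseJ_iff R.Rw t (c m)).mpr h3

/-- **an orthonormal family of size `f = [Ft : k(red t)]` over the base `K(t)`** -/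
theorem exists_orthoFamily_baseJ (R : RedData K F k Ft) {t : F} (ht : R.IsGaussChart t)
    [FiniteDimensional k⟮R.red ⟨t, ht.1⟩⟯ Ft] :
    ∃ y : Fin (finrank k⟮R.red ⟨t, ht.1⟩⟯ Ft) → F,
      IsOrthoFamily (baseJ (K := K) R.Rw t) R.Rw.toSubring (vrad R.Rw) y := by
  let β := Module.finBasis k⟮R.red ⟨t, ht.1⟩⟯ Ft
  choose b hb using fun i => R.red_surjective (β i)
  refine ⟨fun i => (b i : F), isOrthoFamily_baseJ R ht _ (fun i => (b i).2) ?_⟩
  have h1 : (fun i => R.red ⟨(b i : F), (b i).2⟩) = β := by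
    funext i
    exact hb i
  rw [h1]
  exact β.linearIndependent

/-- two reduction data over the same base valuation subring with a common Gauss chart induce the
same valuation subring on `K(t)` -/
theorem baseJ_eq_of_isGaussChart {k' Ft' : Type*} [Field k'] [Field Ft'] [Algebra k' Ft']
    (R : RedData K F k Ft) (R' : RedData K F k' Ft') (hA : R.A = R'.A) {t : F}
    (h : R.IsGaussChart t) (h' : R'.IsGaussChart t) :
    baseJ (K := K) R'.Rw t = baseJ (K := K) R.Rw t := by
  ext a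
  rw [mem_baseJ_iff, mem_baseJ_iff]
  exact (mem_iff_mem_of_isGaussChart R R' hA h h' a.2).symm

/-- `ψ(M' q^e) = ψ(M') (q^e + q^(e-1))` for `q ∤ M'`, `e ≥ 1` -/
theorem dedekindPsi_mul_prime_pow {q : ℕ} (hq : q.Prime) (M' : ℕ) (hqM : ¬ q ∣ M') {e : ℕ}
    (he : 0 < e) : dedekindPsi (M' * q ^ e) = dedekindPsi M' * (q ^ e + q ^ (e - 1)) := by
  have hcop : Nat.Coprime M' (q ^ e) :=
    Nat.Coprime.pow_right e ((Nat.Prime.coprime_iff_not_dvd hq).mpr hqM).symm
  rw [Fermat.Agent.S20_helper27.dedekindPsi_mul hcop,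
    Fermat.Agent.S20_helper27.dedekindPsi_prime_pow hq he]

/-- `ψ(M' q²) = ψ(M') q (q + 1)` for `q ∤ M'` -/
theorem dedekindPsi_mul_prime_sq {q : ℕ} (hq : q.Prime) (M' : ℕ) (hqM : ¬ q ∣ M') :
    dedekindPsi (M' * q ^ 2) = dedekindPsi M' * (q * (q + 1)) := by
  rw [dedekindPsi_mul_prime_pow hq M' hqM two_pos]
  congr 1
  ring

end Generic

/-! ### The legs `w₁`, `w₂` over `K₀(j)` -/

open Fermat.Agent.GK.AL Fermat.Agent.GL.AL
open Fermat.Agent.GL.Val.GaussK0 Fermat.Agent.GL.Val.SecondK0 Fermat.Agent.GL.Val.SecondK0Hall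
open Fermat.Agent.GL.Val.OrthK0
open Fermat.Agent.Common_helper32

variable (A : ValuationSubring Qb) (N : ℕ) [NeZero N]

local notation "k₀" => ResidueField (R0 A)

/-- **the base of L1e**: the Gauss valuation subring of `K₀(j)` induced by `w₁` -/
abbrev baseJK0 : ValuationSubring (K0 A)⟮jK0 A N⟯ := baseJ (K := K0 A) (RwK0 A N) (jK0 A N)

/-- the residue extension of `w₁` over `k₀(j~)` is finite -/
theorem finiteDimensional_f1K0 :
    FiniteDimensional k₀⟮(redDataK0 A N).red ⟨jK0 A N, (isGaussChart_jK0 A N).1⟩⟯ (FresK0 A N) := by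
  have := finiteDimensional_jK0 A N
  exact (Fermat.Agent.GJ.S37.ResDeg.finrank_residue_le (redDataK0 A N).A
    (redDataK0 A N).Rw (fun a ha => ((redDataK0 A N).mem_A_iff a).1 ha)
    (redDataK0 A N).red (redDataK0 A N).res (redDataK0 A N).red_algebraMap
    (redDataK0 A N).red_surjective ⟨jK0 A N, (isGaussChart_jK0 A N).1⟩ (isGaussChart_jK0 A N).2).1

/-- **leg `w₁`**: an orthonormal family of size `f₁` over `K₀(j)` -/
theorem exists_leg1 :
    ∃ g : Fin (finrank k₀⟮(redDataK0 A N).red ⟨jK0 A N, (isGaussChart_jK0 A N).1⟩⟯ (FresK0 A N)) →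
        modularFunctionFieldFullC (K0 A) N,
      IsOrthoFamily (baseJK0 A N) (RwK0 A N).toSubring (vrad (RwK0 A N)) g := by
  have := finiteDimensional_f1K0 A N
  exact exists_orthoFamily_baseJ (redDataK0 A N) (isGaussChart_jK0 A N)

section Exact

variable {q : ℕ} (h : ExactDvd q N)

theorem finiteDimensional_f2K0 :
    FiniteDimensional k₀⟮(redData2K0 A N h).red ⟨jK0 A N, (isGaussChart_jK0_2 A N h).1⟩⟯
      (FresK0 A N) := by
  have := finiteDimensional_jK0 A N
  exact (Fermat.Agent.GJ.S37.ResDeg.finrank_residue_le (redData2K0 A N h).A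
    (redData2K0 A N h).Rw (fun a ha => ((redData2K0 A N h).mem_A_iff a).1 ha)
    (redData2K0 A N h).red (redData2K0 A N h).res (redData2K0 A N h).red_algebraMap
    (redData2K0 A N h).red_surjective ⟨jK0 A N, (isGaussChart_jK0_2 A N h).1⟩
    (isGaussChart_jK0_2 A N h).2).1

/-- `w₂` induces the same valuation on `K₀(j)` as `w₁` -/
theorem baseJ_Rw2K0 :
    baseJ (K := K0 A) (redData2K0 A N h).Rw (jK0 A N) = baseJK0 A N :=
  baseJ_eq_of_isGaussChart (redDataK0 A N) (redData2K0 A N h) rfl (isGaussChart_jK0 A N)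
    (isGaussChart_jK0_2 A N h)

/-- **leg `w₂` (`q ∥ N`)**: an orthonormal family of size `f₂` over `K₀(j)` -/
theorem exists_leg2 :
    ∃ g : Fin (finrank k₀⟮(redData2K0 A N h).red ⟨jK0 A N, (isGaussChart_jK0_2 A N h).1⟩⟯
        (FresK0 A N)) → modularFunctionFieldFullC (K0 A) N,
      IsOrthoFamily (baseJK0 A N) (redData2K0 A N h).Rw.toSubring
        (vrad (redData2K0 A N h).Rw) g := by
  have := finiteDimensional_f2K0 A N h
  obtain ⟨g, hg⟩ := exists_orthoFamily_baseJ (redData2K0 A N h) (isGaussChart_jK0_2 A N h)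
  rw [baseJ_Rw2K0] at hg
  exact ⟨g, hg⟩

end Exact

section Hall

variable {Q : ℕ} (h : HallDvd Q N)

theorem finiteDimensional_f2QK0 :
    FiniteDimensional k₀⟮(redData2QK0 A N h).red ⟨jK0 A N, (isGaussChart_jK0_2Q A N h).1⟩⟯
      (FresK0 A N) := by
  have := finiteDimensional_jK0 A N
  exact (Fermat.Agent.GJ.S37.ResDeg.finrank_residue_le (redData2QK0 A N h).A
    (redData2QK0 A N h).Rw (fun a ha => ((redData2QK0 A N h).mem_A_iff a).1 ha)
    (redData2QK0 A N h).red (redData2QK0 A N h).res (redData2QK0 A N h).red_algebraMap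
    (redData2QK0 A N h).red_surjective ⟨jK0 A N, (isGaussChart_jK0_2Q A N h).1⟩
    (isGaussChart_jK0_2Q A N h).2).1

/-- `w₂ = w₁ ∘ W_Q` induces the same valuation on `K₀(j)` as `w₁` -/
theorem baseJ_Rw2QK0 :
    baseJ (K := K0 A) (redData2QK0 A N h).Rw (jK0 A N) = baseJK0 A N :=
  baseJ_eq_of_isGaussChart (redDataK0 A N) (redData2QK0 A N h) rfl (isGaussChart_jK0 A N)
    (isGaussChart_jK0_2Q A N h)

/-- **leg `w₂` (Hall divisor `Q ∥ N`)**: an orthonormal family of size `f₂` over `K₀(j)` -/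
theorem exists_leg2Q :
    ∃ g : Fin (finrank k₀⟮(redData2QK0 A N h).red ⟨jK0 A N, (isGaussChart_jK0_2Q A N h).1⟩⟯
        (FresK0 A N)) → modularFunctionFieldFullC (K0 A) N,
      IsOrthoFamily (baseJK0 A N) (redData2QK0 A N h).Rw.toSubring
        (vrad (redData2QK0 A N h).Rw) g := by
  have := finiteDimensional_f2QK0 A N h
  obtain ⟨g, hg⟩ := exists_orthoFamily_baseJ (redData2QK0 A N h) (isGaussChart_jK0_2Q A N h)
  rw [baseJ_Rw2QK0] at hg
  exact ⟨g, hg⟩

end Hall

end Fermat.Agent.GL.Val.LegsK0
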