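/-
GATE-L / L1e at the LOWER levels (helper75): NOEXT + integral closure over `K₀(j)` at

* `q ∥ N` (level `q M'`): the two valuations `w₁' = RwK0 A N`, `w₂' = (redData2K0 A N h).Rw`
  are ALL the extensions of the Gauss valuation subring of `K₀(j)` to `K₀(X₀(N))`;
* `q ∤ N` (level `M'`): `w₁'' = RwK0 A N` is the ONLY extension.

Everything is discharged from landed files (helper45 `OrthK0` / `LegsK0` / `RamK0` / `SecondK0`,
helper90 `GaussBaseJ`, `L1eAsm`): no hypothesis left.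
-/
import Fermat.Agent.GL.Val.L1eAsmK0
import Fermat.Agent.GL.Val.LegsK0

set_option autoImplicit false

noncomputable section

namespace Fermat.Agent.GL.Val.L1eLower

open HahnSeries ModularCurve IsLocalRing IntermediateField Module
open Fermat.Agent.GJ.J1 Fermat.Agent.GJ.J1.Val
open Fermat.Agent.GK.AL Fermat.Agent.GL.AL Fermat.Agent.GK.MultiVal
open Fermat.Agent.GL.Val.GaussK0 Fermat.Agent.GL.Val.SecondK0
open Fermat.Agent.GL.Val.RamK0 Fermat.Agent.GL.Val.OrthK0
open Fermat.Agent.GL.MultiVal Fermat.Agent.GL.MultiVal.GaussBaseJ Fermat.Agent.GL.GaussAt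
open Fermat.Agent.GL.GaussAtRedData
open Fermat.Agent.GL.Val.L1eAsm Fermat.Agent.GL.Val.L1eAsmK0 Fermat.Agent.GL.Val.LegsK0
open Fermat.Agent.Common_helper32

variable (A : ValuationSubring Qb) (N : ℕ) [NeZero N] {q : ℕ}

local notation "k₀" => ResidueField (R0 A)

/-! ### `q ∥ N` : two valuations -/

section Two

variable (h : ExactDvd q N) (hA : A.LiesOverPrime q)

/-- the two vertical valuation subrings of `K₀(X₀(N))`, `q ∥ N` -/
def W2 : Fin 2 → ValuationSubring (modularFunctionFieldFullC (K0 A) N) :=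
  ![RwK0 A N, (redData2K0 A N h).Rw]

/-- the uniformisers `q, q` -/
def pi2 (q : ℕ) : Fin 2 → modularFunctionFieldFullC (K0 A) N :=
  ![algebraMap (K0 A) (modularFunctionFieldFullC (K0 A) N) ((q0 A q : R0 A) : K0 A),
    algebraMap (K0 A) (modularFunctionFieldFullC (K0 A) N) ((q0 A q : R0 A) : K0 A)]

/-- the ramification indices `1, 1` -/
def e2 : Fin 2 → ℕ := ![1, 1]

theorem isGaussAt_Rw2K0 : IsGaussAt (R0 A) (redData2K0 A N h).Rw (jK0 A N) :=
  isGaussAt_of_isGaussChart (redData2K0 A N h) (isGaussChart_jK0_2 A N h)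

theorem isGaussAt_W2 (i : Fin 2) : IsGaussAt (R0 A) (W2 A N h i) (jK0 A N) := by
  fin_cases i
  · exact isGaussAt_Rw1K0 A
  · exact isGaussAt_Rw2K0 A N h

include hA in
theorem isRamified_W2 (i : Fin 2) :
    IsRamified (A0 A N) (qJ A N q) (W2 A N h i) (pi2 A N q i) (e2 i) := by
  have hq := h.prime
  refine isRamified_baseJ (over_Rw1K0 A hq hA) (isGaussAt_Rw1K0 A) ?_ (isGaussAt_W2 A N h i)
  fin_cases i
  · exact isRamified_Rw1K0 A N hq hA
  · exact isRamified_Rw2K0 A N hq hA h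

include hA in
theorem incomparable_W2 : Incomparable (W2 A N h) := by
  intro i j hij
  fin_cases i <;> fin_cases j
  · exact absurd rfl hij
  · exact not_Rw1K0_le_Rw2K0 A N h hA
  · exact not_Rw2K0_le_Rw1K0 A N h hA
  · exact absurd rfl hij

/-- the residue degrees -/
abbrev f1' : ℕ :=
  finrank k₀⟮(redDataK0 A N).red ⟨jK0 A N, (isGaussChart_jK0 A N).1⟩⟯ (FresK0 A N)

abbrev f2' : ℕ :=
  finrank k₀⟮(redData2K0 A N h).red ⟨jK0 A N, (isGaussChart_jK0_2 A N h).1⟩⟯ (FresK0 A N)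

/-- the cardinalities of the two legs -/
def fTwo : Fin 2 → ℕ := ![f1' A N, f2' A N h]

/-- the two legs as one dependent family -/
def legs2 (g₁ : Fin (f1' A N) → modularFunctionFieldFullC (K0 A) N)
    (g₂ : Fin (f2' A N h) → modularFunctionFieldFullC (K0 A) N) :
    ∀ i : Fin 2, Fin (fTwo A N h i) → modularFunctionFieldFullC (K0 A) N
  | 0 => g₁
  | 1 => g₂

include hA in
theorem finrank_le_sum_two :
    finrank (K0 A)⟮jK0 A N⟯ (modularFunctionFieldFullC (K0 A) N) ≤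
      ∑ i, e2 i * fTwo A N h i := by
  rw [Fin.sum_univ_two]
  have := (degreesK0 A N h hA (isGaussChart_jK0 A N).1 (isGaussChart_jK0_2 A N h).1).2.2
  simp only [e2, fTwo, Matrix.cons_val_zero, Matrix.cons_val_one, one_mul]
  exact this.ge

include hA in
/-- **NOEXT at `q ∥ N`**: every valuation subring of `K₀(X₀(N))` inducing the Gauss valuation
subring on `K₀(j)` is `w₁'` or `w₂'`. -/
theorem exists_eq_W2 {V : ValuationSubring (modularFunctionFieldFullC (K0 A) N)}
    (hV : ∀ a : (K0 A)⟮jK0 A N⟯,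
      algebraMap (K0 A)⟮jK0 A N⟯ (modularFunctionFieldFullC (K0 A) N) a ∈ V ↔ a ∈ baseJK0 A N) :
    V = RwK0 A N ∨ V = (redData2K0 A N h).Rw := by
  have := finiteDimensional_jK0 A N
  obtain ⟨g₁, hg₁⟩ := exists_leg1 A N
  obtain ⟨g₂, hg₂⟩ := exists_leg2 A N h
  have hg : ∀ i, IsOrthoFamily (A0 A N) (W2 A N h i).toSubring (vrad (W2 A N h i))
      (legs2 A N h g₁ g₂ i) := by
    intro i
    fin_cases i
    · exact hg₁
    · exact hg₂
  obtain ⟨i, hi⟩ := exists_eq_of_legs (incomparable_W2 A N h hA) (isUnif_A0 A h.prime hA)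
    (isRamified_W2 A N h hA) hg (finrank_le_sum_two A N h hA) hV
  fin_cases i
  · exact Or.inl hi
  · exact Or.inr hi

include hA in
/-- **NOEXT at `q ∥ N`, Gauss form**. -/
theorem exists_eq_W2_of_isGaussAt {V : ValuationSubring (modularFunctionFieldFullC (K0 A) N)}
    (hV : ∀ a : K0 A, algebraMap (K0 A) (modularFunctionFieldFullC (K0 A) N) a ∈ V ↔ a ∈ R0 A)
    (hj : IsGaussAt (R0 A) V (jK0 A N)) :
    V = RwK0 A N ∨ V = (redData2K0 A N h).Rw :=
  exists_eq_W2 A N h hA (over_baseJ (over_Rw1K0 A h.prime hA) hV (isGaussAt_Rw1K0 A) hj)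

open Polynomial in
include hA in
/-- **`w₁' ∩ w₂'` is the integral closure of the Gauss valuation subring of `K₀(j)`**. -/
theorem mem_ball_W2_iff {x : modularFunctionFieldFullC (K0 A) N} :
    (x ∈ RwK0 A N ∧ x ∈ (redData2K0 A N h).Rw) ↔
      ∃ p : (K0 A)⟮jK0 A N⟯[X], p.Monic ∧ (∀ n, p.coeff n ∈ baseJK0 A N) ∧ aeval x p = 0 := by
  have := finiteDimensional_jK0 A N
  obtain ⟨g₁, hg₁⟩ := exists_leg1 A N
  obtain ⟨g₂, hg₂⟩ := exists_leg2 A N h
  have hg : ∀ i, IsOrthoFamily (A0 A N) (W2 A N h i).toSubring (vrad (W2 A N h i))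
      (legs2 A N h g₁ g₂ i) := by
    intro i
    fin_cases i
    · exact hg₁
    · exact hg₂
  have key : x ∈ ball (W2 A N h) ↔
      ∃ p : (K0 A)⟮jK0 A N⟯[X], p.Monic ∧ (∀ n, p.coeff n ∈ baseJK0 A N) ∧ aeval x p = 0 :=
    mem_ball_iff_of_legs (x := x) (incomparable_W2 A N h hA) (isUnif_A0 A h.prime hA)
      (isRamified_W2 A N h hA) hg (finrank_le_sum_two A N h hA)
  rw [← key, ball, Subring.mem_iInf]
  constructor
  · rintro ⟨h1, h2⟩ i
    fin_cases i
    · exact h1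
    · exact h2
  · intro hx
    exact ⟨hx 0, hx 1⟩

end Two

/-! ### `q ∤ N` : one valuation -/

section One

variable (hq : q.Prime) (hA : A.LiesOverPrime q) (hqN : ¬ q ∣ N)

/-- the single vertical valuation subring of `K₀(X₀(N))`, `q ∤ N` -/
def W1 : Fin 1 → ValuationSubring (modularFunctionFieldFullC (K0 A) N) := ![RwK0 A N]

def pi1 (q : ℕ) : Fin 1 → modularFunctionFieldFullC (K0 A) N :=
  ![algebraMap (K0 A) (modularFunctionFieldFullC (K0 A) N) ((q0 A q : R0 A) : K0 A)]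

def e1 : Fin 1 → ℕ := ![1]

def fOne : Fin 1 → ℕ := ![f1' A N]

def legs1 (g₁ : Fin (f1' A N) → modularFunctionFieldFullC (K0 A) N) :
    ∀ i : Fin 1, Fin (fOne A N i) → modularFunctionFieldFullC (K0 A) N
  | 0 => g₁

include hq hA in
theorem isRamified_W1 (i : Fin 1) :
    IsRamified (A0 A N) (qJ A N q) (W1 A N i) (pi1 A N q i) (e1 i) := by
  fin_cases i
  exact isRamified_baseJ (over_Rw1K0 A hq hA) (isGaussAt_Rw1K0 A)
    (isRamified_Rw1K0 A N hq hA) (isGaussAt_Rw1K0 A)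

omit [NeZero N] in
theorem incomparable_W1 : Incomparable (W1 A N) := by
  intro i j hij
  exact absurd (Subsingleton.elim i j) hij

include hq hA hqN in
theorem finrank_le_sum_one :
    finrank (K0 A)⟮jK0 A N⟯ (modularFunctionFieldFullC (K0 A) N) ≤
      ∑ i, e1 i * fOne A N i := by
  rw [Fin.sum_univ_one, finrank_jK0]
  simp only [e1, fOne, Matrix.cons_val_zero, one_mul]
  exact (f1K0_eq_psi A N hq hA hqN (isGaussChart_jK0 A N).1).ge

include hq hA hqN in
/-- **NOEXT at `q ∤ N`**: `w₁''` is the only valuation subring of `K₀(X₀(N))` inducing the Gauss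
valuation subring on `K₀(j)`. -/
theorem eq_Rw1K0 {V : ValuationSubring (modularFunctionFieldFullC (K0 A) N)}
    (hV : ∀ a : (K0 A)⟮jK0 A N⟯,
      algebraMap (K0 A)⟮jK0 A N⟯ (modularFunctionFieldFullC (K0 A) N) a ∈ V ↔ a ∈ baseJK0 A N) :
    V = RwK0 A N := by
  have := finiteDimensional_jK0 A N
  obtain ⟨g₁, hg₁⟩ := exists_leg1 A N
  have hg : ∀ i, IsOrthoFamily (A0 A N) (W1 A N i).toSubring (vrad (W1 A N i))
      (legs1 A N g₁ i) := by
    intro i
    fin_cases i
    exact hg₁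
  obtain ⟨i, hi⟩ := exists_eq_of_legs (incomparable_W1 A N) (isUnif_A0 A hq hA)
    (isRamified_W1 A N hq hA) hg (finrank_le_sum_one A N hq hA hqN) hV
  fin_cases i
  exact hi

include hq hA hqN in
/-- **NOEXT at `q ∤ N`, Gauss form**. -/
theorem eq_Rw1K0_of_isGaussAt {V : ValuationSubring (modularFunctionFieldFullC (K0 A) N)}
    (hV : ∀ a : K0 A, algebraMap (K0 A) (modularFunctionFieldFullC (K0 A) N) a ∈ V ↔ a ∈ R0 A)
    (hj : IsGaussAt (R0 A) V (jK0 A N)) : V = RwK0 A N :=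
  eq_Rw1K0 A N hq hA hqN (over_baseJ (over_Rw1K0 A hq hA) hV (isGaussAt_Rw1K0 A) hj)

open Polynomial in
include hq hA hqN in
/-- **`w₁''` is the integral closure of the Gauss valuation subring of `K₀(j)`** (`q ∤ N`). -/
theorem mem_Rw1K0_iff {x : modularFunctionFieldFullC (K0 A) N} :
    x ∈ RwK0 A N ↔
      ∃ p : (K0 A)⟮jK0 A N⟯[X], p.Monic ∧ (∀ n, p.coeff n ∈ baseJK0 A N) ∧ aeval x p = 0 := by
  have := finiteDimensional_jK0 A N
  obtain ⟨g₁, hg₁⟩ := exists_leg1 A N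
  have hg : ∀ i, IsOrthoFamily (A0 A N) (W1 A N i).toSubring (vrad (W1 A N i))
      (legs1 A N g₁ i) := by
    intro i
    fin_cases i
    exact hg₁
  have key : x ∈ ball (W1 A N) ↔
      ∃ p : (K0 A)⟮jK0 A N⟯[X], p.Monic ∧ (∀ n, p.coeff n ∈ baseJK0 A N) ∧ aeval x p = 0 :=
    mem_ball_iff_of_legs (x := x) (incomparable_W1 A N) (isUnif_A0 A hq hA)
      (isRamified_W1 A N hq hA) hg (finrank_le_sum_one A N hq hA hqN)
  rw [← key, ball, Subring.mem_iInf]
  constructor
  · intro h1 i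
    fin_cases i
    exact h1
  · intro hx
    exact hx 0

end One

end Fermat.Agent.GL.Val.L1eLower
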