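/-
GATE-L / L1e-(i) INSTANCE (helper90): `j` is a Gauss point of the three vertical valuation
subrings `W₁ = RwK0`, `W₂ = Rw2QK0`, `W₃ = Rw3K0` of `K₀(X₀(N))` over `R₀ = A ∩ K₀`; hence they
induce ONE valuation subring `baseJK0` on `K₀(j)`, `q` is a uniformiser of it, and the `W i` are
`IsRamified` over `baseJK0` with `(e₁, e₂, e₃) = (1, 1, q - 1)` — the inputs of the fundamental
inequality / NOEXT over the base `K₀(j)`.
-/
import Fermat.Agent.GL.Val.ThirdK0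
import Fermat.Agent.GL.Val.SecondK0Hall
import Fermat.Agent.GL.Val.RamK0
import Fermat.Agent.GL.Val.DegBase
import Fermat.Agent.GL.Frame.GaussAtRedData
import Fermat.Agent.GL.Frame.GaussAtComap
import Fermat.Agent.GL.MultiVal.GaussBaseJ

set_option autoImplicit false

noncomputable section

namespace Fermat.Agent.GL.Val.GaussAtK0

open HahnSeries ModularCurve IsLocalRing IntermediateField
open Fermat.Agent.S24 Fermat.Agent.S24_helper62
open Fermat.Agent.GJ.J1 Fermat.Agent.GJ.J1.Val Fermat.Agent.GK.Val Fermat.Agent.GK.Val.GaussBase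
open Fermat.Agent.GL.CuspVal Fermat.Agent.GL.Val.CuspCoeff Fermat.Agent.GL.Val.GaussK0
open Fermat.Agent.GL.Val.CuspK0 Fermat.Agent.GL.Val.ThirdK0 Fermat.Agent.GL.Val.SecondK0 Fermat.Agent.GL.W3
open Fermat.Agent.GL.Val.SecondK0Hall Fermat.Agent.GL.Val.RamK0 Fermat.Agent.GL.Val.DegBase
open Fermat.Agent.GL.Local.InertiaField Fermat.Agent.GL.MultiVal
open Fermat.Agent.GL.GaussAt Fermat.Agent.GL.GaussAtRedData Fermat.Agent.GL.MultiVal.GaussBaseJ
open Fermat.Agent.Common_helper32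
open Fermat.Agent.GK.AL Fermat.Agent.GL.AL

variable (A : ValuationSubring Qb) (N : ℕ) [NeZero N]

/-- `j ∈ K₀(X₀(N))` -/
abbrev jK0 : modularFunctionFieldFullC (K0 A) N := jC N (K0 A)

/-- **`j` is a Gauss point of `w₁` over `R₀`** -/
theorem isGaussAt_Rw1K0 : IsGaussAt (R0 A) (RwK0 A N) (jK0 A N) := by
  have h := isGaussAt_of_isGaussChart (redDataK0 A N) (isGaussChart_jC (K0 A) (R0 A) N)
  rw [genC_one_eq_jC] at h
  exact h

/-- `toFN0 j = j` -/
theorem toFN0_jK0 : toFN0 A N (jK0 A N) = jF N := by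
  rw [jK0, ← genC_one_eq_jC N (K0 A) (R0 A), toFN0_genC]
  rfl

/-- Gauss points of valuation subrings of `F_N = ℚ̄(X₀(N))` over `A` restrict to Gauss points of
their restrictions to `K₀(X₀(N))` over `R₀`. -/
theorem isGaussAt_of_toFN0 {V : ValuationSubring (modularFunctionFieldFullC (K0 A) N)}
    {V' : ValuationSubring (FN N)} (hV : ∀ y, y ∈ V ↔ toFN0 A N y ∈ V')
    (h : IsGaussAt A V' (jF N)) : IsGaussAt (R0 A) V (jK0 A N) := by
  refine IsGaussAt.of_map (toFN0 A N) (ι0 A) (fun a => toFN_algebraMap N (ι0 A) a)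
    (fun a ha => (mem_R0_iff A a).mp ha) hV ?_
  rw [toFN0_jK0]
  exact h

variable {N}

/-- **`j` is a Gauss point of every cusp valuation `w_c` over `R₀`** -/
theorem isGaussAt_RwCuspK0 (c : I0 N) : IsGaussAt (R0 A) (RwCuspK0 A N c) (jK0 A N) :=
  isGaussAt_of_toFN0 A N (mem_RwCuspK0_iff A N c)
    (isGaussAt_of_isGaussChart (redDataCusp N A c) (isGaussChart_jF_cusp N A c))

/-- **`j` is a Gauss point of `w₃` over `R₀`** -/
theorem isGaussAt_Rw3K0 (q : ℕ) : IsGaussAt (R0 A) (Rw3K0 A N q) (jK0 A N) :=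
  isGaussAt_RwCuspK0 A (cusp3 N q)

/-- `mapK0Bar` is `toFN0` -/
theorem mapK0Bar_eq_toFN0 (x : modularFunctionFieldFullC (K0 A) N) :
    mapK0Bar A N x = toFN0 A N x :=
  (toFN0_eq A N x).symm

/-- **`j` is a Gauss point of `w₂ = w₁ ∘ W_Q` over `R₀`** (`Q` a Hall divisor of `N`) -/
theorem isGaussAt_Rw2QK0 {Q : ℕ} (h : HallDvd Q N) :
    IsGaussAt (R0 A) (redData2QK0 A N h).Rw (jK0 A N) :=
  isGaussAt_of_toFN0 A N
    (fun y => by rw [mem_Rw2QK0_iff, mapK0Bar_eq_toFN0])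
    (isGaussAt_of_isGaussChart (redData2Q N A h) (isGaussChart_jF_2Q N A h))

/-! ### The base `K₀(j)` -/

variable (N)

/-- **the Gauss valuation subring of `K₀(j)`** (induced by `w₁`, equivalently by `w₂`, `w₃`) -/
abbrev baseJK0 : ValuationSubring (K0 A)⟮jK0 A N⟯ :=
  baseJ (K := K0 A) (RwK0 A N) (jK0 A N)

variable {q : ℕ}

/-- the uniformiser `q0 A q` of `R₀` is the integer `q` -/
theorem coe_q0_eq_natCast : ((q0 A q : R0 A) : K0 A) = ((q : ℕ) : K0 A) := by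
  apply ι0_injective A
  rw [ι0_q0, map_natCast]

/-- the uniformiser, in `K₀(j)` -/
abbrev qJ (q : ℕ) : (K0 A)⟮jK0 A N⟯ := algebraMap (K0 A) (K0 A)⟮jK0 A N⟯ ((q0 A q : R0 A) : K0 A)

variable (hq : q.Prime) (hA : (q : Qb) ∈ A.nonunits)

include hq hA in
/-- **`q` is a uniformiser of the Gauss valuation subring of `K₀(j)`** -/
theorem isUnif_baseJK0 : IsUnif (baseJK0 A N) (qJ A N q) :=
  isUnif_baseJ (isUnif_R0 A hq hA) (isRamified_Rw1K0 A N hq hA).mem_iff (isGaussAt_Rw1K0 A N)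

include hq hA in
/-- every valuation subring over `R₀` which is Gauss at `j` and `IsRamified` over `R₀` is
`IsRamified` over the Gauss valuation subring of `K₀(j)`. -/
theorem isRamified_baseJK0 {V : ValuationSubring (modularFunctionFieldFullC (K0 A) N)}
    {ϖ : modularFunctionFieldFullC (K0 A) N} {e : ℕ}
    (hR : IsRamified (R0 A) ((q0 A q : R0 A) : K0 A) V ϖ e)
    (hj : IsGaussAt (R0 A) V (jK0 A N)) : IsRamified (baseJK0 A N) (qJ A N q) V ϖ e :=
  isRamified_baseJ (isRamified_Rw1K0 A N hq hA).mem_iff (isGaussAt_Rw1K0 A N) hR hj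

include hq hA in
/-- `w₁` over `K₀(j)`: `e₁ = 1` -/
theorem isRamified_baseJ_Rw1K0 :
    IsRamified (baseJK0 A N) (qJ A N q) (RwK0 A N)
      (algebraMap (K0 A) (modularFunctionFieldFullC (K0 A) N) ((q0 A q : R0 A) : K0 A)) 1 :=
  isRamified_baseJK0 A N hq hA (isRamified_Rw1K0 A N hq hA) (isGaussAt_Rw1K0 A N)

include hq hA in
/-- `w₂` over `K₀(j)`: `e₂ = 1` -/
theorem isRamified_baseJ_Rw2QK0 {Q : ℕ} (h : HallDvd Q N) :
    IsRamified (baseJK0 A N) (qJ A N q) (redData2QK0 A N h).Rw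
      (algebraMap (K0 A) (modularFunctionFieldFullC (K0 A) N) ((q0 A q : R0 A) : K0 A)) 1 :=
  isRamified_baseJK0 A N hq hA (isRamified_Rw2QK0 A N h hq hA) (isGaussAt_Rw2QK0 A h)

variable {N} {M' : ℕ} (hN : N = M' * q ^ 2) (hqM : ¬ q ∣ M')
  {d' : ℕ} [NeZero (q ^ 2 * d')] [NeZero d'] (hd' : d' ∣ M') (hdN : q ^ 2 * d' ∣ N)
  (hd'N : d' ∣ N)

include hq hA hN hqM hd' in
/-- `w₃` over `K₀(j)`: `e₃ = q - 1`, uniformiser `y₃` -/
theorem isRamified_baseJ_Rw3K0 :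
    IsRamified (baseJK0 A N) (qJ A N q) (Rw3K0 A N q) (y3K0 A N q hdN hd'N) (q - 1) := by
  refine isRamified_baseJK0 A N hq hA ?_ (isGaussAt_Rw3K0 A q)
  rw [coe_q0_eq_natCast]
  exact isRamified_Rw3K0 A hq hN hqM hA hd' hdN hd'N

end Fermat.Agent.GL.Val.GaussAtK0
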