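/-
GATE-L / L1e FINAL (helper75): the legs `w₁`, `w₂` of helper45 (`GL/Val/LegsK0.lean`) plugged into
`GL/Val/L1eAsmK0.lean`.  The ONLY remaining hypothesis is the third leg (helper93): an orthonormal
family `g₃ : Fin (ψ(M')) → K₀(X₀(N))` at `w₃` over the Gauss valuation subring of `K₀(j)`.

* `sum_ge` : the numeric inequality `ψ(M') (q² + q) ≤ f₁ + q² f₁ + (q - 1) ψ(M')`;
* `exists_eq_of_leg3`, `exists_eq_of_isGaussAt_of_leg3`, `mem_ball_iff_of_leg3`,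
  `f1_eq_psi_of_leg3` (`f₁ = ψ(M')`: the residue field of `w₁` over `K₀` is `k₀(X₀(M'))`-sized).
-/
import Fermat.Agent.GL.Val.L1eAsmK0
import Fermat.Agent.GL.Val.LegsK0

set_option autoImplicit false

noncomputable section

namespace Fermat.Agent.GL.Val.L1eFinal

open HahnSeries ModularCurve IsLocalRing IntermediateField Module
open Fermat.Agent.GJ.J1 Fermat.Agent.GJ.J1.Val
open Fermat.Agent.GK.AL Fermat.Agent.GL.AL Fermat.Agent.GK.MultiVal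
open Fermat.Agent.GL.Val.GaussK0 Fermat.Agent.GL.Val.SecondK0 Fermat.Agent.GL.Val.SecondK0Hall
open Fermat.Agent.GL.Val.RamK0 Fermat.Agent.GL.Val.OrthK0 Fermat.Agent.GL.Val.ThirdK0
open Fermat.Agent.GL.Val.CuspK0 Fermat.Agent.GL.W3
open Fermat.Agent.GL.MultiVal Fermat.Agent.GL.MultiVal.GaussBaseJ Fermat.Agent.GL.GaussAt
open Fermat.Agent.GL.Val.L1eAsm Fermat.Agent.GL.Val.L1eAsmK0 Fermat.Agent.GL.Val.LegsK0
open Fermat.Agent.Common_helper32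

/-- the numeric input of the assembly -/
theorem sum_ge {ψ f₁ q : ℕ} (hq : 1 ≤ q) (h : ψ ≤ f₁) :
    ψ * (q ^ 2 + q) ≤ f₁ + q ^ 2 * f₁ + (q - 1) * ψ := by
  obtain ⟨r, rfl⟩ : ∃ r, q = r + 1 := ⟨q - 1, by omega⟩
  rw [Nat.add_sub_cancel]
  nlinarith [Nat.mul_le_mul_left ((r + 1) ^ 2) h]

variable (A : ValuationSubring Qb) {N : ℕ} [NeZero N] {q M' : ℕ} [NeZero M']
  (hq : q.Prime) (hN : N = M' * q ^ 2) (hqM : ¬ q ∣ M')
  (hA : A.LiesOverPrime q) (h : HallDvd (q ^ 2) N)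
  {d' : ℕ} [NeZero (q ^ 2 * d')] [NeZero d'] (hd' : d' ∣ M') (hdN : q ^ 2 * d' ∣ N)
  (hd'N : d' ∣ N)

local notation "k₀" => ResidueField (R0 A)

/-- the residue degree `f₁` of `w₁` over `k₀(j~)` -/
abbrev f1 : ℕ :=
  finrank k₀⟮(redDataK0 A N).red ⟨jK0 A N, (isGaussChart_jK0 A N).1⟩⟯ (FresK0 A N)

/-- the residue degree `f₂` of `w₂` over `k₀(red₂ j)` -/
abbrev f2 : ℕ :=
  finrank k₀⟮(redData2QK0 A N h).red ⟨jK0 A N, (isGaussChart_jK0_2Q A N h).1⟩⟯ (FresK0 A N)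

include hq hA in
theorem f2_eq : f2 A h = q ^ 2 * f1 (N := N) A :=
  f2QK0_eq A N h hq rfl hA (isGaussChart_jK0 A N).1 (isGaussChart_jK0_2Q A N h).1

include hq hN hqM hA in
theorem psi_le_f1 : dedekindPsi M' ≤ f1 (N := N) A :=
  psi_le_f1K0 A N hq hA M' ⟨q ^ 2, hN⟩ hqM (isGaussChart_jK0 A N).1

include hq hN hqM hA in
theorem sum_ge_K0 {f₃ : ℕ} (hf₃ : dedekindPsi M' ≤ f₃) :
    dedekindPsi M' * (q ^ 2 + q) ≤ f1 (N := N) A + f2 A h + (q - 1) * f₃ := by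
  rw [f2_eq A hq hA h]
  refine (sum_ge hq.one_lt.le (psi_le_f1 A hq hN hqM hA)).trans ?_
  exact Nat.add_le_add_left (Nat.mul_le_mul_left _ hf₃) _

variable {f₃ : ℕ} {g₃ : Fin f₃ → modularFunctionFieldFullC (K0 A) N}
  (hg₃ : IsOrthoFamily (baseJK0 A N) (Rw3K0 A N q).toSubring (vrad (Rw3K0 A N q)) g₃)
  (hf₃ : dedekindPsi M' ≤ f₃)

include hq hN hqM hA hd' hdN hd'N hg₃ hf₃ in
/-- **L1e**: every valuation subring of `K₀(X₀(N))` inducing the Gauss valuation subring on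
`K₀(j)` is one of `w₁, w₂, w₃` (third leg as hypothesis). -/
theorem exists_eq_of_leg3 {V : ValuationSubring (modularFunctionFieldFullC (K0 A) N)}
    (hV : ∀ a : (K0 A)⟮jK0 A N⟯,
      algebraMap (K0 A)⟮jK0 A N⟯ (modularFunctionFieldFullC (K0 A) N) a ∈ V ↔ a ∈ baseJK0 A N) :
    ∃ i, V = W3 A h i := by
  obtain ⟨g₁, hg₁⟩ := exists_leg1 A N
  obtain ⟨g₂, hg₂⟩ := exists_leg2Q A N h
  exact exists_eq_W3 A hq hN hqM hA h hd' hdN hd'N hg₁ hg₂ hg₃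
    (sum_ge_K0 A hq hN hqM hA h hf₃) hV

include hq hN hqM hA hd' hdN hd'N hg₃ hf₃ in
/-- **L1e, Gauss form** (third leg as hypothesis). -/
theorem exists_eq_of_isGaussAt_of_leg3
    {V : ValuationSubring (modularFunctionFieldFullC (K0 A) N)}
    (hV : ∀ a : K0 A, algebraMap (K0 A) (modularFunctionFieldFullC (K0 A) N) a ∈ V ↔ a ∈ R0 A)
    (hj : IsGaussAt (R0 A) V (jK0 A N)) :
    V = RwK0 A N ∨ V = (redData2QK0 A N h).Rw ∨ V = Rw3K0 A N q := by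
  obtain ⟨g₁, hg₁⟩ := exists_leg1 A N
  obtain ⟨g₂, hg₂⟩ := exists_leg2Q A N h
  exact exists_eq_W3_of_isGaussAt A hq hN hqM hA h hd' hdN hd'N hg₁ hg₂ hg₃
    (sum_ge_K0 A hq hN hqM hA h hf₃) hV hj

open Polynomial in
include hq hN hqM hA hd' hdN hd'N hg₃ hf₃ in
/-- **`w₁ ∩ w₂ ∩ w₃` is the integral closure of the Gauss valuation subring of `K₀(j)`**
(third leg as hypothesis). -/
theorem mem_ball_iff_of_leg3 {x : modularFunctionFieldFullC (K0 A) N} :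
    (x ∈ RwK0 A N ∧ x ∈ (redData2QK0 A N h).Rw ∧ x ∈ Rw3K0 A N q) ↔
      ∃ p : (K0 A)⟮jK0 A N⟯[X], p.Monic ∧ (∀ n, p.coeff n ∈ baseJK0 A N) ∧ aeval x p = 0 := by
  obtain ⟨g₁, hg₁⟩ := exists_leg1 A N
  obtain ⟨g₂, hg₂⟩ := exists_leg2Q A N h
  exact mem_ball_W3_iff A hq hN hqM hA h hd' hdN hd'N hg₁ hg₂ hg₃
    (sum_ge_K0 A hq hN hqM hA h hf₃)

include hq hN hqM hA h hd' hdN hd'N hg₃ hf₃ in
/-- by-product: `f₁ = ψ(M')` and `f₃ = ψ(M')` (equality in the fundamental inequality). -/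
theorem f1_eq_psi_of_leg3 : f1 (N := N) A = dedekindPsi M' ∧ f₃ = dedekindPsi M' := by
  obtain ⟨g₁, hg₁⟩ := exists_leg1 A N
  obtain ⟨g₂, hg₂⟩ := exists_leg2Q A N h
  have h1 : dedekindPsi N = f1 (N := N) A + f2 A h + (q - 1) * f₃ :=
    finrank_eq_W3 A hq hN hqM hA h hd' hdN hd'N hg₁ hg₂ hg₃ (sum_ge_K0 A hq hN hqM hA h hf₃)
  rw [dedekindPsi_level hq hN hqM, f2_eq A hq hA h] at h1
  have h2 := psi_le_f1 (N := N) A hq hN hqM hA
  have hq1 : 1 ≤ q := hq.one_lt.le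
  obtain ⟨r, rfl⟩ : ∃ r, q = r + 1 := ⟨q - 1, by omega⟩
  rw [Nat.add_sub_cancel] at h1
  constructor
  · nlinarith [Nat.mul_le_mul_left ((r + 1) ^ 2) h2, Nat.mul_le_mul_left r hf₃]
  · rcases Nat.eq_zero_or_pos r with rfl | hr
    · exact absurd hq (by norm_num)
    · nlinarith [Nat.mul_le_mul_left ((r + 1) ^ 2) h2, Nat.mul_le_mul_left r hf₃]

end Fermat.Agent.GL.Val.L1eFinal
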