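/-
GATE-L / L1e in the chart `jC N (K₀)` (helper75).

`OrthK0.jK0 A N = genC … (one_dvd N)` (helper45) and `GaussAtK0.jK0 A N = jC N (K0 A)` (helper90)
are EQUAL (`OrthK0.jK0_eq_jC`) but not definitionally, so the bases `baseJ (RwK0 A N) _` live over
two different subtypes `K₀⟮_⟯`.  `L1eAsmK0` / `L1eFinal` / `L1eLower` are stated in helper45's
chart; this file transports every statement to an ARBITRARY chart `t` with `OrthK0.jK0 A N = t`
(by `subst`) and specialises to helper90's `GaussAtK0.baseJK0 A N`.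

Top level `N = M' q²` (third leg = the only hypothesis, over helper90's base as helper45's
`LegsJC` prescribes):
* `exists_eq_of_leg3_jC`, `exists_eq_of_isGaussAt_of_leg3_jC`, `mem_ball_iff_of_leg3_jC`.
Lower levels (no hypothesis):
* `exists_eq_W2_jC`, `exists_eq_W2_of_isGaussAt_jC`, `mem_ball_W2_iff_jC` (`q ∥ N`);
* `eq_Rw1K0_jC`, `eq_Rw1K0_of_isGaussAt_jC`, `mem_Rw1K0_iff_jC` (`q ∤ N`).
-/
import Fermat.Agent.GL.Val.L1eFinal
import Fermat.Agent.GL.Val.L1eLower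
import Fermat.Agent.GL.Val.GaussAtK0

set_option autoImplicit false

noncomputable section

namespace Fermat.Agent.GL.Val.L1eJC

open HahnSeries ModularCurve IsLocalRing IntermediateField Module Polynomial
open Fermat.Agent.GJ.J1 Fermat.Agent.GJ.J1.Val
open Fermat.Agent.GK.AL Fermat.Agent.GL.AL Fermat.Agent.GK.MultiVal
open Fermat.Agent.GL.Val.GaussK0 Fermat.Agent.GL.Val.SecondK0 Fermat.Agent.GL.Val.SecondK0Hall
open Fermat.Agent.GL.Val.ThirdK0 Fermat.Agent.GL.W3 Fermat.Agent.GL.Val.DegBase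
open Fermat.Agent.GL.MultiVal Fermat.Agent.GL.MultiVal.GaussBaseJ Fermat.Agent.GL.GaussAt
open Fermat.Agent.GL.Val.L1eAsmK0 Fermat.Agent.GL.Val.L1eFinal Fermat.Agent.GL.Val.L1eLower
open Fermat.Agent.Common_helper32

variable (A : ValuationSubring Qb) {N : ℕ} [NeZero N] {q : ℕ}

/-! ### Top level `N = M' q²` -/

section Top

variable {M' : ℕ} [NeZero M'] (hq : q.Prime) (hN : N = M' * q ^ 2) (hqM : ¬ q ∣ M')
  (hA : A.LiesOverPrime q) (h : HallDvd (q ^ 2) N)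
  {d' : ℕ} [NeZero (q ^ 2 * d')] [NeZero d'] (hd' : d' ∣ M') (hdN : q ^ 2 * d' ∣ N)
  (hd'N : d' ∣ N)
  {f₃ : ℕ} {g₃ : Fin f₃ → modularFunctionFieldFullC (K0 A) N}

include hq hN hqM hA hd' hdN hd'N in
/-- `exists_eq_of_leg3` in an arbitrary chart `t = jK0` -/
theorem exists_eq_of_leg3_chart {t : modularFunctionFieldFullC (K0 A) N}
    (ht : OrthK0.jK0 A N = t)
    (hg₃ : IsOrthoFamily (baseJ (K := K0 A) (RwK0 A N) t) (Rw3K0 A N q).toSubring
      (vrad (Rw3K0 A N q)) g₃) (hf₃ : dedekindPsi M' ≤ f₃)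
    {V : ValuationSubring (modularFunctionFieldFullC (K0 A) N)}
    (hV : ∀ a : (K0 A)⟮t⟯, algebraMap (K0 A)⟮t⟯ (modularFunctionFieldFullC (K0 A) N) a ∈ V ↔
      a ∈ baseJ (K := K0 A) (RwK0 A N) t) :
    V = RwK0 A N ∨ V = (redData2QK0 A N h).Rw ∨ V = Rw3K0 A N q := by
  subst ht
  obtain ⟨i, hi⟩ := exists_eq_of_leg3 A hq hN hqM hA h hd' hdN hd'N hg₃ hf₃ hV
  fin_cases i
  · exact Or.inl hi
  · exact Or.inr (Or.inl hi)
  · exact Or.inr (Or.inr hi)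

include hq hN hqM hA hd' hdN hd'N in
theorem exists_eq_of_isGaussAt_of_leg3_chart {t : modularFunctionFieldFullC (K0 A) N}
    (ht : OrthK0.jK0 A N = t)
    (hg₃ : IsOrthoFamily (baseJ (K := K0 A) (RwK0 A N) t) (Rw3K0 A N q).toSubring
      (vrad (Rw3K0 A N q)) g₃) (hf₃ : dedekindPsi M' ≤ f₃)
    {V : ValuationSubring (modularFunctionFieldFullC (K0 A) N)}
    (hV : ∀ a : K0 A, algebraMap (K0 A) (modularFunctionFieldFullC (K0 A) N) a ∈ V ↔ a ∈ R0 A)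
    (hj : IsGaussAt (R0 A) V t) :
    V = RwK0 A N ∨ V = (redData2QK0 A N h).Rw ∨ V = Rw3K0 A N q := by
  subst ht
  exact exists_eq_of_isGaussAt_of_leg3 A hq hN hqM hA h hd' hdN hd'N hg₃ hf₃ hV hj

include hq hN hqM hA hd' hdN hd'N in
theorem mem_ball_iff_of_leg3_chart {t : modularFunctionFieldFullC (K0 A) N}
    (ht : OrthK0.jK0 A N = t)
    (hg₃ : IsOrthoFamily (baseJ (K := K0 A) (RwK0 A N) t) (Rw3K0 A N q).toSubring
      (vrad (Rw3K0 A N q)) g₃) (hf₃ : dedekindPsi M' ≤ f₃)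
    {x : modularFunctionFieldFullC (K0 A) N} :
    (x ∈ RwK0 A N ∧ x ∈ (redData2QK0 A N h).Rw ∧ x ∈ Rw3K0 A N q) ↔
      ∃ p : (K0 A)⟮t⟯[X], p.Monic ∧ (∀ n, p.coeff n ∈ baseJ (K := K0 A) (RwK0 A N) t) ∧
        aeval x p = 0 := by
  subst ht
  exact mem_ball_iff_of_leg3 A hq hN hqM hA h hd' hdN hd'N hg₃ hf₃

variable (hg₃ : IsOrthoFamily (GaussAtK0.baseJK0 A N) (Rw3K0 A N q).toSubring
    (vrad (Rw3K0 A N q)) g₃) (hf₃ : dedekindPsi M' ≤ f₃)

include hq hN hqM hA hd' hdN hd'N hg₃ hf₃ in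
/-- **L1e at `N = M' q²` over helper90's base** (third leg as hypothesis). -/
theorem exists_eq_of_leg3_jC {V : ValuationSubring (modularFunctionFieldFullC (K0 A) N)}
    (hV : ∀ a : (K0 A)⟮GaussAtK0.jK0 A N⟯,
      algebraMap (K0 A)⟮GaussAtK0.jK0 A N⟯ (modularFunctionFieldFullC (K0 A) N) a ∈ V ↔
        a ∈ GaussAtK0.baseJK0 A N) :
    V = RwK0 A N ∨ V = (redData2QK0 A N h).Rw ∨ V = Rw3K0 A N q :=
  exists_eq_of_leg3_chart A hq hN hqM hA h hd' hdN hd'N (OrthK0.jK0_eq_jC A N) hg₃ hf₃ hV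

include hq hN hqM hA hd' hdN hd'N hg₃ hf₃ in
/-- **L1e at `N = M' q²`, Gauss form, chart `jC`** (third leg as hypothesis). -/
theorem exists_eq_of_isGaussAt_of_leg3_jC
    {V : ValuationSubring (modularFunctionFieldFullC (K0 A) N)}
    (hV : ∀ a : K0 A, algebraMap (K0 A) (modularFunctionFieldFullC (K0 A) N) a ∈ V ↔ a ∈ R0 A)
    (hj : IsGaussAt (R0 A) V (jC N (K0 A))) :
    V = RwK0 A N ∨ V = (redData2QK0 A N h).Rw ∨ V = Rw3K0 A N q :=
  exists_eq_of_isGaussAt_of_leg3_chart A hq hN hqM hA h hd' hdN hd'N (OrthK0.jK0_eq_jC A N)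
    hg₃ hf₃ hV hj

include hq hN hqM hA hd' hdN hd'N hg₃ hf₃ in
/-- **`w₁ ∩ w₂ ∩ w₃` = integral closure of helper90's `baseJK0`** (third leg as hypothesis). -/
theorem mem_ball_iff_of_leg3_jC {x : modularFunctionFieldFullC (K0 A) N} :
    (x ∈ RwK0 A N ∧ x ∈ (redData2QK0 A N h).Rw ∧ x ∈ Rw3K0 A N q) ↔
      ∃ p : (K0 A)⟮GaussAtK0.jK0 A N⟯[X], p.Monic ∧
        (∀ n, p.coeff n ∈ GaussAtK0.baseJK0 A N) ∧ aeval x p = 0 :=
  mem_ball_iff_of_leg3_chart A hq hN hqM hA h hd' hdN hd'N (OrthK0.jK0_eq_jC A N) hg₃ hf₃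

end Top

/-! ### `q ∥ N` -/

section Two

variable (N) (h : ExactDvd q N) (hA : A.LiesOverPrime q)

include hA in
theorem exists_eq_W2_chart {t : modularFunctionFieldFullC (K0 A) N} (ht : OrthK0.jK0 A N = t)
    {V : ValuationSubring (modularFunctionFieldFullC (K0 A) N)}
    (hV : ∀ a : (K0 A)⟮t⟯, algebraMap (K0 A)⟮t⟯ (modularFunctionFieldFullC (K0 A) N) a ∈ V ↔
      a ∈ baseJ (K := K0 A) (RwK0 A N) t) :
    V = RwK0 A N ∨ V = (redData2K0 A N h).Rw := by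
  subst ht
  exact exists_eq_W2 A N h hA hV

include hA in
theorem exists_eq_W2_of_isGaussAt_chart {t : modularFunctionFieldFullC (K0 A) N}
    (ht : OrthK0.jK0 A N = t) {V : ValuationSubring (modularFunctionFieldFullC (K0 A) N)}
    (hV : ∀ a : K0 A, algebraMap (K0 A) (modularFunctionFieldFullC (K0 A) N) a ∈ V ↔ a ∈ R0 A)
    (hj : IsGaussAt (R0 A) V t) : V = RwK0 A N ∨ V = (redData2K0 A N h).Rw := by
  subst ht
  exact exists_eq_W2_of_isGaussAt A N h hA hV hj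

include hA in
theorem mem_ball_W2_iff_chart {t : modularFunctionFieldFullC (K0 A) N}
    (ht : OrthK0.jK0 A N = t) {x : modularFunctionFieldFullC (K0 A) N} :
    (x ∈ RwK0 A N ∧ x ∈ (redData2K0 A N h).Rw) ↔
      ∃ p : (K0 A)⟮t⟯[X], p.Monic ∧ (∀ n, p.coeff n ∈ baseJ (K := K0 A) (RwK0 A N) t) ∧
        aeval x p = 0 := by
  subst ht
  exact mem_ball_W2_iff A N h hA

include hA in
/-- **NOEXT at `q ∥ N` over helper90's base**. -/
theorem exists_eq_W2_jC {V : ValuationSubring (modularFunctionFieldFullC (K0 A) N)}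
    (hV : ∀ a : (K0 A)⟮GaussAtK0.jK0 A N⟯,
      algebraMap (K0 A)⟮GaussAtK0.jK0 A N⟯ (modularFunctionFieldFullC (K0 A) N) a ∈ V ↔
        a ∈ GaussAtK0.baseJK0 A N) :
    V = RwK0 A N ∨ V = (redData2K0 A N h).Rw :=
  exists_eq_W2_chart A N h hA (OrthK0.jK0_eq_jC A N) hV

include hA in
/-- **NOEXT at `q ∥ N`, Gauss form, chart `jC`**. -/
theorem exists_eq_W2_of_isGaussAt_jC
    {V : ValuationSubring (modularFunctionFieldFullC (K0 A) N)}
    (hV : ∀ a : K0 A, algebraMap (K0 A) (modularFunctionFieldFullC (K0 A) N) a ∈ V ↔ a ∈ R0 A)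
    (hj : IsGaussAt (R0 A) V (jC N (K0 A))) : V = RwK0 A N ∨ V = (redData2K0 A N h).Rw :=
  exists_eq_W2_of_isGaussAt_chart A N h hA (OrthK0.jK0_eq_jC A N) hV hj

include hA in
/-- **`w₁' ∩ w₂'` = integral closure of helper90's `baseJK0`** (`q ∥ N`). -/
theorem mem_ball_W2_iff_jC {x : modularFunctionFieldFullC (K0 A) N} :
    (x ∈ RwK0 A N ∧ x ∈ (redData2K0 A N h).Rw) ↔
      ∃ p : (K0 A)⟮GaussAtK0.jK0 A N⟯[X], p.Monic ∧
        (∀ n, p.coeff n ∈ GaussAtK0.baseJK0 A N) ∧ aeval x p = 0 :=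
  mem_ball_W2_iff_chart A N h hA (OrthK0.jK0_eq_jC A N)

end Two

/-! ### `q ∤ N` -/

section One

variable (N) (hq : q.Prime) (hA : A.LiesOverPrime q) (hqN : ¬ q ∣ N)

include hq hA hqN in
theorem eq_Rw1K0_chart {t : modularFunctionFieldFullC (K0 A) N} (ht : OrthK0.jK0 A N = t)
    {V : ValuationSubring (modularFunctionFieldFullC (K0 A) N)}
    (hV : ∀ a : (K0 A)⟮t⟯, algebraMap (K0 A)⟮t⟯ (modularFunctionFieldFullC (K0 A) N) a ∈ V ↔
      a ∈ baseJ (K := K0 A) (RwK0 A N) t) : V = RwK0 A N := by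
  subst ht
  exact eq_Rw1K0 A N hq hA hqN hV

include hq hA hqN in
theorem eq_Rw1K0_of_isGaussAt_chart {t : modularFunctionFieldFullC (K0 A) N}
    (ht : OrthK0.jK0 A N = t) {V : ValuationSubring (modularFunctionFieldFullC (K0 A) N)}
    (hV : ∀ a : K0 A, algebraMap (K0 A) (modularFunctionFieldFullC (K0 A) N) a ∈ V ↔ a ∈ R0 A)
    (hj : IsGaussAt (R0 A) V t) : V = RwK0 A N := by
  subst ht
  exact eq_Rw1K0_of_isGaussAt A N hq hA hqN hV hj

include hq hA hqN in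
theorem mem_Rw1K0_iff_chart {t : modularFunctionFieldFullC (K0 A) N}
    (ht : OrthK0.jK0 A N = t) {x : modularFunctionFieldFullC (K0 A) N} :
    x ∈ RwK0 A N ↔
      ∃ p : (K0 A)⟮t⟯[X], p.Monic ∧ (∀ n, p.coeff n ∈ baseJ (K := K0 A) (RwK0 A N) t) ∧
        aeval x p = 0 := by
  subst ht
  exact mem_Rw1K0_iff A N hq hA hqN

include hq hA hqN in
/-- **NOEXT at `q ∤ N` over helper90's base**. -/
theorem eq_Rw1K0_jC {V : ValuationSubring (modularFunctionFieldFullC (K0 A) N)}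
    (hV : ∀ a : (K0 A)⟮GaussAtK0.jK0 A N⟯,
      algebraMap (K0 A)⟮GaussAtK0.jK0 A N⟯ (modularFunctionFieldFullC (K0 A) N) a ∈ V ↔
        a ∈ GaussAtK0.baseJK0 A N) : V = RwK0 A N :=
  eq_Rw1K0_chart A N hq hA hqN (OrthK0.jK0_eq_jC A N) hV

include hq hA hqN in
/-- **NOEXT at `q ∤ N`, Gauss form, chart `jC`**. -/
theorem eq_Rw1K0_of_isGaussAt_jC {V : ValuationSubring (modularFunctionFieldFullC (K0 A) N)}
    (hV : ∀ a : K0 A, algebraMap (K0 A) (modularFunctionFieldFullC (K0 A) N) a ∈ V ↔ a ∈ R0 A)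
    (hj : IsGaussAt (R0 A) V (jC N (K0 A))) : V = RwK0 A N :=
  eq_Rw1K0_of_isGaussAt_chart A N hq hA hqN (OrthK0.jK0_eq_jC A N) hV hj

include hq hA hqN in
/-- **`w₁''` = integral closure of helper90's `baseJK0`** (`q ∤ N`). -/
theorem mem_Rw1K0_iff_jC {x : modularFunctionFieldFullC (K0 A) N} :
    x ∈ RwK0 A N ↔
      ∃ p : (K0 A)⟮GaussAtK0.jK0 A N⟯[X], p.Monic ∧
        (∀ n, p.coeff n ∈ GaussAtK0.baseJK0 A N) ∧ aeval x p = 0 :=
  mem_Rw1K0_iff_chart A N hq hA hqN (OrthK0.jK0_eq_jC A N)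

end One

end Fermat.Agent.GL.Val.L1eJC
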