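/-
GATE-L / L1e, THIRD LEG by going DOWN (helper75).

"Residue degrees are monotone in towers": let `ι : F₁ → F₂` be a `K`-embedding of fields,
`t ∈ F₁`, `V` a valuation subring of `F₂` and `V₀` the valuation subring of `F₂` defining the base
`baseJ V₀ (ι t) ⊂ K(ι t)`.  An orthonormal family for `ι⁻¹ V` over `baseJ (ι⁻¹ V₀) t` pushes
forward to an orthonormal family for `V` over `baseJ V₀ (ι t)` (`isOrthoFamily_baseJ_map`).

Concrete: `ι = inclC : K₀(X₀(M')) → K₀(X₀(N))`, `N = M' q²`, `q ∤ M'`.  The restriction of `w₃`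
(and of `w₁`) to `K₀(X₀(M'))` is over `R₀` and Gauss at `j`, hence EQUAL to the Gauss valuation
subring `RwK0 A M'` by `L1eLower.eq_Rw1K0_of_isGaussAt`; the leg of size `ψ(M')` of `RwK0 A M'`
(helper45 `LegsK0.exists_leg1`, `OrthK0.f1K0_eq_psi`) pushes forward to the third leg:

  `exists_leg3 : ∃ g₃ : Fin (ψ(M')) → K₀(X₀(N)),
      IsOrthoFamily (baseJK0 A N) (Rw3K0 A N q).toSubring (vrad (Rw3K0 A N q)) g₃`

No cusp expansion is used.
-/
import Fermat.Agent.GL.Val.L1eLower
import Fermat.Agent.GL.Val.L1eFinal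
import Fermat.Agent.GL.Table.DegenK0
import Fermat.Agent.GL.Frame.GaussAtComap

set_option autoImplicit false

noncomputable section

namespace Fermat.Agent.GL.Val.LegW3Down

open IntermediateField Module
open Fermat.Agent.GK.MultiVal Fermat.Agent.GL.MultiVal Fermat.Agent.GL.MultiVal.GaussBaseJ
open Fermat.Agent.GL.GaussAt

/-! ### Abstract transport -/

section Abstract

variable {K₁ K₂ F₁ F₂ : Type*} [Field K₁] [Field K₂] [Field F₁] [Field F₂]
  [Algebra K₁ F₁] [Algebra K₂ F₂]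

/-- nonunits of a restricted valuation subring -/
theorem mem_nonunits_iff_map {V₁ : ValuationSubring F₁} {V₂ : ValuationSubring F₂}
    (φ : F₁ →+* F₂) (hV : ∀ y : F₁, y ∈ V₁ ↔ φ y ∈ V₂) (x : F₁) :
    x ∈ V₁.nonunits ↔ φ x ∈ V₂.nonunits := by
  rw [ValuationSubring.mem_nonunits_iff_or, ValuationSubring.mem_nonunits_iff_or, hV, map_inv₀,
    map_eq_zero]

/-- **orthonormal families push forward along compatible field embeddings** -/
theorem isOrthoFamily_map (σ : K₁ ≃+* K₂) (φ : F₁ →+* F₂)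
    (hσφ : ∀ a : K₁, φ (algebraMap K₁ F₁ a) = algebraMap K₂ F₂ (σ a))
    {A₁ : ValuationSubring K₁} {A₂ : ValuationSubring K₂} (hA : ∀ a : K₁, a ∈ A₁ ↔ σ a ∈ A₂)
    {V₁ : ValuationSubring F₁} {V₂ : ValuationSubring F₂} (hV : ∀ y : F₁, y ∈ V₁ ↔ φ y ∈ V₂)
    {J : Type*} {g : J → F₁} (hg : IsOrthoFamily A₁ V₁.toSubring (vrad V₁) g) :
    IsOrthoFamily A₂ V₂.toSubring (vrad V₂) (fun j => φ (g j)) := by
  classical
  refine ⟨fun j => (hV _).mp (hg.mem j), fun c hc hmem j => ?_⟩
  set c' : J →₀ K₁ := c.mapRange σ.symm (map_zero _) with hc'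
  have hσc' : ∀ j, σ (c' j) = c j := fun j => by
    rw [hc', Finsupp.mapRange_apply, RingEquiv.apply_symm_apply]
  have h1 : ∀ j, c' j ∈ A₁ := fun j => (hA _).mpr (by rw [hσc']; exact hc j)
  have hsupp : c'.support = c.support :=
    Finsupp.support_mapRange_of_injective (map_zero _) c σ.symm.injective
  have h2 : φ (Finsupp.linearCombination K₁ g c') =
      Finsupp.linearCombination K₂ (fun j => φ (g j)) c := by
    rw [Finsupp.linearCombination_apply, Finsupp.linearCombination_apply, Finsupp.sum,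
      Finsupp.sum, map_sum, hsupp]
    refine Finset.sum_congr rfl fun j _ => ?_
    rw [Algebra.smul_def, Algebra.smul_def, map_mul, hσφ, hσc']
  have h3 : Finsupp.linearCombination K₁ g c' ∈ vrad V₁ := by
    rw [mem_vrad, ← ValuationSubring.mem_nonunits_iff, mem_nonunits_iff_map φ hV, h2,
      ValuationSubring.mem_nonunits_iff]
    exact hmem
  have h4 := hg.indep c' h1 h3 j
  have hA' : ∀ a : K₁, a ∈ A₁.nonunits ↔ σ a ∈ A₂.nonunits :=
    mem_nonunits_iff_map (σ : K₁ →+* K₂) hA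
  have := (hA' _).mp h4
  rwa [hσc'] at this

end Abstract

section Adjoin

variable {K F₁ F₂ : Type*} [Field K] [Field F₁] [Field F₂] [Algebra K F₁] [Algebra K F₂]

/-- the isomorphism `K(t) ≃ K(ι t)` induced by a `K`-embedding `ι` -/
def adjoinEquiv (ι : F₁ →ₐ[K] F₂) (t : F₁) : K⟮t⟯ ≃ₐ[K] K⟮ι t⟯ :=
  (IntermediateField.equivMap K⟮t⟯ ι).trans
    (IntermediateField.equivOfEq (by rw [IntermediateField.adjoin_map, Set.image_singleton]))

theorem coe_adjoinEquiv (ι : F₁ →ₐ[K] F₂) (t : F₁) (a : K⟮t⟯) :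
    ((adjoinEquiv ι t a : K⟮ι t⟯) : F₂) = ι (a : F₁) := rfl

/-- **legs push forward**: an orthonormal family for `ι⁻¹ V` over `baseJ (ι⁻¹ V₀) t` gives an
orthonormal family for `V` over `baseJ V₀ (ι t)`. -/
theorem isOrthoFamily_baseJ_map (ι : F₁ →ₐ[K] F₂) (t : F₁) (V₀ V : ValuationSubring F₂)
    {J : Type*} {g : J → F₁}
    (hg : IsOrthoFamily (baseJ (K := K) (V₀.comap (ι : F₁ →+* F₂)) t)
      (V.comap (ι : F₁ →+* F₂)).toSubring (vrad (V.comap (ι : F₁ →+* F₂))) g) :
    IsOrthoFamily (baseJ (K := K) V₀ (ι t)) V.toSubring (vrad V) (fun j => ι (g j)) := by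
  refine isOrthoFamily_map (adjoinEquiv ι t).toRingEquiv (ι : F₁ →+* F₂) (fun a => ?_)
    (fun a => ?_) (fun y => ?_) hg
  · rfl
  · rw [mem_baseJ_iff, mem_baseJ_iff, ValuationSubring.mem_comap]
    rfl
  · rw [ValuationSubring.mem_comap]

end Adjoin

/-! ### The third leg at `N = M' q²` -/

section Concrete

open HahnSeries ModularCurve IsLocalRing
open Fermat.Agent.GJ.J1 Fermat.Agent.GJ.J1.Val
open Fermat.Agent.GK.AL Fermat.Agent.GL.AL
open Fermat.Agent.GK.Val.GaussBase
open Fermat.Agent.GL.Val.GaussK0 Fermat.Agent.GL.Val.SecondK0 Fermat.Agent.GL.Val.SecondK0Hall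
open Fermat.Agent.GL.Val.RamK0 Fermat.Agent.GL.Val.OrthK0 Fermat.Agent.GL.Val.ThirdK0
open Fermat.Agent.GL.Val.CuspK0 Fermat.Agent.GL.W3
open Fermat.Agent.GL.Val.L1eAsmK0 Fermat.Agent.GL.Val.L1eFinal Fermat.Agent.GL.Val.L1eLower
open Fermat.Agent.GL.Val.LegsK0 Fermat.Agent.GL.Table.K0
open Fermat.Agent.Common_helper32

variable (A : ValuationSubring Qb) {N : ℕ} [NeZero N] {q M' : ℕ} [NeZero M']

/-- the inclusion `K₀(X₀(M')) → K₀(X₀(N))` sends `j` to `j` -/
theorem inclC_jK0 (hM' : M' ∣ N) : inclC (K0 A) hM' (jK0 A M') = jK0 A N := by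
  apply Subtype.ext
  rw [coe_inclC, jK0, jK0, coe_genC, coe_genC]

variable (hq : q.Prime) (hA : A.LiesOverPrime q) (hqM : ¬ q ∣ M') (hM' : M' ∣ N)

include hq hA hqM in
/-- **every valuation subring of `K₀(X₀(N))` over `R₀` which is Gauss at `j` restricts to the Gauss
valuation subring of `K₀(X₀(M'))`** (`q ∤ M'`, `M' ∣ N`). -/
theorem comap_inclC_eq {V : ValuationSubring (modularFunctionFieldFullC (K0 A) N)}
    (hV : ∀ a : K0 A, algebraMap (K0 A) (modularFunctionFieldFullC (K0 A) N) a ∈ V ↔ a ∈ R0 A)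
    (hj : IsGaussAt (R0 A) V (jK0 A N)) :
    V.comap (inclC (K0 A) hM' : modularFunctionFieldFullC (K0 A) M' →+*
      modularFunctionFieldFullC (K0 A) N) = RwK0 A M' := by
  refine eq_Rw1K0_of_isGaussAt A M' hq hA hqM (fun a => ?_) ?_
  · rw [ValuationSubring.mem_comap, ← hV a]
    have : (inclC (K0 A) hM' : modularFunctionFieldFullC (K0 A) M' →+*
        modularFunctionFieldFullC (K0 A) N)
          (algebraMap (K0 A) (modularFunctionFieldFullC (K0 A) M') a) =
        algebraMap (K0 A) (modularFunctionFieldFullC (K0 A) N) a :=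
      (inclC (K0 A) hM').commutes a
    rw [this]
  · refine IsGaussAt.of_map (A := R0 A) (A' := R0 A)
      (inclC (K0 A) hM' : modularFunctionFieldFullC (K0 A) M' →+*
        modularFunctionFieldFullC (K0 A) N) (RingHom.id (K0 A))
      (fun a => (inclC (K0 A) hM').commutes a) (fun a ha => ha)
      (fun y => ValuationSubring.mem_comap) ?_
    have h1 : (inclC (K0 A) hM' : modularFunctionFieldFullC (K0 A) M' →+*
        modularFunctionFieldFullC (K0 A) N) (jK0 A M') = jK0 A N := inclC_jK0 A hM'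
    rw [h1]
    exact hj

omit [NeZero N] [NeZero M'] in
/-- transport of the chart in the base of a leg -/
theorem isOrthoFamily_chart {t t' : modularFunctionFieldFullC (K0 A) N} (ht : t = t')
    {V₀ V : ValuationSubring (modularFunctionFieldFullC (K0 A) N)} {J : Type*}
    {g : J → modularFunctionFieldFullC (K0 A) N}
    (hg : IsOrthoFamily (baseJ (K := K0 A) V₀ t) V.toSubring (vrad V) g) :
    IsOrthoFamily (baseJ (K := K0 A) V₀ t') V.toSubring (vrad V) g := by
  subst ht
  exact hg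

include hq hA hqM hM' in
/-- **legs go up**: for every valuation subring `V` of `K₀(X₀(N))` over `R₀` which is Gauss at `j`
there is an orthonormal family of size `ψ(M')` over the Gauss valuation subring of `K₀(j)`
(`M' ∣ N`, `q ∤ M'`): the residue degree of `V` is at least `ψ(M')`. -/
theorem exists_leg_of_isGaussAt {V : ValuationSubring (modularFunctionFieldFullC (K0 A) N)}
    (hV : ∀ a : K0 A, algebraMap (K0 A) (modularFunctionFieldFullC (K0 A) N) a ∈ V ↔ a ∈ R0 A)
    (hj : IsGaussAt (R0 A) V (jK0 A N)) :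
    ∃ g : Fin (dedekindPsi M') → modularFunctionFieldFullC (K0 A) N,
      IsOrthoFamily (baseJK0 A N) V.toSubring (vrad V) g := by
  have h1 := comap_inclC_eq A hq hA hqM hM' (over_Rw1K0 A hq hA) (isGaussAt_Rw1K0 A)
  have h3 := comap_inclC_eq A hq hA hqM hM' hV hj
  obtain ⟨g, hg⟩ := exists_leg1 A M'
  have hf : finrank (ResidueField (R0 A))⟮(redDataK0 A M').red
      ⟨jK0 A M', (isGaussChart_jK0 A M').1⟩⟯ (FresK0 A M') = dedekindPsi M' :=
    f1K0_eq_psi A M' hq hA hqM _
  have hg' : IsOrthoFamily (baseJ (K := K0 A)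
      ((RwK0 A N).comap (inclC (K0 A) hM' : modularFunctionFieldFullC (K0 A) M' →+*
        modularFunctionFieldFullC (K0 A) N)) (jK0 A M'))
      (V.comap (inclC (K0 A) hM' : modularFunctionFieldFullC (K0 A) M' →+*
        modularFunctionFieldFullC (K0 A) N)).toSubring
      (vrad (V.comap (inclC (K0 A) hM' : modularFunctionFieldFullC (K0 A) M' →+*
        modularFunctionFieldFullC (K0 A) N))) g := by
    rw [h1, h3]
    exact hg
  have h4 := isOrthoFamily_baseJ_map (inclC (K0 A) hM') (jK0 A M') (RwK0 A N) V hg'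
  have h5 := isOrthoFamily_chart A (inclC_jK0 A hM') h4
  refine ⟨fun i => inclC (K0 A) hM' (g (Fin.cast hf.symm i)), ?_⟩
  exact IsOrthoFamily.comp h5 (Fin.cast_injective hf.symm)

include hq hA hqM hM' in
/-- **the third leg** (`N = M' q²`): an orthonormal family of size `ψ(M')` at `w₃` over the Gauss
valuation subring of `K₀(j)`. -/
theorem exists_leg3 :
    ∃ g₃ : Fin (dedekindPsi M') → modularFunctionFieldFullC (K0 A) N,
      IsOrthoFamily (baseJK0 A N) (Rw3K0 A N q).toSubring (vrad (Rw3K0 A N q)) g₃ :=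
  exists_leg_of_isGaussAt A hq hA hqM hM'
    (algebraMap_mem_RwCuspK0_iff A N (cusp3 N q)) (isGaussAt_Rw3K0' A)

end Concrete

end Fermat.Agent.GL.Val.LegW3Down
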