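/-
GATE-L / **L1e IS A THEOREM** (helper75).

`A | q` a valuation subring of `ℚ̄`, `K₀ = ℚ̄^{I_A}`, `R₀ = A ∩ K₀`, `N = M' q²`, `q ∤ M'`,
`F₀ = K₀(X₀(N))`.  The three valuation subrings `w₁ = RwK0 A N`, `w₂ = (redData2QK0 A N h).Rw`,
`w₃ = Rw3K0 A N q` are ALL the valuation subrings of `F₀` over `R₀` which are Gauss at `j`
(equivalently: which induce the Gauss valuation subring on `K₀(j)`), and `w₁ ∩ w₂ ∩ w₃` is the
integral closure of the Gauss valuation subring of `K₀(j)` in `F₀`.  No hypothesis left: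
legs `w₁`, `w₂` = helper45 `LegsK0`, leg `w₃` = `LegW3Down.exists_leg3`.

Both charts are provided: helper45's `OrthK0.jK0 A N` (`…`) and helper90's `jC N (K0 A)` (`…_jC`).
-/
import Fermat.Agent.GL.Val.LegW3Down
import Fermat.Agent.GL.Val.L1eJC

set_option autoImplicit false

noncomputable section

namespace Fermat.Agent.GL.Val.L1eThm

open HahnSeries ModularCurve IsLocalRing IntermediateField Module Polynomial
open Fermat.Agent.GJ.J1 Fermat.Agent.GJ.J1.Val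
open Fermat.Agent.GK.AL Fermat.Agent.GL.AL Fermat.Agent.GK.MultiVal
open Fermat.Agent.GL.Val.GaussK0 Fermat.Agent.GL.Val.SecondK0 Fermat.Agent.GL.Val.SecondK0Hall
open Fermat.Agent.GL.Val.OrthK0 Fermat.Agent.GL.Val.ThirdK0 Fermat.Agent.GL.W3
open Fermat.Agent.GL.Val.DegBase
open Fermat.Agent.GL.MultiVal Fermat.Agent.GL.MultiVal.GaussBaseJ Fermat.Agent.GL.GaussAt
open Fermat.Agent.GL.Val.L1eAsmK0 Fermat.Agent.GL.Val.L1eFinal Fermat.Agent.GL.Val.LegsK0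
open Fermat.Agent.GL.Val.LegW3Down
open Fermat.Agent.Common_helper32

variable (A : ValuationSubring Qb) {N : ℕ} [NeZero N] {q M' : ℕ} [NeZero M']
  (hq : q.Prime) (hN : N = M' * q ^ 2) (hqM : ¬ q ∣ M')
  (hA : A.LiesOverPrime q) (h : HallDvd (q ^ 2) N)

include hq hN hqM hA in
/-- **L1e**: every valuation subring of `K₀(X₀(N))` inducing the Gauss valuation subring on
`K₀(j)` is `w₁`, `w₂` or `w₃`. -/
theorem exists_eq {V : ValuationSubring (modularFunctionFieldFullC (K0 A) N)}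
    (hV : ∀ a : (K0 A)⟮jK0 A N⟯,
      algebraMap (K0 A)⟮jK0 A N⟯ (modularFunctionFieldFullC (K0 A) N) a ∈ V ↔ a ∈ baseJK0 A N) :
    V = RwK0 A N ∨ V = (redData2QK0 A N h).Rw ∨ V = Rw3K0 A N q := by
  have hM' : M' ∣ N := ⟨q ^ 2, hN⟩
  have hq2 : q ^ 2 * 1 ∣ N := by rw [mul_one, hN]; exact dvd_mul_left _ _
  have : NeZero (q ^ 2 * 1) := ⟨by rw [mul_one]; exact pow_ne_zero 2 hq.ne_zero⟩
  obtain ⟨g₃, hg₃⟩ := exists_leg3 (N := N) A hq hA hqM hM'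
  obtain ⟨i, hi⟩ := exists_eq_of_leg3 A hq hN hqM hA h (one_dvd M') hq2 (one_dvd N) hg₃ le_rfl hV
  fin_cases i
  · exact Or.inl hi
  · exact Or.inr (Or.inl hi)
  · exact Or.inr (Or.inr hi)

include hq hN hqM hA in
/-- **L1e, Gauss form**: every valuation subring of `K₀(X₀(N))` over `R₀` which is Gauss at `j` is
`w₁`, `w₂` or `w₃`. -/
theorem exists_eq_of_isGaussAt {V : ValuationSubring (modularFunctionFieldFullC (K0 A) N)}
    (hV : ∀ a : K0 A, algebraMap (K0 A) (modularFunctionFieldFullC (K0 A) N) a ∈ V ↔ a ∈ R0 A)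
    (hj : IsGaussAt (R0 A) V (jK0 A N)) :
    V = RwK0 A N ∨ V = (redData2QK0 A N h).Rw ∨ V = Rw3K0 A N q :=
  exists_eq A hq hN hqM hA h
    (over_baseJ (over_Rw1K0 A hq hA) hV (isGaussAt_Rw1K0 A) hj)

include hq hN hqM hA in
/-- **`w₁ ∩ w₂ ∩ w₃` is the integral closure of the Gauss valuation subring of `K₀(j)`**. -/
theorem mem_ball_iff {x : modularFunctionFieldFullC (K0 A) N} :
    (x ∈ RwK0 A N ∧ x ∈ (redData2QK0 A N h).Rw ∧ x ∈ Rw3K0 A N q) ↔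
      ∃ p : (K0 A)⟮jK0 A N⟯[X], p.Monic ∧ (∀ n, p.coeff n ∈ baseJK0 A N) ∧ aeval x p = 0 := by
  have hM' : M' ∣ N := ⟨q ^ 2, hN⟩
  have hq2 : q ^ 2 * 1 ∣ N := by rw [mul_one, hN]; exact dvd_mul_left _ _
  have : NeZero (q ^ 2 * 1) := ⟨by rw [mul_one]; exact pow_ne_zero 2 hq.ne_zero⟩
  obtain ⟨g₃, hg₃⟩ := exists_leg3 (N := N) A hq hA hqM hM'
  exact mem_ball_iff_of_leg3 A hq hN hqM hA h (one_dvd M') hq2 (one_dvd N) hg₃ le_rfl

include hq hN hqM hA h in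
/-- **the residue degree of `w₁` over `k₀(j~)` is exactly `ψ(M')`** (and that of `w₂` is
`q² ψ(M')`). -/
theorem f1_eq_psi : f1 (N := N) A = dedekindPsi M' ∧ f2 A h = q ^ 2 * dedekindPsi M' := by
  have hM' : M' ∣ N := ⟨q ^ 2, hN⟩
  have hq2 : q ^ 2 * 1 ∣ N := by rw [mul_one, hN]; exact dvd_mul_left _ _
  have : NeZero (q ^ 2 * 1) := ⟨by rw [mul_one]; exact pow_ne_zero 2 hq.ne_zero⟩
  obtain ⟨g₃, hg₃⟩ := exists_leg3 (N := N) A hq hA hqM hM'
  have h1 := (f1_eq_psi_of_leg3 A hq hN hqM hA h (one_dvd M') hq2 (one_dvd N) hg₃ le_rfl).1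
  exact ⟨h1, by rw [f2_eq A hq hA h, h1]⟩

/-! ### The same in helper90's chart `jC N (K0 A)` -/

include hq hN hqM hA in
theorem exists_eq_chart {t : modularFunctionFieldFullC (K0 A) N} (ht : jK0 A N = t)
    {V : ValuationSubring (modularFunctionFieldFullC (K0 A) N)}
    (hV : ∀ a : (K0 A)⟮t⟯, algebraMap (K0 A)⟮t⟯ (modularFunctionFieldFullC (K0 A) N) a ∈ V ↔
      a ∈ baseJ (K := K0 A) (RwK0 A N) t) :
    V = RwK0 A N ∨ V = (redData2QK0 A N h).Rw ∨ V = Rw3K0 A N q := by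
  subst ht
  exact exists_eq A hq hN hqM hA h hV

include hq hN hqM hA in
theorem mem_ball_iff_chart {t : modularFunctionFieldFullC (K0 A) N} (ht : jK0 A N = t)
    {x : modularFunctionFieldFullC (K0 A) N} :
    (x ∈ RwK0 A N ∧ x ∈ (redData2QK0 A N h).Rw ∧ x ∈ Rw3K0 A N q) ↔
      ∃ p : (K0 A)⟮t⟯[X], p.Monic ∧ (∀ n, p.coeff n ∈ baseJ (K := K0 A) (RwK0 A N) t) ∧
        aeval x p = 0 := by
  subst ht
  exact mem_ball_iff A hq hN hqM hA h

include hq hN hqM hA in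
/-- **L1e over helper90's base `GaussAtK0.baseJK0 A N`**. -/
theorem exists_eq_jC {V : ValuationSubring (modularFunctionFieldFullC (K0 A) N)}
    (hV : ∀ a : (K0 A)⟮GaussAtK0.jK0 A N⟯,
      algebraMap (K0 A)⟮GaussAtK0.jK0 A N⟯ (modularFunctionFieldFullC (K0 A) N) a ∈ V ↔
        a ∈ GaussAtK0.baseJK0 A N) :
    V = RwK0 A N ∨ V = (redData2QK0 A N h).Rw ∨ V = Rw3K0 A N q :=
  exists_eq_chart A hq hN hqM hA h (jK0_eq_jC A N) hV

include hq hN hqM hA in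
/-- **L1e, Gauss form, chart `jC`**. -/
theorem exists_eq_of_isGaussAt_jC {V : ValuationSubring (modularFunctionFieldFullC (K0 A) N)}
    (hV : ∀ a : K0 A, algebraMap (K0 A) (modularFunctionFieldFullC (K0 A) N) a ∈ V ↔ a ∈ R0 A)
    (hj : IsGaussAt (R0 A) V (jC N (K0 A))) :
    V = RwK0 A N ∨ V = (redData2QK0 A N h).Rw ∨ V = Rw3K0 A N q := by
  rw [← jK0_eq_jC A N] at hj
  exact exists_eq_of_isGaussAt A hq hN hqM hA h hV hj

include hq hN hqM hA in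
/-- **`w₁ ∩ w₂ ∩ w₃` = integral closure of helper90's `baseJK0`**. -/
theorem mem_ball_iff_jC {x : modularFunctionFieldFullC (K0 A) N} :
    (x ∈ RwK0 A N ∧ x ∈ (redData2QK0 A N h).Rw ∧ x ∈ Rw3K0 A N q) ↔
      ∃ p : (K0 A)⟮GaussAtK0.jK0 A N⟯[X], p.Monic ∧
        (∀ n, p.coeff n ∈ GaussAtK0.baseJK0 A N) ∧ aeval x p = 0 :=
  mem_ball_iff_chart A hq hN hqM hA h (jK0_eq_jC A N)

end Fermat.Agent.GL.Val.L1eThm
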