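/-
GATE-L / L1e-w3 REDUCTION over `K₀` (helper26): the cusp valuation `w_c` of `K₀(X₀(N))` as a J1
REDUCTION DATUM over the unramified base `R = A ∩ K₀`.

`RwCuspK0 A N c` (file `CuspK0`) is the valuation ring induced on `K₀(X₀(N))` by helper18's cusp
valuation ring `(redDataCusp N A c).Rw` of `F_N = ℚ̄(X₀(N))`.  Its reduction map is the restriction
of helper18's `red_c`, with the coefficients moved from `k = k(A)` to `k₀ = k(R)` along helper45's
isomorphism `resEquivK0 : k₀ ≃ k`:

* `redCuspK0Hom A N c hq hA : RwCuspK0 A N c →+* k₀((t))`;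
* `FresCuspK0 A N c hq hA : IntermediateField k₀ k₀((t))`, its range (same shape as helper45's
  `FresK0`);
* **`redDataCuspK0 A N c hq hA : RedData K₀ (K₀(X₀(N))) k₀ (FresCuspK0 …)`** with
  `.Rw = RwCuspK0 A N c`, `.A = R0 A`, `.res = residue`;
* `coeffMap_resMapK0_coe_red` : `(k₀ → k)_* (red x) = red_c (toFN0 x)` — every `ℚ̄`-level reduction
  formula (helper18 `W3Table`/`W3Old`, helper93 `ThirdVal*`) transports verbatim;
* `isGaussChart_redDataCuspK0` : `j` is a Gauss chart;
* `hs/hker` in the shape of helper66's `exists_normalised`;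
* instance `redData3K0` at helper93's `cusp3` (`.Rw = Rw3K0 A N q` by `rfl`).
-/
import Fermat.Agent.GL.Val.CuspK0Gauss
import Fermat.Agent.GL.Val.ThirdK0
import Fermat.Agent.GL.Frame.GaussAtRedData
import Fermat.Agent.GJ.J1.ResidueAlgClosed

set_option autoImplicit false

noncomputable section

namespace Fermat.Agent.GL.Val.CuspK0

open HahnSeries ModularCurve IsLocalRing
open Fermat.Agent.S24 Fermat.Agent.S28 Fermat.Agent.S28.CuspExp Fermat.Agent.S28.Assemble
open Fermat.Agent.S24_helper62 Fermat.Agent.S24.Degree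
open Fermat.Agent.GJ.J1 Fermat.Agent.GJ.J1.Val Fermat.Agent.GK.Val
open Fermat.Agent.GK.Val.BaseChange Fermat.Agent.GK.Val.GaussBase
open Fermat.Agent.GL.GaussAt Fermat.Agent.GL.GaussAtRedData
open Fermat.Agent.GL.CuspVal Fermat.Agent.GL.Val.CuspCoeff Fermat.Agent.GL.Val.GaussK0
open Fermat.Agent.GL.Local.InertiaField Fermat.Agent.GL.MultiVal
open Fermat.Agent.Common_helper32

section Red

variable (A : ValuationSubring Qb) (N : ℕ) [NeZero N] (c : I0 N) {q : ℕ} (hq : q.Prime)
  (hA : (q : Qb) ∈ A.nonunits)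

/-- the restriction of `toFN0` to the valuation rings of `w_c` -/
def toRwCusp : RwCuspK0 A N c →+* (redDataCusp N A c).Rw :=
  ((toFN0 A N).comp (RwCuspK0 A N c).subtype).codRestrict (redDataCusp N A c).Rw (fun x => x.2)

@[simp] theorem coe_toRwCusp (x : RwCuspK0 A N c) :
    ((toRwCusp A N c x : (redDataCusp N A c).Rw) : FN N) = toFN0 A N (x : _) := rfl

/-- the reduction at the cusp `c` of the `K₀`-rational functions, with values in `k((t))` -/
def redCuspBarK0 : RwCuspK0 A N c →+* LaurentSeries (ResidueField A) :=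
  ((FresCusp N A c).val : FresCusp N A c →+* LaurentSeries (ResidueField A)).comp
    ((redDataCusp N A c).red.comp (toRwCusp A N c))

theorem redCuspBarK0_apply (x : RwCuspK0 A N c) :
    redCuspBarK0 A N c x =
      (((redDataCusp N A c).red ⟨toFN0 A N (x : _), x.2⟩ : FresCusp N A c) :
        LaurentSeries (ResidueField A)) := rfl

/-- the same with the coefficients in `k₀ = k(R)` -/
def redCuspK0Hom : RwCuspK0 A N c →+* LaurentSeries (ResidueField (R0 A)) :=
  (coeffMap ((resEquivK0 A hq hA).symm : ResidueField A →+* ResidueField (R0 A))).comp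
    (redCuspBarK0 A N c)

theorem redCuspK0Hom_apply (x : RwCuspK0 A N c) :
    redCuspK0Hom A N c hq hA x =
      coeffMap ((resEquivK0 A hq hA).symm : ResidueField A →+* ResidueField (R0 A))
        (((redDataCusp N A c).red ⟨toFN0 A N (x : _), x.2⟩ : FresCusp N A c) :
          LaurentSeries (ResidueField A)) := rfl

/-- going back to `k((t))` -/
theorem coeffMap_resMapK0_redCuspK0Hom (x : RwCuspK0 A N c) :
    coeffMap (resMapK0 A) (redCuspK0Hom A N c hq hA x) = redCuspBarK0 A N c x := by
  rw [redCuspK0Hom, RingHom.comp_apply, coeffMap_coeffMap]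
  have h : (resMapK0 A).comp
      ((resEquivK0 A hq hA).symm : ResidueField A →+* ResidueField (R0 A)) =
        RingHom.id _ := by
    ext y
    exact (resEquivK0 A hq hA).apply_symm_apply y
  rw [h, coeffMap_id]

theorem coeffMap_resEquivK0_symm_injective :
    Function.Injective
      (coeffMap ((resEquivK0 A hq hA).symm : ResidueField A →+* ResidueField (R0 A))) :=
  coeffMap_injective _ (resEquivK0 A hq hA).symm.injective

/-- the kernel of the reduction is the maximal ideal -/
theorem redCuspK0Hom_eq_zero_iff (x : RwCuspK0 A N c) :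
    redCuspK0Hom A N c hq hA x = 0 ↔ x ∈ maximalIdeal (RwCuspK0 A N c) := by
  rw [redCuspK0Hom_apply, map_eq_zero_iff _ (coeffMap_resEquivK0_symm_injective A hq hA),
    ZeroMemClass.coe_eq_zero, (redDataCusp N A c).red_eq_zero_iff]
  have h := valuation_comap_lt_iff (redDataCusp N A c).Rw (toFN0 A N) (x : _) 1
  rw [map_one, map_one, map_one] at h
  have h1 := ValuationSubring.valuation_lt_one_iff (redDataCusp N A c).Rw
    (⟨toFN0 A N (x : _), x.2⟩ : (redDataCusp N A c).Rw)
  have h2 := ValuationSubring.valuation_lt_one_iff (RwCuspK0 A N c) x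
  exact h1.trans (h.symm.trans h2.symm)

/-- constants reduce to constants -/
theorem redCuspK0Hom_algebraMap (a : R0 A)
    (h : algebraMap (K0 A) (modularFunctionFieldFullC (K0 A) N) (a : K0 A) ∈ RwCuspK0 A N c) :
    redCuspK0Hom A N c hq hA ⟨_, h⟩ =
      algebraMap (ResidueField (R0 A)) (LaurentSeries (ResidueField (R0 A)))
        (residue (R0 A) a) := by
  rw [redCuspK0Hom_apply]
  have ha : ι0 A (a : K0 A) ∈ A := a.2
  have h1 : (⟨toFN0 A N (algebraMap (K0 A) (modularFunctionFieldFullC (K0 A) N) (a : K0 A)),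
      h⟩ : (redDataCusp N A c).Rw) =
      ⟨algebraMap Kbar (FN N) (ι0 A (a : K0 A)),
        ((redDataCusp N A c).mem_A_iff _).1 ha⟩ :=
    Subtype.ext (toFN_algebraMap N (ι0 A) (a : K0 A))
  rw [h1, (redDataCusp N A c).red_algebraMap ⟨ι0 A (a : K0 A), ha⟩]
  show coeffMap _ (algebraMap (ResidueField A) (LaurentSeries (ResidueField A)) _) = _
  rw [algebraMap_laurentSeries_eq_single, algebraMap_laurentSeries_eq_single, coeffMap_single]
  congr 1
  show (resEquivK0 A hq hA).symm (residue A ⟨ι0 A (a : K0 A), ha⟩) = residue (R0 A) a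
  rw [RingEquiv.symm_apply_eq]
  show _ = resMapK0 A (residue (R0 A) a)
  rw [resMapK0, resMap_residue]
  rfl

/-- **the residue field of `w_c` on `K₀(X₀(N))`**, inside `k₀((t))` -/
def FresCuspK0 : IntermediateField (ResidueField (R0 A)) (LaurentSeries (ResidueField (R0 A))) where
  carrier := Set.range (redCuspK0Hom A N c hq hA)
  mul_mem' := by
    rintro _ _ ⟨x, rfl⟩ ⟨y, rfl⟩
    exact ⟨x * y, map_mul _ _ _⟩
  one_mem' := ⟨1, map_one _⟩
  add_mem' := by
    rintro _ _ ⟨x, rfl⟩ ⟨y, rfl⟩
    exact ⟨x + y, map_add _ _ _⟩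
  zero_mem' := ⟨0, map_zero _⟩
  algebraMap_mem' := by
    intro r
    obtain ⟨a, rfl⟩ := residue_surjective r
    exact ⟨⟨_, (algebraMap_mem_RwCuspK0_iff A N c (a : K0 A)).2 a.2⟩,
      redCuspK0Hom_algebraMap A N c hq hA a _⟩
  inv_mem' := by
    rintro _ ⟨x, rfl⟩
    by_cases hx : redCuspK0Hom A N c hq hA x = 0
    · rw [hx, inv_zero]
      exact ⟨0, map_zero _⟩
    · have hxu : IsUnit x := by
        by_contra hnu
        exact hx ((redCuspK0Hom_eq_zero_iff A N c hq hA x).2 ((mem_maximalIdeal x).2 hnu))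
      obtain ⟨u, rfl⟩ := hxu
      refine ⟨((u⁻¹ : (RwCuspK0 A N c)ˣ) : RwCuspK0 A N c), ?_⟩
      symm
      apply inv_eq_of_mul_eq_one_right
      rw [← map_mul, Units.mul_inv, map_one]

theorem mem_FresCuspK0_iff (y : LaurentSeries (ResidueField (R0 A))) :
    y ∈ FresCuspK0 A N c hq hA ↔ ∃ x : RwCuspK0 A N c, redCuspK0Hom A N c hq hA x = y := Iff.rfl

set_option synthInstance.maxHeartbeats 400000 in
/-- instance shortcut (the generic search is slow over `k(R0 A)`) -/
instance instAlgebraFresCuspK0 :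
    Algebra (ResidueField (R0 A)) (FresCuspK0 A N c hq hA) := inferInstance

/-- **`w_c` on `K₀(X₀(N))` as a J1 reduction datum over `R = A ∩ K₀`** -/
abbrev redDataCuspK0 : RedData (K0 A) (modularFunctionFieldFullC (K0 A) N) (ResidueField (R0 A))
    (FresCuspK0 A N c hq hA) where
  Rw := RwCuspK0 A N c
  A := R0 A
  mem_A_iff := fun a => (algebraMap_mem_RwCuspK0_iff A N c a).symm
  red := (redCuspK0Hom A N c hq hA).codRestrict (FresCuspK0 A N c hq hA) (fun x => ⟨x, rfl⟩)
  red_surjective := by
    rintro ⟨y, x, rfl⟩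
    exact ⟨x, rfl⟩
  red_eq_zero_iff := fun x => by
    rw [← redCuspK0Hom_eq_zero_iff A N c hq hA x]
    constructor
    · intro h
      exact congrArg (fun z : FresCuspK0 A N c hq hA =>
        (z : LaurentSeries (ResidueField (R0 A)))) h
    · intro h
      exact Subtype.ext h
  res := residue (R0 A)
  res_surjective := residue_surjective
  red_algebraMap := fun a => Subtype.ext (redCuspK0Hom_algebraMap A N c hq hA a _)

@[simp] theorem redDataCuspK0_Rw : (redDataCuspK0 A N c hq hA).Rw = RwCuspK0 A N c := rfl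

@[simp] theorem redDataCuspK0_A : (redDataCuspK0 A N c hq hA).A = R0 A := rfl

@[simp] theorem redDataCuspK0_res : (redDataCuspK0 A N c hq hA).res = residue (R0 A) := rfl

theorem coe_red_redDataCuspK0 (x : RwCuspK0 A N c) :
    (((redDataCuspK0 A N c hq hA).red x : FresCuspK0 A N c hq hA) :
      LaurentSeries (ResidueField (R0 A))) = redCuspK0Hom A N c hq hA x := rfl

/-- **compatibility with helper18's reduction over `ℚ̄`** :
`(k₀ → k)_* (red x) = red_c (toFN0 x)` -/
theorem coeffMap_resMapK0_coe_red (x : modularFunctionFieldFullC (K0 A) N)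
    (hx : x ∈ RwCuspK0 A N c) (hx' : toFN0 A N x ∈ (redDataCusp N A c).Rw) :
    coeffMap (resMapK0 A)
      (((redDataCuspK0 A N c hq hA).red ⟨x, hx⟩ : FresCuspK0 A N c hq hA) :
        LaurentSeries (ResidueField (R0 A))) =
      (((redDataCusp N A c).red ⟨toFN0 A N x, hx'⟩ : FresCusp N A c) :
        LaurentSeries (ResidueField A)) := by
  rw [coe_red_redDataCuspK0, coeffMap_resMapK0_redCuspK0Hom]
  rfl

/-- **transport of a reduction formula** from `F_N` to `K₀(X₀(N))`: if `toFN0 x = f` and
`red_c f = (k₀ → k)_* y` then `red x = y` -/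
theorem coe_red_redDataCuspK0_of_eq {x : modularFunctionFieldFullC (K0 A) N}
    (hx : x ∈ RwCuspK0 A N c) {f : FN N} (hxf : toFN0 A N x = f)
    (hf : f ∈ (redDataCusp N A c).Rw) {y : LaurentSeries (ResidueField (R0 A))}
    (hy : (((redDataCusp N A c).red ⟨f, hf⟩ : FresCusp N A c) :
      LaurentSeries (ResidueField A)) = coeffMap (resMapK0 A) y) :
    (((redDataCuspK0 A N c hq hA).red ⟨x, hx⟩ : FresCuspK0 A N c hq hA) :
      LaurentSeries (ResidueField (R0 A))) = y := by
  subst hxf
  apply coeffMap_injective _ (resMapK0 A).injective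
  rw [coeffMap_resMapK0_coe_red A N c hq hA x hx hf, hy]

/-- membership transports too -/
theorem mem_RwCuspK0_of_eq {x : modularFunctionFieldFullC (K0 A) N} {f : FN N}
    (hxf : toFN0 A N x = f) (hf : f ∈ (redDataCusp N A c).Rw) : x ∈ RwCuspK0 A N c := by
  subst hxf
  exact hf

/-- the residue field over `k₀` maps into helper18's residue field over `k` -/
theorem coeffMap_mem_FresCusp {y : LaurentSeries (ResidueField (R0 A))}
    (hy : y ∈ FresCuspK0 A N c hq hA) : coeffMap (resMapK0 A) y ∈ FresCusp N A c := by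
  obtain ⟨x, rfl⟩ := hy
  rw [coeffMap_resMapK0_redCuspK0Hom]
  exact Subtype.property _

/-- two `K₀`-rational functions have the same reduction at `c` iff their images in `F_N` do -/
theorem red_redDataCuspK0_eq_iff (x y : RwCuspK0 A N c) :
    (redDataCuspK0 A N c hq hA).red x = (redDataCuspK0 A N c hq hA).red y ↔
      (redDataCusp N A c).red ⟨toFN0 A N (x : _), x.2⟩ =
        (redDataCusp N A c).red ⟨toFN0 A N (y : _), y.2⟩ := by
  constructor
  · intro h
    have h1 := congrArg (fun z : FresCuspK0 A N c hq hA =>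
      coeffMap (resMapK0 A) (z : LaurentSeries (ResidueField (R0 A)))) h
    simp only at h1
    rw [coeffMap_resMapK0_coe_red A N c hq hA _ x.2 x.2,
      coeffMap_resMapK0_coe_red A N c hq hA _ y.2 y.2] at h1
    exact Subtype.ext h1
  · intro h
    apply Subtype.ext
    rw [coe_red_redDataCuspK0, coe_red_redDataCuspK0, redCuspK0Hom_apply, redCuspK0Hom_apply, h]

/-- the kernel in valuation form (the `hker` of helper66's `exists_normalised`) -/
theorem red_redDataCuspK0_eq_zero_iff (x : RwCuspK0 A N c) :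
    (redDataCuspK0 A N c hq hA).red x = 0 ↔
      (RwCuspK0 A N c).valuation (x : modularFunctionFieldFullC (K0 A) N) < 1 := by
  rw [(redDataCuspK0 A N c hq hA).red_eq_zero_iff, ValuationSubring.valuation_lt_one_iff]

/-- **`j` is a Gauss chart of `w_c` over `K₀`** -/
theorem isGaussChart_redDataCuspK0 :
    (redDataCuspK0 A N c hq hA).IsGaussChart (genC (K0 A) (R0 A) N (one_dvd N)) :=
  (Fermat.Agent.GL.GaussAtRedData.isGaussAt_iff_isGaussChart (redDataCuspK0 A N c hq hA) _).1
    (isGaussAt_RwCuspK0 A N c)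

include hq hA in
/-- the residue field `k₀` of `R = A ∩ K₀` is algebraically closed (it is the residue field of
`A`) -/
theorem isAlgClosed_residueField_R0 : IsAlgClosed (ResidueField (R0 A)) := by
  have : IsAlgClosed (ResidueField A) :=
    Fermat.Agent.GJ.ResidueAlgClosed.isAlgClosed_residueField A
  exact IsAlgClosed.of_ringEquiv _ _ (resEquivK0 A hq hA).symm

end Red

end Fermat.Agent.GL.Val.CuspK0
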