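/-
GATE-L / L1e-w3 + L3c REDUCTION ROWS over `K₀` (helper26): the third valuation `w₃` of
`K₀(X₀(N))`, `N = M' q q`, as a J1 reduction datum `redData3K0` over `R = A ∩ K₀`, and the two
`w₃`-rows of the L3c table with `k₀`-VALUED reductions.

* `redData3K0 A N q hq hA := redDataCuspK0 A N (cusp3 N q) hq hA`, residue field `Fres3K0 ⊂ k₀((t))`,
  `.Rw = Rw3K0 A N q` (reducible);
* `coe_red3K0_alphaK0` : `red₃ (α x) = (red₁' x)(t^N)`   (`π`;  `w₃ | w₁'`, every `A` over `q`),
* `coe_red3K0_betaK0`  : `red₃ (β y) = (red₂' y)(t^N)`   (`π'`; `w₃ | w₂'`),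
  both with values in `k₀((t))` (helper67's `RowsK0W3` rows through the transport lemma of
  `CuspK0Red`);
* `fres3Old : FresK0 A (M' q) →ₐ[k₀] Fres3K0 …`, `y ↦ y(t^N)`, the COMMON residue map of the two
  rows (helper66's `j13`), with the commuting squares `red3K0_alphaK0`, `red3K0_betaK0`.
-/
import Fermat.Agent.GL.Val.CuspK0Red
import Fermat.Agent.GL.Table.RowsK0W3

set_option autoImplicit false

noncomputable section

namespace Fermat.Agent.GL.Val.ThirdK0

open HahnSeries ModularCurve IsLocalRing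
open Fermat.Agent.S24 Fermat.Agent.S28 Fermat.Agent.S28.CuspExp Fermat.Agent.S28.Assemble
open Fermat.Agent.S24_helper62 Fermat.Agent.S24.Degree
open Fermat.Agent.GJ.J1 Fermat.Agent.GJ.J1.Val Fermat.Agent.GK.Val Fermat.Agent.GK.Val.GaussBase
open Fermat.Agent.GK.Val.BaseChange
open Fermat.Agent.GL.CuspVal Fermat.Agent.GL.Val.CuspCoeff Fermat.Agent.GL.Val.GaussK0
open Fermat.Agent.GL.Val.CuspK0 Fermat.Agent.GL.W3 Fermat.Agent.GL.W3Table
open Fermat.Agent.GL.Val.SecondK0 Fermat.Agent.GL.Table.K0 Fermat.Agent.GK.AL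
open Fermat.Agent.Common_helper32

section Def

variable (A : ValuationSubring Qb) (N : ℕ) [NeZero N] (q : ℕ) (hq : q.Prime)
  (hA : (q : Qb) ∈ A.nonunits)

/-- the residue field of `w₃` on `K₀(X₀(N))`, inside `k₀((t))` -/
abbrev Fres3K0 : IntermediateField (ResidueField (R0 A)) (LaurentSeries (ResidueField (R0 A))) :=
  FresCuspK0 A N (cusp3 N q) hq hA

/-- **`w₃` on `K₀(X₀(N))` as a J1 reduction datum over `R = A ∩ K₀`** -/
abbrev redData3K0 : RedData (K0 A) (modularFunctionFieldFullC (K0 A) N) (ResidueField (R0 A))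
    (Fres3K0 A N q hq hA) :=
  redDataCuspK0 A N (cusp3 N q) hq hA

theorem redData3K0_Rw : (redData3K0 A N q hq hA).Rw = Rw3K0 A N q := rfl

end Def

section Rows

variable {q M' : ℕ} [NeZero q] [NeZero M'] (A : ValuationSubring Qb) (hq : q.Prime)
  (hqM : ¬ q ∣ M') (hA : (q : Qb) ∈ A.nonunits)

/-- **`red₃ (α x) = (red₁' x)(t^N)` with values in `k₀((t))`** -/
theorem coe_red3K0_alphaK0 (x : modularFunctionFieldFullC (K0 A) (M' * q))
    (hx : x ∈ RwK0 A (M' * q))
    (h : alphaK0 A (M' * q) q x ∈ Rw3K0 A (M' * q * q) q) :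
    (((redData3K0 A (M' * q * q) q hq hA).red ⟨alphaK0 A (M' * q) q x, h⟩ :
        Fres3K0 A (M' * q * q) q hq hA) : LaurentSeries (ResidueField (R0 A))) =
      qExpand (ResidueField (R0 A)) (M' * q * q)
        (((redDataK0 A (M' * q)).red ⟨x, hx⟩ : FresK0 A (M' * q)) :
          LaurentSeries (ResidueField (R0 A))) := by
  have h' : mapK0Bar A (M' * q * q) (alphaK0 A (M' * q) q x) ∈
      (redData3 (M' * q * q) A q).Rw := (mem_Rw3K0_iff_mapK0Bar A (M' * q * q) _).1 h
  refine coe_red_redDataCuspK0_of_eq A (M' * q * q) (cusp3 (M' * q * q) q) hq hA h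
    (mapK0Bar_eq_toFN0 A (M' * q * q) _).symm h' ?_
  rw [coeffMap_qExpand]
  exact coe_red3_alphaK0 A hq x hx h'

/-- **`red₃ (β y) = (red₂' y)(t^N)` with values in `k₀((t))`** -/
theorem coe_red3K0_betaK0 (y : modularFunctionFieldFullC (K0 A) (M' * q))
    (hy : y ∈ (redData2K0 A (M' * q) (exactDvd_level hq hqM)).Rw)
    (h : betaK0 A (M' * q) q y ∈ Rw3K0 A (M' * q * q) q) :
    (((redData3K0 A (M' * q * q) q hq hA).red ⟨betaK0 A (M' * q) q y, h⟩ :
        Fres3K0 A (M' * q * q) q hq hA) : LaurentSeries (ResidueField (R0 A))) =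
      qExpand (ResidueField (R0 A)) (M' * q * q)
        (((redData2K0 A (M' * q) (exactDvd_level hq hqM)).red ⟨y, hy⟩ : FresK0 A (M' * q)) :
          LaurentSeries (ResidueField (R0 A))) := by
  have h' : mapK0Bar A (M' * q * q) (betaK0 A (M' * q) q y) ∈
      (redData3 (M' * q * q) A q).Rw := (mem_Rw3K0_iff_mapK0Bar A (M' * q * q) _).1 h
  refine coe_red_redDataCuspK0_of_eq A (M' * q * q) (cusp3 (M' * q * q) q) hq hA h
    (mapK0Bar_eq_toFN0 A (M' * q * q) _).symm h' ?_
  rw [coeffMap_qExpand]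
  exact coe_red3_betaK0 A hq hqM hA y hy h'

/-- `y(t^N) ∈ k(w₃)` for `y ∈ k(w₁')` -/
theorem qExpand_mem_Fres3K0 {y : LaurentSeries (ResidueField (R0 A))}
    (hy : y ∈ FresK0 A (M' * q)) :
    qExpand (ResidueField (R0 A)) (M' * q * q) y ∈ Fres3K0 A (M' * q * q) q hq hA := by
  obtain ⟨x, hx⟩ := (redDataK0 A (M' * q)).red_surjective ⟨y, hy⟩
  have h : alphaK0 A (M' * q) q x.1 ∈ Rw3K0 A (M' * q * q) q :=
    (alphaK0_mem_Rw3K0_iff A hq x.1).2 x.2
  have h1 := coe_red3K0_alphaK0 A hq hA x.1 x.2 h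
  have h2 : (((redDataK0 A (M' * q)).red ⟨x.1, x.2⟩ : FresK0 A (M' * q)) :
      LaurentSeries (ResidueField (R0 A))) = y := by
    have := congrArg (fun z : FresK0 A (M' * q) => (z : LaurentSeries (ResidueField (R0 A)))) hx
    exact this
  rw [h2] at h1
  rw [← h1]
  exact Subtype.property _

/-- **the common residue map `k(w₁') = k(w₂') → k(w₃)` of the two `w₃`-rows**: `y ↦ y(t^N)` -/
def fres3Old : FresK0 A (M' * q) →ₐ[ResidueField (R0 A)] Fres3K0 A (M' * q * q) q hq hA where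
  toFun y := ⟨qExpand (ResidueField (R0 A)) (M' * q * q) (y : LaurentSeries (ResidueField (R0 A))),
    qExpand_mem_Fres3K0 A hq hA y.2⟩
  map_one' := Subtype.ext (by simp)
  map_mul' x y := Subtype.ext (by simp)
  map_zero' := Subtype.ext (by simp)
  map_add' x y := Subtype.ext (by simp)
  commutes' r := Subtype.ext (by
    show qExpand (ResidueField (R0 A)) (M' * q * q)
      (algebraMap (ResidueField (R0 A)) (LaurentSeries (ResidueField (R0 A))) r) =
        algebraMap (ResidueField (R0 A)) (LaurentSeries (ResidueField (R0 A))) r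
    rw [algebraMap_laurentSeries_eq_single, qExpand_single, mul_zero])

@[simp]
theorem coe_fres3Old (y : FresK0 A (M' * q)) :
    ((fres3Old A hq hA y : Fres3K0 A (M' * q * q) q hq hA) :
      LaurentSeries (ResidueField (R0 A))) =
      qExpand (ResidueField (R0 A)) (M' * q * q) (y : LaurentSeries (ResidueField (R0 A))) := rfl

/-- **commuting square of reductions for `π` at `w₃`** -/
theorem red3K0_alphaK0 (x : RwK0 A (M' * q)) :
    (redData3K0 A (M' * q * q) q hq hA).red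
        ⟨alphaK0 A (M' * q) q x.1, (alphaK0_mem_Rw3K0_iff A hq x.1).2 x.2⟩ =
      fres3Old A hq hA ((redDataK0 A (M' * q)).red x) :=
  Subtype.ext (coe_red3K0_alphaK0 A hq hA x.1 x.2 _)

/-- **commuting square of reductions for `π'` at `w₃`** -/
theorem red3K0_betaK0 (y : (redData2K0 A (M' * q) (exactDvd_level hq hqM)).Rw) :
    (redData3K0 A (M' * q * q) q hq hA).red
        ⟨betaK0 A (M' * q) q y.1, (betaK0_mem_Rw3K0_iff A hq hqM y.1).2 y.2⟩ =
      fres3Old A hq hA ((redData2K0 A (M' * q) (exactDvd_level hq hqM)).red y) :=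
  Subtype.ext (coe_red3K0_betaK0 A hq hqM hA y.1 y.2 _)

end Rows

end Fermat.Agent.GL.Val.ThirdK0
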