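/-
GATE-L / RES over `K₀` (helper45): **the residue field of the cusp-`∞` Gauss valuation `w₁` of
`K₀(X₀(N))` over `R₀ = A ∩ K₀` is the function field `k₀(X₀(M'))` of the good level**
(`k₀` the residue field of `R₀`, `N = q^e M'`, `q ∤ M'`, `A | q`):

* `FresC_Qb_eq_FresBar`          : the two `ℚ̄`-level names of the residue field agree;
* `FresK0_eq_fullC_of_not_dvd`   : `q ∤ N` ⟹ `FresK0 A N = k₀(X₀(N))`                    (unconditional);
* `relfinrank_fullC_k0`          : `[k₀(X₀(M')) : k₀(j~)] = ψ(M')` for `q ∤ M'`           (char `q`!);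
* `FresK0_eq_fullC_of_f1_le`     : `M' ∣ N`, `q ∤ M'`, `f₁ ≤ ψ(M')` ⟹ `FresK0 A N = k₀(X₀(M'))`
                                   (level `q^e M'`: `f₁ = ψ(M')` is the L1e by-product);
* `FresK0_eq_fullC_exact`        : `q ∥ N` ⟹ `FresK0 A N = k₀(X₀(N/q))`                  (unconditional).
The second valuation `w₂ = w₁ ∘ W` has the same residue field by construction.
-/
import Fermat.Agent.GL.Val.OrthK0
import Fermat.Agent.GJ.J1.Res.FresEq
import Fermat.Agent.GJ.J1.DescDegree

set_option autoImplicit false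

noncomputable section

namespace Fermat.Agent.GL.Val.ResK0

open HahnSeries ModularCurve IsLocalRing IntermediateField
open Fermat.Agent.S24 Fermat.Agent.S24_helper62
open Fermat.Agent.GJ.J1 Fermat.Agent.GJ.J1.Val
open Fermat.Agent.GK.Val.GaussBase Fermat.Agent.GK.Val.Degrees Fermat.Agent.GK.AL
open Fermat.Agent.GL.Val.GaussK0 Fermat.Agent.GL.Val.SecondK0 Fermat.Agent.GL.Val.OrthK0
open Fermat.Agent.Common_helper32

section Generic

variable {L : Type*} [Field L] (A : ValuationSubring L)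

/-- the residue field of the Gauss valuation only depends on the function field -/
theorem Fres_congr {F F' : IntermediateField L (LaurentSeries L)} (h : F = F')
    (hGF : HasGaussFrac A F) (hGF' : HasGaussFrac A F') : Fres A F hGF = Fres A F' hGF' := by
  subst h
  rfl

end Generic

variable (A : ValuationSubring Qb) (N : ℕ) [NeZero N]

local notation "k₀" => ResidueField (R0 A)

/-- the two `ℚ̄`-level names of the residue field of `w₁` agree -/
theorem FresC_Qb_eq_FresBar : FresC Qb A N = FresBar N A :=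
  Fres_congr A (modularFunctionFieldBar_eq N).symm _ _

variable {q : ℕ} (hq : q.Prime) (hA : (q : Qb) ∈ A.nonunits)

include hq hA in
/-- **RES over `K₀` at the good level**: `q ∤ N` ⟹ the residue field of `w₁` is `k₀(X₀(N))` -/
theorem FresK0_eq_fullC_of_not_dvd (hqN : ¬ q ∣ N) :
    FresK0 A N = modularFunctionFieldFullC k₀ N := by
  have : Fact q.Prime := ⟨hq⟩
  apply le_antisymm
  · apply FresK0_le_of_FresBar_le A N hq hA N
    rw [FresC_Qb_eq_FresBar]
    exact (Fermat.Agent.GJ.J1.Res.FresBar_eq_fullC N A hqN hA).le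
  · exact fullC_le_FresC (K0 A) (R0 A) N

include hq hA in
/-- **`[k₀(X₀(M')) : k₀(j~)] = ψ(M')`** in characteristic `q ∤ M'` -/
theorem relfinrank_fullC_k0 (M' : ℕ) [NeZero M'] (hqM : ¬ q ∣ M') :
    relfinrank k₀⟮jqModC k₀⟯ (modularFunctionFieldFullC k₀ M') = dedekindPsi M' := by
  rw [← FresK0_eq_fullC_of_not_dvd A M' hq hA hqM,
    ← f1K0_eq A M' (isGaussChart_jK0 A M').1]
  exact f1K0_eq_psi A M' hq hA hqM _

include hq hA in
/-- **RES over `K₀` from the residue degree**: `M' ∣ N`, `q ∤ M'` and `f₁ ≤ ψ(M')` force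
`FresK0 A N = k₀(X₀(M'))` -/
theorem FresK0_eq_fullC_of_f1_le (M' : ℕ) [NeZero M'] (hM' : M' ∣ N) (hqM : ¬ q ∣ M')
    (h1 : jK0 A N ∈ (redDataK0 A N).Rw)
    (hf1 : Module.finrank k₀⟮(redDataK0 A N).red ⟨jK0 A N, h1⟩⟯ (FresK0 A N) ≤ dedekindPsi M') :
    FresK0 A N = modularFunctionFieldFullC k₀ M' := by
  have hle : modularFunctionFieldFullC k₀ M' ≤ FresK0 A N :=
    (full_degeneracyC_le k₀ hM').trans (fullC_le_FresC (K0 A) (R0 A) N)
  refine le_antisymm ?_ hle
  have hj : k₀⟮jqModC k₀⟯ ≤ modularFunctionFieldFullC k₀ M' := by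
    rw [adjoin_simple_le_iff]
    exact jqModC_mem_full k₀ M'
  have hmul := relfinrank_mul_relfinrank hj hle
  rw [relfinrank_fullC_k0 A hq hA M' hqM, ← f1K0_eq A N h1] at hmul
  have hψ : 0 < dedekindPsi M' := Fermat.Agent.GJ.J1.Desc.dedekindPsi_pos M'
  have hge := psi_le_f1K0 A N hq hA M' hM' hqM h1
  have hr : relfinrank (modularFunctionFieldFullC k₀ M') (FresK0 A N) = 1 := by
    have h2 : dedekindPsi M' * relfinrank (modularFunctionFieldFullC k₀ M') (FresK0 A N) =
        dedekindPsi M' * 1 := by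
      rw [hmul, mul_one]
      exact le_antisymm hf1 hge
    exact Nat.eq_of_mul_eq_mul_left hψ h2
  exact relfinrank_eq_one_iff.mp hr

variable (h : ExactDvd q N)

include h hA in
/-- **RES over `K₀` at `q ∥ N`**: the common residue field of `w₁`, `w₂` is `k₀(X₀(N/q))` -/
theorem FresK0_eq_fullC_exact : FresK0 A N = modularFunctionFieldFullC k₀ (N / q) := by
  have hNq : N / q * q = N := Nat.div_mul_cancel h.dvd
  have hpos : N / q ≠ 0 := by
    intro h0
    rw [h0, zero_mul] at hNq
    exact NeZero.ne N hNq.symm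
  have : NeZero (N / q) := ⟨hpos⟩
  have hqN' : ¬ q ∣ N / q := by
    intro hd
    apply h.not_sq
    rw [pow_two, ← hNq]
    exact mul_dvd_mul_right hd q
  exact FresK0_eq_fullC_of_f1_le A N h.prime hA (N / q) (Dvd.intro _ hNq) hqN'
    (isGaussChart_jK0 A N).1
    (degreesK0 A N h hA (isGaussChart_jK0 A N).1 (isGaussChart_jK0_2 A N h).1).1.le

end Fermat.Agent.GL.Val.ResK0
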