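/-
GATE-L / L1e tool (helper45): **transport of linear independence over a simple extension `k(x)`
along an injective homomorphism of the ambient field** — for the `f₃` leg of L1e
(`red₃ (old lift of b) = (red₁ b)(t^N)`: `k(j~)`-independent reductions stay independent over
`k(j~(t^N))` after the substitution `X ↦ X^N`) and for changes of the constant field `k₀ ≃ k`.

* `linearIndependent_map_adjoin` : `φ : Ω →ₐ[k] Ω'`, `v` independent over `k(x)` ⟹ `φ ∘ v`
  independent over `k(φ x)`;
* `linearIndependent_map_adjoin_ringHom` : the semilinear form, `σ : Ω →+* Ω'` over a SURJECTIVE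
  `τ : k →+* k'` of the constant fields;
* `linearIndependent_qExpand` : the instance `φ = qExpand κ N` on `κ((X))`;
* `RedData.exists_lifts_indep` : lifts `b i ∈ Rw` of a `k(red t)`-basis of the residue field.
-/
import Fermat.Agent.GL.Val.LegsK0

set_option autoImplicit false

noncomputable section

namespace Fermat.Agent.GL.Val.IndepMap

open Module IntermediateField ModularCurve

section Alg

variable {k Ω Ω' : Type*} [Field k] [Field Ω] [Field Ω'] [Algebra k Ω] [Algebra k Ω']

/-- every element of `k(φ x)` is the image of an element of `k(x)` -/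
theorem exists_preimage_adjoin (φ : Ω →ₐ[k] Ω') (x : Ω) (r : k⟮φ x⟯) :
    ∃ c : k⟮x⟯, φ (c : Ω) = (r : Ω') := by
  have h1 : (k⟮x⟯).map φ = k⟮φ x⟯ := by
    rw [adjoin_map, Set.image_singleton]
  have h2 : (r : Ω') ∈ (k⟮x⟯).map φ := by rw [h1]; exact r.2
  obtain ⟨c, hc, hcr⟩ := h2
  exact ⟨⟨c, hc⟩, hcr⟩

/-- **linear independence over `k(x)` is preserved by a `k`-algebra homomorphism of fields** -/
theorem linearIndependent_map_adjoin (φ : Ω →ₐ[k] Ω') (x : Ω) {M : Type*} (v : M → Ω)
    (hv : LinearIndependent k⟮x⟯ v) : LinearIndependent k⟮φ x⟯ (fun m => φ (v m)) := by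
  choose i hi using exists_preimage_adjoin φ x
  refine hv.map_of_injective_injective (R' := k⟮φ x⟯) i φ.toRingHom.toAddMonoidHom ?_ ?_ ?_
  · intro r hr
    apply Subtype.ext
    have := hi r
    rw [hr] at this
    simpa using this.symm
  · intro m hm
    exact (map_eq_zero φ).mp hm
  · intro r m
    show φ ((i r : Ω) * m) = (r : Ω') * φ m
    rw [map_mul, hi r]

end Alg

section Ring

variable {k k' Ω Ω' : Type*} [Field k] [Field k'] [Field Ω] [Field Ω'] [Algebra k Ω]
  [Algebra k' Ω']

/-- the semilinear form of `exists_preimage_adjoin` -/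
theorem exists_preimage_adjoin_ringHom (τ : k →+* k') (hτ : Function.Surjective τ)
    (σ : Ω →+* Ω') (hσ : ∀ a : k, σ (algebraMap k Ω a) = algebraMap k' Ω' (τ a)) (x : Ω)
    (r : k'⟮σ x⟯) : ∃ c : k⟮x⟯, σ (c : Ω) = (r : Ω') := by
  obtain ⟨p, s, hps⟩ := (mem_adjoin_simple_iff k' (r : Ω')).mp r.2
  have hlift : ∀ p : Polynomial k', ∃ p0 : Polynomial k, p0.map τ = p := fun p =>
    Polynomial.map_surjective τ hτ p
  obtain ⟨p0, rfl⟩ := hlift p
  obtain ⟨s0, rfl⟩ := hlift s
  have hev : ∀ p0 : Polynomial k,
      Polynomial.aeval (σ x) (p0.map τ) = σ (Polynomial.aeval x p0) := by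
    intro p0
    rw [Polynomial.aeval_def, Polynomial.aeval_def, Polynomial.eval₂_map, Polynomial.hom_eval₂]
    congr 1
    ext a
    exact (hσ a).symm
  refine ⟨⟨Polynomial.aeval x p0 / Polynomial.aeval x s0, ?_⟩, ?_⟩
  · exact (mem_adjoin_simple_iff k _).mpr ⟨p0, s0, rfl⟩
  · show σ (Polynomial.aeval x p0 / Polynomial.aeval x s0) = (r : Ω')
    rw [map_div₀, ← hev, ← hev, hps]

/-- **linear independence over `k(x)` is preserved by a ring homomorphism of fields which is
semilinear over a surjection of the constant fields** -/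
theorem linearIndependent_map_adjoin_ringHom (τ : k →+* k') (hτ : Function.Surjective τ)
    (σ : Ω →+* Ω') (hσ : ∀ a : k, σ (algebraMap k Ω a) = algebraMap k' Ω' (τ a)) (x : Ω)
    {M : Type*} (v : M → Ω) (hv : LinearIndependent k⟮x⟯ v) :
    LinearIndependent k'⟮σ x⟯ (fun m => σ (v m)) := by
  choose i hi using exists_preimage_adjoin_ringHom τ hτ σ hσ x
  refine hv.map_of_injective_injective (R' := k'⟮σ x⟯) i σ.toAddMonoidHom ?_ ?_ ?_
  · intro r hr
    apply Subtype.ext
    have := hi r
    rw [hr] at this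
    simpa using this.symm
  · intro m hm
    exact (map_eq_zero σ).mp hm
  · intro r m
    show σ ((i r : Ω) * m) = (r : Ω') * σ m
    rw [map_mul, hi r]

end Ring

/-- **the substitution `X ↦ X^N` preserves independence**: `κ(x)`-independent Laurent series
become `κ(x(X^N))`-independent -/
theorem linearIndependent_qExpand (κ : Type*) [Field κ] (N : ℕ) [NeZero N] (x : LaurentSeries κ)
    {M : Type*} (v : M → LaurentSeries κ) (hv : LinearIndependent κ⟮x⟯ v) :
    LinearIndependent κ⟮qExpand κ N x⟯ (fun m => qExpand κ N (v m)) :=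
  linearIndependent_map_adjoin (qExpandAlgHomC κ N) x v hv

/-- the coefficientwise change of the constant field preserves independence -/
theorem linearIndependent_coeffMap {κ κ' : Type*} [Field κ] [Field κ'] (τ : κ →+* κ')
    (hτ : Function.Surjective τ) (x : LaurentSeries κ) {M : Type*} (v : M → LaurentSeries κ)
    (hv : LinearIndependent κ⟮x⟯ v) :
    LinearIndependent κ'⟮coeffMap τ x⟯ (fun m => coeffMap τ (v m)) := by
  refine linearIndependent_map_adjoin_ringHom τ hτ (coeffMap τ) (fun a => ?_) x v hv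
  rw [algebraMap_laurentSeries_eq_single, algebraMap_laurentSeries_eq_single, coeffMap_single]

section Lifts

open Fermat.Agent.GJ.J1

variable {K F k Ft : Type*} [Field K] [Field F] [Algebra K F] [Field k] [Field Ft] [Algebra k Ft]

/-- lifts `b i ∈ Rw` of a `k(red t)`-basis of the residue field of a reduction datum -/
theorem exists_lifts_indep (R : RedData K F k Ft) {t : F} (ht : R.IsGaussChart t)
    [FiniteDimensional k⟮R.red ⟨t, ht.1⟩⟯ Ft] :
    ∃ b : Fin (finrank k⟮R.red ⟨t, ht.1⟩⟯ Ft) → R.Rw,
      LinearIndependent k⟮R.red ⟨t, ht.1⟩⟯ (fun i => R.red (b i)) := by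
  let β := Module.finBasis k⟮R.red ⟨t, ht.1⟩⟯ Ft
  choose b hb using fun i => R.red_surjective (β i)
  refine ⟨b, ?_⟩
  have h1 : (fun i => R.red (b i)) = β := funext hb
  rw [h1]
  exact β.linearIndependent

end Lifts

end Fermat.Agent.GL.Val.IndepMap
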