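/-
GATE-L / L1e THIRD LEG over `K₀` (helper45).  Level `N = M' q q` (literal), `q ∤ M'`, `A | q`,
`k₀` the residue field of `R₀ = A ∩ K₀`, `w₃` the third valuation (`redData3K0`, helper26).

* `finrank_adjoin_le_of_algHom`, `surjective_of_finrank_adjoin_le` : generic degree comparison
  along a `k`-embedding of fields `φ : Ω → Ω'` (`[Ω : k(x)] ≤ [Ω' : k(φ x)]`, equality ⟹ onto);
* `jK0_top`            : the chart `j` of level `M' q q` is `α` of the chart of level `M' q`;
* `isGaussChart_jK0_3` : `j` is a Gauss chart of `w₃`;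
* `red3_jK0`           : `red₃ j = fres3Old (red₁' j')`   (`= j~(t^N)`);
* `f1K0_mid_eq_psi`    : `[k(w₁') : k₀(j~)] = ψ(M')` at level `M' q`;
* `finiteDimensional_f3K0`, `f3K0`, **`psi_le_f3K0`** : `ψ(M') ≤ f₃ := [k(w₃) : k₀(red₃ j)]`;
* `baseJ_Rw3K0`, **`exists_leg3`** : an orthonormal family of size `f₃` at `w₃` over the Gauss
  valuation subring `LegsK0.baseJK0` of `K₀(j)` — the third leg of L1e (`hg₃`, `hf₃` of helper75's
  `L1eFinal`, VERBATIM at `N := M' * q * q`).
-/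
import Fermat.Agent.GL.Val.ThirdK0Red
import Fermat.Agent.GL.Val.LegsK0
import Fermat.Agent.GL.Val.IndepMap
import Fermat.Agent.GL.Table.DegK0

set_option autoImplicit false

noncomputable section

namespace Fermat.Agent.GL.Val.ResW3K0

open HahnSeries ModularCurve IsLocalRing IntermediateField Module
open Fermat.Agent.GJ.J1 Fermat.Agent.GJ.J1.Val
open Fermat.Agent.GK.AL Fermat.Agent.GL.AL Fermat.Agent.GK.MultiVal
open Fermat.Agent.GL.Val.GaussK0 Fermat.Agent.GL.Val.SecondK0 Fermat.Agent.GL.Val.SecondK0Hall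
open Fermat.Agent.GL.Val.OrthK0 Fermat.Agent.GL.Val.ThirdK0 Fermat.Agent.GL.Val.CuspK0
open Fermat.Agent.GL.W3 Fermat.Agent.GL.W3Table Fermat.Agent.GL.Table.K0
open Fermat.Agent.GL.MultiVal.GaussBaseJ Fermat.Agent.GL.Val.LegsK0
open Fermat.Agent.Common_helper32

section Generic

variable {k Ω Ω' : Type*} [Field k] [Field Ω] [Field Ω'] [Algebra k Ω] [Algebra k Ω']

/-- a `k`-embedding of fields does not decrease the degree over `k(x)` -/
theorem finrank_adjoin_le_of_algHom (φ : Ω →ₐ[k] Ω') (x : Ω) [FiniteDimensional k⟮x⟯ Ω]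
    [FiniteDimensional k⟮φ x⟯ Ω'] : finrank k⟮x⟯ Ω ≤ finrank k⟮φ x⟯ Ω' := by
  let b := Module.finBasis k⟮x⟯ Ω
  have hind := Fermat.Agent.GL.Val.IndepMap.linearIndependent_map_adjoin φ x b
    b.linearIndependent
  have hcard := hind.fintype_card_le_finrank
  rwa [Fintype.card_fin] at hcard

/-- equality of the degrees over `k(x)`, `k(φ x)` forces surjectivity -/
theorem surjective_of_finrank_adjoin_le (φ : Ω →ₐ[k] Ω') (x : Ω) [FiniteDimensional k⟮x⟯ Ω]
    [FiniteDimensional k⟮φ x⟯ Ω'] (h : finrank k⟮φ x⟯ Ω' ≤ finrank k⟮x⟯ Ω) :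
    Function.Surjective φ := by
  let b := Module.finBasis k⟮x⟯ Ω
  have hind := Fermat.Agent.GL.Val.IndepMap.linearIndependent_map_adjoin φ x b
    b.linearIndependent
  have hspan : Submodule.span k⟮φ x⟯ (Set.range fun m => φ (b m)) = ⊤ :=
    hind.span_eq_top_of_card_eq_finrank' (by
      rw [Fintype.card_fin]
      exact le_antisymm (finrank_adjoin_le_of_algHom φ x) h)
  have hle : k⟮φ x⟯ ≤ φ.fieldRange := by
    rw [adjoin_simple_le_iff]
    exact ⟨x, rfl⟩
  let S : Submodule k⟮φ x⟯ Ω' :=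
    { carrier := Set.range φ
      add_mem' := by
        rintro _ _ ⟨a, rfl⟩ ⟨c, rfl⟩
        exact ⟨a + c, map_add _ _ _⟩
      zero_mem' := ⟨0, map_zero _⟩
      smul_mem' := by
        rintro c _ ⟨a, rfl⟩
        obtain ⟨c', hc'⟩ := hle c.2
        refine ⟨c' * a, ?_⟩
        have hc'' : φ c' = (c : Ω') := hc'
        rw [map_mul, hc'', Algebra.smul_def]
        rfl }
  have hS : Submodule.span k⟮φ x⟯ (Set.range fun m => φ (b m)) ≤ S :=
    Submodule.span_le.2 (by
      rintro _ ⟨m, rfl⟩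
      exact ⟨b m, rfl⟩)
  intro y
  have hy : y ∈ Submodule.span k⟮φ x⟯ (Set.range fun m => φ (b m)) := by
    rw [hspan]
    exact Submodule.mem_top
  exact hS hy

end Generic

variable {q M' : ℕ} [NeZero q] [NeZero M'] (A : ValuationSubring Qb) (hq : q.Prime)
  (hqM : ¬ q ∣ M') (hA : (q : Qb) ∈ A.nonunits)

local notation "k₀" => ResidueField (R0 A)

/-- the chart of level `M' q q` is the `α`-image of the chart of level `M' q` -/
theorem jK0_top : jK0 A (M' * q * q) = alphaK0 A (M' * q) q (jK0 A (M' * q)) := by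
  rw [jK0_eq_jC, jK0_eq_jC]
  exact (alphaC_jC (K0 A)).symm

/-- `j` is a Gauss chart of `w₃` -/
theorem isGaussChart_jK0_3 :
    (redData3K0 A (M' * q * q) q hq hA).IsGaussChart (jK0 A (M' * q * q)) :=
  isGaussChart_redDataCuspK0 A (M' * q * q) (cusp3 (M' * q * q) q) hq hA

/-- **`red₃ j = (red₁' j')(t^N)`** -/
theorem red3_jK0 (h3 : jK0 A (M' * q * q) ∈ (redData3K0 A (M' * q * q) q hq hA).Rw) :
    (redData3K0 A (M' * q * q) q hq hA).red ⟨jK0 A (M' * q * q), h3⟩ =
      fres3Old A hq hA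
        ((redDataK0 A (M' * q)).red ⟨jK0 A (M' * q), (isGaussChart_jK0 A (M' * q)).1⟩) := by
  have key := red3K0_alphaK0 A hq hA ⟨jK0 A (M' * q), (isGaussChart_jK0 A (M' * q)).1⟩
  refine Eq.trans ?_ key
  congr 1

/-- the residue extension of `w₃` over `k₀(red₃ j)` is finite -/
theorem finiteDimensional_f3K0 :
    FiniteDimensional
      k₀⟮(redData3K0 A (M' * q * q) q hq hA).red
        ⟨jK0 A (M' * q * q), (isGaussChart_jK0_3 A hq hA).1⟩⟯
      (Fres3K0 A (M' * q * q) q hq hA) := by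
  have := finiteDimensional_jK0 A (M' * q * q)
  exact (Fermat.Agent.GJ.S37.ResDeg.finrank_residue_le (redData3K0 A (M' * q * q) q hq hA).A
    (redData3K0 A (M' * q * q) q hq hA).Rw
    (fun a ha => ((redData3K0 A (M' * q * q) q hq hA).mem_A_iff a).1 ha)
    (redData3K0 A (M' * q * q) q hq hA).red (redData3K0 A (M' * q * q) q hq hA).res
    (redData3K0 A (M' * q * q) q hq hA).red_algebraMap
    (redData3K0 A (M' * q * q) q hq hA).red_surjective
    ⟨jK0 A (M' * q * q), (isGaussChart_jK0_3 A hq hA).1⟩ (isGaussChart_jK0_3 A hq hA).2).1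

include hq hqM hA in
/-- `[k(w₁') : k₀(j~)] = ψ(M')` at the middle level `M' q` -/
theorem f1K0_mid_eq_psi :
    finrank k₀⟮(redDataK0 A (M' * q)).red ⟨jK0 A (M' * q), (isGaussChart_jK0 A (M' * q)).1⟩⟯
      (FresK0 A (M' * q)) = dedekindPsi M' := by
  have h := (degreesK0 A (M' * q) (exactDvd_level hq hqM) hA (isGaussChart_jK0 A (M' * q)).1
    (isGaussChart_jK0_2 A (M' * q) (exactDvd_level hq hqM)).1).1
  rw [h, Nat.mul_div_cancel _ hq.pos]

/-- the third residue degree -/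
abbrev f3K0 : ℕ :=
  finrank k₀⟮(redData3K0 A (M' * q * q) q hq hA).red
      ⟨jK0 A (M' * q * q), (isGaussChart_jK0_3 A hq hA).1⟩⟯
    (Fres3K0 A (M' * q * q) q hq hA)

include hqM in
/-- **`ψ(M') ≤ f₃`**: the residue field of `w₃` contains a copy of `k₀(X₀(M'))` of degree `ψ(M')`
over `k₀(red₃ j)` -/
theorem psi_le_f3K0 : dedekindPsi M' ≤ f3K0 (M' := M') A hq hA := by
  have hfd1 := finiteDimensional_f1K0 A (M' * q)
  have hfd : FiniteDimensional
      k₀⟮fres3Old A hq hA ((redDataK0 A (M' * q)).red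
        ⟨jK0 A (M' * q), (isGaussChart_jK0 A (M' * q)).1⟩)⟯
      (Fres3K0 A (M' * q * q) q hq hA) := by
    rw [← red3_jK0 A hq hA (isGaussChart_jK0_3 A hq hA).1]
    exact finiteDimensional_f3K0 A hq hA
  have h := finrank_adjoin_le_of_algHom (fres3Old A hq hA)
    ((redDataK0 A (M' * q)).red ⟨jK0 A (M' * q), (isGaussChart_jK0 A (M' * q)).1⟩)
  rw [f1K0_mid_eq_psi A hq hqM hA] at h
  refine h.trans (le_of_eq ?_)
  show _ = finrank _ _
  rw [red3_jK0 A hq hA (isGaussChart_jK0_3 A hq hA).1]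

/-- `w₃` induces the same valuation on `K₀(j)` as `w₁` -/
theorem baseJ_Rw3K0 :
    baseJ (K := K0 A) (redData3K0 A (M' * q * q) q hq hA).Rw (jK0 A (M' * q * q)) =
      baseJK0 A (M' * q * q) :=
  baseJ_eq_of_isGaussChart (redDataK0 A (M' * q * q)) (redData3K0 A (M' * q * q) q hq hA) rfl
    (isGaussChart_jK0 A (M' * q * q)) (isGaussChart_jK0_3 A hq hA)

/-- **the third leg of L1e**: an orthonormal family of size `f₃` at `w₃` over `K₀(j)` -/
theorem exists_leg3 :
    ∃ g : Fin (f3K0 (M' := M') A hq hA) → modularFunctionFieldFullC (K0 A) (M' * q * q),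
      IsOrthoFamily (baseJK0 A (M' * q * q)) (Rw3K0 A (M' * q * q) q).toSubring
        (vrad (Rw3K0 A (M' * q * q) q)) g := by
  have := finiteDimensional_f3K0 (M' := M') A hq hA
  obtain ⟨g, hg⟩ := exists_orthoFamily_baseJ (redData3K0 A (M' * q * q) q hq hA)
    (isGaussChart_jK0_3 A hq hA)
  rw [baseJ_Rw3K0] at hg
  exact ⟨g, hg⟩

end Fermat.Agent.GL.Val.ResW3K0
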