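/-
GATE-L / RES at the top level `N = M' q q` over `K₀`, UNCONDITIONAL (helper45).
`q ∤ M'`, `A | q`, `k₀` the residue field of `R₀ = A ∩ K₀`.  L1e (helper75 `L1eFinal`, equality in
the fundamental inequality) with the third leg of `ResW3K0` gives `f₁ = f₃ = ψ(M')`, hence:

* `f3K0_eq_psi`, `f1K0_top_eq_psi` : `[k(w₃) : k₀(red₃ j)] = ψ(M')`, `[k(w₁) : k₀(j~)] = ψ(M')`;
* **`fres3Old_bijective`**, `fres3Equiv` : RES-W3, helper26's `fres3Old : k(w₁') → k(w₃)`,
  `y ↦ y(t^N)`, is an ISOMORPHISM of `k₀`-algebras;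
* **`FresK0_top_eq_fullC`** : `FresK0 A (M' q q) = k₀(X₀(M'))`  (`k(w₁) = k(w₂)` at the top level);
* `FresK0_mid_eq_fullC`     : `FresK0 A (M' q) = k₀(X₀(M'))`    (`k(w₁') = k(w₂')`);
* `FresK0_top_eq_mid`       : the two agree inside `k₀((Q))`;
* `mem_Fres3K0_iff`         : `k(w₃) = { z(t^N) : z ∈ k₀(X₀(M')) }`.
-/
import Fermat.Agent.GL.Val.ResW3K0
import Fermat.Agent.GL.Val.ResK0
import Fermat.Agent.GL.Val.L1eFinal

set_option autoImplicit false

noncomputable section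

namespace Fermat.Agent.GL.Val.ResW3Top

open HahnSeries ModularCurve IsLocalRing IntermediateField Module
open Fermat.Agent.GJ.J1 Fermat.Agent.GJ.J1.Val
open Fermat.Agent.GK.AL Fermat.Agent.GL.AL Fermat.Agent.GK.MultiVal
open Fermat.Agent.GL.Val.GaussK0 Fermat.Agent.GL.Val.SecondK0 Fermat.Agent.GL.Val.SecondK0Hall
open Fermat.Agent.GL.Val.OrthK0 Fermat.Agent.GL.Val.ThirdK0 Fermat.Agent.GL.Val.CuspK0
open Fermat.Agent.GL.W3 Fermat.Agent.GL.W3Table Fermat.Agent.GL.Table.K0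
open Fermat.Agent.GL.Val.LegsK0 Fermat.Agent.GL.Val.ResW3K0 Fermat.Agent.GL.Val.ResK0
open Fermat.Agent.Common_helper32

variable {q M' : ℕ} [NeZero q] [NeZero M'] (A : ValuationSubring Qb) (hq : q.Prime)
  (hqM : ¬ q ∣ M') (hA : (q : Qb) ∈ A.nonunits)

local notation "k₀" => ResidueField (R0 A)

omit [NeZero q] [NeZero M'] in
include hq hqM in
/-- `q²` is a Hall divisor of `M' q q` -/
theorem hallDvd_top : HallDvd (q ^ 2) (M' * q * q) where
  pos := pow_pos hq.pos 2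
  dvd := ⟨M', by ring⟩
  coprime := by
    have h1 : M' * q * q / q ^ 2 = M' := by
      rw [mul_assoc, ← pow_two]
      exact Nat.mul_div_cancel _ (pow_pos hq.pos 2)
    rw [h1]
    exact Nat.Coprime.pow_left 2 ((Nat.Prime.coprime_iff_not_dvd hq).mpr hqM)

include hqM in
/-- **`f₁ = ψ(M')` and `f₃ = ψ(M')` at the top level** -/
theorem f1_f3_eq_psi :
    finrank k₀⟮(redDataK0 A (M' * q * q)).red
        ⟨jK0 A (M' * q * q), (isGaussChart_jK0 A (M' * q * q)).1⟩⟯ (FresK0 A (M' * q * q)) =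
      dedekindPsi M' ∧ f3K0 (M' := M') A hq hA = dedekindPsi M' := by
  have hN : M' * q * q = M' * q ^ 2 := by ring
  have hq2 : q ^ 2 * 1 ∣ M' * q * q := by rw [mul_one, hN]; exact dvd_mul_left _ _
  have : NeZero (q ^ 2 * 1) := ⟨by rw [mul_one]; exact pow_ne_zero 2 hq.ne_zero⟩
  obtain ⟨g₃, hg₃⟩ := exists_leg3 (M' := M') A hq hA
  exact Fermat.Agent.GL.Val.L1eFinal.f1_eq_psi_of_leg3 A hq hN hqM hA (hallDvd_top hq hqM)
    (one_dvd M') hq2 (one_dvd _) hg₃ (psi_le_f3K0 A hq hqM hA)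

include hqM in
/-- **RES-W3**: `fres3Old : k(w₁') → k(w₃)`, `y ↦ y(t^N)`, is onto -/
theorem fres3Old_surjective : Function.Surjective (fres3Old (M' := M') A hq hA) := by
  have hfd1 := finiteDimensional_f1K0 A (M' * q)
  have hfd : FiniteDimensional
      k₀⟮fres3Old A hq hA ((redDataK0 A (M' * q)).red
        ⟨jK0 A (M' * q), (isGaussChart_jK0 A (M' * q)).1⟩)⟯
      (Fres3K0 A (M' * q * q) q hq hA) := by
    rw [← red3_jK0 A hq hA (isGaussChart_jK0_3 A hq hA).1]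
    exact finiteDimensional_f3K0 A hq hA
  refine surjective_of_finrank_adjoin_le (fres3Old A hq hA)
    ((redDataK0 A (M' * q)).red ⟨jK0 A (M' * q), (isGaussChart_jK0 A (M' * q)).1⟩) ?_
  rw [f1K0_mid_eq_psi A hq hqM hA, ← (f1_f3_eq_psi A hq hqM hA).2]
  refine le_of_eq ?_
  show finrank _ _ = finrank _ _
  rw [red3_jK0 A hq hA (isGaussChart_jK0_3 A hq hA).1]

include hqM in
/-- **RES-W3**: `fres3Old` is bijective -/
theorem fres3Old_bijective : Function.Bijective (fres3Old (M' := M') A hq hA) :=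
  ⟨(fres3Old (M' := M') A hq hA).toRingHom.injective, fres3Old_surjective A hq hqM hA⟩

/-- **RES-W3** as an isomorphism `k(w₁') ≃ k(w₃)` of `k₀`-algebras -/
def fres3Equiv (hqM : ¬ q ∣ M') :
    FresK0 A (M' * q) ≃ₐ[k₀] Fres3K0 A (M' * q * q) q hq hA :=
  AlgEquiv.ofBijective (fres3Old A hq hA) (fres3Old_bijective A hq hqM hA)

@[simp]
theorem fres3Equiv_apply (y : FresK0 A (M' * q)) :
    fres3Equiv A hq hA hqM y = fres3Old A hq hA y := rfl

include hq hqM hA in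
/-- **RES at the middle level**: `k(w₁') = k(w₂') = k₀(X₀(M'))` -/
theorem FresK0_mid_eq_fullC : FresK0 A (M' * q) = modularFunctionFieldFullC k₀ M' := by
  have h := FresK0_eq_fullC_exact A (M' * q) hA (exactDvd_level hq hqM)
  have hdiv : M' * q / q = M' := Nat.mul_div_cancel _ hq.pos
  have key : ∀ (M'' : ℕ) (hM : M'' = M') [NeZero M''],
      modularFunctionFieldFullC k₀ M'' = modularFunctionFieldFullC k₀ M' := by
    intro M'' hM _
    subst hM
    rfl
  have hne : NeZero (M' * q / q) := ⟨by rw [hdiv]; exact NeZero.ne M'⟩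
  rw [h]
  exact key _ hdiv

include hq hqM hA in
/-- **RES at the top level**: `k(w₁) = k(w₂) = k₀(X₀(M'))` -/
theorem FresK0_top_eq_fullC : FresK0 A (M' * q * q) = modularFunctionFieldFullC k₀ M' :=
  FresK0_eq_fullC_of_f1_le A (M' * q * q) hq hA M' ⟨q * q, by ring⟩ hqM
    (isGaussChart_jK0 A (M' * q * q)).1 (f1_f3_eq_psi A hq hqM hA).1.le

include hq hqM hA in
/-- the residue fields of `w₁` (level `M' q q`) and `w₁'` (level `M' q`) agree inside `k₀((Q))` -/
theorem FresK0_top_eq_mid : FresK0 A (M' * q * q) = FresK0 A (M' * q) := by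
  rw [FresK0_top_eq_fullC A hq hqM hA, FresK0_mid_eq_fullC A hq hqM hA]

include hqM in
/-- **`k(w₃) = { z(t^N) : z ∈ k₀(X₀(M')) }`** -/
theorem mem_Fres3K0_iff (y : LaurentSeries k₀) :
    y ∈ Fres3K0 A (M' * q * q) q hq hA ↔
      ∃ z ∈ modularFunctionFieldFullC k₀ M', qExpand k₀ (M' * q * q) z = y := by
  constructor
  · intro hy
    obtain ⟨z, hz⟩ := fres3Old_surjective A hq hqM hA ⟨y, hy⟩
    refine ⟨(z : LaurentSeries k₀), ?_, ?_⟩
    · rw [← FresK0_mid_eq_fullC A hq hqM hA]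
      exact z.2
    · have := congrArg (fun w : Fres3K0 A (M' * q * q) q hq hA => (w : LaurentSeries k₀)) hz
      simpa using this
  · rintro ⟨z, hz, rfl⟩
    rw [← FresK0_mid_eq_fullC A hq hqM hA] at hz
    exact qExpand_mem_Fres3K0 A hq hA hz

end Fermat.Agent.GL.Val.ResW3Top
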