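/-
GATE-L / `hrange` of helper84 `hval_of_series_val` (and `hB_i`-type inputs of helper29
`hIII_of_setup_series`) at the top level `N = M' q q` over `K₀`, SERIES FORM over `k = k(A)`
(helper45).

`θ := coeffMap (resMapK0 A) ∘ coe : k(w_i) → k((t))`, `D := CRing M' A` (Dedekind, `Frac D =
FresBar M' A = k(X₀(M'))`), `ψ₁ = ψ₂ := cVal M' A`, `ψ₃ := cVal3 = qExpand ∘ cVal`:

* `theta_red1_mem_FresBar`, `theta_red2_mem_FresBar` : `θ (red_i x) ∈ FresBar M' A`  (`i = 1, 2`);
* `theta_red3_eq_qExpand` : `θ (red₃ x) = z(t^N)` with `z ∈ FresBar M' A`;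
* **`hrange_w1`, `hrange_w2`, `hrange_w3`** : `∃ c d : CRing M' A, d ≠ 0 ∧ θ (red_i x) * ψ_i d = ψ_i c`.
-/
import Fermat.Agent.GL.Val.ResW3Top
import Fermat.Agent.GL.Fibre.CRingFin
import Fermat.Agent.GL.Fibre.OldTriples

set_option autoImplicit false

noncomputable section

namespace Fermat.Agent.GL.Val.HrangeK0

open HahnSeries ModularCurve IsLocalRing IntermediateField Module
open Fermat.Agent.GJ.J1 Fermat.Agent.GJ.J1.Val
open Fermat.Agent.GK.AL Fermat.Agent.GL.AL Fermat.Agent.GK.QS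
open Fermat.Agent.GL.Val.GaussK0 Fermat.Agent.GL.Val.SecondK0 Fermat.Agent.GL.Val.SecondK0Hall
open Fermat.Agent.GL.Val.OrthK0 Fermat.Agent.GL.Val.ThirdK0 Fermat.Agent.GL.Val.CuspK0
open Fermat.Agent.GL.W3 Fermat.Agent.GL.W3Table
open Fermat.Agent.GL.Val.ResW3K0 Fermat.Agent.GL.Val.ResW3Top
open Fermat.Agent.Common_helper32

variable {q M' : ℕ} [NeZero q] [NeZero M'] (A : ValuationSubring Qb) (hq : q.Prime)
  (hqM : ¬ q ∣ M') (hA : (q : Qb) ∈ A.nonunits)

local notation "k₀" => ResidueField (R0 A)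
local notation "kA" => ResidueField A

omit [NeZero q] in
include hq hqM hA in
/-- `k₀(X₀(M'))`, pushed to `k((t))` along `k₀ ≃ k`, lands in `FresBar M' A` -/
theorem coeffMap_fullC_mem_FresBar {z : LaurentSeries k₀}
    (hz : z ∈ modularFunctionFieldFullC k₀ M') :
    coeffMap (resMapK0 A) z ∈ FresBar M' A := by
  have : Fact q.Prime := ⟨hq⟩
  rw [Fermat.Agent.GJ.J1.Res.FresBar_eq_fullC M' A hqM hA]
  exact Fermat.Agent.GK.Val.BaseChange.coeffMap_mem_fullC (resMapK0 A) M' hz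

/-- every element of `FresBar M' A` is a quotient of elements of `CRing M' A` -/
theorem exists_cVal_eq (y : FresBar M' A) :
    ∃ c d : CRing M' A, d ≠ 0 ∧ (y : LaurentSeries kA) * cVal M' A d = cVal M' A c := by
  have := Fermat.Agent.GL.CRingFin.isFractionRing_CRing M' A
  obtain ⟨c, d, hd, hcd⟩ := IsFractionRing.div_surjective (A := CRing M' A) y
  refine ⟨c, d, nonZeroDivisors.ne_zero hd, ?_⟩
  have hd0 : algebraMap (CRing M' A) (FresBar M' A) d ≠ 0 := by
    intro h0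
    exact nonZeroDivisors.ne_zero hd
      ((IsFractionRing.injective (CRing M' A) (FresBar M' A)) (h0.trans (map_zero _).symm))
  have h1 : y * algebraMap (CRing M' A) (FresBar M' A) d =
      algebraMap (CRing M' A) (FresBar M' A) c := by
    rw [← hcd, div_mul_cancel₀ _ hd0]
  have h2 := congrArg (fun w : FresBar M' A => (w : LaurentSeries kA)) h1
  exact h2

include hq hqM hA in
/-- `θ (red₁ x) ∈ FresBar M' A` -/
theorem theta_red1_mem_FresBar (x : (redDataK0 A (M' * q * q)).Rw) :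
    coeffMap (resMapK0 A)
      (((redDataK0 A (M' * q * q)).red x : FresK0 A (M' * q * q)) : LaurentSeries k₀) ∈
      FresBar M' A := by
  apply coeffMap_fullC_mem_FresBar A hq hqM hA
  rw [← FresK0_top_eq_fullC A hq hqM hA]
  exact ((redDataK0 A (M' * q * q)).red x).2

include hq hqM hA in
/-- `θ (red₂ x) ∈ FresBar M' A` -/
theorem theta_red2_mem_FresBar (hQ : HallDvd (q ^ 2) (M' * q * q))
    (x : (redData2QK0 A (M' * q * q) hQ).Rw) :
    coeffMap (resMapK0 A)
      (((redData2QK0 A (M' * q * q) hQ).red x : FresK0 A (M' * q * q)) : LaurentSeries k₀) ∈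
      FresBar M' A := by
  apply coeffMap_fullC_mem_FresBar A hq hqM hA
  rw [← FresK0_top_eq_fullC A hq hqM hA]
  exact ((redData2QK0 A (M' * q * q) hQ).red x).2

include hqM in
/-- `θ (red₃ x) = z(t^N)` with `z ∈ FresBar M' A` -/
theorem theta_red3_eq_qExpand (x : (redData3K0 A (M' * q * q) q hq hA).Rw) :
    ∃ z ∈ FresBar M' A,
      coeffMap (resMapK0 A)
        (((redData3K0 A (M' * q * q) q hq hA).red x : Fres3K0 A (M' * q * q) q hq hA) :
          LaurentSeries k₀) = qExpand kA (M' * q * q) z := by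
  obtain ⟨z, hz, hzx⟩ := (mem_Fres3K0_iff A hq hqM hA _).1
    ((redData3K0 A (M' * q * q) q hq hA).red x).2
  refine ⟨coeffMap (resMapK0 A) z, coeffMap_fullC_mem_FresBar A hq hqM hA hz, ?_⟩
  rw [← hzx, coeffMap_qExpand]

include hq hqM hA in
/-- **`hrange` at `w₁`** -/
theorem hrange_w1 (x : (redDataK0 A (M' * q * q)).Rw) :
    ∃ c d : CRing M' A, d ≠ 0 ∧
      coeffMap (resMapK0 A)
        (((redDataK0 A (M' * q * q)).red x : FresK0 A (M' * q * q)) : LaurentSeries k₀) *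
        cVal M' A d = cVal M' A c :=
  exists_cVal_eq A ⟨_, theta_red1_mem_FresBar A hq hqM hA x⟩

include hq hqM hA in
/-- **`hrange` at `w₂`** -/
theorem hrange_w2 (hQ : HallDvd (q ^ 2) (M' * q * q))
    (x : (redData2QK0 A (M' * q * q) hQ).Rw) :
    ∃ c d : CRing M' A, d ≠ 0 ∧
      coeffMap (resMapK0 A)
        (((redData2QK0 A (M' * q * q) hQ).red x : FresK0 A (M' * q * q)) : LaurentSeries k₀) *
        cVal M' A d = cVal M' A c :=
  exists_cVal_eq A ⟨_, theta_red2_mem_FresBar A hq hqM hA hQ x⟩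

include hqM in
/-- **`hrange` at `w₃`** (`ψ₃ = qExpand ∘ cVal`) -/
theorem hrange_w3 (x : (redData3K0 A (M' * q * q) q hq hA).Rw) :
    ∃ c d : CRing M' A, d ≠ 0 ∧
      coeffMap (resMapK0 A)
        (((redData3K0 A (M' * q * q) q hq hA).red x : Fres3K0 A (M' * q * q) q hq hA) :
          LaurentSeries k₀) *
        qExpand kA (M' * q * q) (cVal M' A d) = qExpand kA (M' * q * q) (cVal M' A c) := by
  obtain ⟨z, hz, hzx⟩ := theta_red3_eq_qExpand A hq hqM hA x
  obtain ⟨c, d, hd, hcd⟩ := exists_cVal_eq A ⟨z, hz⟩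
  refine ⟨c, d, hd, ?_⟩
  rw [hzx, ← map_mul]
  exact congrArg _ hcd

include hqM in
/-- **`hrange` at `w₃`**, with helper15's `cVal3` -/
theorem hrange_w3' [Fact q.Prime] (x : (redData3K0 A (M' * q * q) q hq hA).Rw) :
    ∃ c d : CRing M' A, d ≠ 0 ∧
      coeffMap (resMapK0 A)
        (((redData3K0 A (M' * q * q) q hq hA).red x : Fres3K0 A (M' * q * q) q hq hA) :
          LaurentSeries k₀) *
        Fermat.Agent.GL.OldTriples.cVal3 M' q A d =
      Fermat.Agent.GL.OldTriples.cVal3 M' q A c := by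
  obtain ⟨c, d, hd, h⟩ := hrange_w3 A hq hqM hA x
  exact ⟨c, d, hd, by
    rw [Fermat.Agent.GL.OldTriples.cVal3_apply, Fermat.Agent.GL.OldTriples.cVal3_apply]
    exact h⟩

end Fermat.Agent.GL.Val.HrangeK0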