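/-
GATE-L / (INT) at the TOP level + the L1e list in CONSUMER shapes (helper75).

`A | q` a valuation subring of `ℚ̄`, `K₀ = ℚ̄^{I_A}`, `R₀ = A ∩ K₀` (DVR, uniformiser `q0 A q`),
`N = M' q²`, `q ∤ M'`, `F₀ = K₀(X₀(N))`, `W3 A h = ![w₁, w₂, w₃]`.  With L1e a theorem
(`L1eThm`), the following are hypothesis-free:

* `hover_W3`, `hG_W3`, `hnoextG_W3`, `injective_W3` : the L1e list in GAUSS FORM = the binders
  `hover hG hnoextG` of helper80 `FrameInstVal.exists_frame*` / helper8 `exists_chart_K0` /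
  helper56 `h5_inst`, VERBATIM at `A := R0 A`, `W := W3 A h`, `j := jK0 A N`;
* `isGaussExt_W3`, `exists_le_of_isGaussExt` : the same in helper79's `IsGaussExt` language
  (`hW`, `hnoext` of `FrameInst` / `IntClosureSplit` / `IntegralBridge` at `t = j`);
* **`isIntegral_adjoin_iff`** (INT): `x` is integral over `R₀[j]` iff it is integral over `K₀[j]`
  (`RegFin`) and lies in `w₁`, `w₂`, `w₃` — the chart ring of the `j`-frame at the top level is
  helper15's `B3K0` (`GL/Val/B3ChartK0.lean`);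
* the same statements in helper90's chart `jC N (K0 A)` (`…_jC`).
-/
import Fermat.Agent.GL.Val.L1eThm
import Fermat.Agent.GL.Frame.ChartInstK0
import Fermat.Agent.GL.Frame.FrameInstVal
import Fermat.Agent.GL.Red.IntegralBridge

set_option autoImplicit false
set_option linter.unusedSectionVars false

noncomputable section

namespace Fermat.Agent.GL.Val.B3Chart

open HahnSeries ModularCurve IsLocalRing IntermediateField Module Polynomial
open Fermat.Agent.GJ.J1 Fermat.Agent.GJ.J1.Val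
open Fermat.Agent.GK.AL Fermat.Agent.GL.AL Fermat.Agent.GK.MultiVal
open Fermat.Agent.GL.Val.GaussK0 Fermat.Agent.GL.Val.SecondK0 Fermat.Agent.GL.Val.SecondK0Hall
open Fermat.Agent.GL.Val.RamK0 Fermat.Agent.GL.Val.OrthK0 Fermat.Agent.GL.Val.ThirdK0
open Fermat.Agent.GL.W3
open Fermat.Agent.GL.MultiVal Fermat.Agent.GL.MultiVal.GaussBaseJ Fermat.Agent.GL.GaussAt
open Fermat.Agent.GL.Val.L1eAsmK0 Fermat.Agent.GL.Val.DegBase
open Fermat.Agent.GL.IntClosureSplit Fermat.Agent.GL.IntegralBridge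
open Fermat.Agent.GL.Frame.ChartInstK0
open Fermat.Agent.Common_helper32

variable (A : ValuationSubring Qb) {N : ℕ} [NeZero N] {q M' : ℕ} [NeZero M']
  (hq : q.Prime) (hN : N = M' * q ^ 2) (hqM : ¬ q ∣ M')
  (hA : A.LiesOverPrime q) (h : HallDvd (q ^ 2) N)

local notation "F₀" => modularFunctionFieldFullC (K0 A) N

/-! ### The L1e list in Gauss form -/

include hq hN hqM hA in
/-- `hover`: each `wᵢ` lies over `R₀`. -/
theorem hover_W3 (i : Fin 3) (a : K0 A) : algebraMap (K0 A) F₀ a ∈ W3 A h i ↔ a ∈ R0 A := by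
  have hq2 : q ^ 2 * 1 ∣ N := by rw [mul_one, hN]; exact dvd_mul_left _ _
  have : NeZero (q ^ 2 * 1) := ⟨by rw [mul_one]; exact pow_ne_zero 2 hq.ne_zero⟩
  exact (isRamified_W3_R0 A hq hN hqM hA h (one_dvd M') hq2 (one_dvd N) i).mem_iff a

/-- `hG`: each `wᵢ` is Gauss at `j`. -/
theorem hG_W3 (i : Fin 3) : IsGaussAt (R0 A) (W3 A h i) (jK0 A N) := isGaussAt_W3 A h i

include hq hN hqM hA in
/-- `hnoextG`: **L1e**, family form. -/
theorem hnoextG_W3 (V : ValuationSubring F₀)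
    (hV : ∀ a : K0 A, algebraMap (K0 A) F₀ a ∈ V ↔ a ∈ R0 A)
    (hj : IsGaussAt (R0 A) V (jK0 A N)) : ∃ i, V = W3 A h i := by
  rcases L1eThm.exists_eq_of_isGaussAt A hq hN hqM hA h hV hj with h1 | h1 | h1
  · exact ⟨0, h1⟩
  · exact ⟨1, h1⟩
  · exact ⟨2, h1⟩

include hq hN hqM hA in
/-- the three valuation subrings are pairwise distinct. -/
theorem injective_W3 : Function.Injective (W3 A h) := by
  intro i j hij
  by_contra hne
  exact incomparable_W3 A hq hN hqM hA h i j hne hij.le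

/-! ### The same in helper79's `IsGaussExt` language (chart `t = j`) -/

include hq hA in
theorem not_isUnit_q0 : ¬ IsUnit (q0 A q) := (irreducible_q0 A hq hA).not_isUnit

include hq hA in
theorem hgen_q0 (a : R0 A) (ha : ¬ IsUnit a) : q0 A q ∣ a := by
  obtain ⟨b, hb⟩ := exists_eq_q0_mul A hq hA a ha
  exact ⟨b, hb⟩

include hq hN hqM hA in
/-- `hW` of `FrameInst` at `t = j`. -/
theorem isGaussExt_W3 (i : Fin 3) : IsGaussExt (q0 A q) (jK0 A N) (W3 A h i) :=
  Fermat.Agent.GL.Frame.InstVal.isGaussExt_of_chain (not_isUnit_q0 A hq hA) (hgen_q0 A hq hA)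
    (W3 A h) (hover_W3 A hq hN hqM hA h) (hG_W3 A h) (fun _ _ hj => hj) i

include hq hN hqM hA in
/-- `hnoext` of `FrameInst` / `IntClosureSplit` at `t = j`. -/
theorem exists_le_of_isGaussExt (V : ValuationSubring F₀)
    (hV : IsGaussExt (q0 A q) (jK0 A N) V) : ∃ i, W3 A h i ≤ V :=
  Fermat.Agent.GL.Frame.InstVal.exists_le_of_chain (not_isUnit_q0 A hq hA) (hgen_q0 A hq hA)
    (W3 A h) (hnoextG_W3 A hq hN hqM hA h) (fun _ _ hj => hj) V hV

/-! ### (INT): the chart ring of the `j`-frame at the top level -/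

/-- `j` is transcendental over `R₀` (helper8, in the chart `OrthK0.jK0`). -/
theorem transcendental_jK0_R0 : Transcendental (R0 A) (jK0 A N) := by
  rw [jK0_eq_jC]
  exact transcendental_jC_R0 A N

theorem isAlgebraic_adjoin_jK0 :
    Algebra.IsAlgebraic (Algebra.adjoin (R0 A) {jK0 A N}) F₀ := by
  rw [jK0_eq_jC]
  exact isAlgebraic_adjoin_jC A N

include hq hN hqM hA in
/-- **(INT), family form**: integral over `R₀[j]` ⟺ integral over `K₀[j]` and in every `wᵢ`. -/
theorem isIntegral_adjoin_iff_forall (x : F₀) :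
    IsIntegral (Algebra.adjoin (R0 A) {jK0 A N}) x ↔
      RegFin (K0 A) (jK0 A N) x ∧ ∀ i, x ∈ W3 A h i := by
  have := isDiscreteValuationRing_R0 A hq hA
  have := isAlgebraic_adjoin_jK0 (N := N) A
  exact isIntegral_adjoin_iff_regFin_of_family (irreducible_q0 A hq hA)
    (transcendental_jK0_R0 A) (W3 A h)
    (fun i => (isGaussExt_W3 A hq hN hqM hA h i).1)
    (exists_le_of_isGaussExt A hq hN hqM hA h) x

include hq hN hqM hA in
/-- **(INT)**: `x` is integral over `R₀[j]` iff it is integral over `K₀[j]` and lies in `w₁`, `w₂`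
and `w₃`. -/
theorem isIntegral_adjoin_iff (x : F₀) :
    IsIntegral (Algebra.adjoin (R0 A) {jK0 A N}) x ↔
      RegFin (K0 A) (jK0 A N) x ∧ x ∈ RwK0 A N ∧ x ∈ (redData2QK0 A N h).Rw ∧
        x ∈ Rw3K0 A N q := by
  rw [isIntegral_adjoin_iff_forall A hq hN hqM hA h]
  constructor
  · rintro ⟨h0, hW⟩
    exact ⟨h0, hW 0, hW 1, hW 2⟩
  · rintro ⟨h0, h1, h2, h3⟩
    refine ⟨h0, fun i => ?_⟩
    fin_cases i
    · exact h1
    · exact h2
    · exact h3

include hq hN hqM hA in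
/-- (INT) in helper90's chart `jC N (K0 A)`. -/
theorem isIntegral_adjoin_iff_jC (x : F₀) :
    IsIntegral (Algebra.adjoin (R0 A) {jC N (K0 A)}) x ↔
      RegFin (K0 A) (jC N (K0 A)) x ∧ x ∈ RwK0 A N ∧ x ∈ (redData2QK0 A N h).Rw ∧
        x ∈ Rw3K0 A N q := by
  rw [← jK0_eq_jC]
  exact isIntegral_adjoin_iff A hq hN hqM hA h x

include hq hN hqM hA in
/-- the elements of the chart ring are in `w₁ ∩ w₂ ∩ w₃`. -/
theorem mem_W3_of_isIntegral {x : F₀} (hx : IsIntegral (Algebra.adjoin (R0 A) {jK0 A N}) x)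
    (i : Fin 3) : x ∈ W3 A h i :=
  ((isIntegral_adjoin_iff_forall A hq hN hqM hA h x).1 hx).2 i

end Fermat.Agent.GL.Val.B3Chart
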