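/-
GATE-L / `B3K0` IS the chart ring of the `j`-frame at the top level (helper75).

helper15's `B3K0 M' q A hQ ⊂ K₀(X₀(M' q q))` (integral over `K₀[j]`, `w₁, w₂, w₃ ≥ 0`) equals
helper80's `chartRing (R0 A) j` = integral closure of `R₀[j]` — the top-level twin of helper96's
`BRingChart` (level `N' ℓ`), from (INT) `B3Chart.isIntegral_adjoin_iff_jC` (= L1e + helper96
`IntegralBridge`).  Consequences: helper80's noetherian / normal / `Frac = F₀` instances, helper47's
`A := IC R₀[j]`, helper42's `ClassifyC5B3`, helper15's `OldTriplesK0` / (INT) of `RedInC` all talk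
about the SAME ring.
-/
import Fermat.Agent.GL.Val.B3Chart
import Fermat.Agent.GL.Fibre.OldTriplesK0
import Fermat.Agent.GL.Frame.FrameInst

set_option autoImplicit false
set_option linter.unusedSectionVars false

noncomputable section

namespace Fermat.Agent.GL.Val.B3ChartK0

open HahnSeries ModularCurve IsLocalRing
open Fermat.Agent.S24 Fermat.Agent.GJ.J1 Fermat.Agent.GJ.J1.Val
open Fermat.Agent.GK.AL Fermat.Agent.GL.AL
open Fermat.Agent.GL.Val.GaussK0 Fermat.Agent.GL.Val.SecondK0 Fermat.Agent.GL.Val.SecondK0Hall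
open Fermat.Agent.GL.Val.ThirdK0 Fermat.Agent.GL.Val.OrthK0 Fermat.Agent.GL.Val.DegBase
open Fermat.Agent.GL.W3 Fermat.Agent.GL.OldTriplesK0 Fermat.Agent.GL.Frame.Inst
open Fermat.Agent.GL.Val.B3Chart

variable {M' : ℕ} [NeZero M'] {q : ℕ} [hqF : Fact q.Prime] [NeZero q]
variable {A : ValuationSubring Kbar} {hQ : HallDvd (q ^ 2) (M' * q * q)}
variable (hqM : ¬ q ∣ M') (hA : A.LiesOverPrime q)

local notation "FK0" => modularFunctionFieldFullC (K0 A)

theorem level_eq : M' * q * q = M' * q ^ 2 := by ring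

include hqM hA in
/-- **`B3K0` = integral closure of `R₀[j]`**, membership form (chart `jC`). -/
theorem mem_B3K0_iff_isIntegral {x0 : FK0 (M' * q * q)} :
    x0 ∈ B3K0 M' q A hQ ↔
      IsIntegral (Algebra.adjoin (R0 A) {jC (M' * q * q) (K0 A)}) x0 := by
  rw [mem_B3K0_iff, isIntegral_adjoin_iff_jC A hqF.out level_eq hqM hA hQ]

include hqM hA in
/-- the same in the chart `OrthK0.jK0`. -/
theorem mem_B3K0_iff_isIntegral_jK0 {x0 : FK0 (M' * q * q)} :
    x0 ∈ B3K0 M' q A hQ ↔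
      IsIntegral (Algebra.adjoin (R0 A) {jK0 A (M' * q * q)}) x0 := by
  rw [jK0_eq_jC]
  exact mem_B3K0_iff_isIntegral hqM hA

include hqM hA in
/-- **`B3K0 = chartRing R₀ j`** (helper80 `FrameInst`), as subrings of `K₀(X₀(M' q q))`. -/
theorem B3K0_eq_chartRing :
    B3K0 M' q A hQ = chartRing (R0 A) (jC (M' * q * q) (K0 A)) := by
  ext x0
  rw [mem_B3K0_iff_isIntegral hqM hA]
  exact Iff.rfl

include hqM hA in
theorem B3K0_eq_chartRing_jK0 :
    B3K0 M' q A hQ = chartRing (R0 A) (jK0 A (M' * q * q)) := by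
  rw [jK0_eq_jC]
  exact B3K0_eq_chartRing hqM hA

include hqM hA in
/-- **(INT)** of helper15's `RedInC`, VERBATIM. -/
theorem isIntegral_of_mem_B3K0 (x0 : FK0 (M' * q * q)) (hx : x0 ∈ B3K0 M' q A hQ) :
    IsIntegral (Algebra.adjoin (R0 A) {jK0 A (M' * q * q)}) x0 :=
  (mem_B3K0_iff_isIntegral_jK0 hqM hA).1 hx

include hqM hA in
/-- the chart `j` itself is in `B3K0`. -/
theorem jC_mem_B3K0 : jC (M' * q * q) (K0 A) ∈ B3K0 M' q A hQ := by
  rw [B3K0_eq_chartRing hqM hA]
  exact subset_icRing (R0 A) _ (Set.mem_singleton _)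

include hqM hA in
/-- the constants `R₀` are in `B3K0`. -/
theorem algebraMap_mem_B3K0 (r : R0 A) :
    algebraMap (R0 A) (FK0 (M' * q * q)) r ∈ B3K0 M' q A hQ := by
  rw [B3K0_eq_chartRing hqM hA]
  exact algebraMap_mem_icRing (R0 A) _ r

end Fermat.Agent.GL.Val.B3ChartK0
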