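/-
GATE-L / RES over `K₀` at the TOP level (helper75).

`A | q` a valuation subring of `ℚ̄`, `N = M' q²`, `q ∤ M'`.  helper45's `ResK0.FresK0_eq_fullC_of_f1_le`
(`f₁ ≤ ψ(M')` ⟹ `FresK0 A N = k₀(X₀(M'))`) is fed with the L1e by-product `L1eThm.f1_eq_psi`
(`f₁ = ψ(M')`), so that **the residue field of `w₁` (and of `w₂ = w₁ ∘ W`, same field by
construction) on `K₀(X₀(M' q²))` is `k₀(X₀(M'))`, unconditionally**.  Also the Hall divisor
`q² ∥ N` from `hN`, `hqM`, so that consumers do not have to carry `h : HallDvd (q ^ 2) N`.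
-/
import Fermat.Agent.GL.Val.L1eThm
import Fermat.Agent.GL.Val.ResK0

set_option autoImplicit false

noncomputable section

namespace Fermat.Agent.GL.Val.ResK0Top

open HahnSeries ModularCurve IsLocalRing IntermediateField Module
open Fermat.Agent.GJ.J1 Fermat.Agent.GJ.J1.Val
open Fermat.Agent.GK.AL Fermat.Agent.GL.AL
open Fermat.Agent.GL.Val.GaussK0 Fermat.Agent.GL.Val.SecondK0 Fermat.Agent.GL.Val.SecondK0Hall
open Fermat.Agent.GL.Val.OrthK0 Fermat.Agent.GL.Val.L1eFinal
open Fermat.Agent.Common_helper32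

/-- `q² ∥ M' q²` when `q ∤ M'`. -/
theorem hallDvd_sq {N q M' : ℕ} (hq : q.Prime) (hN : N = M' * q ^ 2) (hqM : ¬ q ∣ M') :
    HallDvd (q ^ 2) N := by
  have hpos : 0 < q ^ 2 := pow_pos hq.pos 2
  refine ⟨hpos, ⟨M', by rw [hN, mul_comm]⟩, ?_⟩
  have hdiv : N / q ^ 2 = M' := by rw [hN, Nat.mul_div_cancel _ hpos]
  rw [hdiv]
  exact Nat.Coprime.pow_left 2 ((Nat.Prime.coprime_iff_not_dvd hq).2 hqM)

variable (A : ValuationSubring Qb) {N : ℕ} [NeZero N] {q M' : ℕ} [NeZero M']
  (hq : q.Prime) (hN : N = M' * q ^ 2) (hqM : ¬ q ∣ M')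
  (hA : A.LiesOverPrime q)

local notation "k₀" => ResidueField (R0 A)

include hq hN hqM hA in
/-- **`f₁ = ψ(M')`** without the Hall-divisor binder. -/
theorem f1_eq_psi : f1 (N := N) A = dedekindPsi M' :=
  (L1eThm.f1_eq_psi A hq hN hqM hA (hallDvd_sq hq hN hqM)).1

include hq hN hqM hA in
/-- **RES over `K₀` at the top level `N = M' q²`, unconditional**: the residue field of `w₁`
(and of `w₂`) is `k₀(X₀(M'))`. -/
theorem FresK0_eq_fullC_top : FresK0 A N = modularFunctionFieldFullC k₀ M' :=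
  ResK0.FresK0_eq_fullC_of_f1_le A N hq hA M' ⟨q ^ 2, hN⟩ hqM (isGaussChart_jK0 A N).1
    (f1_eq_psi A hq hN hqM hA).le

include hq hN hqM hA in
/-- membership form: every element of the residue field of `w₁` is a modular function of level
`M'` over `k₀`, and conversely. -/
theorem mem_FresK0_iff (y : LaurentSeries k₀) :
    y ∈ FresK0 A N ↔ y ∈ modularFunctionFieldFullC k₀ M' := by
  rw [FresK0_eq_fullC_top A hq hN hqM hA]

include hq hN hqM hA in
/-- the reduction of an element of `w₁` is a modular function of level `M'` over `k₀`. -/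
theorem red_mem_fullC (x : (redDataK0 A N).Rw) :
    (((redDataK0 A N).red x : FresK0 A N) : LaurentSeries k₀) ∈
      modularFunctionFieldFullC k₀ M' :=
  (mem_FresK0_iff A hq hN hqM hA _).1 ((redDataK0 A N).red x).2

include hq hN hqM hA in
/-- the reduction of an element of `w₂` is a modular function of level `M'` over `k₀`. -/
theorem red2_mem_fullC (x : (redData2QK0 A N (hallDvd_sq hq hN hqM)).Rw) :
    (((redData2QK0 A N (hallDvd_sq hq hN hqM)).red x : FresK0 A N) : LaurentSeries k₀) ∈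
      modularFunctionFieldFullC k₀ M' :=
  (mem_FresK0_iff A hq hN hqM hA _).1 ((redData2QK0 A N (hallDvd_sq hq hN hqM)).red x).2

/-! ### Base change to `k = ResidueField A` (the field over which `CRing M' A` lives) -/

include hq hN hqM hA in
/-- the residue field of `w₁`, pushed to `k((t))` along `k₀ ≃ k`, lands in `k(X₀(M'))`. -/
theorem coeffMap_mem_fullC_bar {y : LaurentSeries k₀} (hy : y ∈ FresK0 A N) :
    coeffMap (resMapK0 A) y ∈ modularFunctionFieldFullC (ResidueField A) M' :=
  Fermat.Agent.GK.Val.BaseChange.coeffMap_mem_fullC (resMapK0 A) M'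
    ((mem_FresK0_iff A hq hN hqM hA y).1 hy)

include hq hN hqM hA in
/-- … and `k(X₀(M')) = FresBar M' A` is the fraction field of `CRing M' A`: **the residue field of
`w₁` (and `w₂`) at level `M' q²` over `K₀` embeds in the residue field of the Gauss valuation at
the good level `M'` over `ℚ̄`**. -/
theorem coeffMap_mem_FresBar {y : LaurentSeries k₀} (hy : y ∈ FresK0 A N) :
    coeffMap (resMapK0 A) y ∈ FresBar M' A := by
  have : Fact q.Prime := ⟨hq⟩
  rw [Fermat.Agent.GJ.J1.Res.FresBar_eq_fullC M' A hqM hA]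
  exact coeffMap_mem_fullC_bar A hq hN hqM hA hy

include hq hN hqM hA in
theorem coeffMap_red_mem_FresBar (x : (redDataK0 A N).Rw) :
    coeffMap (resMapK0 A) (((redDataK0 A N).red x : FresK0 A N) : LaurentSeries k₀) ∈
      FresBar M' A :=
  coeffMap_mem_FresBar A hq hN hqM hA ((redDataK0 A N).red x).2

include hq hN hqM hA in
theorem coeffMap_red2_mem_FresBar (x : (redData2QK0 A N (hallDvd_sq hq hN hqM)).Rw) :
    coeffMap (resMapK0 A)
      (((redData2QK0 A N (hallDvd_sq hq hN hqM)).red x : FresK0 A N) : LaurentSeries k₀) ∈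
      FresBar M' A :=
  coeffMap_mem_FresBar A hq hN hqM hA ((redData2QK0 A N (hallDvd_sq hq hN hqM)).red x).2

end Fermat.Agent.GL.Val.ResK0Top
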