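/-
GATE-L / L5-II REG3, input (S1) of helper50's plan (board 2786) (helper93): at level `N = M' q²`,
`A` over `q`, `y₃ = j(q² d' z) − j(d' z)`:

  `ε₃ := y₃^(q−1) / q  ∈ R_{w₃}`,   `red₃ ε₃ = −(red₃ τ₃)^(q−1) = −((θ j~)(t^{N d'}))^(q−1)`.

Proof: `y₃ = (ξ₃ − 1) τ₃` (`ThirdVal.lean`), `(ξ₃ − 1)^(q−1) = −q (1 + (ξ₃ − 1) d)` with `d ∈ A`
(helper63 `exists_pow_pred_eq` in the ring `A`), and `ξ₃ ↦ 1` in the residue field.

In particular `w₃(y₃^(q−1)) = w₃(q)` EXACTLY (`e₃ = q − 1` witness), and `ε₃` is a `w₃`-unit whose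
reduction is `−T(j~)`, `T = (θ j~)^(q−1)` (helper63 `hasse_T`).
-/
import Fermat.Agent.GL.Val.ThirdVal
import Fermat.Agent.GL.Thick.TwistTheta

set_option autoImplicit false

noncomputable section

namespace Fermat.Agent.GL.W3

open HahnSeries ModularCurve IsLocalRing
open Fermat.Agent.S24 Fermat.Agent.S28 Fermat.Agent.S28.CuspExp Fermat.Agent.S28.Assemble
open Fermat.Agent.S24_helper62
open Fermat.Agent.GJ.J1 Fermat.Agent.GJ.J1.Val Fermat.Agent.GL.CuspVal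
open Fermat.Agent.GL.QDer Fermat.Agent.GL.Thick

variable {N : ℕ} [NeZero N] (A : ValuationSubring Kbar) {q M' : ℕ}

local notation "𝕜" => ResidueField A

/-- **Wilson-free**: `(ξ₃ − 1)^(q−1) = q · w` with `w ∈ A`, `w ≡ −1` modulo `𝔪_A` (for `A` over `q`;
the congruence is `w = −(1 + (ξ₃ − 1) d)`) -/
theorem exists_xi3_pow_pred (hq : q.Prime) (hN : N = M' * q ^ 2) (hqM : ¬ q ∣ M') {d' : ℕ}
    (hd' : d' ∣ M') (hdN : q ^ 2 * d' ∣ N) :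
    ∃ d : A, (((xi3 N q hdN : Kbarˣ) : Kbar) - 1) ^ (q - 1) =
      (q : Kbar) * ((-(1 + (((xi3A A (q := q) hdN : Aˣ) : A) - 1) * d) : A) : Kbar) := by
  have hprim := isPrimitiveRoot_xi3 hq hN hqM hd' hdN
  have hsum : ∑ i ∈ Finset.range q, (((xi3A A (q := q) hdN : Aˣ) : A)) ^ i = 0 := by
    apply Subtype.val_injective
    have h1 : ((xi3A A (q := q) hdN : Aˣ) : A).1 = ((xi3 N q hdN : Kbarˣ) : Kbar) := by
      rw [← map_subtype_xi3A A hdN]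
      rfl
    have h2 := (IsPrimitiveRoot.coe_units_iff.mpr hprim).geom_sum_eq_zero hq.one_lt
    rw [← h1] at h2
    simpa using h2
  obtain ⟨d, hd⟩ := exists_pow_pred_eq q hq ((xi3A A (q := q) hdN : Aˣ) : A) hsum
  refine ⟨d, ?_⟩
  have h1 : ((xi3A A (q := q) hdN : Aˣ) : A).1 = ((xi3 N q hdN : Kbarˣ) : Kbar) := by
    rw [← map_subtype_xi3A A hdN]
    rfl
  have h3 := congrArg (Subtype.val : A → Kbar) hd
  rw [← h1]
  push_cast at h3 ⊢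
  rw [h3]
  ring

variable (N q) in
/-- **`ε₃ = y₃^(q−1) / q`** -/
def eps3 {d' : ℕ} [NeZero (q ^ 2 * d')] [NeZero d'] (hdN : q ^ 2 * d' ∣ N) (hd'N : d' ∣ N) : FN N :=
  y3 N q hdN hd'N ^ (q - 1) * (algebraMap Kbar (FN N) (q : Kbar))⁻¹

/-- `ε₃ = w · τ₃^(q−1)` whenever `(ξ₃ − 1)^(q−1) = q w` -/
theorem eps3_eq (hq : q.Prime) (hN : N = M' * q ^ 2) (hqM : ¬ q ∣ M') {d' : ℕ}
    [NeZero (q ^ 2 * d')] [NeZero d'] (hd' : d' ∣ M') (hdN : q ^ 2 * d' ∣ N) (hd'N : d' ∣ N)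
    {w : Kbar} (hw : (((xi3 N q hdN : Kbarˣ) : Kbar) - 1) ^ (q - 1) = (q : Kbar) * w) :
    eps3 N q hdN hd'N = algebraMap Kbar (FN N) w * tau3 N q hdN hd'N ^ (q - 1) := by
  have hq0 : algebraMap Kbar (FN N) (q : Kbar) ≠ 0 := by
    rw [Ne, map_eq_zero]
    exact_mod_cast hq.ne_zero
  rw [eps3, y3_eq hq hN hqM hd' hdN hd'N, mul_pow, ← map_pow, hw, map_mul]
  field_simp

/-- **`ε₃ ∈ R_{w₃}`** (every `A`) -/
theorem eps3_mem_Rw3 (hq : q.Prime) (hN : N = M' * q ^ 2) (hqM : ¬ q ∣ M') {d' : ℕ}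
    [NeZero (q ^ 2 * d')] [NeZero d'] (hd' : d' ∣ M') (hdN : q ^ 2 * d' ∣ N) (hd'N : d' ∣ N) :
    eps3 N q hdN hd'N ∈ (redData3 N A q).Rw := by
  obtain ⟨d, hd⟩ := exists_xi3_pow_pred A hq hN hqM hd' hdN
  rw [eps3_eq hq hN hqM hd' hdN hd'N hd]
  refine mul_mem ?_ (pow_mem (tau3_mem_Rw3 A hq hN hqM hd' hdN hd'N) _)
  exact ((redData3 N A q).mem_A_iff _).1 (Subtype.property _)

/-- **`red₃ ε₃ = −(red₃ τ₃)^(q−1)`** for `A` over `q` -/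
theorem red3_eps3 (hq : q.Prime) (hN : N = M' * q ^ 2) (hqM : ¬ q ∣ M')
    (hA : A.LiesOverPrime q) {d' : ℕ}
    [NeZero (q ^ 2 * d')] [NeZero d'] (hd' : d' ∣ M') (hdN : q ^ 2 * d' ∣ N) (hd'N : d' ∣ N)
    (h : eps3 N q hdN hd'N ∈ (redData3 N A q).Rw) :
    (redData3 N A q).red ⟨eps3 N q hdN hd'N, h⟩ =
      -((redData3 N A q).red ⟨tau3 N q hdN hd'N, tau3_mem_Rw3 A hq hN hqM hd' hdN hd'N⟩) ^ (q - 1) := by
  obtain ⟨d, hd⟩ := exists_xi3_pow_pred A hq hN hqM hd' hdN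
  set w : A := -(1 + (((xi3A A (q := q) hdN : Aˣ) : A) - 1) * d) with hwdef
  have hwmem : algebraMap Kbar (FN N) (w : Kbar) ∈ (redData3 N A q).Rw :=
    ((redData3 N A q).mem_A_iff _).1 w.2
  have h1 : (⟨eps3 N q hdN hd'N, h⟩ : (redData3 N A q).Rw) =
      ⟨algebraMap Kbar (FN N) (w : Kbar), hwmem⟩ *
        ⟨tau3 N q hdN hd'N, tau3_mem_Rw3 A hq hN hqM hd' hdN hd'N⟩ ^ (q - 1) :=
    Subtype.ext (eps3_eq hq hN hqM hd' hdN hd'N hd)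
  rw [h1, map_mul, map_pow]
  have h2 : (redData3 N A q).red ⟨algebraMap Kbar (FN N) (w : Kbar), hwmem⟩ =
      algebraMap 𝕜 (FresCusp N A (cusp3 N q)) ((redData3 N A q).res w) :=
    (redData3 N A q).red_algebraMap w
  have h3 : (redData3 N A q).res w = -1 := by
    show residue A w = -1
    have h4 : residue A ((xi3A A (q := q) hdN : Aˣ) : A) = 1 := by
      have := congrArg (fun u : 𝕜ˣ => (u : 𝕜)) ((map_residue_xi3A A (q := q) hdN).trans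
        (xi_zetaRes_eq_one A hq hN hA _))
      simpa using this
    rw [hwdef, map_neg, map_add, map_one, map_mul, map_sub, h4, map_one, sub_self, zero_mul,
      add_zero]
  rw [h2, h3, map_neg, map_one, neg_one_mul]

/-- **`red₃ ε₃ = −((θ j~)(t^{N d'}))^(q−1)`** for `A` over `q` — input (S1) of REG3 -/
theorem coe_red3_eps3 (hq : q.Prime) (hN : N = M' * q ^ 2) (hqM : ¬ q ∣ M')
    (hA : A.LiesOverPrime q) {d' : ℕ}
    [NeZero (q ^ 2 * d')] [NeZero d'] (hd' : d' ∣ M') (hdN : q ^ 2 * d' ∣ N) (hd'N : d' ∣ N)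
    (h : eps3 N q hdN hd'N ∈ (redData3 N A q).Rw) :
    (((redData3 N A q).red ⟨eps3 N q hdN hd'N, h⟩ : FresCusp N A (cusp3 N q)) :
        LaurentSeries 𝕜) = -(qExpand 𝕜 (N * d') (thetaL 𝕜 (jqModC 𝕜))) ^ (q - 1) := by
  rw [red3_eps3 A hq hN hqM hA hd' hdN hd'N h,
    ← coe_red3_tau3 A hq hN hqM hA hd' hdN hd'N (tau3_mem_Rw3 A hq hN hqM hd' hdN hd'N)]
  rfl

/-- `red₃ ε₃ ≠ 0`: `ε₃` is a `w₃`-unit, i.e. `w₃(y₃^(q−1)) = w₃(q)` -/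
theorem red3_eps3_ne_zero (hq : q.Prime) (hN : N = M' * q ^ 2) (hqM : ¬ q ∣ M')
    (hA : A.LiesOverPrime q) {d' : ℕ}
    [NeZero (q ^ 2 * d')] [NeZero d'] (hd' : d' ∣ M') (hdN : q ^ 2 * d' ∣ N) (hd'N : d' ∣ N)
    (h : eps3 N q hdN hd'N ∈ (redData3 N A q).Rw) :
    (redData3 N A q).red ⟨eps3 N q hdN hd'N, h⟩ ≠ 0 := by
  rw [red3_eps3 A hq hN hqM hA hd' hdN hd'N h]
  exact neg_ne_zero.mpr (pow_ne_zero _ (red3_tau3_ne_zero A hq hN hqM hA hd' hdN hd'N _))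

theorem eps3_inv_mem_Rw3 (hq : q.Prime) (hN : N = M' * q ^ 2) (hqM : ¬ q ∣ M')
    (hA : A.LiesOverPrime q) {d' : ℕ}
    [NeZero (q ^ 2 * d')] [NeZero d'] (hd' : d' ∣ M') (hdN : q ^ 2 * d' ∣ N) (hd'N : d' ∣ N) :
    (eps3 N q hdN hd'N)⁻¹ ∈ (redData3 N A q).Rw :=
  inv_mem_of_red_ne_zero _ (eps3_mem_Rw3 A hq hN hqM hd' hdN hd'N)
    (red3_eps3_ne_zero A hq hN hqM hA hd' hdN hd'N _)

end Fermat.Agent.GL.W3
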