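/-
GATE-L / REG3 over `R` (helper26): helper93's `ε₃ = y₃^(q−1)/q` is `K₀`-rational and is a UNIT of the
valuation ring `Rw3K0` of `w₃` on `K₀(X₀(N))`, `N = M' q²`.
-/
import Fermat.Agent.GL.Val.ThirdK0
import Fermat.Agent.GL.Val.ThirdValEps

set_option autoImplicit false

noncomputable section

namespace Fermat.Agent.GL.Val.ThirdK0

open HahnSeries ModularCurve IsLocalRing
open Fermat.Agent.S24 Fermat.Agent.S24_helper62
open Fermat.Agent.GJ.J1 Fermat.Agent.GJ.J1.Val Fermat.Agent.GK.Val Fermat.Agent.GK.Val.GaussBase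
open Fermat.Agent.GL.CuspVal Fermat.Agent.GL.Val.CuspCoeff Fermat.Agent.GL.Val.GaussK0
open Fermat.Agent.GL.Val.CuspK0 Fermat.Agent.GL.W3
open Fermat.Agent.Common_helper32

section Eps

variable (A : ValuationSubring Qb) (N : ℕ) [NeZero N] (q : ℕ) {M' : ℕ}

/-- **`ε₃ = y₃^(q−1)/q` over `K₀`** -/
def eps3K0 {d' : ℕ} [NeZero (q ^ 2 * d')] [NeZero d'] (hdN : q ^ 2 * d' ∣ N) (hd'N : d' ∣ N) :
    modularFunctionFieldFullC (K0 A) N :=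
  y3K0 A N q hdN hd'N ^ (q - 1) *
    (algebraMap (K0 A) (modularFunctionFieldFullC (K0 A) N) ((q : ℕ) : K0 A))⁻¹

variable {N q}

theorem toFN0_eps3K0 {d' : ℕ} [NeZero (q ^ 2 * d')] [NeZero d'] (hdN : q ^ 2 * d' ∣ N)
    (hd'N : d' ∣ N) : toFN0 A N (eps3K0 A N q hdN hd'N) = eps3 N q hdN hd'N := by
  rw [eps3K0, map_mul, map_pow, toFN0_y3K0, map_inv₀, toFN_algebraMap, map_natCast, eps3]

variable (hq : q.Prime) (hN : N = M' * q ^ 2) (hqM : ¬ q ∣ M') (hA : (q : Qb) ∈ A.nonunits)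
  {d' : ℕ} [NeZero (q ^ 2 * d')] [NeZero d'] (hd' : d' ∣ M') (hdN : q ^ 2 * d' ∣ N)
  (hd'N : d' ∣ N)

include hq hN hqM hd' in
theorem eps3K0_mem : eps3K0 A N q hdN hd'N ∈ Rw3K0 A N q := by
  rw [mem_RwCuspK0_iff, toFN0_eps3K0]
  exact eps3_mem_Rw3 A hq hN hqM hd' hdN hd'N

include hq hN hqM hA hd' in
theorem eps3K0_inv_mem : (eps3K0 A N q hdN hd'N)⁻¹ ∈ Rw3K0 A N q := by
  rw [mem_RwCuspK0_iff, map_inv₀, toFN0_eps3K0]
  exact eps3_inv_mem_Rw3 A hq hN hqM hA hd' hdN hd'N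

include hq hN hqM hA hd' in
/-- **`ε₃` is a unit of `Rw3K0`**: `w₃(y₃^(q−1)) = w₃(q)` exactly, inside `K₀(X₀(N))` -/
theorem isUnit_eps3K0 :
    IsUnit (⟨eps3K0 A N q hdN hd'N, eps3K0_mem A hq hN hqM hd' hdN hd'N⟩ : Rw3K0 A N q) := by
  refine IsUnit.of_mul_eq_one
    ⟨(eps3K0 A N q hdN hd'N)⁻¹, eps3K0_inv_mem A hq hN hqM hA hd' hdN hd'N⟩ ?_
  apply Subtype.ext
  show eps3K0 A N q hdN hd'N * (eps3K0 A N q hdN hd'N)⁻¹ = 1
  apply mul_inv_cancel₀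
  intro h0
  have h2 := congrArg (toFN0 A N) h0
  rw [toFN0_eps3K0, map_zero] at h2
  -- `ε₃ = 0` is impossible: its reduction is nonzero
  have h3 := red3_eps3_ne_zero A hq hN hqM hA hd' hdN hd'N
    (eps3_mem_Rw3 A hq hN hqM hd' hdN hd'N)
  apply h3
  have : (⟨eps3 N q hdN hd'N, eps3_mem_Rw3 A hq hN hqM hd' hdN hd'N⟩ : (redData3 N A q).Rw) = 0 :=
    Subtype.ext h2
  rw [this, map_zero]

end Eps

end Fermat.Agent.GL.Val.ThirdK0
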