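/-
GATE-L / L5-II REG3, inputs (S1)+(S2) COMBINED (helper93): at level `N = M' q²`, `q ≥ 5`, `A` over `q`,
for `ε₃ = (j_{q²} − j)^(q−1)/q` (`ThirdValEps.lean`) and helper63's Hasse polynomials
(`T · U₂(J) = V₁(J)`, `T = (θJ)^(q−1)`, `V₁ = X^(q−1) (X − 1728)^((q−1)/2)`):

  `red₃ ε₃ · U₂(red₃ j) = − V₁(red₃ j)`     in the residue field of `w₃`.

So at every place of `C₃` where `J~ = a` with `a ∉ {0, 1728}` (`V₁(a) ≠ 0`) and `U₂(a) ≠ 0` (`a` not
supersingular), `ε₃` is a UNIT: `P₃ = (j_{q²} − j)` there (helper50's REG3, case (A)); the identity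
also controls the order of `red₃ ε₃` at the points over `0`, `1728`, `∞`.
-/
import Fermat.Agent.GL.Val.ThirdValEps
import Fermat.Agent.GL.Thick.ThickAdapters

set_option autoImplicit false

noncomputable section

namespace Fermat.Agent.GL.W3

open HahnSeries ModularCurve IsLocalRing Polynomial
open Fermat.Agent.S24 Fermat.Agent.S28 Fermat.Agent.S28.CuspExp Fermat.Agent.S28.Assemble
open Fermat.Agent.S24_helper62
open Fermat.Agent.GJ.J1 Fermat.Agent.GJ.J1.Val Fermat.Agent.GL.CuspVal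
open Fermat.Agent.GL.QDer Fermat.Agent.GL.Thick

variable {N : ℕ} [NeZero N] (A : ValuationSubring Kbar) {q M' : ℕ}

local notation "𝕜" => ResidueField A

/-- `qExpand` commutes with polynomial evaluation -/
theorem qExpand_aeval {κ : Type*} [Field κ] (n : ℕ) [NeZero n] (x : LaurentSeries κ) (P : κ[X]) :
    qExpand κ n (aeval x P) = aeval (qExpand κ n x) P := by
  induction P using Polynomial.induction_on' with
  | add p r hp hr => rw [map_add, map_add, map_add, hp, hr]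
  | monomial m c =>
    rw [aeval_monomial, aeval_monomial, map_mul, map_pow]
    congr 1
    rw [algebraMap_laurentSeries_eq_single, ← HahnSeries.C_apply, qExpand_C]

/-- the coercion `FresCusp → k((t))` commutes with polynomial evaluation -/
theorem coe_aeval_FresCusp (c : I0 N) (y : FresCusp N A c) (P : 𝕜[X]) :
    ((aeval y P : FresCusp N A c) : LaurentSeries 𝕜) = aeval (y : LaurentSeries 𝕜) P := by
  have h := Polynomial.aeval_algHom_apply (FresCusp N A c).val y P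
  exact h.symm

/-- **`red₃ ε₃ · U₂(red₃ j) = − V₁(red₃ j)`** (`q ≥ 5`, `A` over `q`, `N = M' q²`) -/
theorem red3_eps3_mul_hasseU₂ [Fact q.Prime] [NeZero q] [CharP 𝕜 q] (hN : N = M' * q ^ 2)
    (hqM : ¬ q ∣ M') (hA : A.LiesOverPrime q) (hq5 : 5 ≤ q) [NeZero (q ^ 2 * 1)]
    (hdN : q ^ 2 * 1 ∣ N) (h : eps3 N q hdN (one_dvd N) ∈ (redData3 N A q).Rw)
    (hj : jF N ∈ (redData3 N A q).Rw) :
    (redData3 N A q).red ⟨eps3 N q hdN (one_dvd N), h⟩ *
        aeval ((redData3 N A q).red ⟨jF N, hj⟩) (hasseU₂ q 𝕜 hq5) =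
      -aeval ((redData3 N A q).red ⟨jF N, hj⟩) (hasseV₁ q 𝕜) := by
  have hq : q.Prime := Fact.out
  apply Subtype.ext
  have hmul : ∀ a b : FresCusp N A (cusp3 N q),
      ((a * b : FresCusp N A (cusp3 N q)) : LaurentSeries 𝕜) =
        (a : LaurentSeries 𝕜) * (b : LaurentSeries 𝕜) := fun _ _ => rfl
  have hneg : ∀ a : FresCusp N A (cusp3 N q),
      ((-a : FresCusp N A (cusp3 N q)) : LaurentSeries 𝕜) = -(a : LaurentSeries 𝕜) := fun _ => rfl
  rw [hmul, hneg, coe_aeval_FresCusp, coe_aeval_FresCusp,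
    coe_red3_eps3 A hq hN hqM hA (one_dvd M') hdN (one_dvd N) h, coe_redCusp_jF,
    qExpand_congr (mul_one N), ← qExpand_aeval, ← qExpand_aeval, ← map_pow, neg_mul, ← map_mul,
    hasse_T q 𝕜 hq5]

/-- **`ε₃` is a unit wherever `U₂(J~) V₁(J~) ≠ 0`**, in the form: `red₃ ε₃ = − V₁(J~)/U₂(J~)` -/
theorem red3_eps3_eq_div [Fact q.Prime] [NeZero q] [CharP 𝕜 q] (hN : N = M' * q ^ 2)
    (hqM : ¬ q ∣ M') (hA : A.LiesOverPrime q) (hq5 : 5 ≤ q) [NeZero (q ^ 2 * 1)]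
    (hdN : q ^ 2 * 1 ∣ N) (h : eps3 N q hdN (one_dvd N) ∈ (redData3 N A q).Rw)
    (hj : jF N ∈ (redData3 N A q).Rw)
    (hU : aeval ((redData3 N A q).red ⟨jF N, hj⟩) (hasseU₂ q 𝕜 hq5) ≠ 0) :
    (redData3 N A q).red ⟨eps3 N q hdN (one_dvd N), h⟩ =
      -aeval ((redData3 N A q).red ⟨jF N, hj⟩) (hasseV₁ q 𝕜) /
        aeval ((redData3 N A q).red ⟨jF N, hj⟩) (hasseU₂ q 𝕜 hq5) := by
  rw [eq_div_iff hU]
  exact red3_eps3_mul_hasseU₂ A hN hqM hA hq5 hdN h hj

end Fermat.Agent.GL.W3
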