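/-
GATE-L / SMALL-Q (helper95), file 8: the small-prime twin of helper93's
GL/Val/ThirdValHasse.lean (REG3 inputs (S1)+(S2) combined), for `q ∈ {2, 3}`:

  `red₃ ε₃ = −(red₃ j)^(q−1)`       in the residue field of `w₃`  (level `N = M' q²`, `A` over `q`),

`ε₃ = (j_{q²} − j)^(q−1)/q` (`ThirdValEps.lean`).  Since `θ j̃ = −j̃` in characteristic `2`, `3`
(GL/Thick/SmallQTheta), `ε₃` is a `w₃`-unit whose reduction is a unit at EVERY point of `C₃` with
`j̃ ∉ {0, ∞}`, i.e. at every ordinary non-cuspidal point: REG3 case (A) covers all of them, there are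
no ordinary points over `0 = 1728`.
-/
import Fermat.Agent.GL.Val.ThirdValHasse
import Fermat.Agent.GL.Thick.SmallQTheta

set_option autoImplicit false

noncomputable section

namespace Fermat.Agent.GL.SmallQ

open HahnSeries ModularCurve IsLocalRing Polynomial
open Fermat.Agent.S24 Fermat.Agent.S28 Fermat.Agent.S28.CuspExp Fermat.Agent.S28.Assemble
open Fermat.Agent.S24_helper62
open Fermat.Agent.GJ.J1 Fermat.Agent.GJ.J1.Val Fermat.Agent.GL.CuspVal
open Fermat.Agent.GL.QDer Fermat.Agent.GL.Thick Fermat.Agent.GL.W3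

variable {N : ℕ} [NeZero N] (A : ValuationSubring Kbar) {q M' : ℕ}

local notation "𝕜" => ResidueField A

/-- **`red₃ ε₃ = −(red₃ j)^(q−1)`** (`q ∈ {2, 3}`, `A` over `q`, `N = M' q²`) -/
theorem red3_eps3_eq_small [Fact q.Prime] [NeZero q] [CharP (ResidueField A) q]
    (hN : N = M' * q ^ 2)
    (hqM : ¬ q ∣ M') (hA : A.LiesOverPrime q) (hq5 : ¬ 5 ≤ q) [NeZero (q ^ 2 * 1)]
    (hdN : q ^ 2 * 1 ∣ N) (h : eps3 N q hdN (one_dvd N) ∈ (redData3 N A q).Rw)
    (hj : jF N ∈ (redData3 N A q).Rw) :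
    (redData3 N A q).red ⟨eps3 N q hdN (one_dvd N), h⟩ =
      -((redData3 N A q).red ⟨jF N, hj⟩) ^ (q - 1) := by
  have hq : q.Prime := Fact.out
  apply Subtype.ext
  have hneg : ∀ a : FresCusp N A (cusp3 N q),
      ((-a : FresCusp N A (cusp3 N q)) : LaurentSeries 𝕜) = -(a : LaurentSeries 𝕜) := fun _ => rfl
  have hpow : ∀ (a : FresCusp N A (cusp3 N q)) (n : ℕ),
      ((a ^ n : FresCusp N A (cusp3 N q)) : LaurentSeries 𝕜) = (a : LaurentSeries 𝕜) ^ n :=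
    fun _ _ => rfl
  rw [hneg, hpow, coe_red3_eps3 A hq hN hqM hA (one_dvd M') hdN (one_dvd N) h, coe_redCusp_jF,
    qExpand_congr (mul_one N), thetaL_eq_haupt, ← map_pow, ← map_pow,
    thetaL_jqModC_pow_char_small q 𝕜 hq5]

/-- `ε₃` is a `w₃`-unit with reduction `−j̃^(q−1)`: in particular `red₃ ε₃ · (red₃ j)⁻¹^(q−1) = −1` -/
theorem red3_eps3_mul_inv_small [Fact q.Prime] [NeZero q] [CharP (ResidueField A) q]
    (hN : N = M' * q ^ 2)
    (hqM : ¬ q ∣ M') (hA : A.LiesOverPrime q) (hq5 : ¬ 5 ≤ q) [NeZero (q ^ 2 * 1)]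
    (hdN : q ^ 2 * 1 ∣ N) (h : eps3 N q hdN (one_dvd N) ∈ (redData3 N A q).Rw)
    (hj : jF N ∈ (redData3 N A q).Rw)
    (hj0 : (redData3 N A q).red ⟨jF N, hj⟩ ≠ 0) :
    (redData3 N A q).red ⟨eps3 N q hdN (one_dvd N), h⟩ *
      (((redData3 N A q).red ⟨jF N, hj⟩)⁻¹) ^ (q - 1) = -1 := by
  rw [red3_eps3_eq_small A hN hqM hA hq5 hdN h hj, neg_mul, ← mul_pow, mul_inv_cancel₀ hj0,
    one_pow]

end Fermat.Agent.GL.SmallQ
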