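/-
GATE-L / REG3 case (A), the `K₀`-level HASSE CONGRUENCE (helper93; input "coefficient lift" of
helper50's REG3 checklist 3003 (R)(A)).

`A | q` a valuation subring of `ℚ̄`, `K₀ = ℚ̄^{I_A}`, `N = M' q²`, `q ∤ M'`, `F₀ = K₀(X₀(N))`,
`w₃ = Rw3K0 A N q`, `ε₃ = eps3K0 = (j(q² z) − j(z))^(q−1)/q ∈ F₀`, `j = jK0 A N`.

* GENERIC: polynomials with INTEGER coefficients evaluate inside any valuation ring of a reduction
  datum and commute with the reduction map (`aeval_int_mem_Rw`, `red_aeval_int`);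
* `eps3K0_congr_iff` : for `PU PV : ℤ[X]`,
    `ε₃ · PU(j) + PV(j) ∈ 𝔪(w₃)  ↔  red₃ ε₃ · P̄U(red₃ j) + P̄V(red₃ j) = 0`
  (the right side over `ℚ̄`, helper18's `redData3`);
* **`hasse_congr_K0`** (`q ≥ 5`): `PU, PV` integer lifts of `U₂ = hasseU₂ q 𝕜`, `V₁ = hasseV₁ q 𝕜`
  ⟹ `ε₃ · PU(j) + PV(j) ∈ 𝔪(w₃)`  (from `red3_eps3_mul_hasseU₂`);
* `hasseV₁Z`, `map_hasseV₁Z` : the explicit integer lift `X^(q−1) (X − 1728)^((q−1)/2)` of `V₁`;
* **`small_congr_K0`** (`q ∈ {2, 3}`): `ε₃ + j^(q−1) ∈ 𝔪(w₃)`  (from helper95's `red3_eps3_eq_small`);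
* `aeval_jK0_mem_Rw3K0`, and the forms with helper90's chart `jC N (K0 A)`.
-/
import Fermat.Agent.GL.Val.ThirdValHasseSmall
import Fermat.Agent.GL.Val.ThirdK0Eps
import Fermat.Agent.GL.Val.OrthK0

set_option autoImplicit false

noncomputable section

namespace Fermat.Agent.GL.W3

open HahnSeries ModularCurve IsLocalRing Polynomial
open Fermat.Agent.S24 Fermat.Agent.S28 Fermat.Agent.S28.CuspExp Fermat.Agent.S28.Assemble
open Fermat.Agent.S24_helper62
open Fermat.Agent.GJ.J1 Fermat.Agent.GJ.J1.Val Fermat.Agent.GL.CuspVal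
open Fermat.Agent.GL.QDer Fermat.Agent.GL.Thick Fermat.Agent.GL.SmallQ
open Fermat.Agent.GL.Val.GaussK0 Fermat.Agent.GL.Val.CuspK0 Fermat.Agent.GL.Val.SecondK0
open Fermat.Agent.GL.Val.OrthK0 Fermat.Agent.GL.Val.ThirdK0 Fermat.Agent.GL.Val.DegBase
open Fermat.Agent.Common_helper32

/-! ### Integer polynomials and reduction data -/

section Generic

variable {K F k Ft : Type*} [Field K] [Field F] [Algebra K F] [Field k] [Field Ft] [Algebra k Ft]

/-- ring homomorphisms commute with the evaluation of integer polynomials -/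
theorem map_aeval_int {S T : Type*} [CommRing S] [CommRing T] (f : S →+* T) (x : S) (P : ℤ[X]) :
    f (aeval x P) = aeval (f x) P :=
  (Polynomial.aeval_algHom_apply f.toIntAlgHom x P).symm

/-- integer polynomials preserve the valuation ring -/
theorem aeval_int_mem_Rw (R : RedData K F k Ft) {x : F} (hx : x ∈ R.Rw) (P : ℤ[X]) :
    aeval x P ∈ R.Rw := by
  have h := map_aeval_int R.Rw.subtype ⟨x, hx⟩ P
  have h2 : R.Rw.subtype ⟨x, hx⟩ = x := rfl
  rw [h2] at h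
  rw [← h]
  exact Subtype.property _

/-- the reduction map commutes with the evaluation of integer polynomials -/
theorem red_aeval_int (R : RedData K F k Ft) {x : F} (hx : x ∈ R.Rw) (P : ℤ[X])
    (h : aeval x P ∈ R.Rw) :
    R.red ⟨aeval x P, h⟩ = aeval (R.red ⟨x, hx⟩) (P.map (Int.castRingHom k)) := by
  have h1 : (⟨aeval x P, h⟩ : R.Rw) = aeval (⟨x, hx⟩ : R.Rw) P := by
    apply Subtype.ext
    exact (map_aeval_int R.Rw.subtype ⟨x, hx⟩ P).symm
  rw [h1, map_aeval_int R.red]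
  exact (Polynomial.aeval_map_algebraMap (A := k) (R.red ⟨x, hx⟩) P).symm

/-- **congruences `e · PU(x) + PV(x) ∈ 𝔪` are read off the reduction map** (any reduction datum,
integer polynomials `PU`, `PV`) -/
theorem congr_mem_nonunits_iff_red (R : RedData K F k Ft) {e x : F} (he : e ∈ R.Rw)
    (hx : x ∈ R.Rw) (PU PV : ℤ[X]) :
    e * aeval x PU + aeval x PV ∈ R.Rw.nonunits ↔
      R.red ⟨e, he⟩ * aeval (R.red ⟨x, hx⟩) (PU.map (Int.castRingHom k)) +
        aeval (R.red ⟨x, hx⟩) (PV.map (Int.castRingHom k)) = 0 := by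
  have hU := aeval_int_mem_Rw R hx PU
  have hV := aeval_int_mem_Rw R hx PV
  have hmem : e * aeval x PU + aeval x PV ∈ R.Rw := add_mem (mul_mem he hU) hV
  have hsplit : (⟨e * aeval x PU + aeval x PV, hmem⟩ : R.Rw) =
      ⟨e, he⟩ * ⟨aeval x PU, hU⟩ + ⟨aeval x PV, hV⟩ := rfl
  rw [mem_nonunits_iff_red]
  constructor
  · rintro ⟨_, h0⟩
    rw [← red_aeval_int R hx PU hU, ← red_aeval_int R hx PV hV, ← map_mul, ← map_add, ← hsplit]
    exact h0
  · intro h0
    refine ⟨hmem, ?_⟩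
    rw [hsplit, map_add, map_mul, red_aeval_int R hx PU hU, red_aeval_int R hx PV hV]
    exact h0

end Generic

/-! ### The congruence over `K₀` -/

section K0

variable (A : ValuationSubring Qb) {N q M' : ℕ} [NeZero N]

local notation "𝕜" => ResidueField A

/-- `j` over `K₀` base-changes to `j` over `ℚ̄` -/
theorem toFN0_jK0_eq_jF : toFN0 A N (jK0 A N) = jF N := by
  have h : toFN0 A N (jK0 A N) = mapK0Bar A N (jK0 A N) := Subtype.ext rfl
  rw [h, mapK0Bar_jK0]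

/-- integer polynomials in `j` lie in every cusp valuation ring over `K₀` -/
theorem aeval_jK0_mem_RwCuspK0 (c : I0 N) (P : ℤ[X]) : aeval (jK0 A N) P ∈ RwCuspK0 A N c := by
  rw [mem_RwCuspK0_iff, map_aeval_int, toFN0_jK0_eq_jF]
  exact aeval_int_mem_Rw _ (jF_mem_RwCusp N A c) P

theorem aeval_jK0_mem_Rw3K0 (P : ℤ[X]) : aeval (jK0 A N) P ∈ Rw3K0 A N q :=
  aeval_jK0_mem_RwCuspK0 A _ P

variable [NeZero (q ^ 2 * 1)] (hdN : q ^ 2 * 1 ∣ N)

/-- **the `K₀`-level congruence is read off the reduction at `w₃`** -/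
theorem eps3K0_congr_iff (PU PV : ℤ[X]) (h : eps3 N q hdN (one_dvd N) ∈ (redData3 N A q).Rw)
    (hj : jF N ∈ (redData3 N A q).Rw) :
    eps3K0 A N q hdN (one_dvd N) * aeval (jK0 A N) PU + aeval (jK0 A N) PV ∈
        (Rw3K0 A N q).nonunits ↔
      (redData3 N A q).red ⟨eps3 N q hdN (one_dvd N), h⟩ *
          aeval ((redData3 N A q).red ⟨jF N, hj⟩) (PU.map (Int.castRingHom 𝕜)) +
        aeval ((redData3 N A q).red ⟨jF N, hj⟩) (PV.map (Int.castRingHom 𝕜)) = 0 := by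
  rw [mem_nonunits_of_comap (toFN0 A N : _ →+* _) (Rw3K0 A N q) (redData3 N A q).Rw
    (fun x => Iff.rfl), map_add, map_mul, toFN0_eps3K0, map_aeval_int, map_aeval_int, toFN0_jK0_eq_jF]
  exact congr_mem_nonunits_iff_red (redData3 N A q) h hj PU PV

/-- the explicit integer lift of `V₁ = X^(q−1) (X − 1728)^((q−1)/2)` -/
def hasseV₁Z (q : ℕ) : ℤ[X] := X ^ (q - 1) * (X - Polynomial.C 1728) ^ ((q - 1) / 2)

theorem map_hasseV₁Z (q : ℕ) (k : Type*) [Field k] :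
    (hasseV₁Z q).map (Int.castRingHom k) = hasseV₁ q k := by
  have h1728 : (Polynomial.C (1728 : ℤ)).map (Int.castRingHom k) = Polynomial.C (1728 : k) := by
    rw [Polynomial.map_C]
    congr 1
    simp
  rw [hasseV₁Z, hasseV₁, hasseU₁, Polynomial.map_mul, Polynomial.map_pow, Polynomial.map_pow,
    Polynomial.map_sub, Polynomial.map_X, h1728]

variable (hN : N = M' * q ^ 2) (hqM : ¬ q ∣ M') (hA : A.LiesOverPrime q)

include hN hqM hA in
/-- **the Hasse congruence over `K₀`** (`q ≥ 5`): `ε₃ · U₂(j) + V₁(j) ∈ 𝔪(w₃)` for any integer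
lifts `PU`, `PV` of `U₂`, `V₁`. -/
theorem hasse_congr_K0 [Fact q.Prime] [CharP 𝕜 q] (hq5 : 5 ≤ q) (PU PV : ℤ[X])
    (hPU : PU.map (Int.castRingHom 𝕜) = hasseU₂ q 𝕜 hq5)
    (hPV : PV.map (Int.castRingHom 𝕜) = hasseV₁ q 𝕜) :
    eps3K0 A N q hdN (one_dvd N) * aeval (jK0 A N) PU + aeval (jK0 A N) PV ∈
      (Rw3K0 A N q).nonunits := by
  have hq : q.Prime := Fact.out
  have : NeZero q := ⟨hq.ne_zero⟩
  have h := eps3_mem_Rw3 A hq hN hqM (one_dvd M') hdN (one_dvd N)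
  have hj : jF N ∈ (redData3 N A q).Rw := jF_mem_RwCusp N A _
  rw [eps3K0_congr_iff A hdN PU PV h hj, hPU, hPV,
    red3_eps3_mul_hasseU₂ A hN hqM hA hq5 hdN h hj, neg_add_cancel]

include hN hqM hA in
/-- the Hasse congruence with the explicit lift of `V₁` -/
theorem hasse_congr_K0' [Fact q.Prime] [CharP 𝕜 q] (hq5 : 5 ≤ q) (PU : ℤ[X])
    (hPU : PU.map (Int.castRingHom 𝕜) = hasseU₂ q 𝕜 hq5) :
    eps3K0 A N q hdN (one_dvd N) * aeval (jK0 A N) PU + aeval (jK0 A N) (hasseV₁Z q) ∈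
      (Rw3K0 A N q).nonunits :=
  hasse_congr_K0 A hdN hN hqM hA hq5 PU _ hPU (map_hasseV₁Z q 𝕜)

include hN hqM hA in
/-- **the small-prime congruence over `K₀`** (`q ∈ {2, 3}`): `ε₃ + j^(q−1) ∈ 𝔪(w₃)` -/
theorem small_congr_K0 (hq : q.Prime) (hq5 : ¬ 5 ≤ q) :
    eps3K0 A N q hdN (one_dvd N) + jK0 A N ^ (q - 1) ∈ (Rw3K0 A N q).nonunits := by
  have : Fact q.Prime := ⟨hq⟩
  have : NeZero q := ⟨hq.ne_zero⟩
  have : CharP 𝕜 q := Fermat.Agent.GJ.Kum.charP_residueField A hq hA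
  have h := eps3_mem_Rw3 A hq hN hqM (one_dvd M') hdN (one_dvd N)
  have hj : jF N ∈ (redData3 N A q).Rw := jF_mem_RwCusp N A _
  have h1 := (eps3K0_congr_iff A hdN (1 : ℤ[X]) (X ^ (q - 1)) h hj).mpr (by
    rw [red3_eps3_eq_small A hN hqM hA hq5 hdN h hj]
    simp)
  simpa using h1

end K0

end Fermat.Agent.GL.W3
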