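/-
GATE-L / REG3 case (A) over `K₀`, UNCONDITIONAL form (helper93): helper63's uniform integer lifts
`intU₂ q hq5`, `intV₁ q : ℤ[X]` (`GL/Thick/HasseMap.lean`) plugged into `hasse_congr_K0`
(`GL/Val/ThirdK0Hasse.lean`), and the same identity in the `K₀`-level residue field of `w₃`
(helper26's `redData3K0`, residue field inside `k₀((t))`, `k₀ = ResidueField (R0 A)`).

`A | q`, `q ≥ 5`, `N = M' q²`, `q ∤ M'`, `F₀ = K₀(X₀(N))`, `j = jK0 A N`, `ε₃ = eps3K0`:

* `hasse_congr_K0_int` : `ε₃ · intU₂(j) + intV₁(j) ∈ 𝔪(w₃)`  (no hypothesis on lifts);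
* `red3K0_eps3K0_mul_hasseU₂` : `red₃ ε₃ · U₂(red₃ j) = − V₁(red₃ j)` in `Fres3K0` over `k₀`
  (`red₃ = (redData3K0 A N q hq hA).red`, `U₂ = hasseU₂ q k₀ hq5`, `V₁ = hasseV₁ q k₀`);
* `red3K0_eps3K0_int` : the same with the integer polynomials evaluated through `ℤ → k₀`;
* small primes `q ∈ {2, 3}` : `red3K0_eps3K0_small : red₃ ε₃ = − (red₃ j)^(q−1)`.

NOTE: `hA` is stated as `(q : Qb) ∈ A.nonunits` (helper26's convention; `A.LiesOverPrime q` unfolds
to it) so that the shortcut instance `instAlgebraFresCuspK0` fires at instance transparency.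
-/
import Fermat.Agent.GL.Val.ThirdK0Hasse
import Fermat.Agent.GL.Val.ThirdK0Red
import Fermat.Agent.GL.Thick.HasseMap

set_option autoImplicit false

noncomputable section

namespace Fermat.Agent.GL.W3

open HahnSeries ModularCurve IsLocalRing Polynomial
open Fermat.Agent.S24 Fermat.Agent.S24_helper62
open Fermat.Agent.GJ.J1 Fermat.Agent.GJ.J1.Val Fermat.Agent.GL.CuspVal
open Fermat.Agent.GL.Thick
open Fermat.Agent.GL.Val.GaussK0 Fermat.Agent.GL.Val.CuspK0 Fermat.Agent.GL.Val.SecondK0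
open Fermat.Agent.GL.Val.OrthK0 Fermat.Agent.GL.Val.ThirdK0
open Fermat.Agent.Common_helper32

variable (A : ValuationSubring Qb) {N q M' : ℕ} [NeZero N] [NeZero (q ^ 2 * 1)]
  (hdN : q ^ 2 * 1 ∣ N) (hN : N = M' * q ^ 2) (hqM : ¬ q ∣ M') (hA : (q : Qb) ∈ A.nonunits)

local notation "𝕜" => ResidueField A
local notation "k₀" => ResidueField (R0 A)

include hN hqM hA in
/-- **the Hasse congruence over `K₀`, unconditional** (`q ≥ 5`):
`ε₃ · intU₂(j) + intV₁(j) ∈ 𝔪(w₃)` for helper63's integer lifts. -/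
theorem hasse_congr_K0_int [Fact q.Prime] (hq5 : 5 ≤ q) :
    eps3K0 A N q hdN (one_dvd N) * aeval (jK0 A N) (intU₂ q hq5) +
        aeval (jK0 A N) (intV₁ q) ∈ (Rw3K0 A N q).nonunits := by
  have hq : q.Prime := Fact.out
  have : CharP 𝕜 q := Fermat.Agent.GJ.Kum.charP_residueField A hq hA
  exact hasse_congr_K0 A hdN hN hqM hA hq5 _ _ (intU₂_map q hq5 𝕜) (intV₁_map q 𝕜)

variable (hq : q.Prime)

/-- `ε₃` lies in the valuation ring of helper26's `redData3K0` -/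
theorem eps3K0_mem_redData3K0 (hN : N = M' * q ^ 2) (hqM : ¬ q ∣ M')
    (hA : (q : Qb) ∈ A.nonunits) :
    eps3K0 A N q hdN (one_dvd N) ∈ (redData3K0 A N q hq hA).Rw :=
  eps3K0_mem A hq hN hqM (one_dvd M') hdN (one_dvd N)

omit [NeZero (q ^ 2 * 1)] in
/-- `j` lies in the valuation ring of helper26's `redData3K0` -/
theorem jK0_mem_redData3K0 (hA : (q : Qb) ∈ A.nonunits) :
    jK0 A N ∈ (redData3K0 A N q hq hA).Rw := by
  have h := aeval_jK0_mem_Rw3K0 (q := q) A (N := N) (X : ℤ[X])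
  rwa [aeval_X] at h

include hN hqM in
/-- **`red₃ ε₃ · intU₂(red₃ j) + intV₁(red₃ j) = 0`** in the `K₀`-level residue field of `w₃` -/
theorem red3K0_eps3K0_int [Fact q.Prime] (hq5 : 5 ≤ q)
    (h : eps3K0 A N q hdN (one_dvd N) ∈ (redData3K0 A N q hq hA).Rw)
    (hj : jK0 A N ∈ (redData3K0 A N q hq hA).Rw) :
    (redData3K0 A N q hq hA).red ⟨eps3K0 A N q hdN (one_dvd N), h⟩ *
        aeval ((redData3K0 A N q hq hA).red ⟨jK0 A N, hj⟩)
          ((intU₂ q hq5).map (Int.castRingHom k₀)) +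
      aeval ((redData3K0 A N q hq hA).red ⟨jK0 A N, hj⟩)
        ((intV₁ q).map (Int.castRingHom k₀)) = 0 :=
  (congr_mem_nonunits_iff_red (redData3K0 A N q hq hA) h hj (intU₂ q hq5) (intV₁ q)).mp
    (hasse_congr_K0_int A hdN hN hqM hA hq5)

include hN hqM in
/-- **`red₃ ε₃ · U₂(red₃ j) = − V₁(red₃ j)`** over `k₀` (`q ≥ 5`), for helper26's `redData3K0` -/
theorem red3K0_eps3K0_mul_hasseU₂ [Fact q.Prime] [CharP k₀ q] (hq5 : 5 ≤ q)
    (h : eps3K0 A N q hdN (one_dvd N) ∈ (redData3K0 A N q hq hA).Rw)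
    (hj : jK0 A N ∈ (redData3K0 A N q hq hA).Rw) :
    (redData3K0 A N q hq hA).red ⟨eps3K0 A N q hdN (one_dvd N), h⟩ *
        aeval ((redData3K0 A N q hq hA).red ⟨jK0 A N, hj⟩) (hasseU₂ q k₀ hq5) =
      -aeval ((redData3K0 A N q hq hA).red ⟨jK0 A N, hj⟩) (hasseV₁ q k₀) := by
  have h1 := red3K0_eps3K0_int A hdN hN hqM hA hq hq5 h hj
  rw [intU₂_map q hq5 k₀, intV₁_map q k₀] at h1
  exact eq_neg_of_add_eq_zero_left h1

include hN hqM in
/-- **small primes** (`q ∈ {2, 3}`): `red₃ ε₃ = − (red₃ j)^(q−1)` over `k₀` -/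
theorem red3K0_eps3K0_small (hq5 : ¬ 5 ≤ q)
    (h : eps3K0 A N q hdN (one_dvd N) ∈ (redData3K0 A N q hq hA).Rw)
    (hj : jK0 A N ∈ (redData3K0 A N q hq hA).Rw) :
    (redData3K0 A N q hq hA).red ⟨eps3K0 A N q hdN (one_dvd N), h⟩ =
      -((redData3K0 A N q hq hA).red ⟨jK0 A N, hj⟩) ^ (q - 1) := by
  have h1 := small_congr_K0 A hdN hN hqM hA hq hq5
  have h2 : eps3K0 A N q hdN (one_dvd N) + jK0 A N ^ (q - 1) =
      eps3K0 A N q hdN (one_dvd N) * aeval (jK0 A N) (1 : ℤ[X]) +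
        aeval (jK0 A N) (X ^ (q - 1) : ℤ[X]) := by
    simp
  rw [h2] at h1
  have h3 := (congr_mem_nonunits_iff_red (redData3K0 A N q hq hA) h hj 1 (X ^ (q - 1))).mp h1
  simp only [Polynomial.map_one, Polynomial.map_pow, Polynomial.map_X, map_one, mul_one,
    map_pow, aeval_X] at h3
  exact eq_neg_of_add_eq_zero_left h3

end Fermat.Agent.GL.W3
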