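/-
GATE-L / L1e-(i) INSTANCE over helper45's base (helper90).

helper45's legs (`GL/Val/LegsK0.lean`: `exists_leg1`, `exists_leg2Q`) are orthonormal over
`LegsK0.baseJK0 A N : ValuationSubring (K0 A)⟮OrthK0.jK0 A N⟯` with
`OrthK0.jK0 A N = genC (K0 A) (R0 A) N (one_dvd N)`, whereas `GaussAtK0.baseJK0` uses the chart
`jC N (K0 A)` (propositionally equal, but a different TYPE of base field).  This file restates
the `IsGaussAt` / `IsUnif` / `IsRamified` facts of `GaussAtK0` over helper45's base, so that the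
L1e assembly runs over ONE base without transports.
-/
import Fermat.Agent.GL.Val.GaussAtK0
import Fermat.Agent.GL.Val.LegsK0

set_option autoImplicit false

noncomputable section

namespace Fermat.Agent.GL.Val.GaussAtLegsK0

open HahnSeries ModularCurve IsLocalRing IntermediateField
open Fermat.Agent.S24 Fermat.Agent.S24_helper62
open Fermat.Agent.GJ.J1 Fermat.Agent.GJ.J1.Val Fermat.Agent.GK.Val Fermat.Agent.GK.Val.GaussBase
open Fermat.Agent.GL.CuspVal Fermat.Agent.GL.Val.CuspCoeff Fermat.Agent.GL.Val.GaussK0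
open Fermat.Agent.GL.Val.CuspK0 Fermat.Agent.GL.Val.ThirdK0 Fermat.Agent.GL.Val.SecondK0 Fermat.Agent.GL.W3
open Fermat.Agent.GL.Val.SecondK0Hall Fermat.Agent.GL.Val.RamK0 Fermat.Agent.GL.Val.DegBase
open Fermat.Agent.GL.Local.InertiaField Fermat.Agent.GL.MultiVal
open Fermat.Agent.GL.GaussAt Fermat.Agent.GL.MultiVal.GaussBaseJ
open Fermat.Agent.Common_helper32
open Fermat.Agent.GK.AL Fermat.Agent.GL.AL
open Fermat.Agent.GL.Val.OrthK0 Fermat.Agent.GL.Val.LegsK0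

variable (A : ValuationSubring Qb) (N : ℕ) [NeZero N]

/-- `j` (helper45's `OrthK0.jK0`) is a Gauss point of `w₁` over `R₀` -/
theorem isGaussAt_Rw1K0 : IsGaussAt (R0 A) (RwK0 A N) (jK0 A N) := by
  rw [jK0_eq_jC]; exact GaussAtK0.isGaussAt_Rw1K0 A N

variable {N}

/-- `j` is a Gauss point of `w₂ = w₁ ∘ W_Q` over `R₀` -/
theorem isGaussAt_Rw2QK0 {Q : ℕ} (h : HallDvd Q N) :
    IsGaussAt (R0 A) (redData2QK0 A N h).Rw (jK0 A N) := by
  rw [jK0_eq_jC]; exact GaussAtK0.isGaussAt_Rw2QK0 A h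

/-- `j` is a Gauss point of every cusp valuation over `R₀` -/
theorem isGaussAt_RwCuspK0 (c : I0 N) : IsGaussAt (R0 A) (RwCuspK0 A N c) (jK0 A N) := by
  rw [jK0_eq_jC]; exact GaussAtK0.isGaussAt_RwCuspK0 A c

/-- `j` is a Gauss point of `w₃` over `R₀` -/
theorem isGaussAt_Rw3K0 (q : ℕ) : IsGaussAt (R0 A) (Rw3K0 A N q) (jK0 A N) :=
  isGaussAt_RwCuspK0 A (cusp3 N q)

variable (N) {q : ℕ}

/-- the uniformiser, in helper45's `K₀(j)` -/
abbrev qJ (q : ℕ) : (K0 A)⟮jK0 A N⟯ := algebraMap (K0 A) (K0 A)⟮jK0 A N⟯ ((q0 A q : R0 A) : K0 A)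

variable (hq : q.Prime) (hA : (q : Qb) ∈ A.nonunits)

include hq hA in
/-- **`q` is a uniformiser of helper45's `baseJK0`** -/
theorem isUnif_baseJK0 : IsUnif (LegsK0.baseJK0 A N) (qJ A N q) :=
  isUnif_baseJ (isUnif_R0 A hq hA) (isRamified_Rw1K0 A N hq hA).mem_iff (isGaussAt_Rw1K0 A N)

include hq hA in
/-- generic: `IsRamified` over `R₀` + Gauss at `j` ⟹ `IsRamified` over helper45's `baseJK0` -/
theorem isRamified_baseJK0 {V : ValuationSubring (modularFunctionFieldFullC (K0 A) N)}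
    {ϖ : modularFunctionFieldFullC (K0 A) N} {e : ℕ}
    (hR : IsRamified (R0 A) ((q0 A q : R0 A) : K0 A) V ϖ e)
    (hj : IsGaussAt (R0 A) V (jK0 A N)) : IsRamified (LegsK0.baseJK0 A N) (qJ A N q) V ϖ e :=
  isRamified_baseJ (isRamified_Rw1K0 A N hq hA).mem_iff (isGaussAt_Rw1K0 A N) hR hj

include hq hA in
/-- `w₁` over helper45's `baseJK0`: `e₁ = 1` -/
theorem isRamified_baseJ_Rw1K0 :
    IsRamified (LegsK0.baseJK0 A N) (qJ A N q) (RwK0 A N)
      (algebraMap (K0 A) (modularFunctionFieldFullC (K0 A) N) ((q0 A q : R0 A) : K0 A)) 1 :=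
  isRamified_baseJK0 A N hq hA (isRamified_Rw1K0 A N hq hA) (isGaussAt_Rw1K0 A N)

include hq hA in
/-- `w₂` over helper45's `baseJK0`: `e₂ = 1` -/
theorem isRamified_baseJ_Rw2QK0 {Q : ℕ} (h : HallDvd Q N) :
    IsRamified (LegsK0.baseJK0 A N) (qJ A N q) (redData2QK0 A N h).Rw
      (algebraMap (K0 A) (modularFunctionFieldFullC (K0 A) N) ((q0 A q : R0 A) : K0 A)) 1 :=
  isRamified_baseJK0 A N hq hA (isRamified_Rw2QK0 A N h hq hA) (isGaussAt_Rw2QK0 A h)

variable {N} {M' : ℕ} (hN : N = M' * q ^ 2) (hqM : ¬ q ∣ M')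
  {d' : ℕ} [NeZero (q ^ 2 * d')] [NeZero d'] (hd' : d' ∣ M') (hdN : q ^ 2 * d' ∣ N)
  (hd'N : d' ∣ N)

include hq hA hN hqM hd' in
/-- `w₃` over helper45's `baseJK0`: `e₃ = q - 1`, uniformiser `y₃` -/
theorem isRamified_baseJ_Rw3K0 :
    IsRamified (LegsK0.baseJK0 A N) (qJ A N q) (Rw3K0 A N q) (y3K0 A N q hdN hd'N) (q - 1) := by
  refine isRamified_baseJK0 A N hq hA ?_ (isGaussAt_Rw3K0 A q)
  rw [GaussAtK0.coe_q0_eq_natCast]
  exact isRamified_Rw3K0 A hq hN hqM hA hd' hdN hd'N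

end Fermat.Agent.GL.Val.GaussAtLegsK0
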