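/-
GATE-L PREP (helper45): **the first valuation `w₁` over the UNRAMIFIED base**.

`A | q` a valuation subring of `ℚ̄`, `K₀ = ℚ̄^{I_A}` its inertia field, `R = A ∩ K₀ = baseRing A`
(helper26: a DVR with uniformiser `q` and the residue field of `A`).  The cusp-`∞` Gauss valuation
of `K₀(X₀(N)) = modularFunctionFieldFullC K₀ N` attached to `R`:

* `redDataK0 A N : RedData K₀ (K₀(X₀(N))) k₀ (FresK0 A N)`   (`GK/Val/GaussBase`);
* `isDiscreteValuationRing_RwK0` : `RwK0 A N` is a DVR;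
* `maximalIdeal_RwK0` : `𝔪 = (q)`    — "`e₁ = 1`", value group `ℤ`;
* `resMapK0_bijective` : the residue field `k₀` of `R` is the residue field of `A`;
* `mem_RwK0_iff` / `mem_RwK0_iff_mem_RwBar` : `w₁` over `ℚ̄` RESTRICTS to `w₁` over `K₀`;
* `redL_mapK0` : the reductions are compatible;
* `FresK0_le_of_FresBar_le` : `F~₁(ℚ̄) ≤ k(X₀(M))` ⟹ `F~₁(K₀) ≤ k₀(X₀(M))`.
-/
import Fermat.Agent.GK.Val.GaussBaseChange
import Fermat.Agent.GK.Val.GaussDvr
import Fermat.Agent.GL.Local.InertiaFieldBase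

set_option autoImplicit false

noncomputable section

namespace Fermat.Agent.GL.Val.GaussK0

open HahnSeries ModularCurve IsLocalRing
open Fermat.Agent.GJ.J1 Fermat.Agent.GJ.J1.Val
open Fermat.Agent.GK.Val.GaussBase Fermat.Agent.GK.Val.BaseChange Fermat.Agent.GK.Val.GaussDvr
open Fermat.Agent.GL.Local.InertiaField
open Fermat.Agent.Common_helper32

variable (A : ValuationSubring Qb) (N : ℕ)

/-- the inertia field `K₀ = ℚ̄^{I_A}` as a BARE field: hiding the `IntermediateField` structure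
keeps instance search fast (`Algebra K₀ (K₀(X₀(N)))` takes 5 s on `↥(K0 A)`) -/
def K0 : Type := ↥(inertiaField A)

instance instFieldK0 : Field (K0 A) := inferInstanceAs (Field ↥(inertiaField A))

instance instCharZeroK0 : CharZero (K0 A) := inferInstanceAs (CharZero ↥(inertiaField A))

/-- `K₀` is helper26's `inertiaField A` -/
def toK0 : inertiaField A ≃+* K0 A := RingEquiv.refl _

/-- the inclusion `K₀ → ℚ̄` -/
def ι0 : K0 A →+* Qb := algebraMap ↥(inertiaField A) Qb

theorem ι0_toK0 (x : inertiaField A) : ι0 A (toK0 A x) = (x : Qb) := rfl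

theorem ι0_injective : Function.Injective (ι0 A) := (ι0 A).injective

/-- `x ∈ ℚ̄` lies in (the image of) `K₀` iff it is fixed by the inertia group -/
theorem mem_range_ι0_iff (x : Qb) :
    x ∈ (ι0 A).range ↔ ∀ σ ∈ A.inertiaSubgroupIn ℚ, σ x = x := by
  rw [← mem_inertiaField_iff]
  constructor
  · rintro ⟨y, rfl⟩
    exact ((toK0 A).symm y).2
  · intro hx
    exact ⟨toK0 A ⟨x, hx⟩, rfl⟩

/-- `R = A ∩ K₀` (helper26's `baseRing A`) -/
def R0 : ValuationSubring (K0 A) := baseRing A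

theorem mem_R0_iff (x : K0 A) : x ∈ R0 A ↔ ι0 A x ∈ A := Iff.rfl

theorem hA0 : ∀ x : K0 A, x ∈ R0 A ↔ ι0 A x ∈ A := fun _ => Iff.rfl

/-- `R₀` is helper26's `baseRing A` -/
def toR0 : baseRing A ≃+* R0 A := RingEquiv.refl _

/-- the Gauss valuation ring of `K₀(X₀(N))` -/
abbrev RwK0 : ValuationSubring (modularFunctionFieldFullC (K0 A) N) :=
  RwC (K0 A) (R0 A) N

/-- its residue field -/
abbrev FresK0 : IntermediateField (ResidueField (R0 A))
    (LaurentSeries (ResidueField (R0 A))) :=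
  FresC (K0 A) (R0 A) N

/-- **`w₁` over the unramified base, as a reduction datum** -/
abbrev redDataK0 : RedData (K0 A) (modularFunctionFieldFullC (K0 A) N)
    (ResidueField (R0 A)) (FresK0 A N) :=
  redDataC (K0 A) (R0 A) N

/-- the base extension `K₀(X₀(N)) → ℚ̄(X₀(N))` -/
abbrev mapK0 : modularFunctionFieldFullC (K0 A) N →+* modularFunctionFieldFullC Qb N :=
  mapC (ι0 A) N

/-- the map of residue fields `k₀ → k` -/
abbrev resMapK0 : ResidueField (R0 A) →+* ResidueField A :=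
  resMap (ι0 A) (R0 A) A (hA0 A)

/-- **`w₁` over `ℚ̄` restricts to `w₁` over `K₀`** -/
theorem mem_RwK0_iff (x : modularFunctionFieldFullC (K0 A) N) :
    x ∈ RwK0 A N ↔ mapK0 A N x ∈ RwC Qb A N :=
  mem_RwC_iff (ι0 A) (R0 A) A (hA0 A) N x

/-- the reductions are compatible -/
theorem redL_mapK0 {x : modularFunctionFieldFullC (K0 A) N} (hx : x ∈ RwK0 A N)
    (hx' : mapK0 A N x ∈ RwC Qb A N) :
    redL A _ (hasGaussFrac_fullC Qb A N) ⟨mapK0 A N x, hx'⟩ =
      coeffMap (resMapK0 A)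
        (redL (R0 A) _ (hasGaussFrac_fullC (K0 A) (R0 A) N) ⟨x, hx⟩) :=
  redL_mapC (ι0 A) (R0 A) A (hA0 A) N hx hx'

theorem coe_mapK0_mem_bar [NeZero N] (x : modularFunctionFieldFullC (K0 A) N) :
    ((mapK0 A N x : modularFunctionFieldFullC Qb N) : LaurentSeries Qb) ∈
      modularFunctionFieldBar N := by
  rw [Fermat.Agent.S24_helper62.modularFunctionFieldBar_eq N]
  exact (mapK0 A N x).2

/-- the same, in the language of the GATE-K stack (`RwBar N A`) -/
theorem mem_RwK0_iff_mem_RwBar [NeZero N] (x : modularFunctionFieldFullC (K0 A) N) :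
    x ∈ RwK0 A N ↔
      (⟨((mapK0 A N x : modularFunctionFieldFullC Qb N) : LaurentSeries Qb),
        coe_mapK0_mem_bar A N x⟩ : modularFunctionFieldBar N) ∈ RwBar N A := by
  rw [mem_RwK0_iff]
  exact mem_RwC_iff_mem_RwBar N A _ (mapK0 A N x).2 (coe_mapK0_mem_bar A N x)

/-- residue fields: `F~₁(K₀)` maps into `F~₁(ℚ̄)` -/
theorem coeffMap_mem_FresQb {y : LaurentSeries (ResidueField (R0 A))}
    (hy : y ∈ FresK0 A N) : coeffMap (resMapK0 A) y ∈ FresC Qb A N :=
  coeffMap_mem_FresC (ι0 A) (R0 A) A (hA0 A) N hy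

section Prime

variable {q : ℕ} (hq : q.Prime) (hA : (q : Qb) ∈ A.nonunits)

/-- `q` as an element of `R₀` -/
def q0 (q : ℕ) : R0 A := toR0 A (baseQ A q)

theorem ι0_q0 (q : ℕ) : ι0 A ((q0 A q : R0 A) : K0 A) = (q : Qb) := coe_baseQ A

include hq hA in
/-- **`R₀` is a DVR** (helper26) -/
theorem isDiscreteValuationRing_R0 : IsDiscreteValuationRing (R0 A) :=
  isDiscreteValuationRing_baseRing A hq hA

include hq hA in
theorem irreducible_q0 : Irreducible (q0 A q) := irreducible_baseQ A hq hA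

include hq hA in
/-- **the residue field of `R = A ∩ K₀` is the residue field of `A`** -/
theorem resMapK0_bijective : Function.Bijective (resMapK0 A) := by
  refine ⟨(resMapK0 A).injective, ?_⟩
  intro y
  obtain ⟨a, rfl⟩ := residue_surjective y
  obtain ⟨b, hb⟩ := exists_baseRing_sub_mem_nonunits A hq hA (a : Qb) a.2
  refine ⟨residue (R0 A) (toR0 A b), ?_⟩
  rw [resMap_residue]
  symm
  rw [← sub_eq_zero, ← map_sub, residue_eq_zero_iff, mem_maximalIdeal, mem_nonunits_iff]
  intro hu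
  have h1 : ((a - ιA (ι0 A) (R0 A) A (hA0 A) (toR0 A b) : A) : Qb) ∈ A.nonunits := hb
  rw [ValuationSubring.mem_nonunits_iff_exists_mem_maximalIdeal] at h1
  obtain ⟨hmem, hmax⟩ := h1
  exact ((mem_maximalIdeal _).1 hmax) hu

/-- the isomorphism `k₀ ≃ k` -/
def resEquivK0 : ResidueField (R0 A) ≃+* ResidueField A :=
  RingEquiv.ofBijective (resMapK0 A) (resMapK0_bijective A hq hA)

include hq hA in
/-- **`RwK0` is a DVR** -/
theorem isDiscreteValuationRing_RwK0 : IsDiscreteValuationRing (RwK0 A N) := by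
  have := isDiscreteValuationRing_R0 A hq hA
  exact isDiscreteValuationRing_Rw (R0 A) _ _

include hq hA in
/-- every nonunit of `R` is divisible by `q` -/
theorem exists_eq_q0_mul (a : R0 A) (ha : ¬ IsUnit a) : ∃ b : R0 A, a = q0 A q * b := by
  by_cases ha0 : a = 0
  · exact ⟨0, by rw [ha0, mul_zero]⟩
  obtain ⟨m, u, hu, rfl⟩ := exists_pow_mul_unit_baseRing A hq hA a ha0
  rcases Nat.eq_zero_or_pos m with rfl | hm
  · rw [pow_zero, one_mul] at ha
    exact absurd hu ha
  · refine ⟨q0 A q ^ (m - 1) * toR0 A u, ?_⟩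
    rw [← mul_assoc, ← pow_succ', Nat.sub_add_cancel hm]
    rfl

include hq hA in
/-- **`𝔪_{w₁} = (q)`** : `w₁` is unramified over `R`, `e₁ = 1` -/
theorem maximalIdeal_RwK0 :
    maximalIdeal (RwK0 A N) = Ideal.span {const (R0 A) _ _ (q0 A q)} := by
  refine maximalIdeal_Rw_eq_span (R0 A) _ _ (q0 A q) ?_ (exists_eq_q0_mul A hq hA)
  exact (irreducible_q0 A hq hA).not_isUnit

include hq hA in
/-- every nonunit of `RwK0` is `q` times an element of `RwK0` -/
theorem exists_eq_q_mul (x : RwK0 A N) (hx : ¬ IsUnit x) :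
    ∃ y : RwK0 A N, x = const (R0 A) _ _ (q0 A q) * y :=
  exists_eq_mul_of_nonunit (R0 A) _ _ (q0 A q) (exists_eq_q0_mul A hq hA) x hx

include hq hA in
/-- **residue fields**: if `F~₁(ℚ̄) ≤ k(X₀(M))` then `F~₁(K₀) ≤ k₀(X₀(M))` -/
theorem FresK0_le_of_FresBar_le (M : ℕ)
    (h : FresC Qb A N ≤ modularFunctionFieldFullC (ResidueField A) M) :
    FresK0 A N ≤ modularFunctionFieldFullC (ResidueField (R0 A)) M := by
  intro y hy
  have h1 := h (coeffMap_mem_FresQb A N hy)
  have h2 := coeffMap_mem_fullC ((resEquivK0 A hq hA).symm.toRingHom) M h1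
  rw [coeffMap_coeffMap] at h2
  have h3 : ((resEquivK0 A hq hA).symm.toRingHom).comp (resMapK0 A) = RingHom.id _ := by
    ext z
    exact (resEquivK0 A hq hA).symm_apply_apply z
  rwa [h3, coeffMap_id] at h2

end Prime

end Fermat.Agent.GL.Val.GaussK0
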