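/-
GATE-L / L1-W3 (helper93), file 1: the Gauss valuation of `F_N = ℚ̄(X₀(N))` AT AN ARBITRARY CUSP.

For every coset `i : I0 N = SL₂(ℤ)/Γ₀(N)` the T24 cusp embedding `cuspSigma N i : F_N → ℚ̄((t))`
(`t = q^{1/N}`) has image generated by series with coefficients in `ℤ[ζ_N]`, so (helper45's
`hasGaussFrac_adjoin`) its field range has the Gauss fraction property for EVERY valuation subring
`A` of `ℚ̄`.  Transporting the Gauss reduction datum back to `F_N` gives

  `redDataCusp N A i : RedData ℚ̄ F_N k (FresCusp N A i)`,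

`Rw = {f : the expansion of f at the cusp i has A-integral Gauss normal form}`, `red` =
coefficientwise reduction of that expansion.  (`i = 1` is `w₁` of GATE-K; the new valuations of
GATE-L — `w₃`, `w₃±` — are `i` = the coset of `[[1,0],[qM',1]]⁻¹` and its Galois twists.)

* generic: `RedData.comapEquiv` (transport along an isomorphism `F ≃ₐ[K] F'`);
* `cuspSigma_gen` : `σ_i (j(q^d)) = cuspJ ξ m` (`ξ = ζ_D^B`, `m = (N/d)A²`);
* `gen_mem_RwCusp`, `coe_redCusp_gen` : `red_i (j(q^d)) = cuspJ ξ~ m` over the residue field;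
* `isGaussChart_jF_cusp` : `j` is a Gauss chart for every `w_i`.
-/
import Fermat.Agent.GK.AL.SecondVal
import Fermat.Agent.GK.Val.GaussFracGen
import Fermat.Agent.S24_helper62.CuspEmb

set_option autoImplicit false

noncomputable section

namespace Fermat.Agent.GL.Val3

open HahnSeries ModularCurve IsLocalRing
open Fermat.Agent.S24 Fermat.Agent.S24_helper62 Fermat.Agent.S28 Fermat.Agent.S28.CuspExp
open Fermat.Agent.S28.Assemble
open Fermat.Agent.GJ.J1 Fermat.Agent.GJ.J1.Val Fermat.Agent.GK.AL Fermat.Agent.GK.Val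

/-! ### Transport of a reduction datum along an isomorphism of fields -/

section Generic

variable {K F F' k Ft : Type*} [Field K] [Field F] [Field F'] [Algebra K F] [Algebra K F']
  [Field k] [Field Ft] [Algebra k Ft]

/-- the ring isomorphism `Rw.comap e ≃+* Rw` induced by a ring isomorphism `e : F ≃+* F'` -/
def comapRingEquiv' (Rw : ValuationSubring F') (e : F ≃+* F') :
    (Rw.comap (e : F →+* F')) ≃+* Rw where
  toFun x := ⟨e x, x.2⟩
  invFun y := ⟨e.symm y, by
    show e (e.symm y) ∈ Rw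
    rw [e.apply_symm_apply]; exact y.2⟩
  left_inv x := Subtype.ext (e.symm_apply_apply x)
  right_inv y := Subtype.ext (e.apply_symm_apply y)
  map_mul' x y := Subtype.ext (map_mul e (x : F) (y : F))
  map_add' x y := Subtype.ext (map_add e (x : F) (y : F))

@[simp] theorem coe_comapRingEquiv' (Rw : ValuationSubring F') (e : F ≃+* F')
    (x : Rw.comap (e : F →+* F')) : ((comapRingEquiv' Rw e x : Rw) : F') = e x := rfl

theorem mem_maximalIdeal_comap_iff' (Rw : ValuationSubring F') (e : F ≃+* F')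
    (x : Rw.comap (e : F →+* F')) :
    x ∈ maximalIdeal (Rw.comap (e : F →+* F')) ↔ comapRingEquiv' Rw e x ∈ maximalIdeal Rw := by
  rw [mem_maximalIdeal, mem_maximalIdeal, mem_nonunits_iff, mem_nonunits_iff,
    isUnit_map_iff (comapRingEquiv' Rw e)]

/-- **transport of a reduction datum** along a `K`-isomorphism `e : F ≃ₐ[K] F'`:
`Rw' = e⁻¹(Rw)`, `red' = red ∘ e`. -/
def comapEquiv (R : RedData K F' k Ft) (e : F ≃ₐ[K] F') : RedData K F k Ft where
  Rw := R.Rw.comap ((e : F ≃+* F') : F →+* F')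
  A := R.A
  mem_A_iff a := by
    rw [R.mem_A_iff, ValuationSubring.mem_comap]
    show _ ↔ e (algebraMap K F a) ∈ R.Rw
    rw [e.commutes]
  red := R.red.comp (comapRingEquiv' R.Rw (e : F ≃+* F') : _ →+* R.Rw)
  red_surjective := by
    intro y
    obtain ⟨x, rfl⟩ := R.red_surjective y
    refine ⟨(comapRingEquiv' R.Rw (e : F ≃+* F')).symm x, ?_⟩
    show R.red (comapRingEquiv' R.Rw (e : F ≃+* F')
      ((comapRingEquiv' R.Rw (e : F ≃+* F')).symm x)) = _
    rw [RingEquiv.apply_symm_apply]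
  red_eq_zero_iff x := by
    rw [mem_maximalIdeal_comap_iff', ← R.red_eq_zero_iff]
    rfl
  res := R.res
  res_surjective := R.res_surjective
  red_algebraMap a := by
    rw [← R.red_algebraMap a]
    show R.red _ = R.red _
    congr 1
    exact Subtype.ext (e.commutes (a : K))

theorem mem_comapEquiv_Rw (R : RedData K F' k Ft) (e : F ≃ₐ[K] F') (x : F) :
    x ∈ (comapEquiv R e).Rw ↔ e x ∈ R.Rw := Iff.rfl

theorem comapEquiv_red (R : RedData K F' k Ft) (e : F ≃ₐ[K] F') (x : F)
    (hx : x ∈ (comapEquiv R e).Rw) :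
    (comapEquiv R e).red ⟨x, hx⟩ = R.red ⟨e x, hx⟩ := rfl

@[simp] theorem comapEquiv_A (R : RedData K F' k Ft) (e : F ≃ₐ[K] F') :
    (comapEquiv R e).A = R.A := rfl

@[simp] theorem comapEquiv_res (R : RedData K F' k Ft) (e : F ≃ₐ[K] F') :
    (comapEquiv R e).res = R.res := rfl

end Generic

/-! ### The subring `ℤ[ζ]` of a field, `ζ` a root of unity -/

section ZetaRing

variable {L : Type*} [Field L]

/-- the finite set `{ζ^k : k < n}` -/
def zetaPowers (ζ : Lˣ) (n : ℕ) : Set L := Set.range fun k : Fin n => ((ζ ^ (k : ℕ) : Lˣ) : L)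

theorem zetaPowers_finite (ζ : Lˣ) (n : ℕ) : (zetaPowers ζ n).Finite := Set.finite_range _

theorem zpow_mem_zetaPowers {ζ : Lˣ} {n : ℕ} (hn : 0 < n) (hζ : ζ ^ n = 1) (k : ℤ) :
    ((ζ ^ k : Lˣ) : L) ∈ zetaPowers ζ n := by
  have hn' : (n : ℤ) ≠ 0 := by exact_mod_cast hn.ne'
  have h1 : ζ ^ k = ζ ^ (k % n).toNat := by
    have h2 : k = k % n + n * (k / n) := (Int.emod_add_mul_ediv k n).symm
    have h3 : (0 : ℤ) ≤ k % n := Int.emod_nonneg k hn'
    conv_lhs => rw [h2, zpow_add, zpow_mul, zpow_natCast, hζ, one_zpow, mul_one]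
    rw [← zpow_natCast, Int.toNat_of_nonneg h3]
  have h4 : (k % n).toNat < n := by
    have h5 : k % n < n := Int.emod_lt_of_pos k (by exact_mod_cast hn)
    have h3 : (0 : ℤ) ≤ k % n := Int.emod_nonneg k hn'
    omega
  exact ⟨⟨(k % n).toNat, h4⟩, by rw [h1]⟩

/-- `ℤ[ζ]`, as the subring generated by the powers of `ζ` -/
def zetaSubring (ζ : Lˣ) (n : ℕ) : Subring L := Subring.closure (zetaPowers ζ n)

theorem zetaSubring_le_span {ζ : Lˣ} {n : ℕ} (hn : 0 < n) (hζ : ζ ^ n = 1) :
    ∀ x ∈ zetaSubring ζ n, x ∈ Submodule.span ℤ (zetaPowers ζ n) := by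
  intro x hx
  induction hx using Subring.closure_induction with
  | mem x hx => exact Submodule.subset_span hx
  | zero => exact Submodule.zero_mem _
  | one =>
    apply Submodule.subset_span
    have := zpow_mem_zetaPowers hn hζ 0
    simpa using this
  | add x y _ _ hx hy => exact Submodule.add_mem _ hx hy
  | neg x _ hx => exact Submodule.neg_mem _ hx
  | mul x y _ _ hx hy =>
    have h1 : x * y ∈ Submodule.span ℤ (zetaPowers ζ n) * Submodule.span ℤ (zetaPowers ζ n) :=
      Submodule.mul_mem_mul hx hy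
    rw [Submodule.span_mul_span] at h1
    refine Submodule.span_mono ?_ h1
    rintro _ ⟨a, ⟨i, rfl⟩, b, ⟨j, rfl⟩, rfl⟩
    have := zpow_mem_zetaPowers hn hζ ((i : ℕ) + (j : ℕ) : ℤ)
    rw [zpow_add, zpow_natCast, zpow_natCast, Units.val_mul] at this
    exact this

theorem zpow_mem_zetaSubring {ζ : Lˣ} {n : ℕ} (hn : 0 < n) (hζ : ζ ^ n = 1) (k : ℤ) :
    ((ζ ^ k : Lˣ) : L) ∈ zetaSubring ζ n :=
  Subring.subset_closure (zpow_mem_zetaPowers hn hζ k)

end ZetaRing

/-! ### The cusp embeddings: generators and coefficients -/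

section Cusp

variable (N : ℕ) [NeZero N] (i : I0 N)

theorem N_pos : 0 < N := Nat.pos_of_ne_zero (NeZero.ne N)

/-- the twist `ξ = ζ_D^B` of the expansion of `j(q^d)` at the cusp `i` -/
def cuspXi (d : DivIdx N) : Kbarˣ := xi (zetaBar N) N (herm N i d).Dn (herm N i d).B

/-- the exponent `m = (N/d) A²` of the expansion of `j(q^d)` at the cusp `i` -/
def cuspExpo (d : DivIdx N) : ℕ := (herm N i d).expo N

instance instNeZeroCuspExpo (d : DivIdx N) : NeZero (cuspExpo N i d) :=
  neZero_expo N (N_pos N) d.2 _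

/-- **the cusp embedding on the generators**: `σ_i (j(q^d)) = j(ξ t^m)` -/
theorem cuspSigma_gen (d : DivIdx N) :
    cuspSigma N i (gen N d) = cuspJ Kbar (cuspXi N i d) (cuspExpo N i d) := by
  rw [gen_eq_jdF, cuspSigma_jdF, hermiteSer]
  show jCusp (cuspXi N i d) (cuspExpo N i d) = _
  rw [jCusp_eq, cuspJ]

/-- `ξ` is a power of `ζ_N` -/
theorem cuspXi_zpow (d : DivIdx N) (n : ℤ) :
    ∃ k : ℤ, (cuspXi N i d) ^ n = (zetaBar N) ^ k := by
  refine ⟨(((N / (herm N i d).Dn : ℕ) : ℤ) * (herm N i d).B) * n, ?_⟩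
  rw [cuspXi, xi, ← zpow_mul]

theorem jqModC_coeff_intCast (R : Type*) [CommRing R] (n : ℤ) :
    (jqModC R).coeff n = (((jqModC ℤ).coeff n : ℤ) : R) := by
  rw [← ModularCurve.coeffMap_jqModC (Int.castRingHom R), coeffMap_coeff]
  rfl

/-- the expansions of the generators have coefficients in `ℤ[ζ_N]` -/
theorem cuspSigma_gen_mem_coeffSubring (d : DivIdx N) :
    cuspSigma N i (gen N d) ∈ coeffSubring (zetaSubring (zetaBar N) N) := by
  rw [cuspSigma_gen, mem_coeffSubring]
  intro k
  by_cases hk : ((cuspExpo N i d : ℕ) : ℤ) ∣ k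
  · obtain ⟨n, rfl⟩ := hk
    rw [cuspJ, cuspS_coeff_mul]
    obtain ⟨e, he⟩ := cuspXi_zpow N i d n
    rw [he, jqModC_coeff_intCast]
    exact mul_mem (zpow_mem_zetaSubring (N_pos N) (zetaBar_pow N) e) (intCast_mem _ _)
  · rw [cuspJ, cuspS_coeff_of_not_dvd _ _ _ hk]
    exact zero_mem _

/-- the generators of the image field -/
def cuspGens : Set (LaurentSeries Kbar) := Set.range fun d : DivIdx N => cuspSigma N i (gen N d)

/-- the image of `F_N` under the cusp embedding `σ_i`, as an intermediate field of `ℚ̄((t))` -/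
def Fcusp : IntermediateField Kbar (LaurentSeries Kbar) :=
  IntermediateField.adjoin Kbar (cuspGens N i)

/-- `F_N = ℚ̄(j(q^d) : d ∣ N)`, inside `F_N` -/
theorem adjoin_range_gen : IntermediateField.adjoin Kbar (Set.range (gen N)) = ⊤ := by
  apply IntermediateField.map_injective (modularFunctionFieldBar N).val
  rw [IntermediateField.adjoin_map]
  have h2 : (⊤ : IntermediateField Kbar (FN N)).map (modularFunctionFieldBar N).val =
      modularFunctionFieldBar N := by
    rw [← AlgHom.fieldRange_eq_map, IntermediateField.fieldRange_val]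
  rw [h2]
  have h1 : ((modularFunctionFieldBar N).val '' Set.range (gen N) : Set (LaurentSeries Kbar))
      = Set.range (jFam Kbar N) := by
    rw [← Set.range_comp]
    rfl
  rw [h1]
  exact (Fermat.Agent.S24_helper82.FN_eq_adjoin N).symm

/-- the field range of the cusp embedding is generated by the expansions of the `j(q^d)` -/
theorem fieldRange_cuspSigma : (cuspSigma N i).fieldRange = Fcusp N i := by
  rw [AlgHom.fieldRange_eq_map, ← adjoin_range_gen N, IntermediateField.adjoin_map, Fcusp,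
    cuspGens, ← Set.range_comp]
  rfl

theorem cuspSigma_mem_Fcusp (f : FN N) : cuspSigma N i f ∈ Fcusp N i := by
  rw [← fieldRange_cuspSigma]
  exact ⟨f, rfl⟩

/-- **the isomorphism of `F_N` with its image under the cusp embedding** -/
def cuspEquiv : FN N ≃ₐ[Kbar] Fcusp N i :=
  (AlgEquiv.ofInjectiveField (cuspSigma N i)).trans
    (IntermediateField.equivOfEq (fieldRange_cuspSigma N i))

@[simp] theorem coe_cuspEquiv (f : FN N) :
    ((cuspEquiv N i f : Fcusp N i) : LaurentSeries Kbar) = cuspSigma N i f := rfl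

variable (A : ValuationSubring Kbar)

/-- **the Gauss fraction property of the image field**, for every valuation subring of `ℚ̄` -/
theorem hasGaussFrac_cusp : HasGaussFrac A (Fcusp N i) := by
  refine hasGaussFrac_adjoin A (zetaSubring (zetaBar N) N) (zetaPowers (zetaBar N) N)
    (zetaPowers_finite _ _) (zetaSubring_le_span (N_pos N) (zetaBar_pow N)) (cuspGens N i) ?_
  rintro _ ⟨d, rfl⟩
  exact cuspSigma_gen_mem_coeffSubring N i d

local notation "𝕜" => ResidueField A

/-- the residue field of the Gauss valuation at the cusp `i`, inside `k((t))` -/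
abbrev FresCusp : IntermediateField 𝕜 (LaurentSeries 𝕜) :=
  Fres A (Fcusp N i) (hasGaussFrac_cusp N i A)

/-- **the Gauss valuation of `F_N` at the cusp `i`** as a reduction datum:
`Rw = {f : σ_i f has A-integral Gauss normal form}`, `red f = (σ_i f)~`. -/
def redDataCusp : RedData Kbar (FN N) 𝕜 (FresCusp N i A) :=
  comapEquiv (redData A (Fcusp N i) (hasGaussFrac_cusp N i A)) (cuspEquiv N i)

theorem mem_RwCusp_iff (f : FN N) :
    f ∈ (redDataCusp N i A).Rw ↔
      cuspEquiv N i f ∈ (redData A (Fcusp N i) (hasGaussFrac_cusp N i A)).Rw :=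
  mem_comapEquiv_Rw _ _ f

theorem redCusp_eq (f : FN N) (hf : f ∈ (redDataCusp N i A).Rw) :
    (redDataCusp N i A).red ⟨f, hf⟩ =
      (redData A (Fcusp N i) (hasGaussFrac_cusp N i A)).red ⟨cuspEquiv N i f, hf⟩ :=
  comapEquiv_red _ _ f hf

theorem redDataCusp_A : (redDataCusp N i A).A = A :=
  comapEquiv_A _ _

/-! #### the generators -/

/-- roots of unity are units of every valuation subring -/
theorem valuation_eq_one_of_pow_eq_one' {L : Type*} [Field L] (O : ValuationSubring L) {m : ℕ}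
    (hm : 0 < m) {x : L} (hx : x ^ m = 1) : O.valuation x = 1 := by
  have h := congrArg O.valuation hx
  rw [map_pow, map_one] at h
  exact (pow_eq_one_iff_of_nonneg zero_le hm.ne').mp h

theorem cuspXi_pow (d : DivIdx N) : (cuspXi N i d) ^ N = 1 := by
  rw [cuspXi, xi, ← zpow_natCast, ← zpow_mul, mul_comm, zpow_mul, zpow_natCast, zetaBar_pow,
    one_zpow]

/-- the twist `ξ` as a unit of `A` -/
def cuspXiA (d : DivIdx N) : Aˣ :=
  A.unitGroupMulEquiv ⟨cuspXi N i d, by
    rw [ValuationSubring.mem_unitGroup_iff]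
    apply valuation_eq_one_of_pow_eq_one' A (N_pos N)
    have := congrArg (fun u : Kbarˣ => (u : Kbar)) (cuspXi_pow N i d)
    simpa using this⟩

theorem coe_cuspXiA (d : DivIdx N) :
    (((cuspXiA N i A d : Aˣ) : A) : Kbar) = ((cuspXi N i d : Kbarˣ) : Kbar) := rfl

theorem map_subtype_cuspXiA (d : DivIdx N) :
    Units.map (A.subtype : A →* Kbar) (cuspXiA N i A d) = cuspXi N i d :=
  Units.ext (coe_cuspXiA N i A d)

/-- the reduction of the twist `ξ` in the residue field -/
def cuspXiRes (d : DivIdx N) : 𝕜ˣ := Units.map (residue A : A →* 𝕜) (cuspXiA N i A d)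

/-- the expansion of `j(q^d)` at the cusp `i` is `A`-integral -/
theorem cuspSigma_gen_eq_emb (d : DivIdx N) :
    cuspSigma N i (gen N d) = emb A (cuspJ A (cuspXiA N i A d) (cuspExpo N i d)) := by
  rw [cuspSigma_gen, emb, coeffMap_cuspJ]
  congr 1

theorem emb_cuspJ_mem (d : DivIdx N) :
    emb A (cuspJ A (cuspXiA N i A d) (cuspExpo N i d)) ∈ Fcusp N i := by
  rw [← cuspSigma_gen_eq_emb]
  exact cuspSigma_mem_Fcusp N i _

theorem cuspEquiv_gen (d : DivIdx N) :
    cuspEquiv N i (gen N d) =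
      ⟨emb A (cuspJ A (cuspXiA N i A d) (cuspExpo N i d)), emb_cuspJ_mem N i A d⟩ :=
  Subtype.ext (by rw [coe_cuspEquiv, cuspSigma_gen_eq_emb N i A d])

theorem gen_mem_RwCusp (d : DivIdx N) : gen N d ∈ (redDataCusp N i A).Rw := by
  rw [mem_RwCusp_iff, cuspEquiv_gen N i A d]
  exact int_mem_Rw (hGF := hasGaussFrac_cusp N i A) _

/-- **`red_i (j(q^d)) = j~(ξ~ t^m)`** (any membership proof) -/
theorem coe_redCusp_gen (d : DivIdx N) (hd : gen N d ∈ (redDataCusp N i A).Rw) :
    (((redDataCusp N i A).red ⟨gen N d, hd⟩ : FresCusp N i A) : LaurentSeries 𝕜) =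
      cuspJ 𝕜 (cuspXiRes N i A d) (cuspExpo N i d) := by
  rw [redCusp_eq]
  have h1 : (⟨cuspEquiv N i (gen N d), hd⟩ :
      (redData A (Fcusp N i) (hasGaussFrac_cusp N i A)).Rw) =
      ⟨⟨emb A (cuspJ A (cuspXiA N i A d) (cuspExpo N i d)), emb_cuspJ_mem N i A d⟩,
        int_mem_Rw (hGF := hasGaussFrac_cusp N i A) (emb_cuspJ_mem N i A d)⟩ :=
    Subtype.ext (cuspEquiv_gen N i A d)
  rw [h1]
  refine (redL_int (hGF := hasGaussFrac_cusp N i A) _).trans ?_
  rw [rd, coeffMap_cuspJ]
  rfl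

/-- every generator `j(q^d)` is a Gauss chart for the valuation at the cusp `i` -/
theorem isGaussChart_gen_cusp (d : DivIdx N) : (redDataCusp N i A).IsGaussChart (gen N d) := by
  refine ⟨gen_mem_RwCusp N i A d, ?_⟩
  apply Fres.transcendental_of_coe
  rw [coe_redCusp_gen]
  apply transcendental_of_order_neg
  have h1 : cuspJ 𝕜 (cuspXiRes N i A d) (cuspExpo N i d) =
      jCusp (cuspXiRes N i A d) (cuspExpo N i d) := by
    rw [jCusp_eq, cuspJ]
  rw [h1, jCusp_order]
  have : (0 : ℤ) < (cuspExpo N i d : ℤ) := by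
    exact_mod_cast Nat.pos_of_ne_zero (NeZero.ne (cuspExpo N i d))
  linarith

/-- **`j` is a Gauss chart for the valuation at every cusp**, so all the `w_i` restrict to the
Gauss valuation of `ℚ̄(j)`. -/
theorem isGaussChart_jF_cusp : (redDataCusp N i A).IsGaussChart (jF N) := by
  rw [jF_eq_gen]
  exact isGaussChart_gen_cusp N i A _

/-- `red_i j = j~(t^N)` at every cusp -/
theorem coe_redCusp_jF (hj : jF N ∈ (redDataCusp N i A).Rw) :
    (((redDataCusp N i A).red ⟨jF N, hj⟩ : FresCusp N i A) : LaurentSeries 𝕜) =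
      qExpand 𝕜 N (jqModC 𝕜) := by
  have h1 : cuspSigma N i (jF N) = emb A (qExpand A N (jqModC A)) := by
    rw [cuspSigma_jF, emb, coeffMap_qExpand, ModularCurve.coeffMap_jqModC]
  have hmem : emb A (qExpand A N (jqModC A)) ∈ Fcusp N i := by
    rw [← h1]; exact cuspSigma_mem_Fcusp N i _
  have h2 : cuspEquiv N i (jF N) = ⟨emb A (qExpand A N (jqModC A)), hmem⟩ :=
    Subtype.ext (by rw [coe_cuspEquiv, h1])
  rw [redCusp_eq]
  have h3 : (⟨cuspEquiv N i (jF N), hj⟩ :
      (redData A (Fcusp N i) (hasGaussFrac_cusp N i A)).Rw) =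
      ⟨⟨emb A (qExpand A N (jqModC A)), hmem⟩,
        int_mem_Rw (hGF := hasGaussFrac_cusp N i A) hmem⟩ := Subtype.ext h2
  rw [h3]
  refine (redL_int (hGF := hasGaussFrac_cusp N i A) _).trans ?_
  rw [rd, coeffMap_qExpand, ModularCurve.coeffMap_jqModC]

end Cusp

end Fermat.Agent.GL.Val3
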