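/-
GATE-L / CUSP-CLASS (helper16): **every cusp valuation of `K₀(X₀(M' q²))` is `w₁`, `w₂` or `w₃`,
according to `gcd(c₁₀, q²)`**.

`A | q` a valuation subring of `ℚ̄`, `K₀ = ℚ̄^{I_A}`, `R₀ = A ∩ K₀`, `N = M' q²`, `c ∈ I0 N` a cusp
(coset) with representative `rep N c`, `c₁₀ = (rep N c) 1 0`; `RwCuspK0 A N c` (helper26) the Gauss
valuation ring of the expansion at `c`, restricted to `K₀(X₀(N))`.

* `etaQK0 A N d hd` : the **`K₀`-rational eta quotient** `Δ(z)/Δ(dz) ∈ K₀(X₀(N))`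
  (`toFN0_etaQK0 : toFN0 A N (etaQK0 A N d hd) = etaQ N d hd`), via helper80's rational descent;
* `etaQK0_div_mem_RwCuspK0` / `_inv_` : `g / D¹²` is a unit of `w_c`, `D = d / gcd(c₁₀, d)`;
  `etaQK0_mem_RwK0` / `_inv_` : `g` is a unit of `w₁`;
* `rwCuspK0_ne_of_cuspD_ne` : cusps with different `D` (for `d = q²`) have DIFFERENT valuation rings;
* **`rwCuspK0_eq_of_noExt`** : given NOEXT (`hNO`, = helper75 `L1eAsmK0.exists_eq_W3_of_isGaussAt`):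
  `D = 1 ⟹ w_c = w₁`, `D = q² ⟹ w_c = w₂`, `D = q ⟹ w_c = w₃`;
* `rwCuspK0_eq_Rw1K0_of_dvd`, `rwCuspK0_eq_Rw2QK0_of_not_dvd`, `rwCuspK0_eq_Rw3K0_of_dvd` : the same
  in terms of `c₁₀` (`q² ∣ c₁₀`, `q ∤ c₁₀`, `q ∥ c₁₀`);
* `…_of_legs` : the same with helper75's leg hypotheses verbatim.
-/
import Fermat.Agent.GL.Eta.CuspEta
import Fermat.Agent.GL.Eta.Gauss
import Fermat.Agent.GL.Val.L1eAsmK0
import Fermat.Agent.GL.Base.RatDescentFullC

set_option autoImplicit false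
set_option linter.unusedSectionVars false

noncomputable section

namespace Fermat.Agent.GL.Val.CuspClass

open HahnSeries ModularCurve IsLocalRing
open Fermat.Agent.S24 Fermat.Agent.S28 Fermat.Agent.S28.CuspExp Fermat.Agent.S28.Assemble
open Fermat.Agent.S24_helper62 Fermat.Agent.S24.Degree
open Fermat.Agent.GJ.J1 Fermat.Agent.GJ.J1.Val
open Fermat.Agent.GK.AL Fermat.Agent.GL.AL
open Fermat.Agent.GL.CuspVal Fermat.Agent.GL.Eta Fermat.Agent.GL.Val.CuspCoeff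
open Fermat.Agent.GL.Val.GaussK0 Fermat.Agent.GL.Val.SecondK0 Fermat.Agent.GL.Val.SecondK0Hall
open Fermat.Agent.GL.Val.OrthK0 Fermat.Agent.GL.Val.ThirdK0 Fermat.Agent.GL.Val.CuspK0
open Fermat.Agent.GL.W3 Fermat.Agent.GL.GaussAt
open Fermat.Agent.Common_helper32

/-! ### A generic separation lemma -/

section Generic

variable {F : Type*} [Field F]

/-- if `g / π^a` and `g / π^b` are both units of `V`, `π` a non-unit of `V`, then `a = b` -/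
theorem eq_of_unit_div_pow {V : ValuationSubring F} {g π : F} {a b : ℕ} (hg : g ≠ 0)
    (hπ : π ∈ V) (hπ' : π⁻¹ ∉ V)
    (h1 : g / π ^ a ∈ V) (h1' : (g / π ^ a)⁻¹ ∈ V)
    (h2 : g / π ^ b ∈ V) (h2' : (g / π ^ b)⁻¹ ∈ V) : a = b := by
  have hπ0 : π ≠ 0 := by
    rintro rfl
    exact hπ' (by rw [inv_zero]; exact V.zero_mem)
  have hv0 : V.valuation π ≠ 0 := (Valuation.ne_zero_iff _).mpr hπ0
  have hvlt : V.valuation π < 1 := by
    have hle : V.valuation π ≤ 1 := (V.valuation_le_one_iff π).mpr hπ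
    refine lt_of_le_of_ne hle fun h => hπ' ?_
    rw [← V.valuation_le_one_iff, map_inv₀, h, inv_one]
  have e1 := valuation_eq_one_of_mem_of_inv_mem V
    (div_ne_zero hg (pow_ne_zero a hπ0)) h1 h1'
  have e2 := valuation_eq_one_of_mem_of_inv_mem V
    (div_ne_zero hg (pow_ne_zero b hπ0)) h2 h2'
  rw [map_div₀, map_pow, div_eq_one_iff_eq (pow_ne_zero _ hv0)] at e1 e2
  have e3 : V.valuation π ^ a = V.valuation π ^ b := e1.symm.trans e2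
  exact (pow_right_strictAnti₀ (zero_lt_iff.mpr hv0) hvlt).injective e3

/-- two valuation rings in which `g / π^a` resp. `g / π^b` is a unit (`a ≠ b`, `π` a non-unit of the
first) are different -/
theorem ne_of_unit_div_pow {V V' : ValuationSubring F} {g π : F} {a b : ℕ} (hg : g ≠ 0)
    (hab : a ≠ b) (hπ : π ∈ V) (hπ' : π⁻¹ ∉ V)
    (h1 : g / π ^ a ∈ V) (h1' : (g / π ^ a)⁻¹ ∈ V)
    (h2 : g / π ^ b ∈ V') (h2' : (g / π ^ b)⁻¹ ∈ V') : V ≠ V' := by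
  rintro rfl
  exact hab (eq_of_unit_div_pow hg hπ hπ' h1 h1' h2 h2')

end Generic

/-! ### The `K₀`-rational eta quotient -/

section EtaK0

variable (A : ValuationSubring Qb) (N : ℕ) [NeZero N] (d : ℕ) [NeZero d] (hd : d ∣ N)

include hd in
/-- `Δ(Q)/Δ(Q^d) ∈ K₀(X₀(N))` : the rational `q`-expansion descends -/
theorem uInvS_mem_fullC_K0 : uInvS (K0 A) d ∈ modularFunctionFieldFullC (K0 A) N := by
  have hx : uInvS Qb d ∈ modularFunctionFieldFullC Qb N := by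
    rw [← modularFunctionFieldBar_eq N, ← coe_etaQ N d hd]
    exact (etaQ N d hd).2
  have hmap : coeffMap (ι0 A) (uInvS (K0 A) d) = uInvS Qb d := coeffMap_uInvS (ι0 A) d
  have hc : ∀ k : ℤ, (uInvS Qb d).coeff k ∈
      Set.range (algebraMap (Fermat.Agent.GL.Local.InertiaField.inertiaField A) Qb) := by
    intro k
    refine ⟨(uInvS (K0 A) d).coeff k, ?_⟩
    rw [← hmap, coeffMap_coeff]
    rfl
  obtain ⟨y, hy, hyx⟩ := Fermat.Agent.GL.Base.RatDescent.exists_fullC_of_coeff_mem_range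
    (L := Fermat.Agent.GL.Local.InertiaField.inertiaField A) N hx hc
  have hyeq : y = uInvS (K0 A) d := by
    apply Fermat.Agent.GK.Val.BaseChange.coeffMap_injective (ι0 A) (ι0_injective A)
    rw [hmap]
    exact hyx
  rw [← hyeq]
  exact hy

/-- **the `K₀`-rational eta quotient `Δ(z)/Δ(dz)`** -/
def etaQK0 : modularFunctionFieldFullC (K0 A) N :=
  ⟨uInvS (K0 A) d, uInvS_mem_fullC_K0 A N d hd⟩

@[simp]
theorem coe_etaQK0 :
    ((etaQK0 A N d hd : modularFunctionFieldFullC (K0 A) N) : LaurentSeries (K0 A)) =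
      uInvS (K0 A) d := rfl

/-- base change to `ℚ̄` gives `etaQ` -/
theorem toFN0_etaQK0 : toFN0 A N (etaQK0 A N d hd) = etaQ N d hd := by
  apply Subtype.ext
  rw [coe_toFN, coe_etaQ, coe_etaQK0]
  exact coeffMap_uInvS (ι0 A) d

theorem mapK0Bar_etaQK0 : mapK0Bar A N (etaQK0 A N d hd) = etaQ N d hd := by
  rw [← toFN0_etaQK0 A N d hd]
  exact (toFN0_eq A N _).symm

theorem etaQK0_ne_zero : etaQK0 A N d hd ≠ 0 := by
  intro h
  have h1 := toFN0_etaQK0 A N d hd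
  rw [h, map_zero] at h1
  exact etaQ_ne_zero N d hd h1.symm

/-- `g` is a unit of `w₁` -/
theorem etaQK0_mem_RwK0 : etaQK0 A N d hd ∈ RwK0 A N := by
  rw [mem_Rw1K0_iff, mapK0Bar_etaQK0]
  exact etaQ_mem_Rw1 N A d hd

theorem etaQK0_inv_mem_RwK0 : (etaQK0 A N d hd)⁻¹ ∈ RwK0 A N := by
  rw [mem_Rw1K0_iff, map_inv₀, mapK0Bar_etaQK0]
  exact etaQ_inv_mem_Rw1 N A d hd

variable (c : I0 N)

/-- **`g / D¹²` is a unit of the cusp valuation `w_c`**, `D = d / gcd(c₁₀, d)` -/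
theorem etaQK0_div_mem_RwCuspK0 :
    etaQK0 A N d hd / ((cuspD N d hd c : ℕ) : modularFunctionFieldFullC (K0 A) N) ^ 12 ∈
      RwCuspK0 A N c := by
  rw [mem_RwCuspK0_iff, map_div₀, map_pow, map_natCast, toFN0_etaQK0]
  exact etaQ_div_mem_RwCusp N A d hd c

theorem etaQK0_div_inv_mem_RwCuspK0 :
    (etaQK0 A N d hd / ((cuspD N d hd c : ℕ) : modularFunctionFieldFullC (K0 A) N) ^ 12)⁻¹ ∈
      RwCuspK0 A N c := by
  rw [mem_RwCuspK0_iff, map_inv₀, map_div₀, map_pow, map_natCast, toFN0_etaQK0]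
  exact etaQ_div_inv_mem_RwCusp N A d hd c

end EtaK0

/-! ### Cusps with different `D` have different valuation rings -/

section Separate

variable (A : ValuationSubring Qb) {N : ℕ} [NeZero N] {q : ℕ} [NeZero (q ^ 2)] (hq : q.Prime)
  (hA : A.LiesOverPrime q) (hd : q ^ 2 ∣ N)

include hq hA in
/-- `q` is a non-unit of every valuation ring of `K₀(X₀(N))` inducing `R₀` on `K₀` -/
theorem natCast_mem_and_inv_notMem
    {V : ValuationSubring (modularFunctionFieldFullC (K0 A) N)}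
    (hV : ∀ a : K0 A, algebraMap (K0 A) (modularFunctionFieldFullC (K0 A) N) a ∈ V ↔ a ∈ R0 A) :
    ((q : ℕ) : modularFunctionFieldFullC (K0 A) N) ∈ V ∧
      ((q : ℕ) : modularFunctionFieldFullC (K0 A) N)⁻¹ ∉ V := by
  have hnu : ((q : ℕ) : K0 A) ∈ (R0 A).nonunits := natCast_mem_nonunits_R0 A hA
  have e1 : ((q : ℕ) : modularFunctionFieldFullC (K0 A) N) =
      algebraMap (K0 A) (modularFunctionFieldFullC (K0 A) N) ((q : ℕ) : K0 A) :=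
    (map_natCast _ q).symm
  constructor
  · rw [e1, hV]
    exact ValuationSubring.nonunits_le hnu
  · rw [e1, ← map_inv₀, hV]
    intro hinv
    have h0 : ((q : ℕ) : K0 A) ≠ 0 := Nat.cast_ne_zero.2 hq.ne_zero
    rcases (ValuationSubring.mem_nonunits_iff_or (A := R0 A)).1 hnu with h1 | h1
    · exact h0 h1
    · exact h1 hinv

variable (c : I0 N)

include hq in
/-- `D = q^e`, `e ≤ 2` -/
theorem exists_cuspD_eq_pow : ∃ e : ℕ, e ≤ 2 ∧ cuspD N (q ^ 2) hd c = q ^ e :=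
  (Nat.dvd_prime_pow hq).1 (cuspD_dvd N (q ^ 2) hd c)

/-- `g / q^{12 e}` is a unit of `w_c` when `D = q^e` -/
theorem etaQK0_div_pow_mem_RwCuspK0 {e : ℕ} (he : cuspD N (q ^ 2) hd c = q ^ e) :
    etaQK0 A N (q ^ 2) hd / ((q : ℕ) : modularFunctionFieldFullC (K0 A) N) ^ (e * 12) ∈
        RwCuspK0 A N c ∧
      (etaQK0 A N (q ^ 2) hd / ((q : ℕ) : modularFunctionFieldFullC (K0 A) N) ^ (e * 12))⁻¹ ∈
        RwCuspK0 A N c := by
  have h1 := etaQK0_div_mem_RwCuspK0 A N (q ^ 2) hd c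
  have h2 := etaQK0_div_inv_mem_RwCuspK0 A N (q ^ 2) hd c
  rw [he, Nat.cast_pow, ← pow_mul] at h1 h2
  exact ⟨h1, h2⟩

include hq hA in
/-- **cusps with different `D` have different valuation rings** -/
theorem rwCuspK0_ne_of_cuspD_ne (c' : I0 N)
    (hne : cuspD N (q ^ 2) hd c ≠ cuspD N (q ^ 2) hd c') :
    RwCuspK0 A N c ≠ RwCuspK0 A N c' := by
  obtain ⟨e, -, he⟩ := exists_cuspD_eq_pow hq hd c
  obtain ⟨e', -, he'⟩ := exists_cuspD_eq_pow hq hd c'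
  have hee : e * 12 ≠ e' * 12 := by
    intro h
    have : e = e' := Nat.eq_of_mul_eq_mul_right (by norm_num) h
    exact hne (by rw [he, he', this])
  obtain ⟨hπ, hπ'⟩ := natCast_mem_and_inv_notMem (q := q) A hq hA
    (algebraMap_mem_RwCuspK0_iff A N c)
  obtain ⟨h1, h1'⟩ := etaQK0_div_pow_mem_RwCuspK0 A hd c he
  obtain ⟨h2, h2'⟩ := etaQK0_div_pow_mem_RwCuspK0 A hd c' he'
  exact ne_of_unit_div_pow (etaQK0_ne_zero A N (q ^ 2) hd) hee hπ hπ' h1 h1' h2 h2'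

include hq hA in
/-- a cusp with `D ≠ 1` is not `w₁` -/
theorem rwCuspK0_ne_RwK0_of_cuspD_ne_one (hne : cuspD N (q ^ 2) hd c ≠ 1) :
    RwCuspK0 A N c ≠ RwK0 A N := by
  obtain ⟨e, -, he⟩ := exists_cuspD_eq_pow hq hd c
  have hee : e * 12 ≠ 0 := by
    intro h
    have : e = 0 := by omega
    exact hne (by rw [he, this, pow_zero])
  obtain ⟨hπ, hπ'⟩ := natCast_mem_and_inv_notMem (q := q) A hq hA
    (algebraMap_mem_RwCuspK0_iff A N c)
  obtain ⟨h1, h1'⟩ := etaQK0_div_pow_mem_RwCuspK0 A hd c he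
  refine ne_of_unit_div_pow (b := 0) (etaQK0_ne_zero A N (q ^ 2) hd) hee hπ hπ' h1 h1' ?_ ?_
  · rw [pow_zero, div_one]
    exact etaQK0_mem_RwK0 A N (q ^ 2) hd
  · rw [pow_zero, div_one]
    exact etaQK0_inv_mem_RwK0 A N (q ^ 2) hd

end Separate

/-! ### Two reference cusps: `D = q²` at `cuspOfLower N 1`, `D = q` at `cusp3` -/

section Reference

variable {N : ℕ} [NeZero N]

/-- at the cusp `0` (coset of `[[1,0],[1,1]]`): `D = d` for every `d ∣ N` -/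
theorem cuspD_cuspOfLower_one (d : ℕ) [NeZero d] (hd : d ∣ N) :
    cuspD N d hd (cuspOfLower N 1) = d := by
  have hdpos : 0 < d := Nat.pos_of_ne_zero (NeZero.ne d)
  obtain ⟨H⟩ := nonempty_hermiteData d hdpos (lowerU (1 : ℤ))
  have h1 := herm_cuspOfLower_params (N := N) (1 : ℤ) ⟨d, hd⟩ H
  have h2 := hermite_params_lowerU hdpos (c := (1 : ℤ)) (c' := 1) (A := 1) (D := (d : ℤ))
    (u := 1) (v := 0) one_pos (one_mul _) (one_mul _) (by ring) H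
  have h3 : (herm N (cuspOfLower N 1) ⟨d, hd⟩).D = (d : ℤ) := by rw [h1.2.1, h2.2.1]
  show (herm N (cuspOfLower N 1) ⟨d, hd⟩).Dn = d
  rw [HermiteData.Dn, h3, Int.toNat_natCast]

variable {q M' : ℕ} [NeZero (q ^ 2)]

/-- at `cusp3`: `D = q` for `d = q²` -/
theorem cuspD_cusp3 (hq : q.Prime) (hN : N = M' * q ^ 2) (hqM : ¬ q ∣ M') (hd : q ^ 2 ∣ N) :
    cuspD N (q ^ 2) hd (cusp3 N q) = q := by
  have hdN : q ^ 2 * 1 ∣ N := by rwa [mul_one]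
  obtain ⟨-, hD, -⟩ := herm_cusp3_top hq hN hqM (one_dvd M') hdN
  have e : (⟨q ^ 2 * 1, hdN⟩ : {d : ℕ // d ∣ N}) = ⟨q ^ 2, hd⟩ := Subtype.ext (mul_one _)
  have hD' : (herm N (cusp3 N q) ⟨q ^ 2, hd⟩).D = (q : ℤ) := by
    rw [← hD]
    exact (congrArg (fun d : {d : ℕ // d ∣ N} => (herm N (cusp3 N q) d).D) e).symm
  show (herm N (cusp3 N q) ⟨q ^ 2, hd⟩).Dn = q
  rw [HermiteData.Dn, hD', Int.toNat_natCast]

end Reference

/-! ### The classification -/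

section Classify

variable (A : ValuationSubring Qb) {N : ℕ} [NeZero N] {q M' : ℕ} [NeZero (q ^ 2)] (hq : q.Prime)
  (hN : N = M' * q ^ 2) (hqM : ¬ q ∣ M') (hA : A.LiesOverPrime q) (h : HallDvd (q ^ 2) N)
  (hd : q ^ 2 ∣ N)
  (hNO : ∀ V : ValuationSubring (modularFunctionFieldFullC (K0 A) N),
    (∀ a : K0 A, algebraMap (K0 A) (modularFunctionFieldFullC (K0 A) N) a ∈ V ↔ a ∈ R0 A) →
    IsGaussAt (R0 A) V (jK0 A N) →
    V = RwK0 A N ∨ V = (redData2QK0 A N h).Rw ∨ V = Rw3K0 A N q)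

include hNO in
/-- NOEXT at a cusp -/
theorem rwCuspK0_cases (c : I0 N) :
    RwCuspK0 A N c = RwK0 A N ∨ RwCuspK0 A N c = (redData2QK0 A N h).Rw ∨
      RwCuspK0 A N c = Rw3K0 A N q :=
  hNO _ (algebraMap_mem_RwCuspK0_iff A N c) (isGaussAt_RwCuspK0 A N c)

include hq hN hqM hA hd hNO in
/-- **`w₂` is the cusp valuation at the cusp `0`** -/
theorem rw2QK0_eq_rwCuspK0 :
    (redData2QK0 A N h).Rw = RwCuspK0 A N (cuspOfLower N 1) := by
  have hD0 : cuspD N (q ^ 2) hd (cuspOfLower N 1) = q ^ 2 := cuspD_cuspOfLower_one (q ^ 2) hd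
  have hD3 : cuspD N (q ^ 2) hd (cusp3 N q) = q := cuspD_cusp3 hq hN hqM hd
  have hq1 : q ^ 2 ≠ 1 := by
    intro h1
    exact hq.one_lt.ne' (by nlinarith [hq.one_lt])
  have hqq : q ^ 2 ≠ q := by
    intro h1
    have : q * q = q * 1 := by rw [mul_one, ← pow_two, h1]
    exact hq.one_lt.ne' (Nat.eq_of_mul_eq_mul_left hq.pos this)
  rcases rwCuspK0_cases A h hNO (cuspOfLower N 1) with h1 | h2 | h3
  · exact absurd h1 (rwCuspK0_ne_RwK0_of_cuspD_ne_one A hq hA hd _ (by rw [hD0]; exact hq1))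
  · exact h2.symm
  · exact absurd h3 (rwCuspK0_ne_of_cuspD_ne A hq hA hd _ _ (by rw [hD0, hD3]; exact hqq))

include hq hN hqM hA hd hNO in
/-- **`D = 1` (type `∞`): `w_c = w₁`** -/
theorem rwCuspK0_eq_RwK0_of_cuspD (c : I0 N) (hD : cuspD N (q ^ 2) hd c = 1) :
    RwCuspK0 A N c = RwK0 A N := by
  have hD0 : cuspD N (q ^ 2) hd (cuspOfLower N 1) = q ^ 2 := cuspD_cuspOfLower_one (q ^ 2) hd
  have hD3 : cuspD N (q ^ 2) hd (cusp3 N q) = q := cuspD_cusp3 hq hN hqM hd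
  rcases rwCuspK0_cases A h hNO c with h1 | h2 | h3
  · exact h1
  · rw [rw2QK0_eq_rwCuspK0 A hq hN hqM hA h hd hNO] at h2
    refine absurd h2 (rwCuspK0_ne_of_cuspD_ne A hq hA hd _ _ ?_)
    rw [hD, hD0]
    exact (Nat.one_lt_pow two_ne_zero hq.one_lt).ne
  · refine absurd h3 (rwCuspK0_ne_of_cuspD_ne A hq hA hd _ _ ?_)
    rw [hD, hD3]
    exact hq.one_lt.ne

include hq hN hqM hA hd hNO in
/-- **`D = q²` (type `0`): `w_c = w₂`** -/
theorem rwCuspK0_eq_Rw2QK0_of_cuspD (c : I0 N) (hD : cuspD N (q ^ 2) hd c = q ^ 2) :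
    RwCuspK0 A N c = (redData2QK0 A N h).Rw := by
  have hD3 : cuspD N (q ^ 2) hd (cusp3 N q) = q := cuspD_cusp3 hq hN hqM hd
  have hq1 : q ^ 2 ≠ 1 := (Nat.one_lt_pow two_ne_zero hq.one_lt).ne'
  have hqq : q ^ 2 ≠ q := by
    intro h1
    have : q * q = q * 1 := by rw [mul_one, ← pow_two, h1]
    exact hq.one_lt.ne' (Nat.eq_of_mul_eq_mul_left hq.pos this)
  rcases rwCuspK0_cases A h hNO c with h1 | h2 | h3
  · exact absurd h1 (rwCuspK0_ne_RwK0_of_cuspD_ne_one A hq hA hd _ (by rw [hD]; exact hq1))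
  · exact h2
  · exact absurd h3 (rwCuspK0_ne_of_cuspD_ne A hq hA hd _ _ (by rw [hD, hD3]; exact hqq))

include hq hN hqM hA hd hNO in
/-- **`D = q` (type `1/q`): `w_c = w₃`** -/
theorem rwCuspK0_eq_Rw3K0_of_cuspD (c : I0 N) (hD : cuspD N (q ^ 2) hd c = q) :
    RwCuspK0 A N c = Rw3K0 A N q := by
  have hD0 : cuspD N (q ^ 2) hd (cuspOfLower N 1) = q ^ 2 := cuspD_cuspOfLower_one (q ^ 2) hd
  have hqq : q ≠ q ^ 2 := by
    intro h1
    have : q * q = q * 1 := by rw [mul_one, ← pow_two, ← h1]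
    exact hq.one_lt.ne' (Nat.eq_of_mul_eq_mul_left hq.pos this)
  rcases rwCuspK0_cases A h hNO c with h1 | h2 | h3
  · exact absurd h1 (rwCuspK0_ne_RwK0_of_cuspD_ne_one A hq hA hd _ (by rw [hD]; exact hq.one_lt.ne'))
  · rw [rw2QK0_eq_rwCuspK0 A hq hN hqM hA h hd hNO] at h2
    exact absurd h2 (rwCuspK0_ne_of_cuspD_ne A hq hA hd _ _ (by rw [hD, hD0]; exact hqq))
  · exact h3

/-! #### in terms of `c₁₀ = (rep N c) 1 0` -/

include hq hN hqM hA hd hNO in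
/-- **`q² ∣ c₁₀ ⟹ w_c = w₁`** -/
theorem rwCuspK0_eq_RwK0_of_dvd (c : I0 N) (hc : ((q ^ 2 : ℕ) : ℤ) ∣ (rep N c) 1 0) :
    RwCuspK0 A N c = RwK0 A N :=
  rwCuspK0_eq_RwK0_of_cuspD A hq hN hqM hA h hd hNO c ((cuspD_eq_one_iff N (q ^ 2) hd c).2 hc)

include hq in
/-- `q ∤ c₁₀ ⟹ D = q²` -/
theorem cuspD_eq_sq_of_not_dvd (c : I0 N) (hc : ¬ (q : ℤ) ∣ (rep N c) 1 0) :
    cuspD N (q ^ 2) hd c = q ^ 2 := by
  have hg := gcd_mul_cuspD N (q ^ 2) hd c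
  have hcop : Nat.Coprime ((rep N c) 1 0).natAbs (q ^ 2) := by
    refine Nat.Coprime.pow_right 2 (Nat.Coprime.symm ((Nat.Prime.coprime_iff_not_dvd hq).2 ?_))
    intro hdv
    exact hc (Int.natCast_dvd.mpr hdv)
  rw [Nat.Coprime] at hcop
  rw [hcop, one_mul] at hg
  exact hg

include hq hN hqM hA hd hNO in
/-- **`q ∤ c₁₀ ⟹ w_c = w₂`** -/
theorem rwCuspK0_eq_Rw2QK0_of_not_dvd (c : I0 N) (hc : ¬ (q : ℤ) ∣ (rep N c) 1 0) :
    RwCuspK0 A N c = (redData2QK0 A N h).Rw :=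
  rwCuspK0_eq_Rw2QK0_of_cuspD A hq hN hqM hA h hd hNO c (cuspD_eq_sq_of_not_dvd hq hd c hc)

include hq in
/-- `q ∥ c₁₀ ⟹ D = q` -/
theorem cuspD_eq_self_of_exactDvd (c : I0 N) (hc : (q : ℤ) ∣ (rep N c) 1 0)
    (hc2 : ¬ ((q ^ 2 : ℕ) : ℤ) ∣ (rep N c) 1 0) : cuspD N (q ^ 2) hd c = q := by
  obtain ⟨e, he2, he⟩ := exists_cuspD_eq_pow hq hd c
  have hg := gcd_mul_cuspD N (q ^ 2) hd c
  have hqg : q ∣ Nat.gcd ((rep N c) 1 0).natAbs (q ^ 2) :=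
    Nat.dvd_gcd (Int.natCast_dvd.mp hc) (dvd_pow_self q two_ne_zero)
  interval_cases e
  · exact absurd ((cuspD_eq_one_iff N (q ^ 2) hd c).1 (by rw [he, pow_zero])) hc2
  · rw [he, pow_one]
  · exfalso
    rw [he] at hg
    have h1 : Nat.gcd ((rep N c) 1 0).natAbs (q ^ 2) = 1 :=
      Nat.eq_of_mul_eq_mul_right (pow_pos hq.pos 2) (by rw [hg, one_mul])
    rw [h1] at hqg
    exact hq.one_lt.ne' (Nat.dvd_one.mp hqg)

include hq hN hqM hA hd hNO in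
/-- **`q ∥ c₁₀ ⟹ w_c = w₃`** -/
theorem rwCuspK0_eq_Rw3K0_of_dvd (c : I0 N) (hc : (q : ℤ) ∣ (rep N c) 1 0)
    (hc2 : ¬ ((q ^ 2 : ℕ) : ℤ) ∣ (rep N c) 1 0) : RwCuspK0 A N c = Rw3K0 A N q :=
  rwCuspK0_eq_Rw3K0_of_cuspD A hq hN hqM hA h hd hNO c (cuspD_eq_self_of_exactDvd hq hd c hc hc2)

end Classify

/-! ### The same with helper75's leg hypotheses (`L1eAsmK0`) -/

section Legs

open Fermat.Agent.GK.MultiVal Fermat.Agent.GL.MultiVal Fermat.Agent.GL.MultiVal.GaussBaseJ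
open Fermat.Agent.GL.Val.L1eAsm Fermat.Agent.GL.Val.L1eAsmK0 Fermat.Agent.GL.Val.RamK0
open IntermediateField Module

variable (A : ValuationSubring Qb) {N : ℕ} [NeZero N] {q M' : ℕ} [NeZero (q ^ 2)] (hq : q.Prime)
  (hN : N = M' * q ^ 2) (hqM : ¬ q ∣ M') (hA : A.LiesOverPrime q) (h : HallDvd (q ^ 2) N)
  {d' : ℕ} [NeZero (q ^ 2 * d')] [NeZero d'] (hd' : d' ∣ M') (hdN : q ^ 2 * d' ∣ N)
  (hd'N : d' ∣ N)
  {f₁ f₂ f₃ : ℕ} {g₁ : Fin f₁ → modularFunctionFieldFullC (K0 A) N}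
  {g₂ : Fin f₂ → modularFunctionFieldFullC (K0 A) N}
  {g₃ : Fin f₃ → modularFunctionFieldFullC (K0 A) N}
  (hg₁ : IsOrthoFamily (A0 A N) (RwK0 A N).toSubring (vrad (RwK0 A N)) g₁)
  (hg₂ : IsOrthoFamily (A0 A N) (redData2QK0 A N h).Rw.toSubring
    (vrad (redData2QK0 A N h).Rw) g₂)
  (hg₃ : IsOrthoFamily (A0 A N) (Rw3K0 A N q).toSubring (vrad (Rw3K0 A N q)) g₃)
  (hsum : dedekindPsi M' * (q ^ 2 + q) ≤ f₁ + f₂ + (q - 1) * f₃)

include hq hN hqM hA hd' hdN hd'N hg₁ hg₂ hg₃ hsum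

/-- NOEXT in the hypothesis shape of `rwCuspK0_eq_of_…` -/
theorem noExt_of_legs (V : ValuationSubring (modularFunctionFieldFullC (K0 A) N))
    (hV : ∀ a : K0 A, algebraMap (K0 A) (modularFunctionFieldFullC (K0 A) N) a ∈ V ↔ a ∈ R0 A)
    (hj : IsGaussAt (R0 A) V (jK0 A N)) :
    V = RwK0 A N ∨ V = (redData2QK0 A N h).Rw ∨ V = Rw3K0 A N q :=
  exists_eq_W3_of_isGaussAt A hq hN hqM hA h hd' hdN hd'N hg₁ hg₂ hg₃ hsum hV hj

/-- **`w₂` is the cusp valuation at the cusp `0`** (legs form) -/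
theorem rw2QK0_eq_rwCuspK0_of_legs :
    (redData2QK0 A N h).Rw = RwCuspK0 A N (cuspOfLower N 1) :=
  rw2QK0_eq_rwCuspK0 A hq hN hqM hA h (Dvd.intro_left M' hN.symm)
    (noExt_of_legs A hq hN hqM hA h hd' hdN hd'N hg₁ hg₂ hg₃ hsum)

/-- **`q² ∣ c₁₀ ⟹ w_c = w₁`** (legs form) -/
theorem rwCuspK0_eq_RwK0_of_dvd_of_legs (c : I0 N)
    (hc : ((q ^ 2 : ℕ) : ℤ) ∣ (rep N c) 1 0) : RwCuspK0 A N c = RwK0 A N :=
  rwCuspK0_eq_RwK0_of_dvd A hq hN hqM hA h (Dvd.intro_left M' hN.symm)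
    (noExt_of_legs A hq hN hqM hA h hd' hdN hd'N hg₁ hg₂ hg₃ hsum) c hc

/-- **`q ∤ c₁₀ ⟹ w_c = w₂`** (legs form) -/
theorem rwCuspK0_eq_Rw2QK0_of_not_dvd_of_legs (c : I0 N) (hc : ¬ (q : ℤ) ∣ (rep N c) 1 0) :
    RwCuspK0 A N c = (redData2QK0 A N h).Rw :=
  rwCuspK0_eq_Rw2QK0_of_not_dvd A hq hN hqM hA h (Dvd.intro_left M' hN.symm)
    (noExt_of_legs A hq hN hqM hA h hd' hdN hd'N hg₁ hg₂ hg₃ hsum) c hc

/-- **`q ∥ c₁₀ ⟹ w_c = w₃`** (legs form) -/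
theorem rwCuspK0_eq_Rw3K0_of_dvd_of_legs (c : I0 N) (hc : (q : ℤ) ∣ (rep N c) 1 0)
    (hc2 : ¬ ((q ^ 2 : ℕ) : ℤ) ∣ (rep N c) 1 0) : RwCuspK0 A N c = Rw3K0 A N q :=
  rwCuspK0_eq_Rw3K0_of_dvd A hq hN hqM hA h (Dvd.intro_left M' hN.symm)
    (noExt_of_legs A hq hN hqM hA h hd' hdN hd'N hg₁ hg₂ hg₃ hsum) c hc hc2

end Legs

end Fermat.Agent.GL.Val.CuspClass
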