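/-
GATE-L / L1e LEG `w₃` (helper93, per helper45 ROLES 2960 (b)): **the orthonormal family of size
`ψ(M')` at the third vertical valuation `w₃` of `K₀(X₀(N))`, `N = M' q²`, over the base
`(K₀(j), baseJK0 A N)`**, in the `hg` shape of `card_le_finrank_ram'` / helper75 `L1eAsm`.

GENERIC (`isOrthoFamily_transport`): a `K`-algebra map `ι : F' → F`, a chart `j' : F'`, valuation
subrings `V₁' ⊂ F'`, `V₁, V₃ ⊂ F` with the two rows `ι x ∈ V₁ ↔ x ∈ V₁'`, `ι x ∈ V₃ ↔ x ∈ V₁'`:
an orthonormal family `x` over `(K(j'), baseJ V₁' j')` at `V₁'` is sent by `ι` to an orthonormal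
family over `(K(ι j'), baseJ V₁ (ι j'))` at `V₃`  [`K(ι j') = ι (K(j'))`, coefficients descend].

CONCRETE: `ι = inclK0 A (M' ∣ N)` (helper67 `DegenK0`), `V₁' = RwK0 A M'`, `V₁ = RwK0 A N`,
`V₃ = Rw3K0 A N q` (helper26), rows = helper67 `mem_RwK0_inclK0`, `mem_RwCuspK0_inclK0_of_dvd`
(the representative of `cusp3` has bottom-left entry divisible by `M'`); the level-`M'` family is
helper45 `LegsK0.exists_leg1 A M'` of size `f₁(M') = ψ(M')` (`OrthK0.f1K0_eq_psi`, `q ∤ M'`).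

* `exists_leg3 : ∃ g₃ : Fin (dedekindPsi M') → K₀(X₀(N)),
    IsOrthoFamily (baseJK0 A N) (Rw3K0 A N q).toSubring (vrad (Rw3K0 A N q)) g₃`.
-/
import Fermat.Agent.GL.Val.LegsK0
import Fermat.Agent.GL.Table.DegenK0
import Fermat.Agent.GL.Val.ThirdK0

set_option autoImplicit false

noncomputable section

namespace Fermat.Agent.GL.W3

open HahnSeries ModularCurve IsLocalRing Matrix MatrixGroups CongruenceSubgroup IntermediateField
open Fermat.Agent.S24 Fermat.Agent.S28 Fermat.Agent.S28.CuspExp Fermat.Agent.S28.Assemble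
open Fermat.Agent.S24_helper62
open Fermat.Agent.GJ.J1 Fermat.Agent.GJ.J1.Val Fermat.Agent.GL.CuspVal
open Fermat.Agent.GK.Val.GaussBase
open Fermat.Agent.GK.MultiVal Fermat.Agent.GL.MultiVal Fermat.Agent.GL.MultiVal.GaussBaseJ
open Fermat.Agent.GL.Val.GaussK0 Fermat.Agent.GL.Val.CuspK0 Fermat.Agent.GL.Val.SecondK0
open Fermat.Agent.GL.Val.OrthK0
open Fermat.Agent.GL.Val.LegsK0 Fermat.Agent.GL.Val.ThirdK0 Fermat.Agent.GL.Table.K0
open Fermat.Agent.Common_helper32

/-! ### Generic transport of orthonormal families along a field inclusion -/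

section Transport

variable {K F' F : Type*} [Field K] [Field F'] [Field F] [Algebra K F'] [Algebra K F]

/-- the open unit balls correspond along a row `ι x ∈ V ↔ x ∈ V'` -/
theorem mem_vrad_of_row (ι : F' →+* F) (V' : ValuationSubring F') (V : ValuationSubring F)
    (h : ∀ x : F', ι x ∈ V ↔ x ∈ V') (y : F') : ι y ∈ vrad V ↔ y ∈ vrad V' := by
  rw [mem_vrad, mem_vrad, ← ValuationSubring.mem_nonunits_iff, ← ValuationSubring.mem_nonunits_iff]
  exact (mem_nonunits_of_comap ι V' V (fun x => (h x).symm) y).symm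

/-- every element of `K(ι j')` is the image of an element of `K(j')` -/
theorem exists_adjoin_preimage (ι : F' →ₐ[K] F) (j' : F') (a : K⟮ι j'⟯) :
    ∃ a' : K⟮j'⟯, ι (a' : F') = (a : F) := by
  have h1 : (K⟮j'⟯).map ι = K⟮ι j'⟯ := by
    rw [IntermediateField.adjoin_map, Set.image_singleton]
  have h2 : (a : F) ∈ (K⟮j'⟯).map ι := by
    rw [h1]
    exact a.2
  obtain ⟨y, hy, hya⟩ := (IntermediateField.mem_map (K⟮j'⟯)).mp h2
  exact ⟨⟨y, hy⟩, hya⟩

/-- **transport of orthonormal families**: rows `(ι; V₁ | V₁')` and `(ι; V₃ | V₁')` send a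
`(K(j'), V₁' ∩ K(j'))`-orthonormal family at `V₁'` to a `(K(ι j'), V₁ ∩ K(ι j'))`-orthonormal
family at `V₃`. -/
theorem isOrthoFamily_transport (ι : F' →ₐ[K] F) (j' : F') (V₁' : ValuationSubring F')
    (V₁ V₃ : ValuationSubring F) (h1 : ∀ x : F', ι x ∈ V₁ ↔ x ∈ V₁')
    (h3 : ∀ x : F', ι x ∈ V₃ ↔ x ∈ V₁') {J : Type*} (x : J → F')
    (hx : IsOrthoFamily (baseJ (K := K) V₁' j') V₁'.toSubring (vrad V₁') x) :
    IsOrthoFamily (baseJ (K := K) V₁ (ι j')) V₃.toSubring (vrad V₃) (fun m => ι (x m)) where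
  mem := fun m => (h3 (x m)).mpr (hx.mem m)
  indep := by
    classical
    intro c hc hsum m
    choose f hf using exists_adjoin_preimage ι j'
    have hinj : Function.Injective (ι : F' → F) := ι.toRingHom.injective
    have hf0 : f 0 = 0 := by
      apply Subtype.ext
      apply hinj
      rw [hf 0]
      simp
    set c' : J →₀ K⟮j'⟯ := c.mapRange f hf0 with hc'def
    have hc'm : ∀ m, c' m = f (c m) := fun m => Finsupp.mapRange_apply (hf := hf0)
    have hc' : ∀ m, c' m ∈ baseJ (K := K) V₁' j' := by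
      intro m
      rw [mem_baseJ_iff, ← h1]
      show ι ((c' m : K⟮j'⟯) : F') ∈ V₁
      rw [hc'm, hf]
      exact hc m
    have hlin : Finsupp.linearCombination K⟮ι j'⟯ (fun m => ι (x m)) c =
        ι (Finsupp.linearCombination K⟮j'⟯ x c') := by
      have hs : (Finsupp.mapRange f hf0 c).sum (fun i a => a • x i) =
          c.sum (fun i a => f a • x i) :=
        Finsupp.sum_mapRange_index (fun i => zero_smul _ _)
      rw [Finsupp.linearCombination_apply, Finsupp.linearCombination_apply, hc'def, hs,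
        Finsupp.sum, Finsupp.sum, map_sum]
      refine Finset.sum_congr rfl fun m _ => ?_
      rw [Algebra.smul_def, Algebra.smul_def, map_mul]
      congr 1
      exact (hf (c m)).symm
    rw [hlin] at hsum
    have hsum' := (mem_vrad_of_row (ι : F' →+* F) V₁' V₃ h3 _).mp hsum
    have h4 := hx.indep c' hc' hsum' m
    rw [mem_nonunits_baseJ_iff] at h4 ⊢
    rw [hc'm] at h4
    have h5 := (mem_nonunits_of_comap (ι : F' →+* F) V₁' V₁ (fun x => (h1 x).symm) _).mp h4
    have h6 : (ι : F' →+* F) ((f (c m) : K⟮j'⟯) : F') = ((c m : K⟮ι j'⟯) : F) := hf (c m)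
    rwa [h6] at h5

end Transport

/-! ### The leg at `w₃` over `K₀` -/

section Leg3

variable (A : ValuationSubring Qb) {N q M' : ℕ} [NeZero N]

/-- the representative of the cusp `cusp3` has bottom-left entry divisible by `M'` -/
theorem dvd_rep_cusp3 (hN : N = M' * q ^ 2) : (M' : ℤ) ∣ (rep N (cusp3 N q)) 1 0 := by
  obtain ⟨γ, hγ, hrep⟩ := rep_cuspOfLower N ((N / q : ℕ) : ℤ)
  rw [Gamma0_mem, ZMod.intCast_zmod_eq_zero_iff_dvd] at hγ
  have hrep' : rep N (cusp3 N q) = γ * lowerU ((N / q : ℕ) : ℤ) := hrep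
  have h10 : (γ * lowerU ((N / q : ℕ) : ℤ)) 1 0 = γ 1 0 + γ 1 1 * ((N / q : ℕ) : ℤ) := by
    rw [Matrix.SpecialLinearGroup.coe_mul, Matrix.mul_apply, Fin.sum_univ_two]
    simp
  rw [hrep', h10]
  have hMN : (M' : ℤ) ∣ (N : ℤ) := Int.natCast_dvd_natCast.mpr ⟨q ^ 2, hN⟩
  have hMNq : (M' : ℤ) ∣ ((N / q : ℕ) : ℤ) := by
    apply Int.natCast_dvd_natCast.mpr
    rcases Nat.eq_zero_or_pos q with h0 | hpos
    · rw [h0, Nat.div_zero]
      exact dvd_zero _
    · refine ⟨q, ?_⟩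
      rw [hN, pow_two, ← mul_assoc, Nat.mul_div_cancel _ hpos]
  exact dvd_add (hMN.trans hγ) (Dvd.dvd.mul_left hMNq _)

variable [NeZero M']

/-- the chart `j` of level `M'` is sent to the chart `j` of level `N` -/
theorem inclK0_jK0 (h : M' ∣ N) : inclK0 A h (jK0 A M') = jK0 A N := by
  apply Subtype.ext
  rw [coe_inclC, jK0, jK0, coe_genC, coe_genC]

/-- **leg `w₃`**: an orthonormal family of size `ψ(M')` at `w₃` over `(K₀(j), baseJK0 A N)`,
`N = M' q²`, `q ∤ M'`: the level-`M'` family of `w₁` included at level `N`. -/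
theorem exists_leg3 (hq : q.Prime) (hN : N = M' * q ^ 2) (hqM : ¬ q ∣ M')
    (hA : A.LiesOverPrime q) :
    ∃ g3 : Fin (dedekindPsi M') → modularFunctionFieldFullC (K0 A) N,
      IsOrthoFamily (baseJK0 A N) (Rw3K0 A N q).toSubring (vrad (Rw3K0 A N q)) g3 := by
  have : NeZero (q ^ 2) := ⟨pow_ne_zero 2 hq.ne_zero⟩
  have he : M' * q ^ 2 = N := hN.symm
  have hdvd : M' ∣ N := Dvd.intro (q ^ 2) he
  obtain ⟨g, hg⟩ := exists_leg1 A M'
  have hcard := f1K0_eq_psi A M' hq hA hqM (isGaussChart_jK0 A M').1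
  have hg' := IsOrthoFamily.comp hg (e := Fin.cast hcard.symm) (Fin.cast_injective _)
  have htr := isOrthoFamily_transport (K := K0 A) (inclK0 A hdvd) (jK0 A M') (RwK0 A M')
    (RwK0 A N) (Rw3K0 A N q) (mem_RwK0_inclK0 A hdvd)
    (mem_RwCuspK0_inclK0_of_dvd A he (cusp3 N q) (dvd_rep_cusp3 hN)) _ hg'
  rw [inclK0_jK0] at htr
  exact ⟨_, htr⟩

end Leg3

end Fermat.Agent.GL.W3
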