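/-
GATE-L / L1e LEGS, `jC` form (helper45): the `w₁`, `w₂` legs of `LegsK0`, restated over helper90's
base `GaussAtK0.baseJK0 A N : ValuationSubring (K0 A)⟮jC N (K0 A)⟯` (the chart `jC N (K0 A)`
instead of the propositionally equal `OrthK0.jK0 A N = genC … (one_dvd N)`), NUMBER-INDEXED
(no `finrank` in the index types) and with the sizes attached:

* `exists_legs_hall` (Hall divisor `Q = q^e ∥ N`, `M' ∣ N`, `q ∤ M'`):
    `∃ f₁ (g₁ : Fin f₁ → F₀) (g₂ : Fin (q^e * f₁) → F₀), ψ(M') ≤ f₁ ∧ f₁ + q^e f₁ ≤ ψ(N) ∧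
       g₁ orthonormal for w₁ ∧ g₂ orthonormal for w₂ = w₁ ∘ W_Q`   over `baseJK0 A N`;
* `exists_legs_exact` (`q ∥ N`): the same with `f₁ = ψ(N/q)`, `g₂ : Fin (q * ψ(N/q))`,
    and `ψ(N/q) + q ψ(N/q) = ψ(N) = [F₀ : K₀(j)]`;
* `exists_leg_single` (`q ∤ N`): `g₁ : Fin ψ(N) → F₀`;
* `finrank_jC_K0`, `finiteDimensional_jC_K0` : `[F₀ : K₀(jC)] = ψ(N)`.
-/
import Fermat.Agent.GL.Val.LegsK0
import Fermat.Agent.GL.Val.GaussAtK0

set_option autoImplicit false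

noncomputable section

namespace Fermat.Agent.GL.Val.LegsJC

open Module IntermediateField IsLocalRing ModularCurve
open Fermat.Agent.GJ.J1 Fermat.Agent.GK.MultiVal Fermat.Agent.GL.MultiVal
open Fermat.Agent.GL.MultiVal.GaussBaseJ
open Fermat.Agent.GK.AL Fermat.Agent.GL.AL
open Fermat.Agent.GL.Val.GaussK0 Fermat.Agent.GL.Val.SecondK0 Fermat.Agent.GL.Val.SecondK0Hall
open Fermat.Agent.GL.Val.DegBase Fermat.Agent.GL.Val.LegsK0
open Fermat.Agent.Common_helper32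

/-- reindexing an orthonormal family along an equality of sizes -/
theorem isOrthoFamily_cast {K F : Type*} [Field K] [Field F] [Algebra K F]
    {A : ValuationSubring K} {B : Subring F} {I : AddSubgroup F} {n m : ℕ} (h : m = n)
    {g : Fin n → F} (hg : IsOrthoFamily A B I g) :
    IsOrthoFamily A B I (fun i : Fin m => g (Fin.cast h i)) :=
  IsOrthoFamily.comp hg (Fin.cast_injective h)

variable (A : ValuationSubring Qb) (N : ℕ) [NeZero N]

/-- **`[K₀(X₀(N)) : K₀(jC)] = ψ(N)`** -/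
theorem finrank_jC_K0 :
    finrank (K0 A)⟮jC N (K0 A)⟯ (modularFunctionFieldFullC (K0 A) N) = dedekindPsi N :=
  finrank_fullC_eq_psi N (K0 A)

theorem finiteDimensional_jC_K0 :
    FiniteDimensional (K0 A)⟮jC N (K0 A)⟯ (modularFunctionFieldFullC (K0 A) N) :=
  finiteDimensional_fullC N (K0 A)

section Hall

variable {Q : ℕ} (h : HallDvd Q N) {q : ℕ} (hq : q.Prime) {e : ℕ} (hQ : Q = q ^ e)
  (hA : (q : Qb) ∈ A.nonunits)

include hq hQ hA in
/-- the legs over the base of an arbitrary chart `t = jK0` -/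
theorem exists_legs_hall_aux (he : 0 < e) (M' : ℕ) [NeZero M'] (hM' : M' ∣ N) (hqM' : ¬ q ∣ M')
    (t : modularFunctionFieldFullC (K0 A) N) (ht : OrthK0.jK0 A N = t) :
    ∃ (f₁ : ℕ) (g₁ : Fin f₁ → modularFunctionFieldFullC (K0 A) N)
      (g₂ : Fin (q ^ e * f₁) → modularFunctionFieldFullC (K0 A) N),
      dedekindPsi M' ≤ f₁ ∧ f₁ + q ^ e * f₁ ≤ dedekindPsi N ∧
      IsOrthoFamily (baseJ (K := K0 A) (RwK0 A N) t) (RwK0 A N).toSubring (vrad (RwK0 A N)) g₁ ∧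
      IsOrthoFamily (baseJ (K := K0 A) (RwK0 A N) t) (redData2QK0 A N h).Rw.toSubring
        (vrad (redData2QK0 A N h).Rw) g₂ := by
  subst ht
  obtain ⟨g₁, hg₁⟩ := exists_leg1 A N
  obtain ⟨g₂, hg₂⟩ := exists_leg2Q A N h
  have hf2 := OrthK0.f2QK0_eq A N h hq hQ hA (OrthK0.isGaussChart_jK0 A N).1
    (OrthK0.isGaussChart_jK0_2Q A N h).1
  exact ⟨_, g₁, fun i => g₂ (Fin.cast hf2.symm i),
    OrthK0.psi_le_f1K0 A N hq hA M' hM' hqM' _,
    OrthK0.sum_le_QK0 A N h hq hQ hA he _, hg₁, isOrthoFamily_cast hf2.symm hg₂⟩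

include hq hQ hA in
/-- **the legs `w₁`, `w₂ = w₁ ∘ W_Q` at a Hall divisor `Q = q^e ∥ N`, over helper90's base** -/
theorem exists_legs_hall (he : 0 < e) (M' : ℕ) [NeZero M'] (hM' : M' ∣ N) (hqM' : ¬ q ∣ M') :
    ∃ (f₁ : ℕ) (g₁ : Fin f₁ → modularFunctionFieldFullC (K0 A) N)
      (g₂ : Fin (q ^ e * f₁) → modularFunctionFieldFullC (K0 A) N),
      dedekindPsi M' ≤ f₁ ∧ f₁ + q ^ e * f₁ ≤ dedekindPsi N ∧
      IsOrthoFamily (GaussAtK0.baseJK0 A N) (RwK0 A N).toSubring (vrad (RwK0 A N)) g₁ ∧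
      IsOrthoFamily (GaussAtK0.baseJK0 A N) (redData2QK0 A N h).Rw.toSubring
        (vrad (redData2QK0 A N h).Rw) g₂ :=
  exists_legs_hall_aux A N h hq hQ hA he M' hM' hqM' (jC N (K0 A)) (OrthK0.jK0_eq_jC A N)

end Hall

section Exact

variable {q : ℕ} (h : ExactDvd q N) (hA : (q : Qb) ∈ A.nonunits)

include hA in
theorem exists_legs_exact_aux (t : modularFunctionFieldFullC (K0 A) N)
    (ht : OrthK0.jK0 A N = t) :
    ∃ (g₁ : Fin (dedekindPsi (N / q)) → modularFunctionFieldFullC (K0 A) N)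
      (g₂ : Fin (q * dedekindPsi (N / q)) → modularFunctionFieldFullC (K0 A) N),
      IsOrthoFamily (baseJ (K := K0 A) (RwK0 A N) t) (RwK0 A N).toSubring (vrad (RwK0 A N)) g₁ ∧
      IsOrthoFamily (baseJ (K := K0 A) (RwK0 A N) t) (redData2K0 A N h).Rw.toSubring
        (vrad (redData2K0 A N h).Rw) g₂ := by
  subst ht
  obtain ⟨g₁, hg₁⟩ := exists_leg1 A N
  obtain ⟨g₂, hg₂⟩ := exists_leg2 A N h
  obtain ⟨hf1, hf2, -⟩ := OrthK0.degreesK0 A N h hA (OrthK0.isGaussChart_jK0 A N).1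
    (OrthK0.isGaussChart_jK0_2 A N h).1
  exact ⟨fun i => g₁ (Fin.cast hf1.symm i), fun i => g₂ (Fin.cast hf2.symm i),
    isOrthoFamily_cast hf1.symm hg₁, isOrthoFamily_cast hf2.symm hg₂⟩

include hA in
/-- **the legs `w₁`, `w₂ = w₁ ∘ W_q` at `q ∥ N`, over helper90's base**: sizes `ψ(N/q)`, `q ψ(N/q)` -/
theorem exists_legs_exact :
    ∃ (g₁ : Fin (dedekindPsi (N / q)) → modularFunctionFieldFullC (K0 A) N)
      (g₂ : Fin (q * dedekindPsi (N / q)) → modularFunctionFieldFullC (K0 A) N),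
      IsOrthoFamily (GaussAtK0.baseJK0 A N) (RwK0 A N).toSubring (vrad (RwK0 A N)) g₁ ∧
      IsOrthoFamily (GaussAtK0.baseJK0 A N) (redData2K0 A N h).Rw.toSubring
        (vrad (redData2K0 A N h).Rw) g₂ :=
  exists_legs_exact_aux A N h hA (jC N (K0 A)) (OrthK0.jK0_eq_jC A N)

omit [NeZero N] in
include h in
/-- `ψ(N/q) + q ψ(N/q) = ψ(N)` at `q ∥ N` -/
theorem psi_add_eq : dedekindPsi (N / q) + q * dedekindPsi (N / q) = dedekindPsi N := by
  have : Fact q.Prime := ⟨h.prime⟩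
  have hNq : N / q * q = N := Nat.div_mul_cancel h.dvd
  have hqN' : ¬ q ∣ N / q := by
    intro hd
    apply h.not_sq
    rw [pow_two, ← hNq]
    exact mul_dvd_mul_right hd q
  have hψ : dedekindPsi N = dedekindPsi (N / q) * (q + 1) := by
    conv_lhs => rw [← hNq]
    exact Fermat.Agent.GK.Val.Degrees.dedekindPsi_mul_prime (N / q) q hqN'
  rw [hψ]
  ring

end Exact

section Single

variable {q : ℕ} (hq : q.Prime) (hA : (q : Qb) ∈ A.nonunits)

include hq hA in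
theorem exists_leg_single_aux (hqN : ¬ q ∣ N) (t : modularFunctionFieldFullC (K0 A) N)
    (ht : OrthK0.jK0 A N = t) :
    ∃ g₁ : Fin (dedekindPsi N) → modularFunctionFieldFullC (K0 A) N,
      IsOrthoFamily (baseJ (K := K0 A) (RwK0 A N) t) (RwK0 A N).toSubring (vrad (RwK0 A N)) g₁ := by
  subst ht
  obtain ⟨g₁, hg₁⟩ := exists_leg1 A N
  have hf1 := OrthK0.f1K0_eq_psi A N hq hA hqN (OrthK0.isGaussChart_jK0 A N).1
  exact ⟨fun i => g₁ (Fin.cast hf1.symm i), isOrthoFamily_cast hf1.symm hg₁⟩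

include hq hA in
/-- **the leg `w₁` at `q ∤ N`, over helper90's base**: size `ψ(N) = [F₀ : K₀(j)]` -/
theorem exists_leg_single (hqN : ¬ q ∣ N) :
    ∃ g₁ : Fin (dedekindPsi N) → modularFunctionFieldFullC (K0 A) N,
      IsOrthoFamily (GaussAtK0.baseJK0 A N) (RwK0 A N).toSubring (vrad (RwK0 A N)) g₁ :=
  exists_leg_single_aux A N hq hA hqN (jC N (K0 A)) (OrthK0.jK0_eq_jC A N)

end Single

end Fermat.Agent.GL.Val.LegsJC
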