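/-
GATE-L / L1d, abstract core (helper94): **counting distinct valuations in an orbit of reduction data**.

`R i : RedData K F k (E i)`, `i : I` finite, with residue fields `E i ⊆ Ω` inside ONE big field
(`Ω = k((Q))` for Gauss valuations of `q`-expansions), all over the same `(A, res)`.  Suppose

* common elements `u x : F` (`x ∈ X ⊆ Ω`) with `red_i (u x) = x` for EVERY `i`
  (`X` = the reductions `j~(Q^d)` of the `j_d`, the same series at every cusp `1/(qM'a')`);
* one element `y : F` with `red_i y = c i • Y`, `c : I → k` injective, `Y ≠ 0`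
  (`y = (j_{q²} - j)/(ζ_q - 1)`, `Y = θ j~`, `c` = the parameter of the cusp);
* `Y` integral over `F₀ := k(X)`, of degree `e`.

Then two of the valuations can coincide only if `(c i' / c i) • Y` is a ROOT of `minpoly F₀ Y`
(`aeval_smul_eq_zero_of_Rw_eq`); hence every class of `i ~ i' ↔ Rw_i = Rw_i'` has at most `e`
elements (`card_fiber_le`) and the number of DISTINCT valuations is at least `#I / e`
(`card_le_card_image_mul`).  Since each `E i ⊇ F₀(Y)` has degree `≥ e [F₀ : k(x₁)]`, the distinct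
valuations of the orbit contribute at least `#I · [F₀ : k(x₁)]` to the fundamental inequality,
WHATEVER `e` is: no irreducibility statement (Igusa curve) is needed.
-/
import Mathlib
import Fermat.Agent.GJ.J1.Defs

set_option autoImplicit false

noncomputable section

namespace Fermat.Agent.GL.OrbitCount

open Polynomial IntermediateField Fermat.Agent.GJ.J1

variable {K F k Ω : Type*} [Field K] [Field F] [Algebra K F] [Field k] [Field Ω] [Algebra k Ω]

/-! ### two reduction data with the same valuation ring -/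

section Pair

variable {E E' : IntermediateField k Ω} (R : RedData K F k E) (R' : RedData K F k E')

/-- `a` and `b` are the two reductions of one element of `F` -/
def Rel (a b : Ω) : Prop :=
  ∃ (z : F) (h : z ∈ R.Rw) (h' : z ∈ R'.Rw),
    ((R.red ⟨z, h⟩ : E) : Ω) = a ∧ ((R'.red ⟨z, h'⟩ : E') : Ω) = b

variable {R R'}

theorem Rel.add {a b a' b' : Ω} (h1 : Rel R R' a b) (h2 : Rel R R' a' b') :
    Rel R R' (a + a') (b + b') := by
  obtain ⟨z, h, h', rfl, rfl⟩ := h1
  obtain ⟨w, g, g', rfl, rfl⟩ := h2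
  refine ⟨z + w, R.Rw.add_mem _ _ h g, R'.Rw.add_mem _ _ h' g', ?_, ?_⟩
  · have : R.red ⟨z + w, R.Rw.add_mem _ _ h g⟩ = R.red ⟨z, h⟩ + R.red ⟨w, g⟩ :=
      map_add R.red ⟨z, h⟩ ⟨w, g⟩
    rw [this]; rfl
  · have : R'.red ⟨z + w, R'.Rw.add_mem _ _ h' g'⟩ = R'.red ⟨z, h'⟩ + R'.red ⟨w, g'⟩ :=
      map_add R'.red ⟨z, h'⟩ ⟨w, g'⟩
    rw [this]; rfl

theorem Rel.mul {a b a' b' : Ω} (h1 : Rel R R' a b) (h2 : Rel R R' a' b') :
    Rel R R' (a * a') (b * b') := by
  obtain ⟨z, h, h', rfl, rfl⟩ := h1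
  obtain ⟨w, g, g', rfl, rfl⟩ := h2
  refine ⟨z * w, R.Rw.mul_mem _ _ h g, R'.Rw.mul_mem _ _ h' g', ?_, ?_⟩
  · have : R.red ⟨z * w, R.Rw.mul_mem _ _ h g⟩ = R.red ⟨z, h⟩ * R.red ⟨w, g⟩ :=
      map_mul R.red ⟨z, h⟩ ⟨w, g⟩
    rw [this]; rfl
  · have : R'.red ⟨z * w, R'.Rw.mul_mem _ _ h' g'⟩ = R'.red ⟨z, h'⟩ * R'.red ⟨w, g'⟩ :=
      map_mul R'.red ⟨z, h'⟩ ⟨w, g'⟩
    rw [this]; rfl

theorem Rel.pow {a b : Ω} (h : Rel R R' a b) (n : ℕ) : Rel R R' (a ^ n) (b ^ n) := by
  induction n with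
  | zero =>
    refine ⟨1, R.Rw.one_mem, R'.Rw.one_mem, ?_, ?_⟩
    · have : R.red ⟨1, R.Rw.one_mem⟩ = 1 := map_one R.red
      rw [this, pow_zero]; rfl
    · have : R'.red ⟨1, R'.Rw.one_mem⟩ = 1 := map_one R'.red
      rw [this, pow_zero]; rfl
  | succ n ih =>
    rw [pow_succ, pow_succ]
    exact ih.mul h

theorem rel_zero : Rel R R' 0 0 := by
  refine ⟨0, R.Rw.zero_mem, R'.Rw.zero_mem, ?_, ?_⟩
  · have : R.red ⟨0, R.Rw.zero_mem⟩ = 0 := map_zero R.red
    rw [this]; rfl
  · have : R'.red ⟨0, R'.Rw.zero_mem⟩ = 0 := map_zero R'.red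
    rw [this]; rfl

/-- constants are related to themselves (same base `(A, res)`) -/
theorem rel_algebraMap (hA : R.A = R'.A)
    (hres : ∀ (a : K) (h : a ∈ R.A) (h' : a ∈ R'.A), R.res ⟨a, h⟩ = R'.res ⟨a, h'⟩) (c : k) :
    Rel R R' (algebraMap k Ω c) (algebraMap k Ω c) := by
  obtain ⟨a, rfl⟩ := R.res_surjective c
  have ha' : (a : K) ∈ R'.A := hA ▸ a.2
  refine ⟨algebraMap K F (a : K), (R.mem_A_iff a).1 a.2, (R'.mem_A_iff a).1 ha', ?_, ?_⟩
  · rw [R.red_algebraMap a]; rfl
  · have := R'.red_algebraMap ⟨(a : K), ha'⟩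
    rw [this, ← hres (a : K) a.2 ha']; rfl

theorem red_eq_zero_iff_mem_nonunits (R : RedData K F k E) {z : F} (h : z ∈ R.Rw) :
    R.red ⟨z, h⟩ = 0 ↔ z ∈ R.Rw.nonunits := by
  rw [R.red_eq_zero_iff, ValuationSubring.mem_nonunits_iff_exists_mem_maximalIdeal]
  exact ⟨fun hz => ⟨h, hz⟩, fun ⟨_, hz⟩ => hz⟩

/-- same valuation ring ⟹ same kernel -/
theorem rel_zero_left (hRw : R.Rw = R'.Rw) {b : Ω} (h : Rel R R' 0 b) : b = 0 := by
  obtain ⟨z, hz, hz', h0, rfl⟩ := h
  have h1 : R.red ⟨z, hz⟩ = 0 := by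
    apply Subtype.ext
    rw [h0]; rfl
  rw [red_eq_zero_iff_mem_nonunits R hz, hRw, ← red_eq_zero_iff_mem_nonunits R' hz'] at h1
  rw [h1]; rfl

/-- units are related to their inverses -/
theorem Rel.inv (hRw : R.Rw = R'.Rw) {a b : Ω} (h : Rel R R' a b) (ha : a ≠ 0) :
    Rel R R' a⁻¹ b⁻¹ := by
  obtain ⟨z, hz, hz', rfl, rfl⟩ := h
  have hne : R.red ⟨z, hz⟩ ≠ 0 := fun h0 => ha (by rw [h0]; rfl)
  have hzu : z ∉ R.Rw.nonunits := fun hn => hne ((red_eq_zero_iff_mem_nonunits R hz).2 hn)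
  have hz0 : z ≠ 0 := by
    rintro rfl
    exact hne (map_zero R.red)
  -- `z⁻¹ ∈ Rw`
  have hzi : z⁻¹ ∈ R.Rw := by
    rcases R.Rw.mem_or_inv_mem z⁻¹ with h | h
    · exact h
    · by_contra hcon
      apply hzu
      rw [ValuationSubring.mem_nonunits_iff_exists_mem_maximalIdeal]
      refine ⟨hz, ?_⟩
      rw [IsLocalRing.mem_maximalIdeal, mem_nonunits_iff]
      rintro ⟨u, hu⟩
      apply hcon
      have : ((u⁻¹ : (R.Rw)ˣ) : R.Rw) * ⟨z, hz⟩ = 1 := by rw [← hu]; exact u.inv_mul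
      have h2 : (((u⁻¹ : (R.Rw)ˣ) : R.Rw) : F) * z = 1 := congrArg Subtype.val this
      have h3 : z⁻¹ = (((u⁻¹ : (R.Rw)ˣ) : R.Rw) : F) := by
        field_simp
        rw [mul_comm]; exact h2.symm ▸ rfl
      rw [h3]
      exact ((u⁻¹ : (R.Rw)ˣ) : R.Rw).2
  have hzi' : z⁻¹ ∈ R'.Rw := hRw ▸ hzi
  refine ⟨z⁻¹, hzi, hzi', ?_, ?_⟩
  · have h1 : R.red ⟨z⁻¹, hzi⟩ * R.red ⟨z, hz⟩ = 1 := by
      rw [← map_mul]
      have : (⟨z⁻¹, hzi⟩ : R.Rw) * ⟨z, hz⟩ = 1 := Subtype.ext (inv_mul_cancel₀ hz0)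
      rw [this, map_one]
    have h2 : ((R.red ⟨z⁻¹, hzi⟩ : E) : Ω) * ((R.red ⟨z, hz⟩ : E) : Ω) = 1 := by
      have := congrArg (fun e : E => (e : Ω)) h1
      simpa using this
    exact eq_inv_of_mul_eq_one_left h2
  · have h1 : R'.red ⟨z⁻¹, hzi'⟩ * R'.red ⟨z, hz'⟩ = 1 := by
      rw [← map_mul]
      have : (⟨z⁻¹, hzi'⟩ : R'.Rw) * ⟨z, hz'⟩ = 1 := Subtype.ext (inv_mul_cancel₀ hz0)
      rw [this, map_one]
    have h2 : ((R'.red ⟨z⁻¹, hzi'⟩ : E') : Ω) * ((R'.red ⟨z, hz'⟩ : E') : Ω) = 1 := by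
      have := congrArg (fun e : E' => (e : Ω)) h1
      simpa using this
    exact eq_inv_of_mul_eq_one_left h2

variable (R R')

/-- the field of elements of `Ω` on which the two reductions agree -/
def fixField (hRw : R.Rw = R'.Rw) (hA : R.A = R'.A)
    (hres : ∀ (a : K) (h : a ∈ R.A) (h' : a ∈ R'.A), R.res ⟨a, h⟩ = R'.res ⟨a, h'⟩) :
    IntermediateField k Ω where
  carrier := {a | Rel R R' a a}
  mul_mem' := fun h1 h2 => h1.mul h2
  one_mem' := by
    have := rel_algebraMap (R := R) (R' := R') hA hres 1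
    simpa using this
  add_mem' := fun h1 h2 => h1.add h2
  zero_mem' := rel_zero
  algebraMap_mem' := fun c => rel_algebraMap hA hres c
  inv_mem' := by
    intro a ha
    by_cases h0 : a = 0
    · subst h0
      simpa using (rel_zero : Rel R R' 0 0)
    · exact Rel.inv hRw ha h0

variable {R R'}

theorem mem_fixField {hRw : R.Rw = R'.Rw} {hA : R.A = R'.A}
    {hres : ∀ (a : K) (h : a ∈ R.A) (h' : a ∈ R'.A), R.res ⟨a, h⟩ = R'.res ⟨a, h'⟩} {a : Ω} :
    a ∈ fixField R R' hRw hA hres ↔ Rel R R' a a := Iff.rfl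

/-- **transfer of algebraic relations**: if the coefficients of `p` are fixed and `Y ~ Y'`, then
`p(Y) = 0 → p(Y') = 0`. -/
theorem aeval_eq_zero_of_rel (hRw : R.Rw = R'.Rw) (hA : R.A = R'.A)
    (hres : ∀ (a : K) (h : a ∈ R.A) (h' : a ∈ R'.A), R.res ⟨a, h⟩ = R'.res ⟨a, h'⟩)
    (F₀ : IntermediateField k Ω) (hF₀ : F₀ ≤ fixField R R' hRw hA hres) {Y Y' : Ω}
    (hYY' : Rel R R' Y Y') (p : F₀[X]) (hp : aeval Y p = 0) : aeval Y' p = 0 := by
  have key : Rel R R' (aeval Y p) (aeval Y' p) := by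
    rw [aeval_eq_sum_range, aeval_eq_sum_range]
    have : ∀ s : Finset ℕ, Rel R R' (∑ n ∈ s, p.coeff n • Y ^ n) (∑ n ∈ s, p.coeff n • Y' ^ n) := by
      intro s
      induction s using Finset.induction_on with
      | empty => simpa using (rel_zero : Rel R R' 0 0)
      | insert n s hn ih =>
        rw [Finset.sum_insert hn, Finset.sum_insert hn]
        refine Rel.add ?_ ih
        have hc : Rel R R' ((p.coeff n : F₀) : Ω) ((p.coeff n : F₀) : Ω) := hF₀ (p.coeff n).2
        have := hc.mul (hYY'.pow n)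
        simpa [Algebra.smul_def] using this
    exact this _
  rw [hp] at key
  exact rel_zero_left hRw key

end Pair

/-! ### the orbit count -/

section Family

variable {I : Type*} [Fintype I] [DecidableEq I] {E : I → IntermediateField k Ω}
  (R : ∀ i, RedData K F k (E i))

/-- the hypotheses of the orbit count, bundled -/
structure OrbitHyp (X : Set Ω) (Y : Ω) (c : I → k) : Prop where
  A_eq : ∀ i i', (R i).A = (R i').A
  res_eq : ∀ i i' (a : K) (h : a ∈ (R i).A) (h' : a ∈ (R i').A),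
    (R i).res ⟨a, h⟩ = (R i').res ⟨a, h'⟩
  /-- the generators of `F₀ = k(X)` are reductions of common elements -/
  gen : ∀ x ∈ X, ∃ u : F, ∀ i, ∃ h : u ∈ (R i).Rw, (((R i).red ⟨u, h⟩ : E i) : Ω) = x
  /-- the witness `y` reduces to `c i • Y` -/
  wit : ∃ y : F, ∀ i, ∃ h : y ∈ (R i).Rw, (((R i).red ⟨y, h⟩ : E i) : Ω) = c i • Y
  c_inj : Function.Injective c
  c_ne : ∀ i, c i ≠ 0
  Y_ne : Y ≠ 0
  Y_int : IsIntegral (adjoin k X) Y

variable {R} {X : Set Ω} {Y : Ω} {c : I → k}

/-- **coinciding valuations give a root of the minimal polynomial** -/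
theorem aeval_smul_eq_zero_of_Rw_eq (H : OrbitHyp R X Y c) {i i' : I}
    (hRw : (R i).Rw = (R i').Rw) :
    aeval ((c i' / c i) • Y) (minpoly (adjoin k X) Y) = 0 := by
  have hA := H.A_eq i i'
  have hres := H.res_eq i i'
  have hF₀ : adjoin k X ≤ fixField (R i) (R i') hRw hA hres := by
    rw [adjoin_le_iff]
    intro x hx
    obtain ⟨u, hu⟩ := H.gen x hx
    obtain ⟨h1, e1⟩ := hu i
    obtain ⟨h2, e2⟩ := hu i'
    exact ⟨u, h1, h2, e1, e2⟩
  obtain ⟨y, hy⟩ := H.wit
  obtain ⟨h1, e1⟩ := hy i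
  obtain ⟨h2, e2⟩ := hy i'
  have hrel : Rel (R i) (R i') (c i • Y) (c i' • Y) := ⟨y, h1, h2, e1, e2⟩
  have hci : Rel (R i) (R i') (algebraMap k Ω (c i)⁻¹) (algebraMap k Ω (c i)⁻¹) :=
    rel_algebraMap hA hres _
  have hYY' : Rel (R i) (R i') Y ((c i' / c i) • Y) := by
    have := hci.mul hrel
    have e : algebraMap k Ω (c i)⁻¹ * c i • Y = Y := by
      rw [Algebra.smul_def, ← mul_assoc, ← map_mul, inv_mul_cancel₀ (H.c_ne i), map_one, one_mul]
    have e' : algebraMap k Ω (c i)⁻¹ * c i' • Y = (c i' / c i) • Y := by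
      rw [Algebra.smul_def, Algebra.smul_def, ← mul_assoc, ← map_mul, div_eq_inv_mul]
    rwa [e, e'] at this
  exact aeval_eq_zero_of_rel hRw hA hres _ hF₀ hYY' _ (minpoly.aeval _ _)

open scoped Classical in
/-- **every class of `Rw_i = Rw_i'` has at most `deg Y` elements** -/
theorem card_fiber_le (H : OrbitHyp R X Y c) (i : I) :
    (Finset.univ.filter fun i' => (R i').Rw = (R i).Rw).card ≤
      (minpoly (adjoin k X) Y).natDegree := by
  classical
  set p := (minpoly (adjoin k X) Y).map (algebraMap (adjoin k X) Ω) with hp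
  have hp0 : p ≠ 0 := by
    rw [hp, Polynomial.map_ne_zero_iff (algebraMap (adjoin k X) Ω).injective]
    exact minpoly.ne_zero H.Y_int
  have hinj : Set.InjOn (fun i' : I => (c i' / c i) • Y)
      (Finset.univ.filter fun i' => (R i').Rw = (R i).Rw : Finset I) := by
    intro a _ b _ hab
    have h1 : (c a / c i - c b / c i) • Y = 0 := by
      rw [sub_smul]; exact sub_eq_zero.mpr hab
    rcases smul_eq_zero.mp h1 with h | h
    · have h2 : c a / c i = c b / c i := sub_eq_zero.mp h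
      have h3 : c a = c b := by
        field_simp [H.c_ne i] at h2
        exact h2
      exact H.c_inj h3
    · exact absurd h H.Y_ne
  have hsub : (Finset.univ.filter fun i' => (R i').Rw = (R i).Rw).image
      (fun i' : I => (c i' / c i) • Y) ⊆ p.roots.toFinset := by
    intro r hr
    rw [Finset.mem_image] at hr
    obtain ⟨i', hi', rfl⟩ := hr
    rw [Finset.mem_filter] at hi'
    rw [Multiset.mem_toFinset, mem_roots hp0, IsRoot.def, hp, eval_map_algebraMap]
    exact aeval_smul_eq_zero_of_Rw_eq H hi'.2.symm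
  calc (Finset.univ.filter fun i' => (R i').Rw = (R i).Rw).card
      = ((Finset.univ.filter fun i' => (R i').Rw = (R i).Rw).image
          (fun i' : I => (c i' / c i) • Y)).card := (Finset.card_image_of_injOn hinj).symm
    _ ≤ p.roots.toFinset.card := Finset.card_le_card hsub
    _ ≤ Multiset.card p.roots := Multiset.toFinset_card_le _
    _ ≤ p.natDegree := card_roots' p
    _ = (minpoly (adjoin k X) Y).natDegree := by rw [hp, natDegree_map]

open scoped Classical in
/-- **the orbit count**: `#I ≤ #{distinct valuations} · deg Y`. -/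
theorem card_le_card_image_mul (H : OrbitHyp R X Y c) :
    Fintype.card I ≤ (Finset.univ.image fun i => (R i).Rw).card *
      (minpoly (adjoin k X) Y).natDegree := by
  classical
  rw [← Finset.card_univ, Finset.card_eq_sum_card_image (fun i => (R i).Rw) Finset.univ]
  calc ∑ v ∈ Finset.univ.image (fun i => (R i).Rw),
        (Finset.univ.filter fun i => (R i).Rw = v).card
      ≤ ∑ _v ∈ Finset.univ.image (fun i => (R i).Rw), (minpoly (adjoin k X) Y).natDegree := by
        refine Finset.sum_le_sum fun v hv => ?_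
        rw [Finset.mem_image] at hv
        obtain ⟨i, -, rfl⟩ := hv
        exact card_fiber_le H i
    _ = _ := by rw [Finset.sum_const, smul_eq_mul]

/-! ### the residue degree of each valuation of the orbit -/

/-- `[E : k(z)]` computed inside the ambient field -/
theorem finrank_adjoin_eq_relfinrank' (E₀ : IntermediateField k Ω) (z : E₀) :
    Module.finrank k⟮z⟯ E₀ = relfinrank k⟮(z : Ω)⟯ E₀ := by
  have h1 : (k⟮z⟯).map E₀.val = k⟮(z : Ω)⟯ := by
    rw [adjoin_map, Set.image_singleton]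
    rfl
  have h := finrank_comap (k⟮(z : Ω)⟯) E₀.val
  rw [fieldRange_val] at h
  rw [← h, ← h1, comap_map]

/-- **each valuation of the orbit has residue degree `≥ deg Y · [F₀ : k(z)]`** over any chart
`z ∈ X`. -/
theorem natDegree_mul_relfinrank_le (H : OrbitHyp R X Y c) (i : I) (z : E i) (hz : (z : Ω) ∈ X)
    [FiniteDimensional k⟮z⟯ (E i)] :
    (minpoly (adjoin k X) Y).natDegree * relfinrank k⟮(z : Ω)⟯ (adjoin k X) ≤
      Module.finrank k⟮z⟯ (E i) := by
  have hXE : X ⊆ (E i : Set Ω) := by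
    intro x hx
    obtain ⟨u, hu⟩ := H.gen x hx
    obtain ⟨h1, e1⟩ := hu i
    rw [← e1]
    exact ((R i).red ⟨u, h1⟩).2
  have hYE : Y ∈ E i := by
    obtain ⟨y, hy⟩ := H.wit
    obtain ⟨h1, e1⟩ := hy i
    have h2 : c i • Y ∈ E i := by
      rw [← e1]
      exact ((R i).red ⟨y, h1⟩).2
    have h3 : (c i)⁻¹ • (c i • Y) ∈ E i := (E i).smul_mem h2
    rwa [smul_smul, inv_mul_cancel₀ (H.c_ne i), one_smul] at h3
  have h01 : k⟮(z : Ω)⟯ ≤ adjoin k X := by
    rw [adjoin_simple_le_iff]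
    exact subset_adjoin k X hz
  have h12 : adjoin k X ≤ adjoin k (X ∪ {Y}) := adjoin.mono k _ _ Set.subset_union_left
  have h23 : adjoin k (X ∪ {Y}) ≤ E i := by
    rw [adjoin_le_iff]
    rintro x (hx | hx)
    · exact hXE hx
    · rw [Set.mem_singleton_iff] at hx
      rw [hx]
      exact hYE
  have hext : extendScalars h12 = (adjoin k X)⟮Y⟯ := by
    apply restrictScalars_injective k
    rw [extendScalars_restrictScalars, adjoin_adjoin_left]
  have hdeg : relfinrank (adjoin k X) (adjoin k (X ∪ {Y})) =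
      (minpoly (adjoin k X) Y).natDegree := by
    rw [relfinrank_eq_finrank_of_le h12, hext, adjoin.finrank H.Y_int]
  have htot : Module.finrank k⟮z⟯ (E i) = relfinrank k⟮(z : Ω)⟯ (E i) :=
    finrank_adjoin_eq_relfinrank' (E i) z
  have hpos : 0 < relfinrank k⟮(z : Ω)⟯ (E i) := by
    rw [← htot]
    exact Module.finrank_pos
  have hm1 := relfinrank_mul_relfinrank (h01.trans h12) h23
  have hm2 := relfinrank_mul_relfinrank h01 h12
  have hge : 1 ≤ relfinrank (adjoin k (X ∪ {Y})) (E i) := by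
    by_contra hlt
    have : relfinrank (adjoin k (X ∪ {Y})) (E i) = 0 := by omega
    rw [this, mul_zero] at hm1
    omega
  rw [htot, ← hm1, ← hm2, hdeg, mul_comm (relfinrank _ _) (natDegree _)]
  exact Nat.le_mul_of_pos_right _ hge


open scoped Classical in
/-- **the contribution of the orbit to the fundamental inequality**: there is a set `J ⊆ I` of
representatives of the DISTINCT valuations of the orbit whose residue degrees over the common chart
`x₁ ∈ X` add up to at least `#I · [F₀ : k(x₁)]` — whatever the degree of `Y` is. -/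
theorem exists_representatives (H : OrbitHyp R X Y c) {x₁ : Ω} (hx₁ : x₁ ∈ X) (z : ∀ i, E i)
    (hz : ∀ i, ((z i : E i) : Ω) = x₁) [∀ i, FiniteDimensional k⟮z i⟯ (E i)] :
    ∃ J : Finset I, Set.InjOn (fun i => (R i).Rw) (J : Set I) ∧
      (∀ i, ∃ j ∈ J, (R j).Rw = (R i).Rw) ∧
      Fintype.card I * relfinrank k⟮x₁⟯ (adjoin k X) ≤
        ∑ j ∈ J, Module.finrank k⟮z j⟯ (E j) := by
  classical
  set V := Finset.univ.image fun i => (R i).Rw with hV
  have hex : ∀ v : V, ∃ i, (R i).Rw = v := fun v => by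
    obtain ⟨i, -, hi⟩ := Finset.mem_image.mp v.2
    exact ⟨i, hi⟩
  choose s hs using hex
  have hsinj : Function.Injective s := fun v v' h => Subtype.ext (by rw [← hs v, ← hs v', h])
  refine ⟨Finset.univ.image s, ?_, ?_, ?_⟩
  · intro a ha b hb hab
    rw [Finset.coe_image, Set.mem_image] at ha hb
    obtain ⟨v, -, rfl⟩ := ha
    obtain ⟨v', -, rfl⟩ := hb
    have : (v : ValuationSubring F) = v' := by rw [← hs v, ← hs v']; exact hab
    rw [Subtype.ext this]
  · intro i
    have hi : (R i).Rw ∈ V := Finset.mem_image.mpr ⟨i, Finset.mem_univ _, rfl⟩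
    exact ⟨s ⟨_, hi⟩, Finset.mem_image.mpr ⟨_, Finset.mem_univ _, rfl⟩, hs ⟨_, hi⟩⟩
  · have hcard : (Finset.univ.image s).card = V.card := by
      rw [Finset.card_image_of_injective _ hsinj, Finset.card_univ, Fintype.card_coe]
    have hterm : ∀ j ∈ Finset.univ.image s,
        (minpoly (adjoin k X) Y).natDegree * relfinrank k⟮x₁⟯ (adjoin k X) ≤
          Module.finrank k⟮z j⟯ (E j) := by
      intro j _
      have := natDegree_mul_relfinrank_le H j (z j) (by rw [hz j]; exact hx₁)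
      rwa [hz j] at this
    calc Fintype.card I * relfinrank k⟮x₁⟯ (adjoin k X)
        ≤ (V.card * (minpoly (adjoin k X) Y).natDegree) * relfinrank k⟮x₁⟯ (adjoin k X) :=
          Nat.mul_le_mul_right _ (card_le_card_image_mul H)
      _ = ∑ _j ∈ Finset.univ.image s,
            (minpoly (adjoin k X) Y).natDegree * relfinrank k⟮x₁⟯ (adjoin k X) := by
          rw [Finset.sum_const, smul_eq_mul, hcard, mul_assoc]
      _ ≤ ∑ j ∈ Finset.univ.image s, Module.finrank k⟮z j⟯ (E j) := Finset.sum_le_sum hterm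


end Family

end Fermat.Agent.GL.OrbitCount
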