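/-
GATE-L / REG3 over `R`, `k₀`-VALUED REDUCTIONS at `w₃` (helper26): the reductions of the generators
`j(dz)`, of `ε₃ = y₃^(q−1)/q` and the Hasse relation, for the J1 reduction datum `redData3K0` of
`K₀(X₀(N))`, `N = M' q²`, with values in `k₀((t))`, `k₀ = k(R)`, `R = A ∩ K₀`:

* `coe_red3K0_low`  : `red₃ j(dz) = j~(t^{N d})`, `d ∣ N/q`;
* `coe_red3K0_top`  : `red₃ j(q² d' z) = j~(t^{N d'})`;
* `coe_red3K0_jK0`  : `red₃ j = j~(t^N)`;
* `red3K0_y3K0`     : `red₃ y₃ = 0`;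
* `coe_red3K0_eps3K0` : `red₃ ε₃ = −((θ j~)(t^{N d'}))^(q−1)`;
* **`red3K0_eps3K0_mul_hasseU₂`** : `red₃ ε₃ · U₂(red₃ j) = − V₁(red₃ j)` in `Fres3K0` (`q ≥ 5`)
  — helper93's `ThirdValHasse` over `k₀` (case (A) of helper50's REG3);
* `red3K0_eps3K0_eq_small` : `red₃ ε₃ = −(red₃ j)^(q−1)` for `q ∈ {2, 3}` (helper95's twin).
-/
import Fermat.Agent.GL.Val.ThirdK0Red
import Fermat.Agent.GL.Val.ThirdK0Eps
import Fermat.Agent.GL.Val.ThirdValHasseSmall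
import Fermat.Agent.GL.Val.OrthK0

set_option autoImplicit false

noncomputable section

namespace Fermat.Agent.GL.Val.ThirdK0

open HahnSeries ModularCurve IsLocalRing Polynomial
open Fermat.Agent.S24 Fermat.Agent.S28 Fermat.Agent.S28.CuspExp Fermat.Agent.S28.Assemble
open Fermat.Agent.S24_helper62 Fermat.Agent.S24.Degree
open Fermat.Agent.GJ.J1 Fermat.Agent.GJ.J1.Val Fermat.Agent.GK.Val Fermat.Agent.GK.Val.GaussBase
open Fermat.Agent.GK.Val.BaseChange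
open Fermat.Agent.GL.CuspVal Fermat.Agent.GL.Val.CuspCoeff Fermat.Agent.GL.Val.GaussK0
open Fermat.Agent.GL.Val.CuspK0 Fermat.Agent.GL.W3
open Fermat.Agent.GL.QDer Fermat.Agent.GL.Thick
open Fermat.Agent.Common_helper32

section Gen

variable (A : ValuationSubring Qb) {N : ℕ} [NeZero N] {q M' : ℕ} (hq : q.Prime)
  (hA : (q : Qb) ∈ A.nonunits)

local notation "k₀" => ResidueField (R0 A)

/-- the generators `j(dz)` are `w₃`-integral over `K₀` (every `A`) -/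
theorem genC_mem_Rw3K0 {d : ℕ} [NeZero d] (hdN : d ∣ N) :
    genC (K0 A) (R0 A) N hdN ∈ Rw3K0 A N q := by
  rw [mem_RwCuspK0_iff, toFN0_genC]
  exact jdF_mem_RwCusp N A _ _

/-- **`red₃ j(dz) = j~(t^{N d})` for `d ∣ N/q`**, with values in `k₀((t))` -/
theorem coe_red3K0_low {d : ℕ} [NeZero d] (hd : d ∣ N / q) (hdN : d ∣ N)
    (h : genC (K0 A) (R0 A) N hdN ∈ Rw3K0 A N q) :
    (((redData3K0 A N q hq hA).red ⟨genC (K0 A) (R0 A) N hdN, h⟩ : Fres3K0 A N q hq hA) :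
      LaurentSeries k₀) = qExpand k₀ (N * d) (jqModC k₀) := by
  have h' : jdF N d hdN ∈ (redData3 N A q).Rw := jdF_mem_RwCusp N A _ _
  refine coe_red_redDataCuspK0_of_eq A N (cusp3 N q) hq hA h (toFN0_genC A hdN) h' ?_
  rw [coeffMap_qExpand, coeffMap_jqModC]
  exact coe_red3_low A hd hdN h'

/-- **`red₃ j(q² d' z) = j~(t^{N d'})`**, with values in `k₀((t))` -/
theorem coe_red3K0_top (hN : N = M' * q ^ 2) (hqM : ¬ q ∣ M') {d' : ℕ} [NeZero (q ^ 2 * d')]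
    [NeZero d'] (hd' : d' ∣ M') (hdN : q ^ 2 * d' ∣ N)
    (h : genC (K0 A) (R0 A) N hdN ∈ Rw3K0 A N q) :
    (((redData3K0 A N q hq hA).red ⟨genC (K0 A) (R0 A) N hdN, h⟩ : Fres3K0 A N q hq hA) :
      LaurentSeries k₀) = qExpand k₀ (N * d') (jqModC k₀) := by
  have h' : jdF N (q ^ 2 * d') hdN ∈ (redData3 N A q).Rw := jdF_mem_RwCusp N A _ _
  refine coe_red_redDataCuspK0_of_eq A N (cusp3 N q) hq hA h (toFN0_genC A hdN) h' ?_
  rw [coeffMap_qExpand, coeffMap_jqModC]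
  exact coe_red3_top A hq hN hqM hA hd' hdN h'

/-- **`red₃ j = j~(t^N)`** -/
theorem coe_red3K0_jK0 (h : genC (K0 A) (R0 A) N (one_dvd N) ∈ Rw3K0 A N q) :
    (((redData3K0 A N q hq hA).red ⟨genC (K0 A) (R0 A) N (one_dvd N), h⟩ :
      Fres3K0 A N q hq hA) : LaurentSeries k₀) = qExpand k₀ N (jqModC k₀) := by
  rw [coe_red3K0_low A hq hA (one_dvd _) (one_dvd N) h]
  exact qExpand_congr (mul_one N) _

section Eps

variable (hN : N = M' * q ^ 2) (hqM : ¬ q ∣ M')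
  {d' : ℕ} [NeZero (q ^ 2 * d')] [NeZero d'] (hd' : d' ∣ M') (hdN : q ^ 2 * d' ∣ N)
  (hd'N : d' ∣ N)

include hN hqM hd' in
/-- **`red₃ y₃ = 0`** : the tame witness is a nonunit -/
theorem red3K0_y3K0 (h : y3K0 A N q hdN hd'N ∈ Rw3K0 A N q) :
    (redData3K0 A N q hq hA).red ⟨y3K0 A N q hdN hd'N, h⟩ = 0 := by
  rw [red_redDataCuspK0_eq_zero_iff]
  have hR := isRamified_Rw3K0 A hq hN hqM hA hd' hdN hd'N
  exact hR.lt_one

include hN hqM hd' in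
/-- **`red₃ ε₃ = −((θ j~)(t^{N d'}))^(q−1)`**, with values in `k₀((t))` -/
theorem coe_red3K0_eps3K0 (h : eps3K0 A N q hdN hd'N ∈ Rw3K0 A N q) :
    (((redData3K0 A N q hq hA).red ⟨eps3K0 A N q hdN hd'N, h⟩ : Fres3K0 A N q hq hA) :
      LaurentSeries k₀) = -(qExpand k₀ (N * d') (thetaL k₀ (jqModC k₀))) ^ (q - 1) := by
  have h' : eps3 N q hdN hd'N ∈ (redData3 N A q).Rw := eps3_mem_Rw3 A hq hN hqM hd' hdN hd'N
  refine coe_red_redDataCuspK0_of_eq A N (cusp3 N q) hq hA h (toFN0_eps3K0 A hdN hd'N) h' ?_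
  rw [map_neg, map_pow, coeffMap_qExpand, ← thetaL_coeffMap, coeffMap_jqModC]
  exact coe_red3_eps3 A hq hN hqM hA hd' hdN hd'N h'

end Eps

/-- the coercion `Fres3K0 → k₀((t))` commutes with polynomial evaluation -/
theorem coe_aeval_Fres3K0 (y : Fres3K0 A N q hq hA) (P : k₀[X]) :
    ((aeval y P : Fres3K0 A N q hq hA) : LaurentSeries k₀) = aeval (y : LaurentSeries k₀) P := by
  have h := Polynomial.aeval_algHom_apply (Fres3K0 A N q hq hA).val y P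
  exact h.symm

/-- **`red₃ ε₃ · U₂(red₃ j) = − V₁(red₃ j)` over `k₀`** (`q ≥ 5`, `A` over `q`, `N = M' q²`):
helper93's `red3_eps3_mul_hasseU₂` for the `K₀`-rational `ε₃` and the `k₀`-valued reduction -/
theorem red3K0_eps3K0_mul_hasseU₂ [Fact q.Prime] [NeZero q] [CharP k₀ q] (hN : N = M' * q ^ 2)
    (hqM : ¬ q ∣ M') (hq5 : 5 ≤ q) [NeZero (q ^ 2 * 1)]
    (hdN : q ^ 2 * 1 ∣ N) (h : eps3K0 A N q hdN (one_dvd N) ∈ Rw3K0 A N q)
    (hj : genC (K0 A) (R0 A) N (one_dvd N) ∈ Rw3K0 A N q) :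
    (redData3K0 A N q hq hA).red ⟨eps3K0 A N q hdN (one_dvd N), h⟩ *
        aeval ((redData3K0 A N q hq hA).red ⟨genC (K0 A) (R0 A) N (one_dvd N), hj⟩)
          (hasseU₂ q k₀ hq5) =
      -aeval ((redData3K0 A N q hq hA).red ⟨genC (K0 A) (R0 A) N (one_dvd N), hj⟩)
        (hasseV₁ q k₀) := by
  apply Subtype.ext
  have hmul : ∀ a b : Fres3K0 A N q hq hA,
      ((a * b : Fres3K0 A N q hq hA) : LaurentSeries k₀) =
        (a : LaurentSeries k₀) * (b : LaurentSeries k₀) := fun _ _ => rfl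
  have hneg : ∀ a : Fres3K0 A N q hq hA,
      ((-a : Fres3K0 A N q hq hA) : LaurentSeries k₀) = -(a : LaurentSeries k₀) := fun _ => rfl
  rw [hmul, hneg, coe_aeval_Fres3K0, coe_aeval_Fres3K0,
    coe_red3K0_eps3K0 A hq hA hN hqM (one_dvd M') hdN (one_dvd N) h, coe_red3K0_jK0 A hq hA hj,
    qExpand_congr (mul_one N), ← qExpand_aeval, ← qExpand_aeval, ← map_pow, neg_mul, ← map_mul,
    hasse_T q k₀ hq5]

/-- **`red₃ ε₃ = −(red₃ j)^(q−1)` over `k₀`** for `q ∈ {2, 3}` (helper95's small-prime twin) -/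
theorem red3K0_eps3K0_eq_small [Fact q.Prime] [NeZero q] [CharP k₀ q] (hN : N = M' * q ^ 2)
    (hqM : ¬ q ∣ M') (hq5 : ¬ 5 ≤ q) [NeZero (q ^ 2 * 1)]
    (hdN : q ^ 2 * 1 ∣ N) (h : eps3K0 A N q hdN (one_dvd N) ∈ Rw3K0 A N q)
    (hj : genC (K0 A) (R0 A) N (one_dvd N) ∈ Rw3K0 A N q) :
    (redData3K0 A N q hq hA).red ⟨eps3K0 A N q hdN (one_dvd N), h⟩ =
      -((redData3K0 A N q hq hA).red ⟨genC (K0 A) (R0 A) N (one_dvd N), hj⟩) ^ (q - 1) := by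
  apply Subtype.ext
  have hneg : ∀ a : Fres3K0 A N q hq hA,
      ((-a : Fres3K0 A N q hq hA) : LaurentSeries k₀) = -(a : LaurentSeries k₀) := fun _ => rfl
  have hpow : ∀ (a : Fres3K0 A N q hq hA) (n : ℕ),
      ((a ^ n : Fres3K0 A N q hq hA) : LaurentSeries k₀) = (a : LaurentSeries k₀) ^ n :=
    fun _ _ => rfl
  rw [hneg, hpow, coe_red3K0_eps3K0 A hq hA hN hqM (one_dvd M') hdN (one_dvd N) h,
    coe_red3K0_jK0 A hq hA hj, qExpand_congr (mul_one N), thetaL_eq_haupt, ← map_pow, ← map_pow,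
    Fermat.Agent.GL.SmallQ.thetaL_jqModC_pow_char_small q k₀ hq5]

end Gen

end Fermat.Agent.GL.Val.ThirdK0
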